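import Fermat.Agent.IsogenyNF.DetLevel
import Mathlib.NumberTheory.NumberField.Cyclotomic.Basic
import Mathlib.NumberTheory.NumberField.Discriminant.Different

/-!
# The cyclotomic polynomials over a number field, at levels prime to the discriminant
-/

set_option autoImplicit false
set_option linter.unusedSectionVars false

noncomputable section

namespace FA.IsogenyNF

open Polynomial NumberField IntermediateField

universe u v

variable {K : Type u} [Field K] [NumberField K]

/-- **`Φ_N` stays irreducible** over `K` for `N` prime to the discriminant of `K`. -/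
theorem irreducible_cyclotomic_level {N : ℕ} (hN : N ≠ 0)
    (hd : ∀ p ∈ N.primeFactors, ¬ (p : ℤ) ∣ NumberField.discr K) :
    Irreducible (cyclotomic N K) := by
  classical
  have : NeZero N := ⟨hN⟩
  let L := CyclotomicField N K
  have : NumberField L := NumberField.of_module_finite K L
  obtain ⟨ζ, hζ⟩ : ∃ ζ : L, IsPrimitiveRoot ζ N := ⟨_, IsCyclotomicExtension.zeta_spec N K L⟩
  set K₁ : IntermediateField ℚ L := ℚ⟮ζ⟯ with hK₁def
  have : IsCyclotomicExtension {N} ℚ K₁ := hζ.intermediateField_adjoin_isCyclotomicExtension ℚ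
  let ι : K →ₐ[ℚ] L := (algebraMap K L).toRatAlgHom
  set K₂ : IntermediateField ℚ L := ι.fieldRange with hK₂def
  have : IsGalois ℚ K₁ := IsCyclotomicExtension.isGalois {N} ℚ _
  let e : K ≃ₐ[ℚ] K₂ := AlgEquiv.ofInjectiveField ι
  have hcop : IsCoprime (discr K₁) (discr K₂) := by
    rw [← NumberField.discr_eq_discr_of_ringEquiv K e.toRingEquiv, Int.isCoprime_iff_nat_coprime,
      IsCyclotomicExtension.Rat.natAbs_discr N K₁]
    refine Nat.Coprime.coprime_div_left ?_
      (Nat.prod_primeFactors_pow_totient_ediv_dvd (NeZero.pos _))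
    refine Nat.Coprime.pow_left _ (Nat.coprime_of_dvd fun p hp h1 h2 => ?_)
    exact hd p (Nat.mem_primeFactors.2 ⟨hp, h1, hN⟩) (Int.natCast_dvd.2 h2)
  have hdis := linearDisjoint_of_isGalois_isCoprime_discr L K₁ K₂ hcop
  have htop : K₁ ⊔ K₂ = ⊤ := by
    refine top_le_iff.1 fun x hxtop => ?_
    clear hxtop
    have hx : x ∈ Algebra.adjoin K {b : L | ∃ n ∈ ({N} : Set ℕ), n ≠ 0 ∧ b ^ n = 1} :=
      IsCyclotomicExtension.adjoin_roots x
    induction hx using Algebra.adjoin_induction with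
    | mem y hy =>
      obtain ⟨n, hn, -, hy⟩ := hy
      rw [Set.mem_singleton_iff] at hn
      subst hn
      obtain ⟨i, -, rfl⟩ := hζ.eq_pow_of_pow_eq_one hy
      exact pow_mem ((le_sup_left : K₁ ≤ K₁ ⊔ K₂) (mem_adjoin_simple_self ℚ ζ)) i
    | algebraMap c => exact (le_sup_right : K₂ ≤ K₁ ⊔ K₂) ⟨c, rfl⟩
    | add y z _ _ hy hz => exact add_mem hy hz
    | mul y z _ _ hy hz => exact mul_mem hy hz
  have hdeg : Module.finrank ℚ L = N.totient * Module.finrank ℚ K := by
    have h := hdis.finrank_sup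
    rw [htop, IntermediateField.finrank_top', IsCyclotomicExtension.Rat.finrank N K₁,
      ← e.toLinearEquiv.finrank_eq] at h
    exact h
  have hdegK : Module.finrank K L = N.totient := by
    have h := Module.finrank_mul_finrank ℚ K L
    rw [hdeg, mul_comm] at h
    exact Nat.eq_of_mul_eq_mul_right Module.finrank_pos h
  have hint : IsIntegral K ζ := Algebra.IsIntegral.isIntegral ζ
  have hmin : minpoly K ζ = cyclotomic N K := by
    refine (Polynomial.eq_of_monic_of_dvd_of_natDegree_le (minpoly.monic hint)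
      (cyclotomic.monic N K) (minpoly.dvd K _ ?_) ?_).symm
    · rw [aeval_def, eval₂_eq_eval_map, map_cyclotomic]
      exact hζ.isRoot_cyclotomic (NeZero.pos N)
    · rw [natDegree_cyclotomic, ← (hζ.powerBasis K).natDegree_minpoly.trans
        ((hζ.powerBasis K).finrank.symm.trans hdegK), hζ.powerBasis_gen K]
  rw [← hmin]
  exact minpoly.irreducible hint

variable {Kb : Type v} [Field Kb] [Algebra K Kb] [CharZero Kb] [IsAlgClosed Kb]
  [Algebra.IsAlgebraic K Kb]

variable (Kb) in
/-- **The cyclotomic character modulo `N` is onto** for `N` prime to the discriminant. -/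
theorem exists_cyclotomic_action_level {N : ℕ} (hN : N ≠ 0)
    (hd : ∀ p ∈ N.primeFactors, ¬ (p : ℤ) ∣ NumberField.discr K) {a : ℕ} (ha : a.Coprime N) :
    ∃ σ : Kb ≃ₐ[K] Kb, ∀ μ : Kb, μ ^ N = 1 → σ μ = μ ^ a := by
  have : IsAlgClosure K Kb := ⟨inferInstance, inferInstance⟩
  have : Normal K Kb := IsAlgClosure.normal K Kb
  have : NeZero (N : Kb) := ⟨Nat.cast_ne_zero.2 hN⟩
  have : NeZero N := ⟨hN⟩
  obtain ⟨ζ, hζ⟩ := HasEnoughRootsOfUnity.exists_primitiveRoot Kb N
  have hmin : ∀ x : Kb, IsPrimitiveRoot x N → minpoly K x = cyclotomic N K := fun x hx => by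
    refine (minpoly.eq_of_irreducible_of_monic (irreducible_cyclotomic_level hN hd) ?_
      (cyclotomic.monic N K)).symm
    rw [aeval_def, eval₂_eq_eval_map, map_cyclotomic]
    exact hx.isRoot_cyclotomic (NeZero.pos N)
  obtain ⟨σ, hσ⟩ : ζ ^ a ∈ MulAction.orbit (Kb ≃ₐ[K] Kb) ζ :=
    (Normal.minpoly_eq_iff_mem_orbit Kb).1
      (by rw [hmin _ (hζ.pow_of_coprime a ha), hmin _ hζ])
  refine ⟨σ, fun μ hμ => ?_⟩
  obtain ⟨i, -, rfl⟩ := hζ.eq_pow_of_pow_eq_one hμ
  rw [map_pow, show σ ζ = ζ ^ a from hσ, ← pow_mul, ← pow_mul, mul_comm]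

end FA.IsogenyNF

end
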