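import Fermat.Agent.IsogenyNF.Finite
import Fermat.Agent.Tau.SingularIntegral
import Fermat.Agent.ThirteenOrders.Stabiliser
import Mathlib.AlgebraicGeometry.EllipticCurve.NormalForms

/-!
# Curves in any Weierstrass form

A change of variables over the ground field commutes with Galois, and a non-integral `j` excludes
complex multiplication.
-/

set_option autoImplicit false
set_option linter.unusedSectionVars false

noncomputable section

namespace FA.IsogenyNF

open WeierstrassCurve FA.Mazur.Wp FA.CyclicLattice FA.ModField FA.JInj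
open scoped WeierstrassCurve.Affine

universe u v

variable {K : Type u} [Field K]

/-- Multiplication outside `ℤ` on the lattice of `E` at the embedding `ψ`. -/
def HasCM (E : WeierstrassCurve K) (ψ : K →+* ℂ) : Prop :=
  ∃ L : PeriodPair, L.g₂ = ψ E.c₄ / 12 ∧ L.g₃ = ψ E.c₆ / 216 ∧
    ∃ ω : ℂ, (∀ m : ℤ, ω ≠ m) ∧ ∀ l ∈ L.lattice, ω * l ∈ L.lattice

/-- The short curve with the invariants of `E`. -/
def shortModel (E : WeierstrassCurve K) : WeierstrassCurve K := ⟨0, 0, 0, -E.c₄ / 48, -E.c₆ / 864⟩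

theorem exists_variableChange [CharZero K] (E : WeierstrassCurve K) :
    ∃ C : VariableChange K, C • E = shortModel E := by
  have : Invertible (2 : K) := invertibleOfNonzero (by norm_num)
  have : Invertible (3 : K) := invertibleOfNonzero (by norm_num)
  have h4 : (E.toShortNF • E).c₄ = E.c₄ := by
    simp [variableChange_c₄, toShortNF, toCharNeTwoNF, VariableChange.mul_def]
  have h6 : (E.toShortNF • E).c₆ = E.c₆ := by
    simp [variableChange_c₆, toShortNF, toCharNeTwoNF, VariableChange.mul_def]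
  refine ⟨E.toShortNF, ?_⟩
  rw [shortModel, ← h4, ← h6, c₄_of_isShortNF, c₆_of_isShortNF]
  ext
  · exact a₁_of_isShortNF _
  · exact a₂_of_isShortNF _
  · exact a₃_of_isShortNF _
  · show _ = -(-48 * (E.toShortNF • E).a₄) / 48
    ring
  · show _ = -(-864 * (E.toShortNF • E).a₆) / 864
    ring

theorem exists_lattice (E : WeierstrassCurve K) [E.IsElliptic] (ψ : K →+* ℂ) :
    ∃ L : PeriodPair, L.g₂ = ψ E.c₄ / 12 ∧ L.g₃ = ψ E.c₆ / 216 := by
  refine FA.JInj.exists_g₂_g₃ ?_
  have h : (1728 : ℂ) * ψ E.Δ = ψ E.c₄ ^ 3 - ψ E.c₆ ^ 2 := by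
    simpa only [map_mul, map_sub, map_pow, map_ofNat] using congrArg ψ E.c_relation
  intro e
  refine (map_ne_zero_iff ψ ψ.injective).2 E.isUnit_Δ.ne_zero ?_
  linear_combination (1 / 1728 : ℂ) * h + e

/-- The invariant of a curve with complex multiplication is `j` of a quadratic point. -/
theorem exists_quadratic_point (E : WeierstrassCurve K) [E.IsElliptic] {ψ : K →+* ℂ}
    (h : HasCM E ψ) :
    ∃ (τ : UpperHalfPlane) (A B C : ℤ), 0 < A ∧ (A : ℂ) * (τ : ℂ) ^ 2 + B * τ + C = 0 ∧
      jfun τ = ψ E.j := by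
  obtain ⟨L, h2, h3, ω, hω, hst⟩ := h
  obtain ⟨τ, c, hc, hlat⟩ := exists_latPair L
  have hst' : FA.Singular.Stable (latPair τ) ω :=
    (FA.Singular.stable_scale _ hc ω).mp ((FA.Singular.stable_congr hlat ω).mp hst)
  obtain ⟨p, y, e⟩ := mem_latPair.mp (hst' 1 (mem_latPair.mpr ⟨0, 1, by simp⟩))
  rw [mul_one] at e
  have him : ω.im ≠ 0 := by
    rw [← e]
    simp [τ.im_pos.ne']
    rintro rfl
    exact hω y (by rw [← e]; simp)
  obtain ⟨A, B, C, hroot⟩ := FA.ThirteenOrders.exists_isRootOf him hst'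
  refine ⟨τ, A, B, C, hroot.pos, hroot.eq, ?_⟩
  rw [← FA.CyclicLattice.jInv_eq (hc := hc) hlat, jInv, h2, h3, WeierstrassCurve.j,
    Units.val_inv_eq_inv_val, WeierstrassCurve.coe_Δ', map_mul, map_inv₀, map_pow]
  have hd : (ψ E.c₄ / 12) ^ 3 - 27 * (ψ E.c₆ / 216) ^ 2 = ψ E.Δ := by
    have h := congrArg ψ E.c_relation
    simp only [map_mul, map_sub, map_pow, map_ofNat] at h
    linear_combination -(1 / 1728 : ℂ) * h
  rw [hd]
  ring

/-- `j` at a quadratic point is an algebraic integer. -/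
theorem isIntegral_jfun_of_root {τ : UpperHalfPlane} {A B C : ℤ} (hA : A ≠ 0)
    (h : (A : ℂ) * (τ : ℂ) ^ 2 + B * τ + C = 0) : IsIntegral ℤ (jfun τ) := by
  have hD : B ^ 2 - 4 * A * C < 0 := by
    have h : (2 * (A : ℂ) * τ + B) ^ 2 = ((B ^ 2 - 4 * A * C : ℤ) : ℂ) := by
      push_cast; linear_combination 4 * (A : ℂ) * h
    have hi := congrArg Complex.im h
    have hr := congrArg Complex.re h
    simp [sq] at hi hr
    have hA' : (2 * (A : ℝ) * τ.im) ≠ 0 :=
      mul_ne_zero (mul_ne_zero two_ne_zero (Int.cast_ne_zero.2 hA)) τ.im_pos.ne'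
    have hsq : 0 < (2 * (A : ℝ) * τ.im) ^ 2 := by positivity
    have h0 : 2 * (A : ℝ) * τ.re + B = 0 := by
      apply mul_right_cancel₀ hA'
      linear_combination hi / 2
    have : ((B ^ 2 - 4 * A * C : ℤ) : ℝ) < 0 := by
      push_cast
      nlinarith
    exact_mod_cast this
  exact FA.SingularIntegral.isIntegral_jfun hD
    (show FA.Singular.IsRoot (A, B, C) τ by simpa [FA.Singular.IsRoot] using h)

/-- **A curve with complex multiplication has integral invariant.** -/
theorem isIntegral_j (E : WeierstrassCurve K) [E.IsElliptic] {ψ : K →+* ℂ} (h : HasCM E ψ) :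
    IsIntegral ℤ E.j := by
  obtain ⟨τ, A, B, C, hA, hroot, e⟩ := exists_quadratic_point E h
  have hj := isIntegral_jfun_of_root hA.ne' hroot
  rw [e] at hj
  exact (isIntegral_algHom_iff (RingHom.toIntAlgHom ψ) ψ.injective).1 hj

variable {Kb : Type v} [Field Kb] [DecidableEq Kb] [Algebra K Kb]

theorem vcEquiv_smul {E W : WeierstrassCurve K} [(E.baseChange Kb).IsElliptic]
    [(W.baseChange Kb).IsElliptic] {C : VariableChange K}
    (hC' : C.map (algebraMap K Kb) • E.baseChange Kb = W.baseChange Kb)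
    (σ : Kb ≃ₐ[K] Kb) (P : (W.toAffine⁄Kb).Point) :
    FA.Frob.vcEquiv _ hC' (σ • P) =
      (σ • (FA.Frob.vcEquiv _ hC' P : (E.toAffine⁄Kb).Point) : (E.toAffine⁄Kb).Point) := by
  rcases P with _ | ⟨x, y, h⟩
  · rw [← Affine.Point.zero_def, smul_zero, map_zero]
    exact (smul_zero σ).symm
  · simp only [Affine.Point.algEquiv_smul_def, Affine.Point.map_some]
    rw [FA.Frob.vcEquiv_some, FA.Frob.vcEquiv_some]
    exact (Affine.Point.some.injEq ..).mpr
      ⟨by simp [FA.Frob.vcX], by simp [FA.Frob.vcY]⟩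

variable [NumberField K] [IsAlgClosed Kb] [Algebra.IsAlgebraic K Kb]

/-- **Finitely many cyclic Galois-stable groups** of points on a curve without complex
multiplication. -/
theorem finite_stable_points (E : WeierstrassCurve K) [E.IsElliptic] (ψ : K →+* ℂ)
    (hcm : ¬ HasCM E ψ) :
    {g : (E.toAffine⁄Kb).Point | 0 < addOrderOf g ∧
      ∀ σ : Kb ≃ₐ[K] Kb, σ • g ∈ AddSubgroup.zmultiples g}.Finite := by
  have : CharZero Kb := charZero_of_injective_algebraMap (algebraMap K Kb).injective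
  obtain ⟨L, h2, h3⟩ := exists_lattice E ψ
  let _ := ψ.toAlgebra
  let φ : Kb →ₐ[K] ℂ := IsAlgClosed.lift
  obtain ⟨C, hC⟩ := exists_variableChange E
  set W := shortModel E
  have : W.IsElliptic := hC ▸ inferInstance
  have hC' : C.map (algebraMap K Kb) • E.baseChange Kb = W.baseChange Kb := by
    simp only [WeierstrassCurve.baseChange, map_variableChange, hC]
  have hL : (W.baseChange Kb).map (φ : Kb →+* ℂ) = latCurve L := by
    rw [WeierstrassCurve.baseChange, map_map, AlgHom.comp_algebraMap]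
    ext <;>
      simp [W, shortModel, latCurve, h2, h3, RingHom.algebraMap_toAlgebra, map_ofNat] <;> ring
  have hno : NoCM L := fun ω hω => by
    by_contra hne
    push Not at hne
    exact hcm ⟨L, h2, h3, ω, hne, hω⟩
  refine ((finite_stable hL hno).image (FA.Frob.vcEquiv _ hC')).subset fun g ⟨hg, hst⟩ => ?_
  let g₀ := (FA.Frob.vcEquiv _ hC').symm g
  have hg₀ : FA.Frob.vcEquiv _ hC' g₀ = g := AddEquiv.apply_symm_apply _ _
  refine ⟨g₀, ⟨?_, fun σ => ?_⟩, hg₀⟩
  · rw [← addOrderOf_injective (FA.Frob.vcEquiv _ hC').toAddMonoidHom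
      (FA.Frob.vcEquiv _ hC').injective g₀]
    simpa [hg₀] using hg
  · obtain ⟨k, hk⟩ := AddSubgroup.mem_zmultiples_iff.1 (hst σ)
    refine AddSubgroup.mem_zmultiples_iff.2 ⟨k, (FA.Frob.vcEquiv _ hC').injective ?_⟩
    rw [map_zsmul, hg₀, vcEquiv_smul hC', hg₀]
    exact hk

end FA.IsogenyNF

end
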