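import Fermat.Agent.IsogenyNF.CMStable
import Fermat.Agent.IsogenyNF.Transfer
import Fermat.Agent.ThirteenOrders.Stabiliser

/-!
# Commuting with a primitive multiplier

An endomorphism of `(ℤ/n)²` commuting with a matrix which is not a scalar modulo any prime is a
combination of that matrix and one. So automorphisms commuting with complex multiplication by a
primitive multiplier commute with each other on the torsion.
-/

set_option autoImplicit false
set_option linter.unusedSectionVars false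

noncomputable section

namespace FA.IsogenyNF

open WeierstrassCurve FA.Mazur.Wp FA.ModField FA.JInj
open scoped WeierstrassCurve.Affine

universe u v

section Algebra

variable {T : Type*} [AddCommGroup T]

/-- An endomorphism commuting with a primitive `2 × 2` matrix is a combination of it and one. -/
theorem exists_comb {m : ℕ} {g₁ g₂ : T} {θ f : T →+ T} {A B C D a b c d r₁ r₂ r₃ : ℤ}
    (hspan : ∀ i j : ℤ, i • g₁ + j • g₂ = 0 ↔ (m : ℤ) ∣ i ∧ (m : ℤ) ∣ j)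
    (hθ₁ : θ g₁ = A • g₁ + B • g₂) (hθ₂ : θ g₂ = C • g₁ + D • g₂)
    (hf₁ : f g₁ = a • g₁ + b • g₂) (hf₂ : f g₂ = c • g₁ + d • g₂)
    (h₁ : f (θ g₁) = θ (f g₁)) (h₂ : f (θ g₂) = θ (f g₂))
    (hr : r₁ * B + r₂ * C + r₃ * (A - D) = 1) :
    ∃ α k : ℤ, f g₁ = α • g₁ + k • θ g₁ ∧ f g₂ = α • g₂ + k • θ g₂ := by
  have e1 : (A * a + B * c - (a * A + b * C)) • g₁ +
      (A * b + B * d - (a * B + b * D)) • g₂ = 0 := by
    rw [hθ₁, hf₁, map_add, map_add, map_zsmul, map_zsmul, map_zsmul, map_zsmul, hθ₁, hθ₂, hf₁,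
      hf₂, ← sub_eq_zero] at h₁
    rw [← h₁]
    module
  have e2 : (C * a + D * c - (c * A + d * C)) • g₁ +
      (C * b + D * d - (c * B + d * D)) • g₂ = 0 := by
    rw [hθ₂, hf₂, map_add, map_add, map_zsmul, map_zsmul, map_zsmul, map_zsmul, hθ₁, hθ₂, hf₁,
      hf₂, ← sub_eq_zero] at h₂
    rw [← h₂]
    module
  obtain ⟨⟨u₁, hu₁⟩, u₂, hu₂⟩ := (hspan _ _).1 e1
  obtain ⟨⟨u₃, hu₃⟩, -⟩ := (hspan _ _).1 e2
  set k := r₁ * b + r₂ * c + r₃ * (a - d)
  refine ⟨d - k * D, k, sub_eq_zero.1 ?_, sub_eq_zero.1 ?_⟩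
  · rw [hf₁, hθ₁, show a • g₁ + b • g₂ - ((d - k * D) • g₁ + k • (A • g₁ + B • g₂)) =
      (a - d - k * (A - D)) • g₁ + (b - k * B) • g₂ by module]
    exact (hspan _ _).2 ⟨⟨r₂ * u₃ - r₁ * u₂, by
        linear_combination -(a - d) * hr - r₁ * hu₂ + r₂ * hu₃⟩,
      ⟨r₃ * u₂ - r₂ * u₁, by linear_combination -b * hr + r₃ * hu₂ - r₂ * hu₁⟩⟩
  · rw [hf₂, hθ₂, show c • g₁ + d • g₂ - ((d - k * D) • g₂ + k • (C • g₁ + D • g₂)) =
      (c - k * C) • g₁ + (0 : ℤ) • g₂ by module]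
    exact (hspan _ _).2 ⟨⟨r₁ * u₁ - r₃ * u₃, by
      linear_combination -c * hr + r₁ * hu₁ - r₃ * hu₃⟩, dvd_zero _⟩

end Algebra

/-- No `(ω - a) / p` is a multiplier. -/
def Primitive (L : PeriodPair) (ω : ℂ) : Prop :=
  ∀ (p : ℕ) (a : ℤ), p.Prime → ¬ ∀ l ∈ L.lattice, (ω - a) / (p : ℂ) * l ∈ L.lattice

/-- A primitive multiplier exists with complex multiplication. -/
theorem exists_primitive {L : PeriodPair} (h : ¬ NoCM L) :
    ∃ ω : ℂ, (∀ m : ℤ, ω ≠ m) ∧ (∀ l ∈ L.lattice, ω * l ∈ L.lattice) ∧ Primitive L ω := by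
  simp only [NoCM, not_forall, not_exists, exists_prop] at h
  obtain ⟨ω, hst, hω⟩ := h
  obtain ⟨τ, t, ht, hlat⟩ := exists_latPair L
  have htrans : ∀ x, (∀ l ∈ L.lattice, x * l ∈ L.lattice) ↔ FA.Singular.Stable (latPair τ) x :=
    fun x => (FA.Singular.stable_congr hlat x).trans (FA.Singular.stable_scale _ ht x)
  obtain ⟨p₀, y, e⟩ := mem_latPair.mp ((htrans ω).1 hst 1 (mem_latPair.mpr ⟨0, 1, by simp⟩))
  rw [mul_one] at e
  have him : ω.im ≠ 0 := by
    rw [← e]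
    simp [τ.im_pos.ne']
    rintro rfl
    exact hω y (by rw [← e]; simp)
  obtain ⟨A, B, C, hroot⟩ := FA.ThirteenOrders.exists_isRootOf him ((htrans ω).1 hst)
  refine ⟨(A : ℂ) * τ, fun m hm => ?_, (htrans _).2 (FA.Singular.stable_of_form (t := (A, B, C))
    (show FA.Singular.IsRoot (A, B, C) τ by simpa [FA.Singular.IsRoot] using hroot.eq)).1,
    fun p a hp hpst => ?_⟩
  · have := congrArg Complex.im hm
    simp [hroot.pos.ne', τ.im_pos.ne'] at this
  have hp0 : (p : ℂ) ≠ 0 := Nat.cast_ne_zero.2 hp.ne_zero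
  have hlin : ∀ {x y : ℤ}, (x : ℂ) * τ + y = 0 → x = 0 ∧ y = 0 := fun {x y} hxy => by
    have hi := congrArg Complex.im hxy
    simp [τ.im_pos.ne'] at hi
    subst hi
    exact ⟨rfl, by simpa using hxy⟩
  obtain ⟨m, n, hmn⟩ := mem_latPair.mp ((htrans _).1 hpst 1 (mem_latPair.mpr ⟨0, 1, by simp⟩))
  obtain ⟨m', n', hmn'⟩ := mem_latPair.mp ((htrans _).1 hpst τ (mem_latPair.mpr ⟨1, 0, by simp⟩))
  rw [div_mul_eq_mul_div, eq_div_iff hp0] at hmn hmn'
  obtain ⟨hA, ha⟩ := hlin (x := A - m * p) (y := -a - n * p)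
    (by push_cast; linear_combination -hmn)
  obtain ⟨hB, hC⟩ := hlin (x := -B - a - m' * p) (y := -C - n' * p)
    (by push_cast; linear_combination -hmn' - hroot.eq)
  have dA : (p : ℤ) ∣ A := ⟨m, by linear_combination hA⟩
  have dB : (p : ℤ) ∣ B := ⟨n - m', by linear_combination ha - hB⟩
  have dC : (p : ℤ) ∣ C := ⟨-n', by linear_combination -hC⟩
  have d1 : (p : ℤ) ∣ (Int.gcd (Int.gcd A B) C : ℤ) :=
    Int.dvd_coe_gcd (Int.dvd_coe_gcd dA dB) dC
  rw [hroot.prim] at d1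
  exact hp.one_lt.ne' (Nat.dvd_one.1 (Int.natCast_dvd_natCast.1 d1))

/-- The matrix of a primitive multiplier is primitive. -/
theorem Primitive.exists_bezout {L : PeriodPair} {ω : ℂ} (h : Primitive L ω) {A B C D : ℤ}
    (h1 : ω * L.ω₁ = A * L.ω₁ + B * L.ω₂) (h2 : ω * L.ω₂ = C * L.ω₁ + D * L.ω₂) :
    ∃ r₁ r₂ r₃ : ℤ, r₁ * B + r₂ * C + r₃ * (A - D) = 1 := by
  have hg : Int.gcd (Int.gcd B C) (A - D) = 1 := by
    by_contra hne
    obtain ⟨p, hp, hpg⟩ := Nat.exists_prime_and_dvd hne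
    have hd := Int.natCast_dvd_natCast.2 hpg
    have hBC := hd.trans (Int.gcd_dvd_left (Int.gcd B C : ℤ) (A - D))
    obtain ⟨b, hb⟩ := hBC.trans (Int.gcd_dvd_left B C)
    obtain ⟨c, hc⟩ := hBC.trans (Int.gcd_dvd_right B C)
    obtain ⟨e, he⟩ := hd.trans (Int.gcd_dvd_right (Int.gcd B C : ℤ) (A - D))
    have hp0 : (p : ℂ) ≠ 0 := Nat.cast_ne_zero.2 hp.ne_zero
    have hb' : (B : ℂ) = p * b := by exact_mod_cast hb
    have hc' : (C : ℂ) = p * c := by exact_mod_cast hc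
    have he' : (A : ℂ) - D = p * e := by exact_mod_cast he
    refine h p A hp fun l hl => ?_
    obtain ⟨x, y, rfl⟩ := PeriodPair.mem_lattice.1 hl
    refine PeriodPair.mem_lattice.2 ⟨y * c, x * b - y * e, ?_⟩
    push_cast
    field_simp
    linear_combination -(x : ℂ) * h1 - (y : ℂ) * h2 - (x : ℂ) * L.ω₂ * hb' -
      (y : ℂ) * L.ω₁ * hc' + (y : ℂ) * L.ω₂ * he'
  obtain ⟨x, y, hxy⟩ : IsCoprime (Int.gcd B C : ℤ) (A - D) := Int.isCoprime_iff_gcd_eq_one.2 hg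
  refine ⟨x * Int.gcdA B C, x * Int.gcdB B C, y, ?_⟩
  linear_combination hxy - x * Int.gcd_eq_gcd_ab B C

variable {K : Type u} [Field K] [CharZero K] {Kb : Type v} [Field Kb] [DecidableEq Kb]
  [Algebra K Kb] [CharZero Kb] [IsAlgClosed Kb] [Algebra.IsAlgebraic K Kb]
  {W : WeierstrassCurve K} [W.IsElliptic] {φ : Kb →+* ℂ} {L : PeriodPair}
  {hL : (W.baseChange Kb).map φ = latCurve L}

/-- **The automorphisms fixing a primitive multiplier commute on the torsion.** -/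
theorem exists_commute (hL : (W.baseChange Kb).map φ = latCurve L) (hcm : ¬ NoCM L) :
    ∃ (ω₀ : Kb) (t n : ℤ) (θ : (W.toAffine⁄Kb).Point →+ (W.toAffine⁄Kb).Point),
      t ^ 2 < 4 * n ∧ ω₀ ^ 2 - (t : Kb) * ω₀ + (n : Kb) = 0 ∧
      (∀ σ : Kb ≃ₐ[K] Kb, σ ω₀ = ω₀ → ∀ P, θ (σ • P) = σ • θ P) ∧
      (∀ P, θ (θ P) - t • θ P + n • P = 0) ∧
      (∀ m : ℤ, ∃ P, θ P ≠ m • P) ∧
      ∀ σ τ : Kb ≃ₐ[K] Kb, σ ω₀ = ω₀ → τ ω₀ = ω₀ →
        ∀ P : (W.toAffine⁄Kb).Point, IsOfFinAddOrder P → σ • τ • P = τ • σ • P := by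
  obtain ⟨ω, hω, hst, hprim⟩ := exists_primitive hcm
  obtain ⟨A, B, C, D, h1, h2, hB, hquad, hn⟩ := exists_matrix hω hst
  obtain ⟨r₁, r₂, r₃, hr⟩ := hprim.exists_bezout h1 h2
  obtain ⟨ω₀, θ, hω₀, heq, hθ⟩ := exists_endomorphism hL hω hst
  have hroot : ω₀ ^ 2 - ((A + D : ℤ) : Kb) * ω₀ + ((A * D - B * C : ℤ) : Kb) = 0 :=
    φ.injective <| by
      rw [map_add, map_sub, map_pow, map_mul, map_intCast, map_intCast, hω₀, map_zero]
      exact hquad
  have hdisc : (A + D) ^ 2 < 4 * (A * D - B * C) := by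
    have him : ω.im ≠ 0 := fun hi => by
      have hre : ω = (ω.re : ℂ) := Complex.ext (by simp) (by simp [hi])
      have := LinearIndependent.pair_iff.mp L.indep (ω.re - A) (-(B : ℝ)) (by
        simp only [Complex.real_smul]
        push_cast
        rw [← hre]
        linear_combination h1)
      exact hB (by exact_mod_cast neg_eq_zero.1 this.2)
    have hsq : (2 * ω - ((A + D : ℤ) : ℂ)) ^ 2 =
        (((A + D) ^ 2 - 4 * (A * D - B * C) : ℤ) : ℂ) := by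
      push_cast at hquad ⊢
      linear_combination 4 * hquad
    have hi := congrArg Complex.im hsq
    have hr := congrArg Complex.re hsq
    simp [sq] at hi hr
    have h0 : 2 * ω.re - ((A : ℝ) + D) = 0 := by
      apply mul_right_cancel₀ (mul_ne_zero two_ne_zero him)
      linear_combination hi / 2
    have hlt : (((A + D) ^ 2 - 4 * (A * D - B * C) : ℤ) : ℝ) < 0 := by
      push_cast
      have : 0 < (2 * ω.im) ^ 2 := by positivity
      nlinarith
    have : (A + D) ^ 2 - 4 * (A * D - B * C) < 0 := by exact_mod_cast hlt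
    linarith
  refine ⟨ω₀, A + D, A * D - B * C, θ, hdisc, hroot, heq, fun P => ?_, fun m => ?_,
    fun σ τ hσ hτ P hP => ?_⟩
  · obtain ⟨z, hz⟩ := exists_preimage (hL := hL) P
    refine FA.Frob.mapHom_injective φ hL ?_
    show toC W φ hL _ = toC W φ hL 0
    rw [map_zero, map_add, map_sub, map_zsmul, map_zsmul, hθ _ _ (hθ P z hz).symm, hθ P z hz, ← hz,
      ← unif_int_mul, ← unif_int_mul, ← unifHom_apply, ← unifHom_apply, ← unifHom_apply, ← map_sub,
      ← map_add, unifHom_apply, unif_eq_zero_iff,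
      show ω * (ω * z) - ((A + D : ℤ) : ℂ) * (ω * z) + ((A * D - B * C : ℤ) : ℂ) * z = 0 by
        linear_combination z * hquad]
    exact zero_mem _
  · -- the multiplier is not an integer
    by_contra hne
    push Not at hne
    set p : ℕ := B.natAbs + 1 with hp
    have hp0 : (p : ℂ) ≠ 0 := Nat.cast_ne_zero.2 (by omega)
    obtain ⟨P, hP, -⟩ := exists_of_nsmul_eq_zero (hL := hL) (n := p) (by omega)
      (Q := unif L (L.ω₁ / p)) (by
        rw [← natCast_zsmul, ← unif_int_mul, Int.cast_natCast, mul_div_cancel₀ _ hp0,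
          unif_of_mem L L.ω₁_mem_lattice])
    have h := hθ P _ hP.symm
    rw [hne, map_zsmul, hP, ← unif_int_mul, eq_comm, unif_eq_unif_iff,
      show ω * (L.ω₁ / p) - (m : ℂ) * (L.ω₁ / p) = ((((A : ℚ) - m) / (p : ℤ) : ℚ) : ℂ) * L.ω₁ +
        (((B : ℚ) / (p : ℤ) : ℚ) : ℂ) * L.ω₂ by
        push_cast; field_simp; linear_combination h1,
      PeriodPair.mul_ω₁_add_mul_ω₂_mem_lattice] at h
    have hd : (p : ℤ) ∣ B := (Rat.den_div_intCast_eq_one_iff B p (by omega)).1 h.2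
    have := Nat.le_of_dvd (Int.natAbs_pos.2 hB) (Int.natCast_dvd.1 hd)
    omega
  -- the torsion of order `m`
  set m := addOrderOf P with hm
  have hm0 : m ≠ 0 := hP.addOrderOf_pos.ne'
  have hmC : (m : ℂ) ≠ 0 := Nat.cast_ne_zero.2 hm0
  have hex : ∀ o ∈ L.lattice, ∃ g, toC W φ hL g = unif L (o / m) := fun o ho => by
    obtain ⟨g, hg, -⟩ := exists_of_nsmul_eq_zero (hL := hL) hm0 (Q := unif L (o / m)) (by
      rw [← natCast_zsmul, ← unif_int_mul, Int.cast_natCast, mul_div_cancel₀ _ hmC,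
        unif_of_mem L ho])
    exact ⟨g, hg⟩
  obtain ⟨g₁, hg₁⟩ := hex _ L.ω₁_mem_lattice
  obtain ⟨g₂, hg₂⟩ := hex _ L.ω₂_mem_lattice
  have hcomb : ∀ i j : ℤ, toC W φ hL (i • g₁ + j • g₂) =
      unif L ((i : ℂ) * (L.ω₁ / m) + (j : ℂ) * (L.ω₂ / m)) := fun i j => by
    rw [map_add, map_zsmul, map_zsmul, hg₁, hg₂, ← unif_int_mul, ← unif_int_mul, unif_add]
  have hspan : ∀ i j : ℤ, i • g₁ + j • g₂ = 0 ↔ (m : ℤ) ∣ i ∧ (m : ℤ) ∣ j := fun i j => by
    rw [← map_eq_zero_iff (toC W φ hL) (FA.Frob.mapHom_injective φ hL), hcomb, unif_eq_zero_iff,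
      show (i : ℂ) * (L.ω₁ / m) + (j : ℂ) * (L.ω₂ / m) = (((i : ℚ) / (m : ℤ) : ℚ) : ℂ) * L.ω₁ +
        (((j : ℚ) / (m : ℤ) : ℚ) : ℂ) * L.ω₂ by push_cast; ring,
      PeriodPair.mul_ω₁_add_mul_ω₂_mem_lattice,
      Rat.den_div_intCast_eq_one_iff i m (by exact_mod_cast hm0),
      Rat.den_div_intCast_eq_one_iff j m (by exact_mod_cast hm0)]
  have hkill : ∀ Q : (W.toAffine⁄Kb).Point, m • Q = 0 → ∃ i j : ℤ, Q = i • g₁ + j • g₂ :=
    fun Q hQ => by
    obtain ⟨z, hz⟩ := exists_preimage (hL := hL) Q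
    have hmem : (m : ℂ) * z ∈ L.lattice := by
      rw [← unif_eq_zero_iff, ← Int.cast_natCast, unif_int_mul, hz, natCast_zsmul, ← map_nsmul, hQ,
        map_zero]
    obtain ⟨i, j, hij⟩ := PeriodPair.mem_lattice.1 hmem
    refine ⟨i, j, FA.Frob.mapHom_injective φ hL ?_⟩
    refine hz.symm.trans ((congrArg (unif L) ?_).trans (hcomb i j).symm)
    field_simp
    linear_combination -hij
  have hgm : ∀ {g : (W.toAffine⁄Kb).Point} {o : ℂ}, o ∈ L.lattice →
      toC W φ hL g = unif L (o / m) → m • g = 0 := fun {g o} ho hg =>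
    FA.Frob.mapHom_injective φ hL (by
      rw [map_nsmul, map_zero, show FA.Frob.mapHom φ hL g = unif L (o / m) from hg,
        ← natCast_zsmul, ← unif_int_mul, Int.cast_natCast, mul_div_cancel₀ _ hmC,
        unif_of_mem L ho])
  have hθg : θ g₁ = A • g₁ + B • g₂ ∧ θ g₂ = C • g₁ + D • g₂ := by
    constructor <;> refine FA.Frob.mapHom_injective φ hL ?_
    · refine ((hθ _ _ hg₁.symm).trans (congrArg (unif L) ?_)).trans (hcomb A B).symm
      field_simp
      linear_combination h1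
    · refine ((hθ _ _ hg₂.symm).trans (congrArg (unif L) ?_)).trans (hcomb C D).symm
      field_simp
      linear_combination h2
  obtain ⟨a, b, hab⟩ := hkill (σ • g₁)
    (by rw [← smul_nsmul', hgm L.ω₁_mem_lattice hg₁, smul_zero])
  obtain ⟨c, d, hcd⟩ := hkill (σ • g₂)
    (by rw [← smul_nsmul', hgm L.ω₂_mem_lattice hg₂, smul_zero])
  obtain ⟨α, k, hα₁, hα₂⟩ := exists_comb (f := DistribSMul.toAddMonoidHom _ σ) hspan hθg.1 hθg.2
    hab hcd (heq σ hσ g₁).symm (heq σ hσ g₂).symm hr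
  have hall : ∀ Q : (W.toAffine⁄Kb).Point, m • Q = 0 → σ • Q = α • Q + k • θ Q := fun Q hQ => by
    obtain ⟨i, j, rfl⟩ := hkill Q hQ
    have e₁ : σ • g₁ = α • g₁ + k • θ g₁ := hα₁
    have e₂ : σ • g₂ = α • g₂ + k • θ g₂ := hα₂
    rw [smul_add, smul_zsmul', smul_zsmul', e₁, e₂, map_add, map_zsmul, map_zsmul]
    module
  have hmP : m • P = 0 := addOrderOf_nsmul_eq_zero P
  rw [hall P hmP, hall _ (by rw [← smul_nsmul', hmP, smul_zero]), smul_add, smul_zsmul',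
    smul_zsmul', ← heq τ hτ]

end FA.IsogenyNF

end
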