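import Fermat.Agent.IsogenyNF.QuotientCyclic

/-!
# Quotients of curves in any Weierstrass form
-/

set_option autoImplicit false
set_option linter.unusedSectionVars false

noncomputable section

namespace FA.IsogenyNF

open WeierstrassCurve FA.Mazur.Wp FA.CyclicLattice
open scoped WeierstrassCurve.Affine

universe u v

variable {K : Type u} [Field K] [NumberField K] {Kb : Type v} [Field Kb] [DecidableEq Kb]
  [Algebra K Kb] [CharZero Kb] [IsAlgClosed Kb] [Algebra.IsAlgebraic K Kb]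
  (E : WeierstrassCurve K) [E.IsElliptic]

/-- The short model on a lattice at a given embedding, and the transport of points. -/
theorem exists_short_at (φ : Kb →+* ℂ) :
    ∃ (_ : (shortModel E).IsElliptic) (L : PeriodPair)
      (_ : ((shortModel E).baseChange Kb).map φ = latCurve L)
      (e : ((shortModel E).toAffine⁄Kb).Point ≃+ (E.toAffine⁄Kb).Point),
      (HasCM E (φ.comp (algebraMap K Kb)) ↔ ¬ NoCM L) ∧ (shortModel E).j = E.j ∧
        ∀ σ : Kb ≃ₐ[K] Kb, ∀ P, e (σ • P) = σ • e P := by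
  obtain ⟨L, h2, h3⟩ := exists_lattice E (φ.comp (algebraMap K Kb))
  obtain ⟨C, hC⟩ := exists_variableChange E
  have hW : (shortModel E).IsElliptic := hC ▸ inferInstance
  have hC' : C.map (algebraMap K Kb) • E.baseChange Kb = (shortModel E).baseChange Kb := by
    simp only [WeierstrassCurve.baseChange, map_variableChange, hC]
  have hL : ((shortModel E).baseChange Kb).map φ = latCurve L := by
    ext <;> simp [WeierstrassCurve.baseChange, shortModel, latCurve, h2, h3, map_ofNat] <;> ring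
  refine ⟨hW, L, hL, FA.Frob.vcEquiv _ hC', ⟨fun ⟨L', h2', h3', ω, hne, hω⟩ hno => ?_,
    fun hno => ?_⟩, ?_, fun σ P => vcEquiv_smul hC' σ P⟩
  · have e : L.lattice = L'.lattice :=
      (FA.JInj.lattice_eq_iff _ _).2 ⟨h2.trans h2'.symm, h3.trans h3'.symm⟩
    obtain ⟨m, hm⟩ := hno ω (by rw [e]; exact hω)
    exact hne m hm
  · simp only [NoCM, not_forall, not_exists, exists_prop] at hno
    obtain ⟨ω, hω, hne⟩ := hno
    exact ⟨L, h2, h3, ω, hne, hω⟩
  · simp only [← hC, variableChange_j]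

/-- The short model on a lattice, and the transport of finite stable groups. -/
theorem exists_short (ψ : K →+* ℂ) :
    ∃ (_ : (shortModel E).IsElliptic) (φ : Kb →+* ℂ) (L : PeriodPair)
      (_ : ((shortModel E).baseChange Kb).map φ = latCurve L)
      (e : ((shortModel E).toAffine⁄Kb).Point ≃+ (E.toAffine⁄Kb).Point),
      (HasCM E ψ ↔ ¬ NoCM L) ∧ (shortModel E).j = E.j ∧
        ∀ σ : Kb ≃ₐ[K] Kb, ∀ P, e (σ • P) = σ • e P := by
  let _ := ψ.toAlgebra
  let φ : Kb →ₐ[K] ℂ := IsAlgClosed.lift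
  obtain ⟨hW, L, hL, e, h, hj, he⟩ := exists_short_at (Kb := Kb) E (φ : Kb →+* ℂ)
  have hψ : (φ : Kb →+* ℂ).comp (algebraMap K Kb) = ψ := φ.comp_algebraMap
  rw [hψ] at h
  exact ⟨hW, φ, L, hL, e, h, hj, he⟩

variable {E}

/-- Transport of a group. -/
theorem transport {W : WeierstrassCurve K} [W.IsElliptic]
    (e : (W.toAffine⁄Kb).Point ≃+ (E.toAffine⁄Kb).Point)
    (he : ∀ σ : Kb ≃ₐ[K] Kb, ∀ P, e (σ • P) = σ • e P)
    {G : AddSubgroup (E.toAffine⁄Kb).Point} [Finite G]
    (hst : ∀ σ : Kb ≃ₐ[K] Kb, ∀ Q ∈ G, σ • Q ∈ G) :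
    Finite (G.comap e.toAddMonoidHom) ∧ StableG (G.comap e.toAddMonoidHom) ∧
      ∀ {W' : WeierstrassCurve K} [W'.IsElliptic]
        (θ : (W.toAffine⁄Kb).Point →+ (W'.toAffine⁄Kb).Point), Function.Surjective θ →
        (∀ σ : Kb ≃ₐ[K] Kb, ∀ P, θ (σ • P) = σ • θ P) → θ.ker = G.comap e.toAddMonoidHom →
        ∃ θ' : (E.toAffine⁄Kb).Point →+ (W'.toAffine⁄Kb).Point, Function.Surjective θ' ∧
          (∀ σ : Kb ≃ₐ[K] Kb, ∀ P, θ' (σ • P) = σ • θ' P) ∧ θ'.ker = G := by
  refine ⟨Finite.of_injective (fun x : G.comap e.toAddMonoidHom => (⟨e x, x.2⟩ : G))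
    fun a b h => Subtype.ext (e.injective (congrArg Subtype.val h)), fun σ Q hQ => ?_,
    fun {W'} _ θ hs hθ hker => ⟨θ.comp e.symm.toAddMonoidHom, hs.comp e.symm.surjective,
      fun σ P => ?_, ?_⟩⟩
  · show e (σ • Q) ∈ G
    rw [he]
    exact hst σ _ hQ
  · show θ (e.symm (σ • P)) = σ • θ (e.symm P)
    rw [← hθ]
    congr 1
    apply e.injective
    rw [he, e.apply_symm_apply, e.apply_symm_apply]
  · ext P
    show θ (e.symm P) = 0 ↔ P ∈ G
    rw [← AddMonoidHom.mem_ker, hker, AddSubgroup.mem_comap]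
    show e (e.symm P) ∈ G ↔ _
    rw [e.apply_symm_apply]

variable {W : WeierstrassCurve K} [W.IsElliptic] {φ : Kb →+* ℂ} {L : PeriodPair}
  {hL : (W.baseChange Kb).map φ = latCurve L}

/-- The modular equation between the invariants of a curve and of its quotient by a cyclic group. -/
theorem modular_equation {g : (W.toAffine⁄Kb).Point} {L₁ : PeriodPair} {W' : WeierstrassCurve K}
    [W'.IsElliptic] (hg : 0 < addOrderOf g) (h₁ : IsQuot W φ hL g L₁)
    (hj : jInv L₁ = φ (algebraMap K Kb W'.j)) [NeZero (addOrderOf g)]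
    [Fintype (FA.Dim.Cos (addOrderOf g))] :
    (FA.ModPoly.phi (addOrderOf g)).eval₂ (Polynomial.aeval (R := ℤ) W'.j).toRingHom W.j = 0 := by
  obtain ⟨L'', h'', hc⟩ := exists_isQuot (hL := hL) hg
  have he := (cyclicSub_iff _ _ _).1 hc
  rw [← jInv_congr (h₁.lattice_eq h''), hj, jInv_eq hL] at he
  apply (φ.comp (algebraMap K Kb)).injective
  rw [map_zero, Polynomial.hom_eval₂, ← he]
  congr 1
  refine Polynomial.ringHom_ext (fun n => by simp) ?_
  simp

end FA.IsogenyNF

end
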