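import Fermat.Agent.IsogenyNF.PlaceLevel

/-!
# The determinant is the cyclotomic character over every number field

Every automorphism agrees on the coordinates of the points killed by `p` and on the `p`-th roots of
unity with a Frobenius element at a place of good reduction, where both characters are `q`.
-/

set_option autoImplicit false
set_option linter.unusedSectionVars false

noncomputable section

namespace FA.IsogenyNF

open WeierstrassCurve
open scoped WeierstrassCurve.Affine

universe u v

variable {K : Type u} [Field K] [NumberField K] {Kb : Type v} [Field Kb] [DecidableEq Kb]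
  [Algebra K Kb] [CharZero Kb] [IsAlgClosed Kb] [Algebra.IsAlgebraic K Kb]
  (W : WeierstrassCurve K) [W.IsElliptic]

/-- **The determinant on the `p`-torsion is the cyclotomic character.** -/
theorem det_torRep {p : ℕ} (hp : p.Prime) (σ : Kb ≃ₐ[K] Kb) {a : ℕ}
    (ha : ∀ μ : Kb, μ ^ p = 1 → σ μ = μ ^ a) :
    LinearMap.det (torRep W p σ) = (a : ZMod p) := by
  obtain ⟨F⟩ := exists_frobPlace W σ hp.ne_zero
  have := F.charP
  have hpl : p ≠ F.l := fun e => by
    have h0 : ((p : FA.Frob.Res F.A)) = 0 := (CharP.cast_eq_zero_iff _ F.l p).2 e.symm.dvd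
    rw [← map_natCast (IsLocalRing.residue F.A), IsLocalRing.residue_eq_zero_iff] at h0
    exact (IsLocalRing.mem_maximalIdeal _).1 h0
      ((F.A.valuation_eq_one_iff _).2 (by simpa using F.level))
  rw [det_torRep_of_congr W F.A F.int F.good F.prime F.pos hp hpl σ F.congr_coef
    fun P hP _ => F.congr_coord P hP]
  -- on the roots of unity
  have : NeZero (p : Kb) := ⟨Nat.cast_ne_zero.2 hp.ne_zero⟩
  obtain ⟨μ, hμ⟩ := HasEnoughRootsOfUnity.exists_primitiveRoot Kb p
  have e := F.congr_root μ hμ.pow_eq_one
  rw [ha μ hμ.pow_eq_one, (hμ.isOfFinOrder hp.ne_zero).pow_eq_pow_iff_modEq, ← hμ.eq_orderOf] at e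
  rw [(ZMod.natCast_eq_natCast_iff ..).2 e, Nat.cast_pow]

end FA.IsogenyNF

end
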