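import Fermat.Agent.Ribet.SerreSurjective
import Mathlib.LinearAlgebra.Basis.VectorSpace
import Mathlib.LinearAlgebra.FiniteDimensional.Basic

/-!
# An irreducible plane representation with an element of order `p` contains `SL₂`
-/

set_option autoImplicit false
set_option linter.unusedSectionVars false

noncomputable section

open Matrix

namespace FA.IsogenyNF

variable {p : ℕ} [hp : Fact p.Prime] {V : Type*} [AddCommGroup V] [Module (ZMod p) V]
  {G : Type*} [Group G]

local notation "M2" => Matrix (Fin 2) (Fin 2) (ZMod p)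

/-- **An irreducible plane representation with an element of order `p`** gives every map of
determinant one. -/
theorem exists_eq_of_det_one (ρ : G →* (V →ₗ[ZMod p] V))
    (hfr : Module.finrank (ZMod p) V = 2)
    (hirr : ∀ e : V, e ≠ 0 → ∃ g, ∀ a : ZMod p, ρ g e ≠ a • e) {σ : G} (hne : ρ σ ≠ 1)
    (hpow : ρ σ ^ p = 1) {f : V →ₗ[ZMod p] V} (hf : LinearMap.det f = 1) : ∃ g, ρ g = f := by
  have : FiniteDimensional (ZMod p) V := Module.finite_of_finrank_eq_succ hfr
  let b₀ := Module.finBasisOfFinrankEq (ZMod p) V hfr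
  let T₀ := LinearMap.toMatrixAlgEquiv b₀
  have hsq : (ρ σ - 1) * (ρ σ - 1) = 0 := by
    have h1 : T₀ (ρ σ) ^ p = 1 := by rw [← map_pow, hpow, map_one]
    have h2 : (T₀ (ρ σ) - 1) * (T₀ (ρ σ) - 1) = 0 := by
      refine FA.Ribet.sq_eq_zero_of_pow_eq_zero (n := p - 1) ?_
      rw [show p - 1 + 1 = p by have := hp.out.two_le; omega,
        sub_pow_char_of_commute p (Commute.one_right _), one_pow, h1, sub_self]
    exact T₀.injective (by rw [map_mul, map_sub, map_one, h2, map_zero])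
  obtain ⟨v, hv⟩ : ∃ v, (ρ σ - 1) v ≠ 0 := by
    by_contra! hall
    exact hne (sub_eq_zero.1 (LinearMap.ext hall))
  set e := (ρ σ - 1) v with he
  have hσe : ρ σ e = e := by
    have h := LinearMap.congr_fun hsq v
    rwa [Module.End.mul_apply, ← he, LinearMap.sub_apply, Module.End.one_apply,
      LinearMap.zero_apply, sub_eq_zero] at h
  obtain ⟨g, hg⟩ := hirr e hv
  have hli : LinearIndependent (ZMod p) ![e, ρ g e] := by
    rw [LinearIndependent.pair_iff' hv]
    exact fun a h => hg a h.symm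
  let b := basisOfLinearIndependentOfCardEqFinrank hli (by rw [Fintype.card_fin, hfr])
  have hb : ⇑b = ![e, ρ g e] := coe_basisOfLinearIndependentOfCardEqFinrank _ _
  let T := LinearMap.toMatrixAlgEquiv b
  let ψ : G →* M2 := T.toAlgHom.toRingHom.toMonoidHom.comp ρ
  have hψ : ∀ h, ψ h = T (ρ h) := fun h => rfl
  have hfix : ∀ (h : G) (j : Fin 2), ρ h (b j) = b j → ψ h *ᵥ Pi.single j 1 = Pi.single j 1 :=
    fun h j hj => funext fun i => by
      rw [Matrix.mulVec_single_one, hψ, Matrix.col_apply, LinearMap.toMatrixAlgEquiv_apply, hj,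
        b.repr_self, Finsupp.single_eq_pi_single]
  set σ' := g * σ * g⁻¹ with hσ'
  have hgi : ρ g⁻¹ (ρ g e) = e := by
    rw [← Module.End.mul_apply, ← map_mul, inv_mul_cancel, map_one, Module.End.one_apply]
  have hσ'f : ρ σ' (ρ g e) = ρ g e := by
    rw [hσ', map_mul, map_mul, Module.End.mul_apply, Module.End.mul_apply, hgi, hσe]
  have hψsq : (ψ σ - 1) * (ψ σ - 1) = 0 := by
    rw [hψ, ← map_one T, ← map_sub, ← map_mul, hsq, map_zero]
  have hψsq' : (ψ σ' - 1) * (ψ σ' - 1) = 0 := by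
    have h1 : ψ g * ψ g⁻¹ = 1 := by rw [← map_mul, mul_inv_cancel, map_one]
    have h2 : ψ g⁻¹ * ψ g = 1 := by rw [← map_mul, inv_mul_cancel, map_one]
    have e1 : ψ σ' - 1 = ψ g * (ψ σ - 1) * ψ g⁻¹ := by
      rw [hσ', map_mul, map_mul, mul_sub, sub_mul, mul_one, h1]
    rw [e1, show ψ g * (ψ σ - 1) * ψ g⁻¹ * (ψ g * (ψ σ - 1) * ψ g⁻¹) =
      ψ g * ((ψ σ - 1) * (ψ g⁻¹ * ψ g) * (ψ σ - 1)) * ψ g⁻¹ by simp only [mul_assoc],
      h2, mul_one, hψsq, mul_zero, zero_mul]
  have e0 : (![1, 0] : Fin 2 → ZMod p) = Pi.single 0 1 := funext fun i => by fin_cases i <;> rfl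
  have e1 : (![0, 1] : Fin 2 → ZMod p) = Pi.single 1 1 := funext fun i => by fin_cases i <;> rfl
  obtain ⟨x, hx⟩ : ∃ x, ψ σ = !![1, x; 0, 1] :=
    ⟨_, FA.Ribet.eq_upper_of_fix (by rw [e0]; exact hfix σ 0 (by simpa [hb] using hσe)) hψsq⟩
  obtain ⟨y, hy⟩ : ∃ y, ψ σ' = !![1, 0; y, 1] :=
    ⟨_, FA.Ribet.eq_lower_of_fix (by rw [e1]; exact hfix σ' 1 (by simpa [hb] using hσ'f)) hψsq'⟩
  have hψne : ψ σ ≠ 1 := fun h => hne (T.injective (by rw [map_one]; exact h))
  have hx0 : x ≠ 0 := fun e => hψne (by rw [hx, e, one_fin_two])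
  have hy0 : y ≠ 0 := fun e => hψne (by
    have h1 : ψ g⁻¹ * ψ σ' * ψ g = ψ σ := by rw [← map_mul, ← map_mul]; congr 1; rw [hσ']; group
    rw [← h1, hy, e, ← one_fin_two, mul_one, ← map_mul, inv_mul_cancel, map_one])
  have hup : ∀ n : ℕ, (!![1, x; 0, 1] : M2) ^ n = !![1, n * x; 0, 1] := fun n => by
    induction n with
    | zero => simp [one_fin_two]
    | succ n ih =>
      rw [pow_succ, ih]
      ext i j
      fin_cases i <;> fin_cases j <;> simp [Matrix.mul_apply, Fin.sum_univ_two]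
      ring
  have hlow : ∀ n : ℕ, (!![1, 0; y, 1] : M2) ^ n = !![1, 0; n * y, 1] := fun n => by
    induction n with
    | zero => simp [one_fin_two]
    | succ n ih =>
      rw [pow_succ, ih]
      ext i j
      fin_cases i <;> fin_cases j <;> simp [Matrix.mul_apply, Fin.sum_univ_two]
      ring
  obtain ⟨h, hh⟩ := FA.Ribet.mem_of_elementary_field (MonoidHom.mrange ψ)
    (fun z => ⟨σ ^ (z / x).val, by
      rw [map_pow, hx, hup, ZMod.natCast_zmod_val, div_mul_cancel₀ z hx0]⟩)
    (fun z => ⟨σ' ^ (z / y).val, by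
      rw [map_pow, hy, hlow, ZMod.natCast_zmod_val, div_mul_cancel₀ z hy0]⟩)
    (M := T f) (by
      rw [show T f = LinearMap.toMatrix b b f from rfl, LinearMap.det_toMatrix, hf])
  exact ⟨h, T.injective hh⟩

/-- The maps of determinant one move any nonzero vector to any other. -/
theorem exists_det_one_map (hfr : Module.finrank (ZMod p) V = 2) {x y : V} (hx : x ≠ 0)
    (hy : y ≠ 0) : ∃ f : V →ₗ[ZMod p] V, LinearMap.det f = 1 ∧ f x = y := by
  have : FiniteDimensional (ZMod p) V := Module.finite_of_finrank_eq_succ hfr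
  have hbas : ∀ z : V, z ≠ 0 → ∃ b : Module.Basis (Fin 2) (ZMod p) V, b 0 = z := fun z hz => by
    obtain ⟨w, -, hw⟩ := SetLike.exists_of_lt (show Submodule.span (ZMod p) {z} < ⊤ from
      lt_top_iff_ne_top.2 fun ht => by
        have h1 := finrank_span_singleton (K := ZMod p) hz
        rw [ht, finrank_top, hfr] at h1
        omega)
    have hli : LinearIndependent (ZMod p) ![z, w] :=
      (LinearIndependent.pair_iff' hz).2 fun a h => hw (Submodule.mem_span_singleton.2 ⟨a, h⟩)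
    exact ⟨basisOfLinearIndependentOfCardEqFinrank hli (by rw [Fintype.card_fin, hfr]), by
      simp [coe_basisOfLinearIndependentOfCardEqFinrank]⟩
  obtain ⟨b, hb⟩ := hbas x hx
  obtain ⟨c, hc⟩ := hbas y hy
  set d := LinearMap.det (b.equiv c (Equiv.refl _)).toLinearMap with hd
  have hd0 : d ≠ 0 := (LinearEquiv.isUnit_det' _).ne_zero
  let D : V →ₗ[ZMod p] V := Matrix.toLin c c !![1, 0; 0, d⁻¹]
  refine ⟨D * (b.equiv c (Equiv.refl _)).toLinearMap, ?_, ?_⟩
  · rw [map_mul, LinearMap.det_toLin, Matrix.det_fin_two, ← hd]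
    simp [hd0]
  · show D ((b.equiv c (Equiv.refl _)) x) = y
    rw [← hb, Module.Basis.equiv_apply, Equiv.refl_apply, Matrix.toLin_self, Fin.sum_univ_two,
      ← hc]
    simp

end FA.IsogenyNF

end
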