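import Fermat.Agent.IsogenyNF.PoleModel
import Fermat.Agent.IsogenyNF.TransvectionGroup

/-!
# The image on the `p`-torsion contains the maps of determinant one

An element of order `p` and no stable line give every map of determinant one; for an invariant
which is not an algebraic integer both hold for all large primes `p`.
-/

set_option autoImplicit false
set_option linter.unusedSectionVars false

noncomputable section

namespace FA.IsogenyNF

open WeierstrassCurve WeierstrassCurve.Affine.Point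
open scoped WeierstrassCurve.Affine

universe u v

variable {K : Type u} [Field K] [NumberField K] {Kb : Type v} [Field Kb] [DecidableEq Kb]
  [Algebra K Kb] [CharZero Kb] [IsAlgClosed Kb] [Algebra.IsAlgebraic K Kb]
  (E : WeierstrassCurve K) [E.IsElliptic]

variable (Kb) in
/-- The points killed by `p`. -/
abbrev Tor (p : ℕ) := Submodule.torsionBy ℤ (E.toAffine⁄Kb).Point (p : ℤ)

/-- The action on the points killed by `p`. -/
def torRep (p : ℕ) : (Kb ≃ₐ[K] Kb) →* (Tor Kb E p →ₗ[ZMod p] Tor Kb E p) where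
  toFun σ := (DistribSMul.toAddMonoidHom (Tor Kb E p) σ).toZModLinearMap p
  map_one' := LinearMap.ext fun x => one_smul (Kb ≃ₐ[K] Kb) x
  map_mul' σ τ := LinearMap.ext fun x => mul_smul σ τ x

theorem torRep_apply {p : ℕ} (σ : Kb ≃ₐ[K] Kb) (x : Tor Kb E p) : torRep E p σ x = σ • x := rfl

theorem nsmul_of_mem {p : ℕ} (x : Tor Kb E p) : p • (x : (E.toAffine⁄Kb).Point) = 0 :=
  (natCast_zsmul _ p).symm.trans ((Submodule.mem_torsionBy_iff _ _).1 x.2)

theorem finrank_tor {p : ℕ} (hp : p.Prime) :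
    Finite (Tor Kb E p) ∧ Module.finrank (ZMod p) (Tor Kb E p) = 2 := by
  have : Fact p.Prime := ⟨hp⟩
  have hc : Nat.card (Tor Kb E p) = p ^ 2 :=
    FA.EC.natCard_torsionBy (E.map (algebraMap K Kb)) (Nat.cast_ne_zero.2 hp.ne_zero)
  have hfin : Finite (Tor Kb E p) :=
    Nat.finite_of_card_ne_zero (by rw [hc]; exact pow_ne_zero 2 hp.ne_zero)
  refine ⟨hfin, Nat.pow_right_injective hp.two_le ?_⟩
  show p ^ Module.finrank (ZMod p) (Tor Kb E p) = p ^ 2
  rw [← hc, Module.natCard_eq_pow_finrank (K := ZMod p), Nat.card_zmod]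

/-- **An irreducible image with an element of order `p` contains every map of determinant one.** -/
theorem exists_smul_of_det_one {p : ℕ} (hp : p.Prime)
    (hst : ∀ g : (E.toAffine⁄Kb).Point, addOrderOf g = p →
      ∃ σ : Kb ≃ₐ[K] Kb, σ • g ∉ AddSubgroup.zmultiples g)
    (hu : ∃ σ : Kb ≃ₐ[K] Kb, (∀ P : (E.toAffine⁄Kb).Point, p • P = 0 → (σ ^ p) • P = P) ∧
      ∃ P : (E.toAffine⁄Kb).Point, p • P = 0 ∧ σ • P ≠ P)
    (f : Tor Kb E p →ₗ[ZMod p] Tor Kb E p) (hf : LinearMap.det f = 1) :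
    ∃ σ : Kb ≃ₐ[K] Kb, ∀ x, f x = σ • x := by
  have : Fact p.Prime := ⟨hp⟩
  obtain ⟨-, hfr⟩ := finrank_tor (Kb := Kb) E hp
  obtain ⟨σ, hσp, P, hP, hne⟩ := hu
  have hirr : ∀ e : Tor Kb E p, e ≠ 0 → ∃ τ, ∀ a : ZMod p, torRep E p τ e ≠ a • e := by
    intro e he
    have hord : addOrderOf (e : (E.toAffine⁄Kb).Point) = p :=
      addOrderOf_eq_prime (nsmul_of_mem E e) fun h => he (Subtype.ext h)
    obtain ⟨τ, hτ⟩ := hst _ hord
    refine ⟨τ, fun a ha => hτ ?_⟩
    rw [torRep_apply, ← ZMod.natCast_zmod_val a, Nat.cast_smul_eq_nsmul] at ha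
    exact AddSubgroup.mem_zmultiples_iff.2 ⟨(a.val : ℤ), by
      rw [natCast_zsmul]; exact (congrArg Subtype.val ha).symm⟩
  have hne' : torRep (Kb := Kb) E p σ ≠ 1 := fun h => by
    have hPm : P ∈ Submodule.torsionBy ℤ (E.toAffine⁄Kb).Point (p : ℤ) := by
      rw [Submodule.mem_torsionBy_iff, natCast_zsmul, hP]
    exact hne (congrArg Subtype.val (LinearMap.congr_fun h (⟨P, hPm⟩ : Tor Kb E p)))
  have hpow : torRep (Kb := Kb) E p σ ^ p = 1 := by
    refine LinearMap.ext fun x => Subtype.ext ?_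
    rw [← map_pow, torRep_apply]
    exact hσp _ (nsmul_of_mem E x)
  obtain ⟨g, hg⟩ := exists_eq_of_det_one (torRep (Kb := Kb) E p) hfr hirr hne' hpow hf
  exact ⟨g, fun x => (LinearMap.congr_fun hg x).symm⟩

/-- **All maps of determinant one for all large primes** when `j` is not an algebraic integer. -/
theorem exists_bound_det_one (hj : ¬ IsIntegral ℤ E.j) :
    ∃ B : ℕ, ∀ p : ℕ, p.Prime → B < p → ∀ f : Tor Kb E p →ₗ[ZMod p] Tor Kb E p,
      LinearMap.det f = 1 → ∃ σ : Kb ≃ₐ[K] Kb, ∀ x, f x = σ • x := by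
  obtain ⟨B₁, h₁⟩ := exists_order_p_of_pole (Kb := Kb) E hj
  obtain ⟨B₂, h₂⟩ := ((finite_stable_points (Kb := Kb) E (Classical.arbitrary (K →+* ℂ))
    fun h => hj (isIntegral_j E h)).image addOrderOf).bddAbove
  refine ⟨B₁ + B₂, fun p hp hB f hf => exists_smul_of_det_one E hp (fun g hg => ?_)
    (h₁ p hp (by omega)) f hf⟩
  by_contra! hall
  have := h₂ ⟨g, ⟨hg ▸ hp.pos, hall⟩, hg⟩
  omega

/-- **Transitive on the points of order `p`** for all large primes. -/
theorem exists_bound_transitive (hj : ¬ IsIntegral ℤ E.j) :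
    ∃ B : ℕ, ∀ p : ℕ, p.Prime → B < p → ∀ P Q : (E.toAffine⁄Kb).Point,
      addOrderOf P = p → addOrderOf Q = p → ∃ σ : Kb ≃ₐ[K] Kb, σ • P = Q := by
  obtain ⟨B, hB⟩ := exists_bound_det_one (Kb := Kb) E hj
  refine ⟨B, fun p hp hlt P Q hP hQ => ?_⟩
  have : Fact p.Prime := ⟨hp⟩
  have hmem : ∀ R : (E.toAffine⁄Kb).Point, addOrderOf R = p →
      R ∈ Submodule.torsionBy ℤ (E.toAffine⁄Kb).Point (p : ℤ) := fun R hR => by
    rw [Submodule.mem_torsionBy_iff, natCast_zsmul, ← hR, addOrderOf_nsmul_eq_zero]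
  have hne : ∀ R : (E.toAffine⁄Kb).Point, addOrderOf R = p → R ≠ 0 := fun R hR h => by
    rw [h, addOrderOf_zero] at hR
    exact hp.one_lt.ne hR
  obtain ⟨f, hf, hfx⟩ := exists_det_one_map (finrank_tor (Kb := Kb) E hp).2
    (x := (⟨P, hmem P hP⟩ : Tor Kb E p)) (y := ⟨Q, hmem Q hQ⟩)
    (fun h => hne P hP (congrArg Subtype.val h)) (fun h => hne Q hQ (congrArg Subtype.val h))
  obtain ⟨σ, hσ⟩ := hB p hp hlt f hf
  rw [hσ] at hfx
  exact ⟨σ, congrArg Subtype.val hfx⟩

end FA.IsogenyNF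

end
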