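import Fermat.Agent.IsogenyNF.Cyclotomic
import Fermat.Agent.IsogenyNF.Image
import Mathlib.NumberTheory.NumberField.Discriminant.Different
import Mathlib.RingTheory.Polynomial.Eisenstein.IsIntegral

/-!
# The cyclotomic character is onto at unramified primes, and the image on the `p`-torsion is `GL₂`

The cyclotomic polynomial is Eisenstein at a place over a prime `p` not dividing the discriminant.
Together with the maps of determinant one this gives every invertible map.
-/

set_option autoImplicit false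
set_option linter.unusedSectionVars false

noncomputable section

namespace FA.IsogenyNF

open WeierstrassCurve NumberField Polynomial IsDedekindDomain
open scoped WeierstrassCurve.Affine

universe u v

section Eisenstein

variable {K : Type u} [Field K] [NumberField K]

/-- A prime not dividing the discriminant is not in the square of a place over it. -/
theorem natCast_notMem_sq {p : ℕ} (hp : p.Prime) (hd : ¬ (p : ℤ) ∣ NumberField.discr K)
    (v : HeightOneSpectrum (𝓞 K)) (hv : (p : 𝓞 K) ∈ v.asIdeal) :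
    (p : 𝓞 K) ∉ v.asIdeal ^ 2 := by
  intro h
  have hprime : Prime (p : ℤ) := Nat.prime_iff_prime_int.1 hp
  have hunr := (NumberField.not_dvd_discr_iff_forall_mem K (𝓞 K) hprime).1 hd v.asIdeal v.isPrime
    (by simpa using hv)
  have hunder : v.asIdeal.under ℤ = Ideal.span {(p : ℤ)} :=
    ((PrincipalIdealRing.isMaximal_of_irreducible hprime.irreducible).eq_of_le
      (Ideal.IsPrime.ne_top inferInstance) (by
        rw [Ideal.span_singleton_le_iff_mem]
        show algebraMap ℤ (𝓞 K) (p : ℤ) ∈ v.asIdeal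
        rwa [map_natCast])).symm
  have hle : (v.asIdeal.under ℤ).map (algebraMap ℤ (𝓞 K)) ≤ v.asIdeal := Ideal.map_comap_le
  have hsq : (v.asIdeal.under ℤ).map (algebraMap ℤ (𝓞 K)) ≤ v.asIdeal ^ 2 := by
    rw [hunder, Ideal.map_span, Set.image_singleton, map_natCast,
      Ideal.span_singleton_le_iff_mem]
    exact h
  let := Localization.AtPrime.algebraOfLiesOver (v.asIdeal.under ℤ) v.asIdeal
  exact (Ideal.ramificationIdx'_ne_one_iff hle).2 hsq
    (Ideal.ramificationIdx'_eq_one_of_map_localization hle v.ne_bot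
      v.asIdeal.primeCompl_le_nonZeroDivisors
      ((Algebra.isUnramifiedAt_iff_map_eq ℤ (v.asIdeal.under ℤ) v.asIdeal).1 hunr).2)

/-- **The cyclotomic polynomial stays irreducible over a number field unramified at `p`.** -/
theorem irreducible_cyclotomic_of_not_dvd_discr {p : ℕ} (hp : p.Prime)
    (hd : ¬ (p : ℤ) ∣ NumberField.discr K) : Irreducible (cyclotomic p K) := by
  have : Fact p.Prime := ⟨hp⟩
  obtain ⟨P, hP, hpP⟩ := Ideal.exists_le_maximal (Ideal.span {(p : 𝓞 K)}) (by
    rw [Ne, Ideal.span_singleton_eq_top]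
    intro h
    have h' := h.map (Algebra.norm ℤ)
    rw [← map_natCast (algebraMap ℤ (𝓞 K)), Algebra.norm_algebraMap,
      isUnit_pow_iff Module.finrank_pos.ne', Int.isUnit_iff_natAbs_eq, Int.natAbs_natCast] at h'
    exact hp.ne_one h')
  have hmem : (p : 𝓞 K) ∈ P := hpP (Ideal.mem_span_singleton_self _)
  have hne : P ≠ ⊥ := fun h => by
    rw [h, Ideal.mem_bot] at hmem
    exact hp.ne_zero (Nat.cast_eq_zero.1 hmem)
  have hsq := natCast_notMem_sq hp hd ⟨P, hP.isPrime, hne⟩ hmem
  have hmon : ((cyclotomic p (𝓞 K)).comp (X + C 1)).Monic :=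
    (cyclotomic.monic p _).comp (monic_X_add_C 1) (by rw [natDegree_X_add_C]; exact one_ne_zero)
  have hmap : (cyclotomic p (𝓞 K)).comp (X + C 1) =
      ((cyclotomic p ℤ).comp (X + 1)).map (algebraMap ℤ (𝓞 K)) := by
    rw [map_comp, map_cyclotomic, Polynomial.map_add, map_X, Polynomial.map_one, C_1]
  have hE : ((cyclotomic p (𝓞 K)).comp (X + C 1)).IsEisensteinAt P := by
    refine hmon.isEisensteinAt_of_mem_of_notMem hP.ne_top (fun {i} hi => ?_) ?_
    · rw [hmap, Polynomial.natDegree_map_eq_of_injective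
        (FaithfulSMul.algebraMap_injective ℤ (𝓞 K))] at hi
      obtain ⟨c, hc⟩ :=
        Ideal.mem_span_singleton.1 ((cyclotomic_comp_X_add_one_isEisensteinAt p).mem hi)
      rw [hmap, coeff_map, hc, map_mul, map_natCast]
      exact P.mul_mem_right _ hmem
    · rw [coeff_zero_eq_eval_zero, eval_comp, eval_add, eval_X, eval_C, zero_add,
        eval_one_cyclotomic_prime]
      exact hsq
  have hirr : Irreducible ((cyclotomic p (𝓞 K)).comp (X + C 1)) :=
    hE.irreducible hP.isPrime hmon.isPrimitive (by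
      rw [natDegree_comp, natDegree_X_add_C, mul_one, natDegree_cyclotomic]
      exact Nat.totient_pos.2 hp.pos)
  have hirr' : Irreducible (cyclotomic p (𝓞 K)) := by
    rw [← MulEquiv.irreducible_iff (algEquivAevalXAddC (1 : 𝓞 K))]
    rwa [show algEquivAevalXAddC (1 : 𝓞 K) (cyclotomic p (𝓞 K)) =
      (cyclotomic p (𝓞 K)).comp (X + C 1) by simp [comp_eq_aeval]]
  rw [(cyclotomic.monic p _).irreducible_iff_irreducible_map_fraction_map (K := K),
    map_cyclotomic] at hirr'
  exact hirr'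

end Eisenstein

variable {K : Type u} [Field K] [NumberField K] {Kb : Type v} [Field Kb] [Algebra K Kb]
  [CharZero Kb] [IsAlgClosed Kb] [Algebra.IsAlgebraic K Kb]

variable (Kb) in
/-- **The mod `p` cyclotomic character of `K` is onto** for `p` prime to the discriminant. -/
theorem exists_cyclotomic_action {p : ℕ} (hp : p.Prime) (hd : ¬ (p : ℤ) ∣ NumberField.discr K)
    {a : ℕ} (ha : ¬ p ∣ a) :
    ∃ σ : Kb ≃ₐ[K] Kb, ∀ μ : Kb, μ ^ p = 1 → σ μ = μ ^ a := by
  have : IsAlgClosure K Kb := ⟨inferInstance, inferInstance⟩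
  have : Normal K Kb := IsAlgClosure.normal K Kb
  have : NeZero (p : Kb) := ⟨Nat.cast_ne_zero.2 hp.ne_zero⟩
  have : NeZero p := ⟨hp.ne_zero⟩
  obtain ⟨ζ, hζ⟩ := HasEnoughRootsOfUnity.exists_primitiveRoot Kb p
  have hmin : ∀ x : Kb, IsPrimitiveRoot x p → minpoly K x = cyclotomic p K := fun x hx => by
    refine (minpoly.eq_of_irreducible_of_monic (irreducible_cyclotomic_of_not_dvd_discr hp hd) ?_
      (cyclotomic.monic p K)).symm
    rw [aeval_def, eval₂_eq_eval_map, map_cyclotomic]
    exact hx.isRoot_cyclotomic hp.pos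
  obtain ⟨σ, hσ⟩ : ζ ^ a ∈ MulAction.orbit (Kb ≃ₐ[K] Kb) ζ :=
    (Normal.minpoly_eq_iff_mem_orbit Kb).1 (by
      rw [hmin _ (hζ.pow_of_coprime a ((Nat.Prime.coprime_iff_not_dvd hp).2 ha).symm), hmin _ hζ])
  refine ⟨σ, fun μ hμ => ?_⟩
  obtain ⟨i, -, rfl⟩ := hζ.eq_pow_of_pow_eq_one hμ
  rw [map_pow, show σ ζ = ζ ^ a from hσ, ← pow_mul, ← pow_mul, mul_comm]

variable [DecidableEq Kb] (E : WeierstrassCurve K) [E.IsElliptic]

/-- **All invertible maps for all large primes** when `j` is not an algebraic integer. -/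
theorem exists_bound_gl_two (hj : ¬ IsIntegral ℤ E.j) :
    ∃ B : ℕ, ∀ p : ℕ, p.Prime → B < p → ∀ f : Tor Kb E p ≃ₗ[ZMod p] Tor Kb E p,
      ∃ σ : Kb ≃ₐ[K] Kb, ∀ x, f x = σ • x := by
  obtain ⟨B, hB⟩ := exists_bound_det_one (Kb := Kb) E hj
  refine ⟨B + (NumberField.discr K).natAbs, fun p hp hlt f => ?_⟩
  have : Fact p.Prime := ⟨hp⟩
  have hd : ¬ (p : ℤ) ∣ NumberField.discr K := fun h => by
    have := Nat.le_of_dvd (Int.natAbs_pos.2 (NumberField.discr_ne_zero K))
      (Int.natCast_dvd.1 h)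
    omega
  set d := LinearMap.det (f : Tor Kb E p →ₗ[ZMod p] Tor Kb E p) with hd'
  have hd0 : d ≠ 0 := (LinearEquiv.isUnit_det' f).ne_zero
  obtain ⟨τ, hτ⟩ := exists_cyclotomic_action Kb hp hd (a := d.val) fun h => hd0 <| by
    rw [← ZMod.natCast_zmod_val d]
    exact (ZMod.natCast_eq_zero_iff _ _).2 h
  have hdet : LinearMap.det (torRep E p τ) = d := by
    rw [det_torRep E hp τ hτ, ZMod.natCast_zmod_val]
  obtain ⟨σ, hσ⟩ := hB p hp (by omega)
    (torRep E p τ⁻¹ * (f : Tor Kb E p →ₗ[ZMod p] Tor Kb E p)) (by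
      have h1 : LinearMap.det (torRep E p τ⁻¹) * d = 1 := by
        rw [← hdet, ← map_mul, ← map_mul, inv_mul_cancel, map_one, map_one]
      rw [map_mul, ← hd', h1])
  refine ⟨τ * σ, fun x => ?_⟩
  rw [mul_smul, ← hσ x]
  show f x = τ • τ⁻¹ • f x
  rw [smul_inv_smul]

end FA.IsogenyNF

end
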