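import Fermat.Agent.IsogenyNF.FrobeniusDet
import Fermat.Agent.Root.SummaryChebotarevNumberField

/-!
# A place of good reduction at which an automorphism is a Frobenius element

Every automorphism agrees on the coordinates of the points killed by `N` and on the `N`-th roots
of unity with a Frobenius element at a place of good reduction prime to `N`. There it satisfies
the quadratic equation of the `q`-power map.
-/

set_option autoImplicit false
set_option linter.unusedSectionVars false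

noncomputable section

namespace FA.IsogenyNF

open WeierstrassCurve NumberField IsDedekindDomain FA.Local FA.Frob FA.HasseBound
open FA.ClassNumberOne (xP yP)
open scoped WeierstrassCurve.Affine Pointwise

universe u v

variable {K : Type u} [Field K] [NumberField K] {Kb : Type v} [Field Kb] [DecidableEq Kb]
  [Algebra K Kb] [CharZero Kb] [IsAlgClosed Kb] [Algebra.IsAlgebraic K Kb]
  (W : WeierstrassCurve K) [W.IsElliptic]

/-- Congruent `p`-th roots of unity are equal at a place not over `p`. -/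
theorem eq_of_congr_root {L Γ : Type*} [Field L] [LinearOrderedCommGroupWithZero Γ]
    {v : Valuation L Γ} {p : ℕ} (hp : p ≠ 0) (hpv : v (p : L) = 1) {x y : L} (hx : x ^ p = 1)
    (hy : y ^ p = 1) (h : v (x - y) < 1) : x = y := by
  by_contra hne
  have hy0 : y ≠ 0 := fun e => by rw [e, zero_pow hp] at hy; exact zero_ne_one hy
  have hvy : v y = 1 := (pow_eq_one_iff_of_nonneg zero_le hp).1 (by rw [← map_pow, hy, map_one])
  set z := x / y with hz
  have hz1 : z ^ p = 1 := by rw [hz, div_pow, hx, hy, div_one]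
  have hzne : z - 1 ≠ 0 := sub_ne_zero.2 fun e => hne ((div_eq_one_iff_eq hy0).1 e)
  have hzlt : v (z - 1) < 1 := by
    rwa [hz, div_sub_one hy0, map_div₀, hvy, div_one]
  have hvz : v z = 1 := (pow_eq_one_iff_of_nonneg zero_le hp).1 (by rw [← map_pow, hz1, map_one])
  have hsum : ∑ i ∈ Finset.range p, z ^ i = 0 := by
    have := geom_sum_mul z p
    rw [hz1, sub_self] at this
    exact (mul_eq_zero.1 this).resolve_right hzne
  have hlt : v (∑ i ∈ Finset.range p, (z ^ i - 1)) < 1 := by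
    refine v.map_sum_lt one_ne_zero fun i _ => ?_
    rw [← geom_sum_mul z i, map_mul]
    refine lt_of_le_of_lt (mul_le_of_le_one_left' (v.map_sum_le fun j _ => ?_)) hzlt
    rw [map_pow, hvz, one_pow]
  rw [Finset.sum_sub_distrib, hsum, Finset.sum_const, Finset.card_range, nsmul_one, zero_sub,
    v.map_neg, hpv] at hlt
  exact lt_irrefl _ hlt

/-- The numbers at which a Frobenius element is prescribed. -/
def frobSet (p : ℕ) : Set Kb :=
  xP '' {P : (W.toAffine⁄Kb).Point | p • P = 0} ∪ yP '' {P : (W.toAffine⁄Kb).Point | p • P = 0} ∪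
    {μ : Kb | μ ^ p = 1} ∪
    algebraMap K Kb '' {W.a₁, W.a₂, W.a₃, W.a₄, W.a₆, W.Δ⁻¹}

theorem finite_frobSet {p : ℕ} (hp : p ≠ 0) : (frobSet (Kb := Kb) W p).Finite := by
  have h := finite_nsmul_eq_zero (W := W) (Kb := Kb) hp
  refine (((h.image _).union (h.image _)).union ?_).union ((Set.toFinite _).image _)
  refine (Polynomial.nthRoots p (1 : Kb)).toFinset.finite_toSet.subset fun μ hμ => ?_
  rw [Finset.mem_coe, Multiset.mem_toFinset, Polynomial.mem_nthRoots (Nat.pos_of_ne_zero hp)]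
  exact hμ

/-- A place of good reduction prime to `N` at which `σ` is congruent to the `q`-power map,
`q = l ^ n`, on the coordinates of the points killed by `N` and on the `N`-th roots of unity. -/
structure FrobPlace (σ : Kb ≃ₐ[K] Kb) (N : ℕ) where
  /-- The place. -/
  A : ValuationSubring Kb
  /-- The residue characteristic. -/
  l : ℕ
  /-- The degree. -/
  n : ℕ
  prime : l.Prime
  charP : CharP (Res A) l
  pos : n ≠ 0
  level : A.valuation (N : Kb) = 1
  int : IntCoeff A.valuation (W.baseChange Kb).toAffine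
  good : A.valuation (W.baseChange Kb).toAffine.Δ = 1
  congr_coef : ∀ c ∈ [W.a₁, W.a₂, W.a₃, W.a₄, W.a₆],
    A.valuation (algebraMap K Kb c ^ l ^ n - algebraMap K Kb c) < 1
  congr_coord : ∀ P : (W.toAffine⁄Kb).Point, N • P = 0 →
    A.valuation (σ (xP P) - xP P ^ l ^ n) < 1 ∧ A.valuation (σ (yP P) - yP P ^ l ^ n) < 1
  congr_root : ∀ μ : Kb, μ ^ N = 1 → σ μ = μ ^ l ^ n

/-- **Such a place exists.** -/
theorem exists_frobPlace (σ : Kb ≃ₐ[K] Kb) {N : ℕ} (hN : N ≠ 0) : Nonempty (FrobPlace W σ N) := by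
  classical
  have : IsAlgClosure K Kb := ⟨inferInstance, inferInstance⟩
  have : IsGalois K Kb := IsAlgClosure.isGalois K Kb
  have hSfin := finite_frobSet (Kb := Kb) W hN
  set F : IntermediateField K Kb := IntermediateField.adjoin K (frobSet W N) with hFdef
  have : FiniteDimensional K F := by
    have : Finite (frobSet (Kb := Kb) W N) := hSfin.to_subtype
    exact IntermediateField.finiteDimensional_adjoin fun x _ => Algebra.IsIntegral.isIntegral x
  have hnor : Normal K F := IntermediateField.normal_iff_forall_map_le'.2 fun τ => by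
    rw [hFdef, IntermediateField.adjoin_map]
    refine IntermediateField.adjoin.mono K _ _ ?_
    rintro _ ⟨b, (((⟨P, hP, rfl⟩ | ⟨P, hP, rfl⟩) | hb) | ⟨c, hc, rfl⟩), rfl⟩
    · exact Or.inl (Or.inl (Or.inl ⟨τ • P,
        by show N • τ • P = 0; rw [← smul_nsmul', hP, smul_zero], xP_smul τ P⟩))
    · exact Or.inl (Or.inl (Or.inr ⟨τ • P,
        by show N • τ • P = 0; rw [← smul_nsmul', hP, smul_zero], yP_smul τ P⟩))
    · refine Or.inl (Or.inr ?_)
      show (τ b) ^ N = 1
      rw [← map_pow, show b ^ N = 1 from hb, map_one]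
    · exact Or.inr ⟨c, hc, (τ.commutes c).symm⟩
  have : IsGalois K F := ⟨⟩
  have : NumberField F := NumberField.of_module_finite K F
  have hmemF : ∀ x ∈ frobSet W N, x ∈ F := fun x hx => IntermediateField.subset_adjoin K _ hx
  -- a common denominator
  have hfinF : {x : F | (x : Kb) ∈ frobSet W N}.Finite :=
    hSfin.preimage Subtype.val_injective.injOn
  obtain ⟨m, hm0, hm⟩ := exists_integral_multiples (A := ℤ) (K := ℚ) (L := F) hfinF.toFinset
  have hM : m.natAbs * N ≠ 0 := mul_ne_zero (Int.natAbs_ne_zero.2 hm0) hN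
  obtain ⟨v, ⟨Q, hQ, hQv, -, hFrob⟩, hv⟩ :=
    ((FA.Chebotarev.infinite_frobenius (AlgEquiv.restrictNormalHom (F := K) F σ)).sdiff
      (FA.Chebotarev.finite_dvd (K := K) hM)).nonempty
  set τ : F ≃ₐ[K] F := AlgEquiv.restrictNormalHom (F := K) F σ with hτdef
  have hτ : ∀ x : F, ((τ x : F) : Kb) = σ (x : Kb) := fun x =>
    AlgEquiv.restrictNormalHom_apply (F := K) F σ x
  have hnotQ : ((m.natAbs * N : ℕ) : 𝓞 F) ∉ Q := fun h =>
    hv (FA.Chebotarev.absNorm_dvd_of_mem (by rw [← hQv, Ideal.mem_comap, map_natCast]; exact h))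
  have hQbot : Q ≠ ⊥ := Ring.ne_bot_of_isMaximal_of_not_isField hQ (RingOfIntegers.not_isField _)
  let w : HeightOneSpectrum (𝓞 F) := ⟨Q, hQ.isPrime, hQbot⟩
  obtain ⟨A, hA, hloc⟩ := IsLocalRing.exists_factor_valuationRing
    ((algebraMap F Kb).comp (w.valuation F).valuationSubring.subtype)
  have hle : ∀ x : F, w.valuation F x ≤ 1 → A.valuation (algebraMap F Kb x) ≤ 1 := fun x hx =>
    (A.valuation_le_one_iff _).2 (hA ⟨x, hx⟩)
  have hlt : ∀ x : F, w.valuation F x < 1 → A.valuation (algebraMap F Kb x) < 1 := fun x hx => by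
    refine lt_of_le_of_ne (hle x hx.le) fun h1 => hx.ne ?_
    have hu := hloc.map_nonunit (⟨x, hx.le⟩ : (w.valuation F).valuationSubring)
      ((A.valuation_eq_one_iff ⟨_, hA ⟨x, hx.le⟩⟩).2 h1)
    obtain ⟨y, hy⟩ := hu.exists_right_inv
    have hy' := congrArg (w.valuation F) (congrArg Subtype.val hy)
    rw [MulMemClass.coe_mul, map_mul] at hy'
    simp only [OneMemClass.coe_one, map_one] at hy'
    exact le_antisymm hx.le (hy'.symm.le.trans (mul_le_of_le_one_right' y.2))
  have hint : ∀ x : 𝓞 F, A.valuation ((x : F) : Kb) ≤ 1 := fun x => hle _ (w.valuation_le_one x)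
  have hQlt : ∀ x : 𝓞 F, x ∈ Q → A.valuation ((x : F) : Kb) < 1 := fun x hx =>
    hlt _ ((HeightOneSpectrum.valuation_lt_one_iff_mem w x).2 hx)
  have hunit : ∀ k : ℕ, (k : 𝓞 F) ∉ Q → A.valuation (k : Kb) = 1 := fun k hk => by
    have h1 : w.valuation F (k : F) = 1 := by
      refine le_antisymm (by simpa using w.valuation_le_one (k : 𝓞 F)) (not_lt.1 fun h => hk ?_)
      exact (HeightOneSpectrum.valuation_lt_one_iff_mem w _).1 (by simpa using h)
    have h2 : A.valuation (algebraMap F Kb (k : F)⁻¹) ≤ 1 :=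
      hle _ (by rw [map_inv₀, h1, inv_one])
    have h3 : A.valuation (algebraMap F Kb (k : F)) ≤ 1 := hle _ h1.le
    rw [map_inv₀, map_inv₀, map_natCast] at h2
    rw [map_natCast] at h3
    refine le_antisymm h3 ?_
    have hk0 : (k : Kb) ≠ 0 :=
      Nat.cast_ne_zero.2 fun e => hk (by rw [e, Nat.cast_zero]; exact Q.zero_mem)
    rwa [inv_le_one₀ (A.valuation.pos_iff.2 hk0)] at h2
  have hvm : A.valuation (m : Kb) = 1 := by
    have h := hunit m.natAbs fun h => hnotQ (by rw [Nat.cast_mul]; exact Q.mul_mem_right _ h)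
    have e' := Int.natAbs_eq m
    generalize m.natAbs = k at h e'
    rcases e' with rfl | rfl <;> simp [h]
  have hvp : A.valuation (N : Kb) = 1 :=
    hunit N fun h => hnotQ (by rw [Nat.cast_mul]; exact Q.mul_mem_left _ h)
  -- the residue field of `v`
  obtain ⟨l, hl, hlv⟩ := FA.Ext.exists_rat_prime_mem v
  have hlQ : (l : 𝓞 F) ∈ Q := by
    rw [← hQv, Ideal.mem_comap, map_natCast] at hlv
    exact hlv
  have hvl : A.valuation (l : Kb) < 1 := by simpa using hQlt _ hlQ
  have hchar := FA.Frob.residueField_charP A hl (A.mem_nonunits_iff.2 hvl)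
  obtain ⟨n, hn0, hq⟩ : ∃ n : ℕ, n ≠ 0 ∧ Nat.card (𝓞 K ⧸ v.asIdeal) = l ^ n := by
    have := v.isMaximal
    let _ := Ideal.Quotient.field v.asIdeal
    have : Finite (𝓞 K ⧸ v.asIdeal) := Ideal.finiteQuotientOfFreeOfNeBot _ v.ne_bot
    let _ := Fintype.ofFinite (𝓞 K ⧸ v.asIdeal)
    have : CharP (𝓞 K ⧸ v.asIdeal) l := (CharP.charP_iff_prime_eq_zero hl).2 (by
      rw [← map_natCast (Ideal.Quotient.mk v.asIdeal), Ideal.Quotient.eq_zero_iff_mem]
      exact hlv)
    obtain ⟨n, -, hcard⟩ := FiniteField.card (𝓞 K ⧸ v.asIdeal) l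
    exact ⟨n, n.ne_zero, by rw [Nat.card_eq_fintype_card, hcard]⟩
  have hcongr : ∀ x : 𝓞 F, A.valuation (σ ((x : F) : Kb) - ((x : F) : Kb) ^ l ^ n) < 1 :=
      fun x => by
    have h := hFrob x
    rw [hQv, hq] at h
    have h' := hQlt _ h
    have e : ((((MulSemiringAction.toAlgHom (𝓞 K) (𝓞 F) τ) x - x ^ l ^ n : 𝓞 F) : F) : Kb) =
        σ ((x : F) : Kb) - ((x : F) : Kb) ^ l ^ n := by
      rw [← hτ]
      push_cast
      rfl
    rwa [e] at h'
  have key : ∀ x ∈ frobSet W N,
      A.valuation x ≤ 1 ∧ A.valuation (σ x - x ^ l ^ n) < 1 := fun x hx => by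
    have hi := hm ⟨x, hmemF x hx⟩ (hfinF.mem_toFinset.2 hx)
    have c1 := hcongr ⟨_, hi⟩
    have c2 := hint ⟨_, hi⟩
    have c3 := hcongr (m : 𝓞 F)
    have e : (((m • (⟨x, hmemF x hx⟩ : F)) : F) : Kb) = (m : Kb) * x := by
      rw [zsmul_eq_mul]; push_cast; rfl
    change A.valuation (σ (((m • (⟨x, hmemF x hx⟩ : F)) : F) : Kb) -
      (((m • (⟨x, hmemF x hx⟩ : F)) : F) : Kb) ^ l ^ n) < 1 at c1
    change A.valuation (((m • (⟨x, hmemF x hx⟩ : F)) : F) : Kb) ≤ 1 at c2
    rw [e] at c1 c2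
    rw [map_mul, hvm, one_mul] at c2
    simp only [map_intCast] at c3
    push_cast at c3
    rw [map_intCast] at c3
    rw [map_mul, map_intCast, mul_pow] at c1
    refine ⟨c2, ?_⟩
    have hd := A.valuation.map_sub_lt c1 (map_mul_lt_one' c3 (map_pow_le_one c2 (l ^ n)))
    rwa [show (m : Kb) * σ x - (m : Kb) ^ l ^ n * x ^ l ^ n -
        ((m : Kb) - (m : Kb) ^ l ^ n) * x ^ l ^ n = (m : Kb) * (σ x - x ^ l ^ n) by ring, map_mul,
      hvm, one_mul] at hd
  have hcoefS : ∀ c ∈ [W.a₁, W.a₂, W.a₃, W.a₄, W.a₆], algebraMap K Kb c ∈ frobSet W N := by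
    intro c hc
    refine Or.inr ⟨c, ?_, rfl⟩
    simp only [List.mem_cons, List.not_mem_nil, or_false] at hc
    rcases hc with rfl | rfl | rfl | rfl | rfl <;> simp
  have hI : IntCoeff A.valuation (W.baseChange Kb).toAffine :=
    ⟨(key _ (hcoefS _ (by simp))).1, (key _ (hcoefS _ (by simp))).1,
      (key _ (hcoefS _ (by simp))).1, (key _ (hcoefS _ (by simp))).1,
      (key _ (hcoefS _ (by simp))).1⟩
  have hΔ : A.valuation (W.baseChange Kb).toAffine.Δ = 1 := by
    refine le_antisymm ?_ ?_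
    · rw [A.valuation_le_one_iff, ← FA.Frob.intModel_map A _ hI, map_Δ]
      exact ((FA.Frob.intModel A _ hI).Δ).2
    · have h := (key (algebraMap K Kb W.Δ⁻¹) (Or.inr ⟨_, by simp, rfl⟩)).1
      rw [map_inv₀, map_inv₀, inv_le_one₀ (A.valuation.pos_iff.2
        ((map_ne_zero _).2 W.isUnit_Δ.ne_zero))] at h
      show 1 ≤ A.valuation (W.baseChange Kb).Δ
      rwa [WeierstrassCurve.baseChange, map_Δ]
  exact ⟨{
    A := A, l := l, n := n, prime := hl, charP := hchar, pos := hn0, level := hvp, int := hI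
    good := hΔ
    congr_coef := fun c hc => by
      have h := (key _ (hcoefS c hc)).2
      rwa [σ.commutes, A.valuation.map_sub_swap] at h
    congr_coord := fun P hP => ⟨(key _ (Or.inl (Or.inl (Or.inl ⟨P, hP, rfl⟩)))).2,
      (key _ (Or.inl (Or.inl (Or.inr ⟨P, hP, rfl⟩)))).2⟩
    congr_root := fun μ hμ => eq_of_congr_root hN hvp (by rw [← map_pow, hμ, map_one])
      (by rw [← pow_mul, mul_comm, pow_mul, hμ, one_pow]) (key μ (Or.inl (Or.inr hμ))).2 }⟩

end FA.IsogenyNF

end
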