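import Fermat.Agent.IsogenyNF.Transvection
import Fermat.Agent.IsogenyNF.Transfer
import Mathlib.RingTheory.Ideal.Norm.AbsNorm

/-!
# An element of order `p` on the torsion for large `p`, from a pole of the invariant

The equation `y² + x y = x³ - 36 x / (j - 1728) - 1 / (j - 1728)` is nodal at the poles of `j`. A
curve with the same invariant becomes isomorphic to it over an extension of degree at most two, so
the squares of the automorphisms act in the same way on the two.
-/

set_option autoImplicit false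
set_option linter.unusedSectionVars false

noncomputable section

namespace FA.IsogenyNF

open WeierstrassCurve NumberField IsDedekindDomain FA.Local
open scoped WeierstrassCurve.Affine

universe u v

variable {K : Type u} [Field K]

/-- The model which is nodal at the poles of `j`. -/
def poleModel (j : K) : WeierstrassCurve K := ⟨1, 0, 0, -36 / (j - 1728), -1 / (j - 1728)⟩

theorem poleModel_c₄ {j : K} (h : j - 1728 ≠ 0) : (poleModel j).c₄ = j / (j - 1728) := by
  simp only [poleModel, WeierstrassCurve.c₄, WeierstrassCurve.b₂, WeierstrassCurve.b₄]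
  field_simp
  ring

theorem poleModel_Δ {j : K} (h : j - 1728 ≠ 0) :
    (poleModel j).Δ = j ^ 2 / (j - 1728) ^ 3 := by
  simp only [poleModel, WeierstrassCurve.Δ, WeierstrassCurve.b₂, WeierstrassCurve.b₄,
    WeierstrassCurve.b₆, WeierstrassCurve.b₈]
  field_simp
  ring

theorem poleModel_isElliptic {j : K} (h0 : j ≠ 0) (h : j - 1728 ≠ 0) :
    (poleModel j).IsElliptic := by
  rw [isElliptic_iff, poleModel_Δ h, isUnit_iff_ne_zero]
  exact div_ne_zero (pow_ne_zero 2 h0) (pow_ne_zero 3 h)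

theorem poleModel_j {j : K} (h0 : j ≠ 0) (h : j - 1728 ≠ 0) [(poleModel j).IsElliptic] :
    (poleModel j).j = j := by
  rw [WeierstrassCurve.j, Units.val_inv_eq_inv_val, coe_Δ', poleModel_Δ h, poleModel_c₄ h]
  field_simp

variable [NumberField K]

/-- The model at a pole of `j`. -/
theorem poleModel_at (v : HeightOneSpectrum (𝓞 K)) {j : K} (hj : 1 < v.valuation K j) :
    j ≠ 0 ∧ j - 1728 ≠ 0 ∧ IntCoeff (v.valuation K) (poleModel j).toAffine ∧
      v.valuation K (poleModel j).c₄ = 1 ∧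
      v.valuation K (poleModel j).Δ = (v.valuation K j)⁻¹ := by
  set w := v.valuation K
  have hint : ∀ n : ℕ, w (n : K) ≤ 1 := fun n => by
    simpa only [map_natCast] using v.valuation_le_one (K := K) (n : 𝓞 K)
  have hs : w (j - 1728) = w j :=
    Valuation.map_sub_eq_of_lt_left _ ((hint 1728).trans_lt hj)
  have hj0 : j ≠ 0 := fun h => by rw [h, map_zero] at hj; exact absurd hj (not_lt.2 zero_le)
  have hwj : w j ≠ 0 := w.ne_zero_iff.2 hj0
  have hs0 : j - 1728 ≠ 0 := w.ne_zero_iff.1 (hs ▸ hwj)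
  refine ⟨hj0, hs0, ⟨(map_one w).le, ?_, ?_, ?_, ?_⟩, ?_, ?_⟩
  · show w 0 ≤ 1
    simp
  · show w 0 ≤ 1
    simp
  · show w (-36 / (j - 1728)) ≤ 1
    rw [map_div₀, w.map_neg, hs]
    exact div_le_one_of_le₀ ((hint 36).trans hj.le) zero_le
  · show w (-1 / (j - 1728)) ≤ 1
    rw [map_div₀, w.map_neg, map_one, hs]
    exact div_le_one_of_le₀ hj.le zero_le
  · rw [poleModel_c₄ hs0, map_div₀, hs, div_self hwj]
  · rw [poleModel_Δ hs0, map_div₀, map_pow, map_pow, hs]
    field_simp

/-- A place over large primes has residue characteristic different from them. -/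
theorem valuation_natCast_eq_one (v : HeightOneSpectrum (𝓞 K)) {p : ℕ} (hp : p.Prime)
    (hlt : Ideal.absNorm v.asIdeal < p) : v.valuation K (p : K) = 1 := by
  rw [← map_natCast (algebraMap (𝓞 K) K), HeightOneSpectrum.valuation_of_algebraMap,
    HeightOneSpectrum.intValuation_eq_one_iff]
  intro hmem
  have h0 : 0 < Ideal.absNorm v.asIdeal := Nat.pos_of_ne_zero fun h =>
    v.ne_bot (Ideal.absNorm_eq_zero_iff.1 h)
  have hcop : Nat.Coprime p (Ideal.absNorm v.asIdeal) :=
    hp.coprime_iff_not_dvd.2 fun h => absurd (Nat.le_of_dvd h0 h) (not_le.2 hlt)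
  obtain ⟨a, b, hab⟩ := Nat.isCoprime_iff_coprime.2 hcop
  refine v.isPrime.ne_top ((Ideal.eq_top_iff_one _).2 ?_)
  have h1 : ((a * p + b * Ideal.absNorm v.asIdeal : ℤ) : 𝓞 K) ∈ v.asIdeal := by
    push_cast
    exact add_mem (Ideal.mul_mem_left _ _ hmem)
      (Ideal.mul_mem_left _ _ (Ideal.absNorm_mem v.asIdeal))
  rwa [hab, Int.cast_one] at h1

variable {Kb : Type v} [Field Kb] [DecidableEq Kb] [Algebra K Kb] [CharZero Kb] [IsAlgClosed Kb]
  [Algebra.IsAlgebraic K Kb]

/-- The short models are isomorphic, equivariantly for the squares of automorphisms. -/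
theorem exists_twist_short {E E' : WeierstrassCurve K} [E.IsElliptic] [E'.IsElliptic]
    [(shortModel E).IsElliptic] [(shortModel E').IsElliptic] (hj : E.j = E'.j) (h0 : E.j ≠ 0)
    (h1728 : E.j ≠ 1728) :
    ∃ e : ((shortModel E).toAffine⁄Kb).Point ≃+ ((shortModel E').toAffine⁄Kb).Point,
      ∀ (σ : Kb ≃ₐ[K] Kb) P, e (σ ^ 2 • P) = σ ^ 2 • e P := by
  have key : ∀ F : WeierstrassCurve K, ∀ [F.IsElliptic], F.j * F.Δ = F.c₄ ^ 3 := fun F _ => by
    rw [WeierstrassCurve.j, Units.val_inv_eq_inv_val, coe_Δ']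
    field_simp [F.isUnit_Δ.ne_zero]
  have hc4 : ∀ F : WeierstrassCurve K, ∀ [F.IsElliptic], F.j = E.j → F.c₄ ≠ 0 ∧ F.c₆ ≠ 0 :=
    fun F _ hF => by
    constructor <;> intro h
    · have := key F
      rw [h, hF, zero_pow three_ne_zero, mul_eq_zero] at this
      exact this.elim h0 F.isUnit_Δ.ne_zero
    · have h2 := F.c_relation
      rw [h, zero_pow two_ne_zero, sub_zero, ← key F, hF] at h2
      exact h1728 (mul_right_cancel₀ F.isUnit_Δ.ne_zero h2).symm
  obtain ⟨a4, a6⟩ := hc4 E rfl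
  obtain ⟨b4, b6⟩ := hc4 E' hj.symm
  have hcross : E.c₄ ^ 3 * E'.c₆ ^ 2 = E'.c₄ ^ 3 * E.c₆ ^ 2 := by
    have e1 := key E
    have e2 := key E'
    rw [← hj] at e2
    linear_combination E.c₄ ^ 3 * E'.c_relation - E'.c₄ ^ 3 * E.c_relation +
      1728 * E'.Δ * e1 - 1728 * E.Δ * e2
  set l : K := E'.c₆ / E.c₆ * (E.c₄ / E'.c₄) with hl
  have hl0 : l ≠ 0 := mul_ne_zero (div_ne_zero b6 a6) (div_ne_zero a4 b4)
  have h4 : l ^ 2 * E.c₄ = E'.c₄ := by
    rw [hl]; field_simp; linear_combination hcross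
  have h6 : l ^ 3 * E.c₆ = E'.c₆ := by
    rw [hl]; field_simp; linear_combination hcross
  obtain ⟨w, hw⟩ := IsAlgClosed.exists_pow_nat_eq (algebraMap K Kb l) (n := 2) two_pos
  have hw0 : w ≠ 0 := fun h => by
    rw [h, zero_pow two_ne_zero] at hw
    exact hl0 ((map_eq_zero _).1 hw.symm)
  let C : VariableChange Kb := ⟨Units.mk0 w⁻¹ (inv_ne_zero hw0), 0, 0, 0⟩
  have hC : C • (shortModel E).baseChange Kb = (shortModel E').baseChange Kb := by
    ext <;> simp only [WeierstrassCurve.baseChange, shortModel, variableChange_a₁,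
      variableChange_a₂, variableChange_a₃, variableChange_a₄, variableChange_a₆, C, map_a₁,
      map_a₂, map_a₃, map_a₄, map_a₆, map_zero, map_div₀, map_neg, map_ofNat,
      Units.val_inv_eq_inv_val, Units.val_mk0, inv_inv]
    · ring
    · ring
    · ring
    · rw [← h4, map_mul, map_pow, ← hw]; ring
    · rw [← h6, map_mul, map_pow, ← hw]; ring
  have hsq : ∀ σ : Kb ≃ₐ[K] Kb, (σ ^ 2) w = w := fun σ => by
    have h : σ w ^ 2 = w ^ 2 := by rw [← map_pow, hw, σ.commutes]
    rw [pow_two, AlgEquiv.mul_apply]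
    rcases sq_eq_sq_iff_eq_or_eq_neg.1 h with e | e
    · rw [e, e]
    · rw [e, map_neg, e, neg_neg]
  refine ⟨(FA.Frob.vcEquiv C hC).symm, fun σ P => ?_⟩
  set τ := σ ^ 2
  have hτ : ∀ R, FA.Frob.vcEquiv C hC (τ • R) =
      (τ • (FA.Frob.vcEquiv C hC R : ((shortModel E).toAffine⁄Kb).Point) :
        ((shortModel E).toAffine⁄Kb).Point) := fun R => by
    rcases R with _ | ⟨x, y, h⟩
    · rw [← Affine.Point.zero_def, smul_zero, map_zero]
      exact (smul_zero τ).symm
    · simp only [Affine.Point.algEquiv_smul_def, Affine.Point.map_some]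
      rw [FA.Frob.vcEquiv_some, FA.Frob.vcEquiv_some]
      have hw' : σ (σ w) = w := by rw [← AlgEquiv.mul_apply, ← pow_two]; exact hsq σ
      exact (Affine.Point.some.injEq ..).mpr
        ⟨by simp [FA.Frob.vcX, C, τ, hw'], by simp [FA.Frob.vcY, C, τ, hw']⟩
  apply (FA.Frob.vcEquiv C hC).injective
  rw [hτ, AddEquiv.apply_symm_apply, AddEquiv.apply_symm_apply]

/-- The same for the curves themselves. -/
theorem exists_twist {E E' : WeierstrassCurve K} [E.IsElliptic] [E'.IsElliptic]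
    (hj : E.j = E'.j) (h0 : E.j ≠ 0) (h1728 : E.j ≠ 1728) :
    ∃ e : (E.toAffine⁄Kb).Point ≃+ (E'.toAffine⁄Kb).Point,
      ∀ (σ : Kb ≃ₐ[K] Kb) P, e (σ ^ 2 • P) = σ ^ 2 • e P := by
  obtain ⟨C, hC⟩ := exists_variableChange E
  obtain ⟨C', hC'⟩ := exists_variableChange E'
  have : (shortModel E).IsElliptic := hC ▸ inferInstance
  have : (shortModel E').IsElliptic := hC' ▸ inferInstance
  obtain ⟨e, he⟩ := exists_twist_short (Kb := Kb) hj h0 h1728
  have h1 : C.map (algebraMap K Kb) • E.baseChange Kb = (shortModel E).baseChange Kb := by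
    simp only [WeierstrassCurve.baseChange, map_variableChange, hC]
  have h2 : C'.map (algebraMap K Kb) • E'.baseChange Kb = (shortModel E').baseChange Kb := by
    simp only [WeierstrassCurve.baseChange, map_variableChange, hC']
  let a : ((shortModel E).toAffine⁄Kb).Point ≃+ (E.toAffine⁄Kb).Point := FA.Frob.vcEquiv _ h1
  let b : ((shortModel E').toAffine⁄Kb).Point ≃+ (E'.toAffine⁄Kb).Point := FA.Frob.vcEquiv _ h2
  refine ⟨(a.symm.trans e).trans b, fun σ P => ?_⟩
  have ha : a.symm (σ ^ 2 • P) = σ ^ 2 • a.symm P := a.injective (by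
    rw [a.apply_symm_apply]
    exact ((vcEquiv_smul h1 _ _).trans (by rw [show FA.Frob.vcEquiv _ h1 (a.symm P) = P from
      a.apply_symm_apply P])).symm)
  show b (e (a.symm (σ ^ 2 • P))) = σ ^ 2 • b (e (a.symm P))
  rw [ha, he]
  exact vcEquiv_smul h2 _ _

/-- **An element of order `p` on the `p`-torsion for all large `p`** when `j` is not integral. -/
theorem exists_order_p_of_pole (E : WeierstrassCurve K) [E.IsElliptic]
    (hj : ¬ IsIntegral ℤ E.j) :
    ∃ B : ℕ, ∀ p : ℕ, p.Prime → B < p →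
      ∃ σ : Kb ≃ₐ[K] Kb, (∀ P : (E.toAffine⁄Kb).Point, p • P = 0 → (σ ^ p) • P = P) ∧
        ∃ P : (E.toAffine⁄Kb).Point, p • P = 0 ∧ σ • P ≠ P := by
  obtain ⟨v, hv⟩ : ∃ v : HeightOneSpectrum (𝓞 K), 1 < v.valuation K E.j := by
    by_contra! hall
    obtain ⟨x, hx⟩ := HeightOneSpectrum.mem_integers_of_valuation_le_one K E.j hall
    exact hj (hx ▸ x.2)
  obtain ⟨h0, h1728, hI, hc, hΔ⟩ := poleModel_at v hv
  have := poleModel_isElliptic h0 h1728
  obtain ⟨k, hk⟩ : ∃ k : ℤ, v.valuation K E.j = WithZero.exp k :=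
    ⟨_, (WithZero.exp_log fun h => by rw [h] at hv; exact absurd hv (not_lt.2 zero_le)).symm⟩
  have hk0 : 0 < k := by rwa [hk, ← WithZero.exp_zero, WithZero.exp_lt_exp] at hv
  obtain ⟨N, rfl⟩ := Int.eq_ofNat_of_zero_le hk0.le
  rw [hk, ← WithZero.exp_neg] at hΔ
  have hN : 0 < N := by exact_mod_cast hk0
  refine ⟨N + Ideal.absNorm v.asIdeal + 2, fun p hp hBp => ?_⟩
  have hodd : Odd p := hp.odd_of_ne_two (by omega)
  obtain ⟨σ, hσp, P, hP, hne⟩ := exists_order_p (Kb := Kb) (poleModel E.j) v hI hN hΔ hc hp hodd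
    (valuation_natCast_eq_one v hp (by omega))
    fun h => absurd (Nat.le_of_dvd hN h) (by omega)
  obtain ⟨e, he⟩ := exists_twist (Kb := Kb) (E := E) (E' := poleModel E.j)
    (poleModel_j h0 h1728).symm h0 (fun h => h1728 (by rw [h, sub_self]))
  refine ⟨σ ^ 2, fun Q hQ => e.injective ?_, e.symm P, e.injective ?_, fun h => hne ?_⟩
  · have hQ' : p • e Q = 0 := by rw [← map_nsmul, hQ, map_zero]
    rw [← pow_mul, mul_comm, pow_mul, he, sq, mul_smul, hσp _ hQ', hσp _ hQ']
  · rw [map_nsmul, e.apply_symm_apply, hP, map_zero]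
  · have h2 := congrArg e h
    rw [he, e.apply_symm_apply] at h2
    obtain ⟨m, rfl⟩ := hodd
    have h2m : (σ ^ (2 * m)) • P = P := by
      rw [pow_mul]
      exact MulAction.mem_stabilizer_iff.1
        (Subgroup.pow_mem _ (MulAction.mem_stabilizer_iff.2 h2) m)
    have h3 := hσp P hP
    rw [pow_succ', mul_smul, h2m] at h3
    exact h3

end FA.IsogenyNF

end
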