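import Fermat.Agent.Local.Multiplicative
import Fermat.Agent.Local.Torsion
import Fermat.Agent.LocalDef.NodeChar
import Fermat.Agent.EC.TorsionCard
import Mathlib.RingTheory.RootsOfUnity.AlgebraicallyClosed

/-!
# Torsion outside nonsingular reduction at a node

For a nodal equation over a valued algebraically closed field in which the prime `p` is a unit, at
most `p` points killed by `p` reduce to nonsingular points: the character of the node sends them
to the `p`-th roots of unity. So some point reduces to the node, where the value of the derivative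
is a fractional power of the value of the discriminant.
-/

set_option autoImplicit false
set_option linter.unusedSectionVars false

noncomputable section

namespace FA.IsogenyNF

open WeierstrassCurve FA.Local
open FA.LocalDef (nodeChar nodeChar_unit nodeChar_add nodeChar_nsmul nodeChar_e1 e1_of_nodeChar)
open scoped WeierstrassCurve.Affine

variable {L Γ : Type*} [Field L] [CharZero L] [IsAlgClosed L] [DecidableEq L]
  [LinearOrderedCommGroupWithZero Γ] {v : Valuation L Γ} {p : ℕ}

/-- A unit whose power is congruent to one is congruent to a root of unity. -/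
theorem exists_root_congr (hp : p.Prime) {c : L} (hc : v c ≤ 1) (h : v (c ^ p - 1) < 1) :
    ∃ ζ ∈ Polynomial.nthRootsFinset p (1 : L), v (c - ζ) < 1 := by
  classical
  have : NeZero (p : L) := ⟨Nat.cast_ne_zero.2 hp.ne_zero⟩
  obtain ⟨ζ₀, hζ₀⟩ := HasEnoughRootsOfUnity.exists_primitiveRoot L p
  have hprod := congrArg (Polynomial.eval c) (Polynomial.X_pow_sub_one_eq_prod hp.pos hζ₀)
  simp only [Polynomial.eval_sub, Polynomial.eval_pow, Polynomial.eval_X, Polynomial.eval_one,
    Polynomial.eval_prod, Polynomial.eval_C] at hprod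
  by_contra! hne
  refine h.ne ?_
  rw [hprod, map_prod]
  refine Finset.prod_eq_one fun ζ hζ => le_antisymm (v.map_sub_le hc ?_) (hne ζ hζ)
  rw [Polynomial.mem_nthRootsFinset hp.pos] at hζ
  refine le_of_eq (pow_eq_one_iff_of_nonneg zero_le hp.ne_zero |>.1 ?_)
  rw [← map_pow, hζ, map_one]

/-- **At most `p` points killed by `p`** reduce to nonsingular points of a node. -/
theorem exists_not_e0 {V : WeierstrassCurve L} [V.IsElliptic] (hN : Node v V.toAffine)
    (hp : p.Prime) (hodd : Odd p) (hpv : v (p : L) = 1) :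
    ∃ P : V.toAffine.Point, p • P = 0 ∧ ¬ E0 v V.toAffine P := by
  classical
  by_contra! hall
  obtain ⟨s, hs⟩ : ∃ s : L, v (qb V.toAffine s) < 1 := by
    obtain ⟨t, ht⟩ := IsAlgClosed.exists_root (Polynomial.C 1 * Polynomial.X ^ 2
      + Polynomial.C V.a₁ * Polynomial.X + Polynomial.C (-V.a₂)) (by
        rw [Polynomial.degree_quadratic one_ne_zero]; exact two_ne_zero)
    simp only [Polynomial.IsRoot.def, Polynomial.eval_add, Polynomial.eval_mul, Polynomial.eval_C,
      Polynomial.eval_pow, Polynomial.eval_X, one_mul] at ht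
    refine ⟨t, ?_⟩
    rw [show qb V.toAffine t = 0 by simp only [qb]; linear_combination ht, map_zero]
    exact zero_lt_one
  let c : V.toAffine.Point → L := nodeChar v V.toAffine s
  have hroot : ∀ P : {P : V.toAffine.Point // p • P = 0},
      ∃ ζ ∈ Polynomial.nthRootsFinset p (1 : L), v (c P.1 - ζ) < 1 := fun P => by
    refine exists_root_congr hp (nodeChar_unit hN hs (hall _ P.2)).le ?_
    have h := nodeChar_nsmul hN hs (hall _ P.2) p
    rwa [P.2, nodeChar_e1 e1_zero, v.map_sub_swap] at h
  choose f hf hfc using hroot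
  have hinj : Function.Injective fun P => (⟨f P, hf P⟩ : Polynomial.nthRootsFinset p (1 : L)) := by
    intro P Q hPQ
    have he : f P = f Q := congrArg Subtype.val hPQ
    have hpD : p • (P.1 - Q.1) = 0 := by rw [nsmul_sub, P.2, Q.2, sub_zero]
    have hD := hall _ hpD
    refine Subtype.ext (sub_eq_zero.1 (eq_zero_of_e1_of_nsmul hN.hI hodd hpv
      (e1_of_nodeChar hN hs hD ?_) hpD))
    have hPQ' : v (c P.1 - c Q.1) < 1 := by
      have h1 := hfc Q
      rw [← he] at h1
      simpa using v.map_sub_lt (hfc P) h1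
    have hm := nodeChar_add hN hs hD (hall _ Q.2)
    rw [sub_add_cancel] at hm
    have h3 := v.map_sub_lt hPQ' hm
    rw [show c P.1 - c Q.1 - (nodeChar v V.toAffine s P.1 -
        nodeChar v V.toAffine s (P.1 - Q.1) * nodeChar v V.toAffine s Q.1) =
        (nodeChar v V.toAffine s (P.1 - Q.1) - 1) * c Q.1 by simp only [c]; ring, map_mul,
      show v (c Q.1) = 1 from nodeChar_unit hN hs (hall _ Q.2), mul_one] at h3
    exact h3
  have h2 : Nat.card {P : V.toAffine.Point // p • P = 0} = p ^ 2 :=
    FA.EC.natCard_nsmul_eq_zero V (Nat.cast_ne_zero.2 hp.ne_zero)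
  have h3 := Nat.card_le_card_of_injective _ hinj
  rw [h2, Nat.card_eq_fintype_card, Fintype.card_coe] at h3
  have h4 : (Polynomial.nthRootsFinset p (1 : L)).card ≤ p := by
    rw [Polynomial.nthRootsFinset_def]
    exact (Multiset.toFinset_card_le _).trans (Polynomial.card_nthRoots p _)
  nlinarith [hp.two_le]

/-- **The derivative at a torsion point over a node** has value a fractional power of the value of
the discriminant, with exponent `i / p`, `0 < i < p`. -/
theorem exists_torsion_fy {V : WeierstrassCurve L} [V.IsElliptic] (hI : IntCoeff v V.toAffine)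
    (hΔ : v V.Δ < 1) (hc : v V.c₄ = 1) (hp : p.Prime) (hodd : Odd p) (hpv : v (p : L) = 1) :
    ∃ (X Y : L) (h : V.toAffine.Nonsingular X Y) (i : ℕ), p • Affine.Point.some X Y h = 0 ∧
      0 < i ∧ i < p ∧ v (fy V.toAffine X Y) ^ p = v V.Δ ^ i := by
  obtain ⟨r, hr, hr1, hN⟩ := FA.Local.exists_node hI two_ne_zero hΔ V.isUnit_Δ.ne_zero hc
  obtain ⟨P, hP, hPE⟩ := exists_not_e0 (V := toOrigin V r) hN hp hodd hpv
  rcases hN.e0_or_br hodd hP with h0 | ⟨g, s, hbr⟩
  · exact absurd h0 hPE
  obtain ⟨i, hi⟩ := hN.pow_eq_of_torsion_even hp hbr hP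
  obtain ⟨x, y, hxy, rfl⟩ := hbr.exists_eq
  obtain ⟨hXY, hPe⟩ := originEquiv_some hxy
  rw [br_some] at hbr
  obtain ⟨rfl, hlo, hhi, -, -⟩ := hbr
  have hx : x ≠ 0 := v.pos_iff.mp (lt_of_le_of_lt zero_le hlo)
  have hb := hN.br_self hxy hlo hhi
  rw [br_some] at hb
  refine ⟨x + r, y + halfY V r, hXY, i, by rw [← hPe, ← map_nsmul, hP, map_zero], ?_, ?_, ?_⟩
  · rcases Nat.eq_zero_or_pos i with rfl | h
    · rw [mul_zero, pow_zero] at hi
      exact absurd hi (pow_lt_one₀ zero_le hhi hp.ne_zero).ne
    · exact h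
  · by_contra hc'
    have h1 := pow_lt_pow_left₀ hlo zero_le hp.ne_zero
    rw [hi] at h1
    exact absurd h1 (not_lt.mpr (pow_le_pow_right_of_le_one' hN.hb.le (by omega)))
  · have hu : v (discB V r ^ 2 - 64 * (toOrigin V r).a₄) = 1 := by
      have hB : v (discB V r ^ 2) = 1 := by
        rw [map_pow, ← toOrigin_disc,
          show v ((toOrigin V r).a₁ ^ 2 + 4 * (toOrigin V r).a₂) = 1 from hN.hdisc, one_pow]
      refine eq_one_of_sub_lt hB ?_
      rw [sub_sub_cancel_left, v.map_neg]
      exact map_mul_lt_one (natCast_le_one 64) hN.hb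
    rw [toOrigin_Δ_eq two_ne_zero hr, map_mul, map_pow, hu, mul_one, ← pow_mul, ← hi,
      fy_origin two_ne_zero, fy, hN.h₃, add_zero,
      show 2 * y + (toOrigin V r).toAffine.a₁ * x =
        (2 * (y / x) + (toOrigin V r).toAffine.a₁) * x by field_simp, map_mul,
      hN.unit_root hb.2.2.2.2, one_mul]

end FA.IsogenyNF

end
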