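import Fermat.Agent.IsogenyNF.Lattice
import Mathlib.Algebra.Module.ZLattice.Basic

/-!
# Lattices containing a lattice with finite index

Such a subgroup of `ℂ` is a lattice, and `℘`, `℘'` of it are sums over the translates by
representatives.
-/

set_option autoImplicit false

noncomputable section

namespace FA.IsogenyNF

open FA.Mazur.Wp

variable (L : PeriodPair)

/-- A subgroup between `L` and `L / N` is a lattice. -/
theorem exists_periodPair (M : Submodule ℤ ℂ) (hle : L.lattice ≤ M) {N : ℕ} (hN : 0 < N)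
    (h : ∀ x ∈ M, (N : ℂ) * x ∈ L.lattice) : ∃ L' : PeriodPair, L'.lattice = M := by
  have hN0 : (N : ℂ)⁻¹ ≠ 0 := inv_ne_zero (by exact_mod_cast hN.ne')
  have hsub : (M : Set ℂ) ⊆ ((FA.JInj.scalePair L _ hN0).lattice : Set ℂ) := fun x hx =>
    FA.JInj.mem_scalePair.2 ⟨_, h x hx, inv_mul_cancel_left₀ (by exact_mod_cast hN.ne') x⟩
  have : DiscreteTopology M :=
    DiscreteTopology.of_subset (s := ((FA.JInj.scalePair L _ hN0).lattice : Set ℂ))
      (inferInstance : DiscreteTopology (FA.JInj.scalePair L _ hN0).lattice) hsub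
  have : IsZLattice ℝ M := ⟨eq_top_iff.2 ((IsZLattice.span_top (K := ℝ) (L := L.lattice)).ge.trans
    (Submodule.span_mono hle))⟩
  have := ZLattice.module_free ℝ M
  have := ZLattice.module_finite ℝ M
  let b := Module.finBasisOfFinrankEq ℤ M (n := 2)
    ((ZLattice.rank ℝ M).trans Complex.finrank_real_complex)
  have hind : LinearIndependent ℝ ![(b 0 : ℂ), b 1] := by
    have := (b.ofZLatticeBasis ℝ M).linearIndependent
    have e : ⇑(b.ofZLatticeBasis ℝ M) = ![(b 0 : ℂ), b 1] := funext fun i => by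
      rw [Module.Basis.ofZLatticeBasis_apply]
      fin_cases i <;> rfl
    exact e ▸ this
  refine ⟨⟨b 0, b 1, hind⟩, le_antisymm (Submodule.span_le.2 ?_) fun x hx => ?_⟩
  · rintro x (rfl | rfl)
    · exact (b 0).2
    · exact (b 1).2
  · have := congrArg Subtype.val (b.sum_repr ⟨x, hx⟩)
    rw [Fin.sum_univ_two] at this
    refine PeriodPair.mem_lattice.2 ⟨b.repr ⟨x, hx⟩ 0, b.repr ⟨x, hx⟩ 1, ?_⟩
    simpa using this

variable {L} {L' : PeriodPair} {ι : Type*} [Fintype ι] {r : ι → ℂ}

/-- `r` is a system of representatives of `L' / L`. -/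
structure IsReps (L L' : PeriodPair) {ι : Type*} (r : ι → ℂ) : Prop where
  le : L.lattice ≤ L'.lattice
  mem : ∀ i, r i ∈ L'.lattice
  cover : ∀ x ∈ L'.lattice, ∃ i, x - r i ∈ L.lattice
  inj : ∀ i j, r i - r j ∈ L.lattice → i = j

/-- The lattice is the disjoint union of the translates. -/
def IsReps.equiv (h : IsReps L L' r) : ι × L.lattice ≃ L'.lattice :=
  Equiv.ofBijective (fun p => ⟨r p.1 + p.2, add_mem (h.mem _) (h.le p.2.2)⟩) (by
    constructor
    · rintro ⟨i, l⟩ ⟨j, l'⟩ e
      have e' : r i + (l : ℂ) = r j + l' := congrArg Subtype.val e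
      obtain rfl := h.inj i j (by
        rw [show r i - r j = (l' : ℂ) - l by linear_combination e']
        exact sub_mem l'.2 l.2)
      exact Prod.ext rfl (Subtype.ext (add_left_cancel e'))
    · rintro ⟨x, hx⟩
      obtain ⟨i, hi⟩ := h.cover x hx
      exact ⟨(i, ⟨_, hi⟩), Subtype.ext (add_sub_cancel _ _)⟩)

theorem hasSum_reps (h : IsReps L L' r) {f : ℂ → ℂ} {a : ℂ} {g : ι → ℂ}
    (hf : HasSum (fun l : L'.lattice => f l) a)
    (hg : ∀ i, HasSum (fun l : L.lattice => f (r i + l)) (g i)) : a = ∑ i, g i :=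
  ((h.equiv.hasSum_iff.2 hf).prod_fiberwise fun i => hg i).unique (hasSum_fintype g)

/-- **`℘` of the larger lattice.** -/
theorem wp_reps (h : IsReps L L' r) (z : ℂ) :
    L'.weierstrassP z = ∑ i, (L.weierstrassP (z - r i) - L.weierstrassP (r i)) := by
  refine hasSum_reps h (f := fun x => 1 / (z - x) ^ 2 - 1 / x ^ 2) (L'.hasSum_weierstrassP z)
    fun i => ?_
  have e := (L.hasSum_weierstrassP (z - r i)).sub (L.hasSum_weierstrassP (-(r i)))
  rw [L.weierstrassP_neg] at e
  convert! e using 2 with l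
  ring

/-- **`℘'` of the larger lattice.** -/
theorem wq_reps (h : IsReps L L' r) (z : ℂ) :
    L'.derivWeierstrassP z = ∑ i, L.derivWeierstrassP (z - r i) := by
  refine hasSum_reps h (f := fun x => -2 / (z - x) ^ 3) (L'.hasSum_derivWeierstrassP z)
    fun i => ?_
  simpa only [sub_sub] using L.hasSum_derivWeierstrassP (z - r i)

end FA.IsogenyNF

end
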