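import Fermat.Agent.IsogenyNF.Points
import Fermat.Agent.IsogenyNF.Super

/-!
# The quotient of the points by a finite group

The coordinates on the quotient lattice are sums over the group of the coordinates of translates.
If the group is stable under Galois the coefficients of the quotient curve lie in the ground field.
-/

set_option autoImplicit false
set_option linter.unusedSectionVars false

noncomputable section

namespace FA.IsogenyNF

open WeierstrassCurve FA.Mazur.Wp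
open FA.ClassNumberOne (xP yP xP_unif yP_unif)
open scoped WeierstrassCurve.Affine

universe u v

variable {K : Type u} [Field K] [CharZero K] {Kb : Type v} [Field Kb] [DecidableEq Kb]
  [Algebra K Kb] [CharZero Kb] [IsAlgClosed Kb] {W : WeierstrassCurve K} [W.IsElliptic]
  {φ : Kb →+* ℂ} {L : PeriodPair} {hL : (W.baseChange Kb).map φ = latCurve L}

theorem yP_toC (P : (W.toAffine⁄Kb).Point) : yP (toC W φ hL P) = φ (yP P) := by
  rcases P with _ | ⟨x, y, h⟩
  · exact (map_zero φ).symm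
  · rfl

theorem yP_smul (σ : Kb ≃ₐ[K] Kb) (P : (W.toAffine⁄Kb).Point) : yP (σ • P) = σ (yP P) := by
  rcases P with _ | ⟨x, y, h⟩
  · exact (map_zero σ).symm
  · rfl

/-- Complex torsion points come from `Kb`. -/
theorem exists_of_nsmul_eq_zero {n : ℕ} (hn : n ≠ 0) {Q : (latCurve L).toAffine.Point}
    (hQ : n • Q = 0) : ∃ P, toC W φ hL P = Q ∧ n • P = 0 := by
  have hk : Nat.card {P : (W.toAffine⁄Kb).Point // n • P = 0} = n ^ 2 :=
    FA.EC.natCard_nsmul_eq_zero (W.map (algebraMap K Kb)) (Nat.cast_ne_zero.2 hn)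
  have hc := FA.EC.natCard_nsmul_eq_zero (latCurve L) (n := n) (Nat.cast_ne_zero.2 hn)
  let Φ : {P : (W.toAffine⁄Kb).Point // n • P = 0} →
      {P : (latCurve L).toAffine.Point // n • P = 0} :=
    fun P => ⟨toC W φ hL P.1, by rw [← map_nsmul, P.2, map_zero]⟩
  have hinj : Function.Injective Φ := fun P P' e =>
    Subtype.ext (FA.Frob.mapHom_injective φ hL (congrArg Subtype.val e))
  have : Finite {P : (latCurve L).toAffine.Point // n • P = 0} :=
    Nat.finite_of_card_ne_zero (hc ▸ pow_ne_zero 2 hn)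
  obtain ⟨⟨P, hP⟩, e⟩ := (hinj.bijective_of_nat_card_le (hc.trans hk.symm).le).2 ⟨Q, hQ⟩
  exact ⟨P, congrArg Subtype.val e, hP⟩

variable (W φ hL) in
/-- `L'` is the lattice over the group `G`. -/
def IsQuotG (G : AddSubgroup (W.toAffine⁄Kb).Point) (L' : PeriodPair) : Prop :=
  ∀ x : ℂ, x ∈ L'.lattice ↔ unif L x ∈ G.map (toC W φ hL)

variable {G : AddSubgroup (W.toAffine⁄Kb).Point} [Finite G] {L' : PeriodPair}

theorem exists_isQuotG : ∃ L', IsQuotG W φ hL G L' := by
  let M : Submodule ℤ ℂ :=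
    ((G.map (toC W φ hL)).comap (unifHom L)).toIntSubmodule
  obtain ⟨L', hL'⟩ := exists_periodPair L M (fun x hx => by
      show unif L x ∈ G.map (toC W φ hL)
      rw [unif_of_mem L hx]
      exact zero_mem _) (Nat.card_pos (α := G)) fun x hx => by
    obtain ⟨Q, hQ, e⟩ := AddSubgroup.mem_map.1 (show unifHom L x ∈ G.map (toC W φ hL) from hx)
    rw [← unif_eq_zero_iff, ← Int.cast_natCast, unif_int_mul, ← unifHom_apply, ← e, natCast_zsmul,
      ← map_nsmul, show Nat.card G • Q = 0 from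
        congrArg Subtype.val (card_nsmul_eq_zero' (x := (⟨Q, hQ⟩ : G))), map_zero]
  exact ⟨L', fun x => by rw [hL']; rfl⟩

theorem IsQuotG.mem_iff (h : IsQuotG W φ hL G L') {z : ℂ} {P : (W.toAffine⁄Kb).Point}
    (hz : unif L z = toC W φ hL P) : z ∈ L'.lattice ↔ P ∈ G := by
  rw [h z, hz]
  exact AddSubgroup.mem_map_iff_mem (FA.Frob.mapHom_injective φ hL)

theorem IsQuotG.le (h : IsQuotG W φ hL G L') : L.lattice ≤ L'.lattice := fun x hx => by
  rw [h x, unif_of_mem L hx]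
  exact zero_mem _

/-- Representatives given by the points. -/
theorem IsQuotG.isReps (h : IsQuotG W φ hL G L') :
    IsReps L L' fun Q : G => (exists_preimage (hL := hL) (Q : (W.toAffine⁄Kb).Point)).choose := by
  have hr := fun Q : G => (exists_preimage (hL := hL) (Q : (W.toAffine⁄Kb).Point)).choose_spec
  refine ⟨h.le, fun Q => (h.mem_iff (hr Q)).2 Q.2, fun x hx => ?_, fun Q Q' he => ?_⟩
  · obtain ⟨Q, hQ, e⟩ := AddSubgroup.mem_map.1 ((h x).1 hx)
    exact ⟨⟨Q, hQ⟩, (unif_eq_unif_iff L).1 (e.symm.trans (hr ⟨Q, hQ⟩).symm)⟩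
  · refine Subtype.ext (FA.Frob.mapHom_injective φ hL ?_)
    exact ((hr Q).symm.trans ((unif_eq_unif_iff L).2 he)).trans (hr Q')

variable (G) in
/-- The abscissa on the quotient by `G`. -/
def quotX (P : (W.toAffine⁄Kb).Point) : Kb :=
  ∑ᶠ Q : G, (xP (P - (Q : (W.toAffine⁄Kb).Point)) - xP (Q : (W.toAffine⁄Kb).Point))

variable (G) in
/-- The ordinate on the quotient by `G`. -/
def quotY (P : (W.toAffine⁄Kb).Point) : Kb := ∑ᶠ Q : G, yP (P - (Q : (W.toAffine⁄Kb).Point))

theorem unif_sub_rep (Q : (W.toAffine⁄Kb).Point) {z : ℂ} {R : (latCurve L).toAffine.Point}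
    (hz : unif L z = R) :
    unif L (z - (exists_preimage (hL := hL) Q).choose) = R - toC W φ hL Q := by
  rw [← unifHom_apply, map_sub, unifHom_apply, unifHom_apply, hz,
    (exists_preimage (hL := hL) Q).choose_spec]

/-- The abscissa over `ℂ`. -/
theorem wp_quot [Fintype G] (h : IsQuotG W φ hL G L') {z : ℂ}
    {R : (latCurve L).toAffine.Point} (hz : unif L z = R) :
    L'.weierstrassP z = ∑ Q : G, (xP (R - toC W φ hL Q) - φ (xP (Q : (W.toAffine⁄Kb).Point))) := by
  rw [wp_reps h.isReps]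
  refine Finset.sum_congr rfl fun Q _ => ?_
  rw [← xP_toC (hL := hL), ← xP_unif, ← xP_unif, unif_sub_rep (hL := hL) _ hz,
    (exists_preimage (hL := hL) (Q : (W.toAffine⁄Kb).Point)).choose_spec]

/-- The ordinate over `ℂ`. -/
theorem wq_quot [Fintype G] (h : IsQuotG W φ hL G L') {z : ℂ}
    {R : (latCurve L).toAffine.Point} (hz : unif L z = R) :
    L'.derivWeierstrassP z / 2 = ∑ Q : G, yP (R - toC W φ hL Q) := by
  rw [wq_reps h.isReps, Finset.sum_div]
  refine Finset.sum_congr rfl fun Q _ => ?_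
  rw [← unif_sub_rep (hL := hL) _ hz, yP_unif]

theorem map_quot (h : IsQuotG W φ hL G L') {z : ℂ} {P : (W.toAffine⁄Kb).Point}
    (hz : unif L z = toC W φ hL P) :
    φ (quotX G P) = L'.weierstrassP z ∧ φ (quotY G P) = L'.derivWeierstrassP z / 2 := by
  let _ := Fintype.ofFinite G
  rw [quotX, quotY, finsum_eq_sum_of_fintype, finsum_eq_sum_of_fintype, map_sum, map_sum,
    wp_quot h hz, wq_quot h hz]
  exact ⟨Finset.sum_congr rfl fun Q _ => by rw [map_sub, ← xP_toC (hL := hL), map_sub],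
    Finset.sum_congr rfl fun Q _ => by rw [← yP_toC (hL := hL), map_sub]⟩

variable (G) in
/-- `G` is stable under Galois. -/
def StableG : Prop := ∀ σ : Kb ≃ₐ[K] Kb, ∀ Q ∈ G, σ • Q ∈ G

/-- The action of an automorphism on a stable group. -/
def StableG.perm (hst : StableG G) (σ : Kb ≃ₐ[K] Kb) : G ≃ G where
  toFun Q := ⟨σ • (Q : (W.toAffine⁄Kb).Point), hst σ _ Q.2⟩
  invFun Q := ⟨σ⁻¹ • (Q : (W.toAffine⁄Kb).Point), hst σ⁻¹ _ Q.2⟩
  left_inv _ := Subtype.ext (inv_smul_smul σ _)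
  right_inv _ := Subtype.ext (smul_inv_smul σ _)

theorem smul_quot (hst : StableG G) (σ : Kb ≃ₐ[K] Kb) (P : (W.toAffine⁄Kb).Point) :
    σ (quotX G P) = quotX G (σ • P) ∧ σ (quotY G P) = quotY G (σ • P) := by
  let _ := Fintype.ofFinite G
  simp only [quotX, quotY, finsum_eq_sum_of_fintype, map_sum]
  refine ⟨Fintype.sum_equiv (hst.perm σ) _ _ fun Q => ?_,
    Fintype.sum_equiv (hst.perm σ) _ _ fun Q => ?_⟩
  · rw [map_sub, ← xP_smul, ← xP_smul, smul_sub]
    rfl
  · rw [← yP_smul, smul_sub]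
    rfl

/-- A point over a half period. -/
theorem exists_half (h : IsQuotG W φ hL G L') {z : ℂ} (hz : z ∉ L'.lattice)
    (h2 : 2 * z ∈ L'.lattice) :
    ∃ P, unif L z = toC W φ hL P ∧ P ∉ G ∧ (2 : ℕ) • P ∈ G := by
  obtain ⟨Q, hQ, e⟩ := AddSubgroup.mem_map.1 ((h _).1 h2)
  have e2 : unif L (2 * z) = (2 : ℕ) • unif L z := by
    rw [← natCast_zsmul, ← unif_int_mul]
    norm_num
  obtain ⟨P, hP, -⟩ := exists_of_nsmul_eq_zero (hL := hL) (n := Nat.card G * 2)
    (by have := Nat.card_pos (α := G); omega) (Q := unif L z) (by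
      rw [mul_comm, mul_nsmul, ← e2, ← e, ← map_nsmul, show Nat.card G • Q = 0 from
        congrArg Subtype.val (card_nsmul_eq_zero' (x := (⟨Q, hQ⟩ : G))), map_zero])
  refine ⟨P, hP.symm, fun hm => hz ((h.mem_iff hP.symm).2 hm), ?_⟩
  exact (h.mem_iff (z := 2 * z) (by rw [e2, ← hP, map_nsmul])).1 h2

/-- **The coefficients of the quotient lie in the ground field.** -/
theorem exists_coeffs [IsGalois K Kb] (h : IsQuotG W φ hL G L') (hst : StableG G) :
    ∃ a b : K, φ (algebraMap K Kb a) = -L'.g₂ / 4 ∧ φ (algebraMap K Kb b) = -L'.g₃ / 4 := by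
  have hn₁ := L'.ω₁_div_two_notMem_lattice
  have hn₂ := L'.ω₂_div_two_notMem_lattice
  have h₁ : 2 * (L'.ω₁ / 2) ∈ L'.lattice := by
    rw [mul_div_cancel₀ _ two_ne_zero]; exact L'.ω₁_mem_lattice
  have h₂ : 2 * (L'.ω₂ / 2) ∈ L'.lattice := by
    rw [mul_div_cancel₀ _ two_ne_zero]; exact L'.ω₂_mem_lattice
  have hne : L'.weierstrassP (L'.ω₁ / 2) ≠ L'.weierstrassP (L'.ω₂ / 2) := fun e => by
    have hm := sub_mem_of_half hn₁ hn₂ h₁ h₂ e
    rw [show L'.ω₁ / 2 - L'.ω₂ / 2 = ((1 / 2 : ℚ) : ℂ) * L'.ω₁ + ((-1 / 2 : ℚ) : ℂ) * L'.ω₂ by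
      push_cast; ring, PeriodPair.mul_ω₁_add_mul_ω₂_mem_lattice] at hm
    norm_num at hm
  have key : ∀ {P : (W.toAffine⁄Kb).Point}, P ∉ G → (2 : ℕ) • P ∈ G →
      4 * φ (quotX G P) ^ 3 - L'.g₂ * φ (quotX G P) - L'.g₃ = 0 := fun {P} hP h2 => by
    obtain ⟨z, hz⟩ := exists_preimage (hL := hL) P
    rw [(map_quot h hz).1]
    refine (root_of_half (fun hm => hP ((h.mem_iff hz).1 hm))
      ((h.mem_iff (z := 2 * z) (P := (2 : ℕ) • P) ?_).2 h2)).1
    rw [map_nsmul, ← hz, ← natCast_zsmul, ← unif_int_mul]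
    norm_num
  obtain ⟨P, hP, hPG, hP2⟩ := exists_half h hn₁ h₁
  obtain ⟨Q, hQ, hQG, hQ2⟩ := exists_half h hn₂ h₂
  rw [← (map_quot h hP).1, ← (map_quot h hQ).1] at hne
  set x := quotX G P with hx
  set y := quotX G Q with hy
  set a : Kb := -(x ^ 2 + x * y + y ^ 2) with ha'
  set b : Kb := x * y * (x + y) with hb'
  have h0 := key hPG hP2
  have h1 := key hQG hQ2
  have ha : φ a = -L'.g₂ / 4 := by
    apply mul_left_cancel₀ (sub_ne_zero.2 hne)
    rw [ha', map_neg, map_add, map_add, map_pow, map_pow, map_mul]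
    linear_combination -(h0 - h1) / 4
  have hb : φ b = -L'.g₃ / 4 := by
    rw [hb', map_mul, map_mul, map_add]
    rw [ha', map_neg, map_add, map_add, map_pow, map_pow, map_mul] at ha
    linear_combination -h0 / 4 - φ x * ha
  have hroot : ∀ {P : (W.toAffine⁄Kb).Point}, P ∉ G → (2 : ℕ) • P ∈ G →
      quotX G P ^ 3 + a * quotX G P + b = 0 := fun {P} hP h2 => φ.injective (by
    rw [map_add, map_add, map_mul, map_pow, map_zero, ha, hb]
    linear_combination key hP h2 / 4)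
  have hfix : ∀ σ : Kb ≃ₐ[K] Kb, σ a = a ∧ σ b = b := fun σ => by
    have hmem : ∀ {R : (W.toAffine⁄Kb).Point}, R ∉ G → (2 : ℕ) • R ∈ G →
        σ • R ∉ G ∧ (2 : ℕ) • σ • R ∈ G := fun {R} hR h2 =>
      ⟨fun hm => hR (by simpa using hst σ⁻¹ _ hm), by rw [← smul_nsmul']; exact hst σ _ h2⟩
    have e0 := congrArg σ (hroot hPG hP2)
    have e1 := congrArg σ (hroot hQG hQ2)
    simp only [map_add, map_mul, map_pow, map_zero] at e0 e1
    have f0 := hroot (hmem hPG hP2).1 (hmem hPG hP2).2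
    have f1 := hroot (hmem hQG hQ2).1 (hmem hQG hQ2).2
    rw [← (smul_quot hst σ P).1, ← hx] at f0
    rw [← (smul_quot hst σ Q).1, ← hy] at f1
    have hσ : σ x - σ y ≠ 0 := sub_ne_zero.2 fun e => hne (congrArg φ (σ.injective e))
    have hσa : σ a = a := by
      apply mul_left_cancel₀ hσ
      linear_combination e0 - e1 - f0 + f1
    exact ⟨hσa, by rw [hσa] at e0; linear_combination e0 - f0⟩
  obtain ⟨a', ha''⟩ := IntermediateField.mem_bot.1
    (mem_of_fixed (F := (⊥ : IntermediateField K Kb)) (x := a) fun σ _ => (hfix σ).1)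
  obtain ⟨b', hb''⟩ := IntermediateField.mem_bot.1
    (mem_of_fixed (F := (⊥ : IntermediateField K Kb)) (x := b) fun σ _ => (hfix σ).2)
  exact ⟨a', b', by rw [ha'', ha], by rw [hb'', hb]⟩

end FA.IsogenyNF

end
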