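import Fermat.Agent.IsogenyNF.NodeTorsion
import Fermat.Agent.IsogenyNF.QuotientPoints
import Mathlib.NumberTheory.RamificationInertia.Valuation
import Mathlib.NumberTheory.RamificationInertia.Galois
import Mathlib.RingTheory.DedekindDomain.AdicValuation
import Mathlib.RingTheory.Valuation.LocalSubring

/-!
# An element of order `p` in the image at a multiplicative place

Let the equation be nodal at a place `v` of a number field `K` and let `p` be prime to `v` and to
the exponent of `v` in the discriminant. The derivative at a point of order `p` over the node makes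
`p` divide the ramification index of `v` in the field of the `p`-torsion, hence the degree of that
field, so some automorphism has order `p` on the `p`-torsion.
-/

set_option autoImplicit false
set_option linter.unusedSectionVars false

noncomputable section

namespace FA.IsogenyNF

open WeierstrassCurve NumberField IsDedekindDomain FA.Local
open FA.ClassNumberOne (xP yP)
open scoped WeierstrassCurve.Affine

universe u v

theorem intCoeff_of_place {K L Γ Δ : Type*} [Field K] [Field L] [Algebra K L]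
    [LinearOrderedCommGroupWithZero Γ] [LinearOrderedCommGroupWithZero Δ] {v : Valuation K Γ}
    {w : Valuation L Δ} (h : ∀ x : K, v x ≤ 1 → w (algebraMap K L x) ≤ 1) {W : WeierstrassCurve K}
    (hI : IntCoeff v W.toAffine) : IntCoeff w (W.baseChange L).toAffine :=
  ⟨h _ hI.h₁, h _ hI.h₂, h _ hI.h₃, h _ hI.h₄, h _ hI.h₆⟩

variable {K : Type u} [Field K] [NumberField K] {Kb : Type v} [Field Kb] [DecidableEq Kb]
  [Algebra K Kb] [CharZero Kb] [IsAlgClosed Kb] [Algebra.IsAlgebraic K Kb]
  (W : WeierstrassCurve K) [W.IsElliptic]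

variable (Kb) in
/-- The field of the coordinates of the points killed by `n`. -/
def torField (n : ℕ) : IntermediateField K Kb :=
  IntermediateField.adjoin K
    (xP '' {P : (W.toAffine⁄Kb).Point | n • P = 0} ∪
      yP '' {P : (W.toAffine⁄Kb).Point | n • P = 0})

theorem smul_torField {n : ℕ} {σ : Kb ≃ₐ[K] Kb}
    (hσ : ∀ x ∈ torField Kb W n, σ x = x) {P : (W.toAffine⁄Kb).Point} (hP : n • P = 0) :
    σ • P = P := by
  rcases P with _ | ⟨x, y, h⟩
  · exact smul_zero σ
  · have hx : x ∈ torField Kb W n := IntermediateField.subset_adjoin K _ (Or.inl ⟨_, hP, rfl⟩)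
    have hy : y ∈ torField Kb W n := IntermediateField.subset_adjoin K _ (Or.inr ⟨_, hP, rfl⟩)
    simp only [Affine.Point.algEquiv_smul_def, Affine.Point.map_some, Affine.Point.some.injEq]
    exact ⟨hσ x hx, hσ y hy⟩

theorem torField_fixed {n : ℕ} {σ : Kb ≃ₐ[K] Kb}
    (hσ : ∀ P : (W.toAffine⁄Kb).Point, n • P = 0 → σ • P = P) :
    ∀ x ∈ torField Kb W n, σ x = x := by
  intro x hx
  have hle : torField Kb W n ≤ IntermediateField.fixedField (Subgroup.zpowers σ) := by
    rw [torField, IntermediateField.adjoin_le_iff]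
    rintro a (⟨P, hP, rfl⟩ | ⟨P, hP, rfl⟩) <;> rintro ⟨τ, hτ⟩ <;>
      obtain ⟨k, rfl⟩ := Subgroup.mem_zpowers_iff.1 hτ
    · show (σ ^ k) (xP P) = xP P
      rw [← xP_smul, (Subgroup.zpow_mem (MulAction.stabilizer (Kb ≃ₐ[K] Kb) P)
        (MulAction.mem_stabilizer_iff.2 (hσ P hP)) k : (σ ^ k) • P = P)]
    · show (σ ^ k) (yP P) = yP P
      rw [← yP_smul, (Subgroup.zpow_mem (MulAction.stabilizer (Kb ≃ₐ[K] Kb) P)
        (MulAction.mem_stabilizer_iff.2 (hσ P hP)) k : (σ ^ k) • P = P)]
  exact hle hx ⟨σ, Subgroup.mem_zpowers σ⟩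

/-- **An element of order `p` on the `p`-torsion**, from a place of multiplicative reduction at
which the exponent `N` of the discriminant is prime to `p`. -/
theorem exists_order_p (v₀ : HeightOneSpectrum (𝓞 K)) (hI : IntCoeff (v₀.valuation K) W.toAffine)
    {N : ℕ} (hN : 0 < N) (hΔ : v₀.valuation K W.Δ = WithZero.exp (-(N : ℤ)))
    (hc : v₀.valuation K W.c₄ = 1) {p : ℕ} (hp : p.Prime) (hodd : Odd p)
    (hpv : v₀.valuation K (p : K) = 1) (hpN : ¬ p ∣ N) :
    ∃ σ : Kb ≃ₐ[K] Kb, (∀ P : (W.toAffine⁄Kb).Point, p • P = 0 → (σ ^ p) • P = P) ∧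
      ∃ P : (W.toAffine⁄Kb).Point, p • P = 0 ∧ σ • P ≠ P := by
  classical
  have : IsAlgClosure K Kb := ⟨inferInstance, inferInstance⟩
  have : IsGalois K Kb := IsAlgClosure.isGalois K Kb
  set F : IntermediateField K Kb := torField Kb W p with hFdef
  have hfin := finite_nsmul_eq_zero (W := W) (Kb := Kb) (n := p) hp.ne_zero
  have : FiniteDimensional K F := by
    have : Finite ↑(xP '' {P : (W.toAffine⁄Kb).Point | p • P = 0} ∪
        yP '' {P : (W.toAffine⁄Kb).Point | p • P = 0}) :=
      ((hfin.image _).union (hfin.image _)).to_subtype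
    exact IntermediateField.finiteDimensional_adjoin fun x _ => Algebra.IsIntegral.isIntegral x
  have hnor : Normal K F := IntermediateField.normal_iff_forall_map_le'.2 fun σ => by
    rw [hFdef, torField, IntermediateField.adjoin_map]
    refine IntermediateField.adjoin.mono K _ _ ?_
    rintro _ ⟨a, (⟨P, hP, rfl⟩ | ⟨P, hP, rfl⟩), rfl⟩
    · exact Or.inl ⟨σ • P, by show p • σ • P = 0; rw [← smul_nsmul', hP, smul_zero],
        xP_smul σ P⟩
    · exact Or.inr ⟨σ • P, by show p • σ • P = 0; rw [← smul_nsmul', hP, smul_zero],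
        yP_smul σ P⟩
  have : IsGalois K F := ⟨⟩
  have : NumberField F := NumberField.of_module_finite K F
  -- a place of `F` over `v₀` and a valuation ring of `Kb` over it
  obtain ⟨⟨P₀, hP₀, hP₀over⟩⟩ :=
    (inferInstance : Nonempty (v₀.asIdeal.primesOver (𝓞 F)))
  let w : HeightOneSpectrum (𝓞 F) := ⟨P₀, hP₀, Ideal.ne_bot_of_liesOver_of_ne_bot v₀.ne_bot P₀⟩
  have : w.asIdeal.LiesOver v₀.asIdeal := hP₀over
  set e := v₀.asIdeal.ramificationIdx' w.asIdeal with hedef
  have hlie : ∀ x : K, v₀.valuation K x ^ e = w.valuation F (algebraMap K F x) := fun x =>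
    HeightOneSpectrum.valuation_liesOver F v₀ w x
  have hecard : e ∣ Nat.card (F ≃ₐ[K] F) := by
    rw [hedef, Ideal.ramificationIdx'_eq_ramificationIdx v₀.asIdeal w.asIdeal v₀.ne_bot,
      ← Ideal.ramificationIdxIn_eq_ramificationIdx v₀.asIdeal w.asIdeal (F ≃ₐ[K] F),
      ← Ideal.ncard_primesOver_mul_ramificationIdxIn_mul_inertiaDegIn v₀.asIdeal (𝓞 F)
        (F ≃ₐ[K] F)]
    exact (dvd_mul_right _ _).mul_left _
  obtain ⟨A, hA, hloc⟩ := IsLocalRing.exists_factor_valuationRing
    ((algebraMap F Kb).comp (w.valuation F).valuationSubring.subtype)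
  have hle : ∀ x : F, w.valuation F x ≤ 1 → A.valuation (algebraMap F Kb x) ≤ 1 := fun x hx =>
    (A.valuation_le_one_iff _).2 (hA ⟨x, hx⟩)
  have hlt : ∀ x : F, w.valuation F x < 1 → A.valuation (algebraMap F Kb x) < 1 := fun x hx => by
    refine lt_of_le_of_ne (hle x hx.le) fun h1 => hx.ne ?_
    have hu := hloc.map_nonunit (⟨x, hx.le⟩ : (w.valuation F).valuationSubring)
      ((A.valuation_eq_one_iff ⟨_, hA ⟨x, hx.le⟩⟩).2 h1)
    obtain ⟨y, hy⟩ := hu.exists_right_inv
    have hy' := congrArg (w.valuation F) (congrArg Subtype.val hy)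
    rw [MulMemClass.coe_mul, map_mul] at hy'
    simp only [OneMemClass.coe_one, map_one] at hy'
    exact le_antisymm hx.le (hy'.symm.le.trans (mul_le_of_le_one_right' y.2))
  have hone : ∀ x : F, A.valuation (algebraMap F Kb x) = 1 → w.valuation F x = 1 := fun x hx => by
    rcases lt_trichotomy (w.valuation F x) 1 with h | h | h
    · exact absurd hx (hlt x h).ne
    · exact h
    · have := hlt x⁻¹ (by rw [map_inv₀]; exact inv_lt_one_of_one_lt₀ h)
      rw [map_inv₀, map_inv₀, hx, inv_one] at this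
      exact absurd this (lt_irrefl _)
  have hK : ∀ x : K, algebraMap K Kb x = algebraMap F Kb (algebraMap K F x) :=
    IsScalarTower.algebraMap_apply K F Kb
  have hKle : ∀ x : K, v₀.valuation K x ≤ 1 → A.valuation (algebraMap K Kb x) ≤ 1 := fun x hx => by
    rw [hK]; exact hle _ (hlie x ▸ pow_le_one₀ zero_le hx)
  have he0 : e ≠ 0 := fun h0 => by
    have := hlie 0
    rw [h0, pow_zero, map_zero, map_zero] at this
    exact one_ne_zero this
  have hKone : ∀ x : K, v₀.valuation K x = 1 → A.valuation (algebraMap K Kb x) = 1 := fun x hx => by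
    refine le_antisymm (hKle x hx.le) ?_
    have h := hKle x⁻¹ (by rw [map_inv₀, hx, inv_one])
    rwa [map_inv₀, map_inv₀, inv_le_one₀ (A.valuation.pos_iff.2 ((map_ne_zero _).2 fun h0 => by
      rw [h0, map_zero] at hx; exact zero_ne_one hx))] at h
  have hΔ1 : v₀.valuation K W.Δ < 1 := by
    rw [hΔ, ← WithZero.exp_zero, WithZero.exp_lt_exp]; omega
  obtain ⟨X, Y, hXY, i, hpP, hi0, hip, hval⟩ := exists_torsion_fy (V := W.baseChange Kb)
    (v := A.valuation) (intCoeff_of_place hKle hI)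
    (by
      rw [WeierstrassCurve.baseChange, map_Δ, hK]
      exact hlt _ (hlie _ ▸ pow_lt_one₀ zero_le hΔ1 he0))
    (by rw [WeierstrassCurve.baseChange, map_c₄]; exact hKone _ hc) hp hodd
    (by rw [← map_natCast (algebraMap K Kb)]; exact hKone _ hpv)
  have hX : X ∈ F := IntermediateField.subset_adjoin K _
    (Or.inl ⟨(Affine.Point.some X Y hXY : (W.toAffine⁄Kb).Point), hpP, rfl⟩)
  have hY : Y ∈ F := IntermediateField.subset_adjoin K _
    (Or.inr ⟨(Affine.Point.some X Y hXY : (W.toAffine⁄Kb).Point), hpP, rfl⟩)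
  set z : F := 2 * ⟨Y, hY⟩ + algebraMap K F W.a₁ * ⟨X, hX⟩ + algebraMap K F W.a₃ with hzdef
  have hz : algebraMap F Kb z = fy (W.baseChange Kb).toAffine X Y := by
    simp only [hzdef, fy, map_add, map_mul, map_ofNat, ← hK]
    rfl
  rw [← hz, WeierstrassCurve.baseChange, map_Δ, hK, ← map_pow, ← map_pow, ← map_pow,
    ← map_pow] at hval
  have hΔF : algebraMap K F W.Δ ^ i ≠ 0 := pow_ne_zero _ ((map_ne_zero _).2 W.isUnit_Δ.ne_zero)
  have hw := hone (z ^ p / algebraMap K F W.Δ ^ i) (by
    rw [map_div₀, map_div₀, hval, div_self]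
    exact A.valuation.ne_zero_iff.2 ((map_ne_zero _).2 hΔF))
  rw [map_div₀, map_pow, map_pow, ← hlie, hΔ, div_eq_one_iff_eq
    (pow_ne_zero _ (pow_ne_zero _ WithZero.exp_ne_zero)), ← WithZero.exp_nsmul,
    ← WithZero.exp_nsmul] at hw
  obtain ⟨k, hk⟩ : ∃ k : ℤ, w.valuation F z = WithZero.exp k :=
    ⟨_, (WithZero.exp_log fun h0 => by
      rw [h0, zero_pow hp.ne_zero] at hw; exact WithZero.exp_ne_zero hw.symm).symm⟩
  rw [hk, ← WithZero.exp_nsmul, WithZero.exp_inj, Int.nsmul_eq_mul, Int.nsmul_eq_mul,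
    Int.nsmul_eq_mul] at hw
  have hd : p ∣ i * e * N := Int.natCast_dvd_natCast.1 ⟨-k, by
    push_cast; linear_combination hw⟩
  have hpe : p ∣ e := by
    rcases hp.dvd_mul.1 hd with h | h
    · rcases hp.dvd_mul.1 h with h | h
      · exact absurd (Nat.le_of_dvd hi0 h) (not_le.2 hip)
      · exact h
    · exact absurd h hpN
  have : Fact p.Prime := ⟨hp⟩
  obtain ⟨τ, hτ⟩ := exists_prime_orderOf_dvd_card' p (hpe.trans hecard)
  obtain ⟨σ, hσ⟩ := AlgEquiv.restrictNormalHom_surjective (F := K) (K₁ := F) Kb τ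
  refine ⟨σ, fun P hP => smul_torField W (fun x hx => ?_) hP, ?_⟩
  · have h1 : AlgEquiv.restrictNormalHom (F := K) F (σ ^ p) = 1 := by
      rw [map_pow, hσ, ← hτ, pow_orderOf_eq_one]
    have h2 := AlgEquiv.restrictNormalHom_apply (F := K) F (σ ^ p) (⟨x, hx⟩ : F)
    rw [h1] at h2
    exact h2.symm
  · by_contra! hne
    refine hp.one_lt.ne' (hτ ▸ orderOf_eq_one_iff.2 (AlgEquiv.ext fun x => Subtype.ext ?_))
    rw [← hσ, AlgEquiv.restrictNormalHom_apply]
    exact torField_fixed W hne x x.2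

end FA.IsogenyNF

end
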