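import Fermat.Agent.IsogenyNF.AdelicImage

/-!
# The number of points of exact order `N`, and the field of such a point
-/

set_option autoImplicit false
set_option linter.unusedSectionVars false

noncomputable section

namespace FA.IsogenyNF

open WeierstrassCurve
open scoped WeierstrassCurve.Affine

universe u v

/-- The number of elements of exact order `N` of a group with `n ^ 2` elements killed by `n`. -/
def orderCount (N : ℕ) : ℕ := N.factorization.prod fun p k => p ^ (2 * k) - p ^ (2 * (k - 1))

variable {A : Type*} [AddCommGroup A]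

theorem ncard_order_mul {a b : ℕ} (hab : a.Coprime b) :
    {x : A | addOrderOf x = a * b}.ncard =
      {x : A | addOrderOf x = a}.ncard * {x : A | addOrderOf x = b}.ncard := by
  rw [← Set.ncard_prod, eq_comm]
  refine Set.ncard_congr (fun x _ => x.1 + x.2) ?_ ?_ ?_
  · rintro ⟨x, y⟩ ⟨hx, hy⟩
    show addOrderOf (x + y) = a * b
    rw [(AddCommute.all x y).addOrderOf_add_eq_mul_addOrderOf_of_coprime (hx.symm ▸ hy.symm ▸ hab),
      show addOrderOf x = a from hx, show addOrderOf y = b from hy]
  · rintro ⟨x, y⟩ ⟨x', y'⟩ ⟨hx, hy⟩ ⟨hx', hy'⟩ (e : x + y = x' + y')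
    have hd : x - x' = y' - y := sub_eq_sub_iff_add_eq_add.2 (e.trans (add_comm x' y'))
    have ha : a • (x - x') = 0 := by
      rw [nsmul_sub, ← show addOrderOf x = a from hx, addOrderOf_nsmul_eq_zero,
        show addOrderOf x = a from hx, ← show addOrderOf x' = a from hx',
        addOrderOf_nsmul_eq_zero, sub_zero]
    have hb : b • (x - x') = 0 := by
      rw [hd, nsmul_sub, ← show addOrderOf y' = b from hy', addOrderOf_nsmul_eq_zero,
        show addOrderOf y' = b from hy', ← show addOrderOf y = b from hy, addOrderOf_nsmul_eq_zero,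
        sub_zero]
    have h0 : x - x' = 0 := AddMonoid.addOrderOf_eq_one_iff.1 (Nat.eq_one_of_dvd_coprimes hab
      (addOrderOf_dvd_of_nsmul_eq_zero ha) (addOrderOf_dvd_of_nsmul_eq_zero hb))
    refine Prod.ext (sub_eq_zero.1 h0) (sub_eq_zero.1 ?_).symm
    rw [← hd, h0]
  · intro z (hz : addOrderOf z = a * b)
    rcases eq_or_ne (a * b) 0 with h0 | h0
    · rcases mul_eq_zero.1 h0 with rfl | rfl
      · rw [Nat.coprime_zero_left] at hab
        subst hab
        exact ⟨(z, 0), ⟨show addOrderOf z = 0 by simpa using hz, addOrderOf_zero⟩, add_zero z⟩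
      · rw [Nat.coprime_zero_right] at hab
        subst hab
        exact ⟨(0, z), ⟨addOrderOf_zero, show addOrderOf z = 0 by simpa using hz⟩, zero_add z⟩
    obtain ⟨ha0, hb0⟩ := mul_ne_zero_iff.1 h0
    have hoa : addOrderOf (b • z) = a := by
      rw [addOrderOf_nsmul' _ hb0, hz, Nat.gcd_eq_right (dvd_mul_left b a),
        Nat.mul_div_cancel _ (Nat.pos_of_ne_zero hb0)]
    have hob : addOrderOf (a • z) = b := by
      rw [addOrderOf_nsmul' _ ha0, hz, Nat.gcd_eq_right (dvd_mul_right a b),
        Nat.mul_div_cancel_left _ (Nat.pos_of_ne_zero ha0)]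
    obtain ⟨u, v, huv⟩ := Nat.isCoprime_iff_coprime.2 hab
    have hmul : ∀ (c : ℕ) (w : A) (k : ℤ), addOrderOf w = c → IsCoprime k (c : ℤ) →
        addOrderOf (k • w) = c := fun c w k hw hk => by
      refine Nat.dvd_antisymm (addOrderOf_dvd_of_nsmul_eq_zero ?_) ?_
      · rw [smul_comm, ← hw, addOrderOf_nsmul_eq_zero, zsmul_zero]
      · obtain ⟨s, t, hst⟩ := hk
        refine hw.symm.dvd.trans (addOrderOf_dvd_of_nsmul_eq_zero ?_)
        have e : w = s • (k • w) := by
          have h1 : (c : ℤ) • w = 0 := by rw [natCast_zsmul, ← hw, addOrderOf_nsmul_eq_zero]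
          conv_lhs => rw [← one_zsmul w, ← hst, add_zsmul, mul_zsmul, mul_zsmul, h1, zsmul_zero,
            add_zero]
        refine (congrArg (addOrderOf (k • w) • ·) e).trans ?_
        show addOrderOf (k • w) • s • k • w = 0
        rw [smul_comm, addOrderOf_nsmul_eq_zero, zsmul_zero]
    refine ⟨(v • (b • z), u • (a • z)), ⟨hmul a _ v hoa ⟨b, u, by linear_combination huv⟩,
      hmul b _ u hob ⟨a, v, by linear_combination huv⟩⟩, ?_⟩
    show v • (b • z) + u • (a • z) = z
    rw [← natCast_zsmul z b, ← natCast_zsmul z a, ← mul_zsmul, ← mul_zsmul, ← add_zsmul,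
      show v * (b : ℤ) + u * a = 1 by linear_combination huv, one_zsmul]

variable {K : Type u} [Field K] [NumberField K] {Kb : Type v} [Field Kb] [DecidableEq Kb]
  [Algebra K Kb] [CharZero Kb] [IsAlgClosed Kb] [Algebra.IsAlgebraic K Kb]
  (E : WeierstrassCurve K) [E.IsElliptic]

/-- **The number of points of exact order `N`** is `N ^ 2 ∏ (1 - 1 / p ^ 2)`. -/
theorem ncard_order_eq {N : ℕ} (hN : N ≠ 0) :
    {P : (E.toAffine⁄Kb).Point | addOrderOf P = N}.ncard = orderCount N := by
  induction N using Nat.recOnPrimeCoprime with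
  | zero => exact absurd rfl hN
  | prime_pow p n hp =>
    rcases n with _ | n
    · simp [orderCount, AddMonoid.addOrderOf_eq_one_iff]
    have := Fact.mk hp
    rw [orderCount, hp.factorization_pow, Finsupp.prod, Finsupp.support_single _ n.succ_ne_zero,
      Finset.prod_singleton, Finsupp.single_eq_same]
    have hc : ∀ m : ℕ, {P : (E.toAffine⁄Kb).Point | p ^ m • P = 0}.ncard = (p ^ m) ^ 2 :=
        fun m => by
      rw [← Nat.card_coe_set_eq]
      exact TorGen.natCard (pow_ne_zero m hp.ne_zero)
    have hset : {P : (E.toAffine⁄Kb).Point | addOrderOf P = p ^ (n + 1)} =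
        {P : (E.toAffine⁄Kb).Point | p ^ (n + 1) • P = 0} \ {P | p ^ n • P = 0} := by
      ext P
      constructor
      · intro (h : addOrderOf P = p ^ (n + 1))
        refine ⟨h ▸ addOrderOf_nsmul_eq_zero P, fun h0 => ?_⟩
        have := Nat.le_of_dvd (pow_pos hp.pos n) (h ▸ addOrderOf_dvd_of_nsmul_eq_zero h0)
        exact absurd this (not_le.2 (Nat.pow_lt_pow_succ hp.one_lt))
      · rintro ⟨h1, h2⟩
        exact addOrderOf_eq_prime_pow h2 h1
    have hfin : ∀ m : ℕ, {P : (E.toAffine⁄Kb).Point | p ^ m • P = 0}.Finite := fun m =>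
      Set.finite_of_ncard_ne_zero (by rw [hc]; exact pow_ne_zero _ (pow_ne_zero _ hp.ne_zero))
    have hsub : {P : (E.toAffine⁄Kb).Point | p ^ n • P = 0} ⊆ {P | p ^ (n + 1) • P = 0} :=
      fun P (h : p ^ n • P = 0) => by
        show p ^ (n + 1) • P = 0
        rw [pow_succ', mul_nsmul', h, nsmul_zero]
    rw [hset, Set.ncard_sdiff hsub (hfin n), hc, hc, ← pow_mul, ← pow_mul,
      Nat.add_sub_cancel, mul_comm (n + 1), mul_comm n]
  | coprime a b ha hb hab iha ihb =>
    rw [ncard_order_mul hab, iha (by omega), ihb (by omega), orderCount, orderCount, orderCount,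
      Nat.factorization_mul_of_coprime hab, Finsupp.prod_add_index_of_disjoint]
    rw [Nat.support_factorization, Nat.support_factorization]
    exact hab.disjoint_primeFactors

/-- **Generators exist at every level.** -/
theorem exists_torGen_level : ∀ {N : ℕ}, N ≠ 0 →
    ∃ P Q : (E.toAffine⁄Kb).Point, TorGen E N P Q := by
  intro N
  induction N using Nat.recOnPrimeCoprime with
  | zero => exact fun h => absurd rfl h
  | prime_pow p n hp =>
    intro _
    rcases n with _ | n
    · exact ⟨0, 0, smul_zero _, smul_zero _, fun R hR => ⟨0, 0, by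
        rw [pow_zero, one_nsmul] at hR; simp [hR]⟩⟩
    have hpos : 0 < orderCount (p ^ (n + 1)) := by
      rw [orderCount, hp.factorization_pow, Finsupp.prod, Finsupp.support_single _ n.succ_ne_zero,
        Finset.prod_singleton, Finsupp.single_eq_same]
      exact Nat.sub_pos_of_lt (Nat.pow_lt_pow_right hp.one_lt (by omega))
    rw [← ncard_order_eq (Kb := Kb) E (pow_ne_zero _ hp.ne_zero)] at hpos
    obtain ⟨P, hP⟩ := Set.nonempty_of_ncard_ne_zero hpos.ne'
    obtain ⟨Q, hQ⟩ := exists_torGen (E := E) hp hP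
    exact ⟨P, Q, hQ⟩
  | coprime a b ha hb hab iha ihb =>
    intro _
    obtain ⟨P, Q, h⟩ := iha (by omega)
    obtain ⟨P', Q', h'⟩ := ihb (by omega)
    refine ⟨P + P', Q + Q', ?_, ?_, fun R hR => ?_⟩
    · rw [nsmul_add, mul_nsmul' P', h'.left, mul_comm, mul_nsmul' P, h.left, nsmul_zero,
        nsmul_zero, add_zero]
    · rw [nsmul_add, mul_nsmul' Q', h'.right, mul_comm, mul_nsmul' Q, h.right, nsmul_zero,
        nsmul_zero, add_zero]
    obtain ⟨u, v, huv⟩ := Nat.isCoprime_iff_coprime.2 hab
    obtain ⟨i, j, e⟩ := h.span (b • R) (by rw [← mul_nsmul', hR])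
    obtain ⟨i', j', e'⟩ := h'.span (a • R) (by rw [← mul_nsmul', mul_comm, hR])
    have kill : ∀ (m : ℕ) (x : (E.toAffine⁄Kb).Point) (s : ℤ), m • x = 0 → (s * m) • x = 0 :=
      fun m x s hx => by rw [mul_zsmul, natCast_zsmul, hx, zsmul_zero]
    refine ⟨v ^ 2 * b * i + u ^ 2 * a * i', v ^ 2 * b * j + u ^ 2 * a * j', ?_⟩
    have e1 : ∀ (S T : (E.toAffine⁄Kb).Point) (k k' : ℤ), a • S = 0 → b • T = 0 →
        (v ^ 2 * b * k + u ^ 2 * a * k') • (S + T) = (v * k) • S + (u * k') • T := by
      intro S T k k' hS hT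
      rw [zsmul_add]
      congr 1
      · rw [show v ^ 2 * b * k + u ^ 2 * a * k' = v * k + (u ^ 2 * k' - v * k * u) * a by
          linear_combination v * k * huv, add_zsmul, kill a S _ hS, add_zero]
      · rw [show v ^ 2 * b * k + u ^ 2 * a * k' = u * k' + (v ^ 2 * k - u * k' * v) * b by
          linear_combination u * k' * huv, add_zsmul, kill b T _ hT, add_zero]
    rw [e1 P P' i i' h.left h'.left, e1 Q Q' j j' h.right h'.right, mul_zsmul, mul_zsmul,
      mul_zsmul, mul_zsmul, add_add_add_comm, ← zsmul_add, ← zsmul_add, ← e, ← e',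
      ← natCast_zsmul R b, ← natCast_zsmul R a, ← mul_zsmul, ← mul_zsmul, ← add_zsmul,
      show v * (b : ℤ) + u * a = 1 by linear_combination huv, one_zsmul]

/-- **The field of a point of exact order `N`** for all `N` with large prime factors only. -/
theorem exists_bound_finrank (hj : ¬ IsIntegral ℤ E.j) :
    ∃ B : ℕ, ∀ N : ℕ, N ≠ 0 → (∀ p ∈ N.primeFactors, B < p) →
      ∀ (x y : Kb) (h : (E.toAffine⁄Kb).Nonsingular x y),
      addOrderOf (WeierstrassCurve.Affine.Point.some x y h : (E.toAffine⁄Kb).Point) = N →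
        Module.finrank K (IntermediateField.adjoin K {x, y}) = orderCount N := by
  obtain ⟨B, hB⟩ := exists_bound_transitive_order (Kb := Kb) E hj
  refine ⟨B, fun N hN hNB x y h hord => ?_⟩
  have : IsAlgClosure K Kb := ⟨inferInstance, inferInstance⟩
  have : IsGalois K Kb := IsAlgClosure.isGalois K Kb
  set P : (E.toAffine⁄Kb).Point := WeierstrassCurve.Affine.Point.some x y h with hP
  have hfix : (IntermediateField.adjoin K {x, y}).fixingSubgroup =
      MulAction.stabilizer (Kb ≃ₐ[K] Kb) P := by
    ext σ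
    rw [IntermediateField.mem_fixingSubgroup_iff, MulAction.mem_stabilizer_iff]
    constructor
    · intro hσ
      simp only [hP, Affine.Point.algEquiv_smul_def, Affine.Point.map_some,
        Affine.Point.some.injEq]
      exact ⟨hσ x (IntermediateField.subset_adjoin K _ (Set.mem_insert x _)),
        hσ y (IntermediateField.subset_adjoin K _ (Set.mem_insert_of_mem x rfl))⟩
    · intro hσ z hz
      simp only [hP, Affine.Point.algEquiv_smul_def, Affine.Point.map_some,
        Affine.Point.some.injEq] at hσ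
      have hle : IntermediateField.adjoin K {x, y} ≤
          IntermediateField.fixedField (Subgroup.zpowers σ) := by
        rw [IntermediateField.adjoin_le_iff]
        rintro a ha ⟨τ, hτ⟩
        have hstab : σ ∈ MulAction.stabilizer (Kb ≃ₐ[K] Kb) a := by
          rcases ha with rfl | rfl
          · exact hσ.1
          · exact hσ.2
        obtain ⟨k, rfl⟩ := Subgroup.mem_zpowers_iff.1 hτ
        exact Subgroup.zpow_mem _ hstab k
      exact hle hz ⟨σ, Subgroup.mem_zpowers σ⟩
  rw [IntermediateField.finrank_eq_fixingSubgroup_index, hfix, MulAction.index_stabilizer]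
  have horb : MulAction.orbit (Kb ≃ₐ[K] Kb) P =
      {Q : (E.toAffine⁄Kb).Point | addOrderOf Q = N} := by
    ext Q
    constructor
    · rintro ⟨σ, rfl⟩
      exact (addOrderOf_smul σ P).trans hord
    · exact fun hQ => hB N hN hNB P Q hord hQ
  rw [horb, ncard_order_eq E hN]

end FA.IsogenyNF

end
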