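import Fermat.Agent.IsogenyNF.DetLevel
import Fermat.Agent.IsogenyNF.CyclotomicLevelNF
import Fermat.Agent.IsogenyNF.Transvection

/-!
# Every automorphism of the points killed by `N`, for `N` with large prime factors only
-/

set_option autoImplicit false
set_option linter.unusedSectionVars false

noncomputable section

namespace FA.IsogenyNF

open WeierstrassCurve Matrix
open scoped WeierstrassCurve.Affine

universe u v

variable {K : Type u} [Field K] [NumberField K] {Kb : Type v} [Field Kb] [DecidableEq Kb]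
  [Algebra K Kb] [CharZero Kb] [IsAlgClosed Kb] [Algebra.IsAlgebraic K Kb]
  (E : WeierstrassCurve K) [E.IsElliptic]

/-- **Every invertible matrix** modulo all `N` with large prime factors only. -/
theorem exists_bound_matrix (hj : ¬ IsIntegral ℤ E.j) :
    ∃ B : ℕ, ∀ (N : ℕ) (hN : N ≠ 0), (∀ p ∈ N.primeFactors, B < p) →
      ∀ (P Q : (E.toAffine⁄Kb).Point) (h : TorGen E N P Q) (M : Matrix (Fin 2) (Fin 2) (ZMod N)),
        IsUnit M.det → ∃ σ : Kb ≃ₐ[K] Kb, h.rep hN σ = M := by
  classical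
  obtain ⟨B₁, h₁⟩ := exists_bound_family (Kb := Kb) E hj
  obtain ⟨B₂, h₂⟩ := exists_bound_det_rep (Kb := Kb) E hj
  refine ⟨B₁ + B₂ + (NumberField.discr K).natAbs, fun N hN hNB P Q h M hM => ?_⟩
  have : NeZero N := ⟨hN⟩
  have hd : ∀ p ∈ N.primeFactors, ¬ (p : ℤ) ∣ NumberField.discr K := fun p hp hdvd => by
    have := Nat.le_of_dvd (Int.natAbs_pos.2 (NumberField.discr_ne_zero K)) (Int.natCast_dvd.1 hdvd)
    have := hNB p hp
    omega
  have hcop : M.det.val.Coprime N := (ZMod.isUnit_iff_coprime _ _).1 (by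
    rwa [ZMod.natCast_zmod_val])
  obtain ⟨τ, hτ⟩ := exists_cyclotomic_action_level Kb hN hd hcop
  let e : ℕ → ℕ := fun p => N.factorization p - 1
  let m : ℕ → ℕ := fun p => N / p ^ N.factorization p
  have hdvd : ∀ p ∈ N.primeFactors, p ^ (e p + 1) ∣ N := fun p hp => by
    show p ^ (N.factorization p - 1 + 1) ∣ N
    rw [(ordCompl_spec hN hp).1]
    exact Nat.ordProj_dvd N p
  have hgen : GenFamily E N.primeFactors e (fun p => m p • P) (fun p => m p • Q) := fun p hp => by
    obtain ⟨he, hm, hc⟩ := ordCompl_spec hN hp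
    show TorGen E (p ^ (N.factorization p - 1 + 1)) _ _
    rw [he]
    exact (hm.symm ▸ h : TorGen E (p ^ N.factorization p * m p) P Q).of_coprime hc
  have hne : ∀ p ∈ N.primeFactors, p ^ (e p + 1) ≠ 0 := fun p hp =>
    pow_ne_zero _ (Nat.prime_of_mem_primeFactors hp).ne_zero
  -- the matrices left after the determinant is matched
  let A : ∀ p : ℕ, MatN p (e p + 1) := fun p =>
    if hp : p ∈ N.primeFactors then
      (hgen p hp).rep (hne p hp) τ⁻¹ * (ZMod.castHom (hdvd p hp) _).mapMatrix M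
    else 1
  have hA : ∀ p ∈ N.primeFactors, (A p).det = 1 := fun p hp => by
    have hdet := h₂ p (e p) (Nat.prime_of_mem_primeFactors hp) (by have := hNB p hp; omega)
      _ _ (hgen p hp) τ M.det.val fun μ hμ => hτ μ <| by
        obtain ⟨c, hc⟩ := hdvd p hp
        rw [hc, pow_mul, hμ, one_pow]
    have hone : ((hgen p hp).rep (hne p hp) τ⁻¹).det * ((hgen p hp).rep (hne p hp) τ).det = 1 := by
      rw [← det_mul, ← map_mul, inv_mul_cancel, map_one, det_one]
    have hcast : ((ZMod.castHom (hdvd p hp) (ZMod (p ^ (e p + 1)))).mapMatrix M).det =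
        (M.det.val : ZMod (p ^ (e p + 1))) := by
      rw [← RingHom.map_det, ← map_natCast (ZMod.castHom (hdvd p hp) (ZMod (p ^ (e p + 1)))),
        ZMod.natCast_zmod_val]
    simp only [A, dif_pos hp, det_mul, hcast, ← hdet, hone]
  obtain ⟨g, hg⟩ := h₁ N.primeFactors
    (fun p hp => ⟨Nat.prime_of_mem_primeFactors hp, by have := hNB p hp; omega⟩) e _ _ hgen A hA
  refine ⟨τ * g, Matrix.ext_of_mulVec_single fun i => h.coord_injective hN ?_⟩
  rw [← h.rep_spec]
  -- compare on each primary part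
  have hred : ∀ p (hp : p ∈ N.primeFactors) (w : Fin 2 → ZMod N),
      m p • h.coord w = (hgen p hp).coord (ZMod.castHom (hdvd p hp) _ ∘ w) := fun p hp w => by
    have hw : w = ![(((w 0).val : ℤ) : ZMod N), (((w 1).val : ℤ) : ZMod N)] :=
      funext fun i => by fin_cases i <;> simp
    have hw' : ZMod.castHom (hdvd p hp) (ZMod (p ^ (e p + 1))) ∘ w =
        ![(((w 0).val : ℤ) : ZMod _), (((w 1).val : ℤ) : ZMod _)] := funext fun i => by
      conv_lhs => rw [hw]
      fin_cases i <;> simp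
    rw [hw', (hgen p hp).coord_intCast]
    conv_lhs => rw [hw]
    rw [h.coord_intCast, nsmul_add, smul_comm (m p), smul_comm (m p) _ Q]
  refine sub_eq_zero.1 (eq_zero_of_ordCompl hN ?_ fun p hp => ?_)
  · rw [nsmul_sub, ← smul_nsmul', h.nsmul_coord, h.nsmul_coord, smul_zero, sub_zero]
  · rw [nsmul_sub, ← smul_nsmul', hred p hp, hred p hp, mul_smul, hg p hp,
      (hgen p hp).rep_spec (hne p hp), sub_eq_zero]
    refine congrArg (hgen p hp).coord ?_
    simp only [A, dif_pos hp]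
    rw [← mulVec_mulVec, mulVec_mulVec _ ((hgen p hp).rep (hne p hp) τ), ← map_mul, mul_inv_cancel,
      map_one, one_mulVec]
    exact funext fun j => (RingHom.map_mulVec _ M (Pi.single i 1) j).symm

/-- An automorphism of the points killed by `N` has an invertible matrix. -/
theorem exists_matrix_addEquiv {N : ℕ} (hN : N ≠ 0) {P Q : (E.toAffine⁄Kb).Point}
    (h : TorGen E N P Q) (f : Tor Kb E N ≃+ Tor Kb E N) :
    ∃ M : Matrix (Fin 2) (Fin 2) (ZMod N), IsUnit M.det ∧
      ∀ v (hv : h.coord v ∈ Submodule.torsionBy ℤ (E.toAffine⁄Kb).Point (N : ℤ)),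
        (f ⟨h.coord v, hv⟩ : (E.toAffine⁄Kb).Point) = h.coord (M *ᵥ v) := by
  have hmem : ∀ v, h.coord v ∈ Submodule.torsionBy ℤ (E.toAffine⁄Kb).Point (N : ℤ) := fun v => by
    rw [Submodule.mem_torsionBy_iff, natCast_zsmul, h.nsmul_coord]
  let c : (Fin 2 → ZMod N) →+ Tor Kb E N :=
    AddMonoidHom.mk' (fun v => ⟨h.coord v, hmem v⟩) fun v w => Subtype.ext (map_add h.coord v w)
  have hc : Function.Bijective c :=
    ⟨fun v w e => h.coord_injective hN (congrArg Subtype.val e :),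
      fun R => (h.coord_surj (nsmul_of_mem E R)).imp fun v hv => Subtype.ext hv⟩
  let ε := (AddEquiv.ofBijective c hc)
  let φ : (Fin 2 → ZMod N) ≃ₗ[ZMod N] (Fin 2 → ZMod N) :=
    { ((ε.trans f).trans ε.symm) with
      map_smul' := (((ε.trans f).trans ε.symm).toAddMonoidHom.toZModLinearMap N).map_smul' }
  refine ⟨LinearMap.toMatrix' φ.toLinearMap, ?_, fun v hv => ?_⟩
  · rw [LinearMap.det_toMatrix']
    exact LinearEquiv.isUnit_det' φ
  · rw [LinearMap.toMatrix'_mulVec]
    show (f (ε v) : (E.toAffine⁄Kb).Point) = (ε (ε.symm (f (ε v))) : Tor Kb E N)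
    rw [ε.apply_symm_apply]

/-- **Every automorphism of the points killed by `N`** is given by Galois. -/
theorem exists_bound_addEquiv (hj : ¬ IsIntegral ℤ E.j) :
    ∃ B : ℕ, ∀ N : ℕ, N ≠ 0 → (∀ p ∈ N.primeFactors, B < p) →
      ∀ f : Tor Kb E N ≃+ Tor Kb E N, ∃ σ : Kb ≃ₐ[K] Kb, ∀ x, f x = σ • x := by
  obtain ⟨B, hB⟩ := exists_bound_matrix (Kb := Kb) E hj
  refine ⟨B, fun N hN hNB f => ?_⟩
  obtain ⟨P, Q, h⟩ := exists_torGen_level (Kb := Kb) E hN
  obtain ⟨M, hM, hfM⟩ := exists_matrix_addEquiv E hN h f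
  obtain ⟨σ, hσ⟩ := hB N hN hNB P Q h M hM
  refine ⟨σ, fun x => Subtype.ext ?_⟩
  obtain ⟨v, hv⟩ := h.coord_surj (nsmul_of_mem E x)
  have hv' : h.coord v ∈ Submodule.torsionBy ℤ (E.toAffine⁄Kb).Point (N : ℤ) := hv ▸ x.2
  obtain rfl : x = ⟨h.coord v, hv'⟩ := Subtype.ext hv.symm
  rw [hfM v hv', ← hσ, ← h.rep_spec]
  rfl

/-- **The field of the points killed by `N`** has degree `# GL₂(ℤ / N)`. -/
theorem exists_bound_finrank_torField (hj : ¬ IsIntegral ℤ E.j) :
    ∃ B : ℕ, ∀ N : ℕ, N ≠ 0 → (∀ p ∈ N.primeFactors, B < p) →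
      Module.finrank K (torField Kb E N) = Nat.card (GL (Fin 2) (ZMod N)) := by
  obtain ⟨B, hB⟩ := exists_bound_matrix (Kb := Kb) E hj
  refine ⟨B, fun N hN hNB => ?_⟩
  have : IsAlgClosure K Kb := ⟨inferInstance, inferInstance⟩
  have : IsGalois K Kb := IsAlgClosure.isGalois K Kb
  obtain ⟨P, Q, h⟩ := exists_torGen_level (Kb := Kb) E hN
  let ψ := (h.rep hN).toHomUnits
  have hfix : (torField Kb E N).fixingSubgroup = ψ.ker := by
    ext σ
    rw [IntermediateField.mem_fixingSubgroup_iff, MonoidHom.mem_ker]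
    constructor
    · refine fun hσ => Units.ext (Matrix.ext_of_mulVec_single fun i => h.coord_injective hN ?_)
      rw [Units.val_one, one_mulVec, MonoidHom.coe_toHomUnits, ← h.rep_spec]
      exact smul_torField E hσ (h.nsmul_coord _)
    · refine fun hσ => torField_fixed E fun R hR => ?_
      obtain ⟨v, rfl⟩ := h.coord_surj hR
      rw [h.rep_spec hN, show h.rep hN σ = 1 from congrArg Units.val hσ, one_mulVec]
  rw [IntermediateField.finrank_eq_fixingSubgroup_index, hfix, Subgroup.index_ker,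
    MonoidHom.range_eq_top.2 fun u => ?_, Subgroup.card_top]
  obtain ⟨σ, hσ⟩ := hB N hN hNB P Q h u ((Matrix.isUnit_iff_isUnit_det _).1 u.isUnit)
  exact ⟨σ, Units.ext hσ⟩

end FA.IsogenyNF

end
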