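import Fermat.Agent.IsogenyNF.QuotientCyclic
import Fermat.Agent.RealPoints.Density
import Mathlib.GroupTheory.Commutator.Basic

/-!
# Torsion fixed by the commutators at a real place

At a real place complex conjugation fixes a point of every order `m`, and twice any point of order
dividing `m` it fixes is a multiple of that point. So where Galois acts commutatively on the
`m`-torsion the double of the fixed point generates a stable group, and `m` is bounded without
complex multiplication.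
-/

set_option autoImplicit false
set_option linter.unusedSectionVars false

noncomputable section

namespace FA.IsogenyNF

open WeierstrassCurve FA.Mazur.Wp
open scoped WeierstrassCurve.Affine ComplexConjugate commutatorElement

universe u v

variable {K : Type u} [Field K] [NumberField K] {Kb : Type v} [Field Kb] [DecidableEq Kb]
  [Algebra K Kb] [CharZero Kb] [IsAlgClosed Kb] [Algebra.IsAlgebraic K Kb]
  {W : WeierstrassCurve K} [W.IsElliptic] {φ : Kb →+* ℂ} {L : PeriodPair}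
  {hL : (W.baseChange Kb).map φ = latCurve L}

/-- Complex conjugation at a real place, on the algebraic numbers. -/
theorem exists_conjugation (φ : Kb →+* ℂ)
    (hreal : ∀ x : K, conj (φ (algebraMap K Kb x)) = φ (algebraMap K Kb x)) :
    ∃ c : Kb ≃ₐ[K] Kb, ∀ x, φ (c x) = conj (φ x) := by
  let _ : Algebra K ℂ := (φ.comp (algebraMap K Kb)).toAlgebra
  let _ : Algebra Kb ℂ := φ.toAlgebra
  have : IsScalarTower K Kb ℂ := IsScalarTower.of_algebraMap_eq' rfl
  have : IsAlgClosure K Kb := ⟨inferInstance, inferInstance⟩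
  have : Normal K Kb := (IsAlgClosure.isGalois K Kb).to_normal
  let τ : ℂ ≃ₐ[K] ℂ := AlgEquiv.ofRingEquiv (f := Complex.conjAe.toRingEquiv) hreal
  exact ⟨τ.restrictNormal Kb, fun x => τ.restrictNormal_commutes Kb x⟩

/-- The invariants of the lattice at a real place are real. -/
theorem real_invariants (hL : (W.baseChange Kb).map φ = latCurve L)
    (hreal : ∀ x : K, conj (φ (algebraMap K Kb x)) = φ (algebraMap K Kb x)) :
    L.g₂ = (L.g₂.re : ℂ) ∧ L.g₃ = (L.g₃.re : ℂ) := by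
  have h4 : φ (algebraMap K Kb W.a₄) = -L.g₂ / 4 := congrArg WeierstrassCurve.a₄ hL
  have h6 : φ (algebraMap K Kb W.a₆) = -L.g₃ / 4 := congrArg WeierstrassCurve.a₆ hL
  have k4 := hreal W.a₄
  have k6 := hreal W.a₆
  rw [h4, map_div₀, map_neg, map_ofNat] at k4
  rw [h6, map_div₀, map_neg, map_ofNat] at k6
  exact ⟨(Complex.conj_eq_iff_re.1 (by linear_combination (-4 : ℂ) * k4)).symm,
    (Complex.conj_eq_iff_re.1 (by linear_combination (-4 : ℂ) * k6)).symm⟩

/-- Conjugation of a point conjugates its parameter. -/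
theorem toC_conj (hreal : ∀ x : K, conj (φ (algebraMap K Kb x)) = φ (algebraMap K Kb x))
    {c : Kb ≃ₐ[K] Kb} (hc : ∀ x, φ (c x) = conj (φ x)) {P : (W.toAffine⁄Kb).Point} {z : ℂ}
    (hz : unif L z = toC W φ hL P) : toC W φ hL (c • P) = unif L (conj z) := by
  obtain ⟨h₂, h₃⟩ := real_invariants hL hreal
  rcases P with _ | ⟨x, y, h⟩
  · have hzl : z ∈ L.lattice := (unif_eq_zero_iff L).1 hz
    rw [unif_of_mem L ((FA.RealPoints.conj_mem L h₂ h₃).2 hzl)]
    rfl
  · have hzl : z ∉ L.lattice := fun hm => by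
      rw [unif_of_mem L hm] at hz
      exact Affine.Point.some_ne_zero _ hz.symm
    rw [unif_of_notMem L hzl] at hz
    obtain ⟨hx, hy⟩ := (Affine.Point.some.injEq ..).mp hz
    rw [unif_of_notMem L (fun hm => hzl ((FA.RealPoints.conj_mem L h₂ h₃).1 hm))]
    simp only [Affine.Point.algEquiv_smul_def, Affine.Point.map_some]
    refine (Affine.Point.some.injEq ..).mpr ⟨?_, ?_⟩
    · show φ (c x) = _
      rw [hc, (FA.RealPoints.wp_conj L h₂ h₃ z).1, hx]
    · show φ (c y) = _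
      rw [hc, (FA.RealPoints.wp_conj L h₂ h₃ z).2, ← hy, map_div₀, map_ofNat]

/-- **A fixed point of every order**, whose multiples contain the double of every fixed point
killed by that order. -/
theorem exists_fixed_point (hL : (W.baseChange Kb).map φ = latCurve L)
    (hreal : ∀ x : K, conj (φ (algebraMap K Kb x)) = φ (algebraMap K Kb x))
    {c : Kb ≃ₐ[K] Kb} (hc : ∀ x, φ (c x) = conj (φ x)) {m : ℕ} (hm : 0 < m) :
    ∃ P₀ : (W.toAffine⁄Kb).Point, addOrderOf P₀ = m ∧ c • P₀ = P₀ ∧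
      ∀ R : (W.toAffine⁄Kb).Point, m • R = 0 → c • R = R →
        (2 : ℕ) • R ∈ AddSubgroup.zmultiples P₀ := by
  obtain ⟨h₂, h₃⟩ := real_invariants hL hreal
  obtain ⟨ω, hω, hper⟩ := FA.RealPoints.exists_real_period L h₂ h₃
  have hmR : (m : ℝ) ≠ 0 := Nat.cast_ne_zero.2 hm.ne'
  have hmC : (m : ℂ) ≠ 0 := Nat.cast_ne_zero.2 hm.ne'
  have hmem : ∀ k : ℤ, (k : ℂ) * ((ω / m : ℝ) : ℂ) ∈ L.lattice ↔ (m : ℤ) ∣ k := fun k => by
    rw [← Complex.ofReal_intCast, ← Complex.ofReal_mul, hper]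
    refine exists_congr fun j => ?_
    rw [mul_div, div_eq_iff hmR, show (j : ℝ) * ω * m = ((m : ℤ) * j : ℤ) * ω by push_cast; ring,
      mul_left_inj' hω.ne', Int.cast_inj]
  obtain ⟨P₀, hP₀, hmP₀⟩ := exists_of_nsmul_eq_zero (hL := hL) hm.ne'
    (Q := unif L ((ω / m : ℝ) : ℂ)) (by
      rw [← natCast_zsmul, ← unif_int_mul, unif_of_mem L ((hmem m).2 dvd_rfl)])
  have hord : ∀ k : ℤ, k • P₀ = 0 ↔ (m : ℤ) ∣ k := fun k => by
    rw [← map_eq_zero_iff (toC W φ hL) (FA.Frob.mapHom_injective φ hL), map_zsmul, hP₀,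
      ← unif_int_mul, unif_eq_zero_iff, hmem]
  refine ⟨P₀, ?_, FA.Frob.mapHom_injective φ hL ?_, fun R hmR' hR => ?_⟩
  · refine Nat.dvd_antisymm (addOrderOf_dvd_of_nsmul_eq_zero hmP₀)
      (Int.natCast_dvd_natCast.1 ((hord _).1 ?_))
    rw [natCast_zsmul, addOrderOf_nsmul_eq_zero]
  · show toC W φ hL (c • P₀) = toC W φ hL P₀
    rw [toC_conj hreal hc hP₀.symm, Complex.conj_ofReal, hP₀]
  obtain ⟨z, hz⟩ := exists_preimage (hL := hL) R
  have hmz : (m : ℂ) * z ∈ L.lattice := by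
    rw [← unif_eq_zero_iff, ← Int.cast_natCast, unif_int_mul, hz, natCast_zsmul, ← map_nsmul,
      hmR', map_zero]
  have hmre : ((m * (2 * z.re) : ℝ) : ℂ) ∈ L.lattice := by
    convert add_mem hmz ((FA.RealPoints.conj_mem L h₂ h₃).2 hmz) using 1
    rw [map_mul, map_natCast, ← mul_add, Complex.add_conj]
    push_cast
    ring
  obtain ⟨k, hk⟩ := (hper _).1 hmre
  refine AddSubgroup.mem_zmultiples_iff.2 ⟨k, FA.Frob.mapHom_injective φ hL ?_⟩
  show toC W φ hL (k • P₀) = toC W φ hL ((2 : ℕ) • R)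
  have hconj : unif L (conj z) = toC W φ hL R := by rw [← toC_conj hreal hc hz, hR]
  rw [map_zsmul, hP₀, ← unif_int_mul, two_nsmul, map_add]
  nth_rw 1 [← hz]
  rw [← hconj, ← unif_add, Complex.add_conj]
  congr 1
  rw [← Complex.ofReal_intCast, ← Complex.ofReal_mul, Complex.ofReal_inj]
  field_simp
  linarith

/-- Where Galois acts commutatively on the `m`-torsion there is a stable point of order at least
`m / 2`. -/
theorem exists_stable_of_commute (hL : (W.baseChange Kb).map φ = latCurve L)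
    (hreal : ∀ x : K, conj (φ (algebraMap K Kb x)) = φ (algebraMap K Kb x)) {m : ℕ} (hm : 0 < m)
    (hcom : ∀ σ τ : Kb ≃ₐ[K] Kb, ∀ R : (W.toAffine⁄Kb).Point, m • R = 0 →
      σ • τ • R = τ • σ • R) :
    ∃ g : (W.toAffine⁄Kb).Point, 0 < addOrderOf g ∧ Stable g ∧ m ≤ 2 * addOrderOf g := by
  obtain ⟨c, hc⟩ := exists_conjugation φ hreal
  obtain ⟨P₀, hord, hfix, hall⟩ := exists_fixed_point hL hreal hc hm
  have hmP₀ : m • P₀ = 0 := hord ▸ addOrderOf_nsmul_eq_zero P₀
  refine ⟨(2 : ℕ) • P₀, IsOfFinAddOrder.addOrderOf_pos ?_, fun σ => ?_, ?_⟩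
  · exact (addOrderOf_pos_iff.1 (hord ▸ hm)).of_mem_zmultiples
      (nsmul_mem (AddSubgroup.mem_zmultiples P₀) 2)
  · have hkill : m • σ • P₀ = 0 := by rw [← smul_nsmul', hmP₀, smul_zero]
    obtain ⟨k, hk⟩ := AddSubgroup.mem_zmultiples_iff.1
      (hall (σ • P₀) hkill (by rw [hcom c σ P₀ hmP₀, hfix]))
    rw [smul_nsmul', ← hk]
    rcases Nat.even_or_odd' m with ⟨d, hd | hd⟩
    · have h0 : ((d : ℤ) * k) • P₀ = 0 := by
        rw [mul_smul, hk, natCast_zsmul, smul_smul, mul_comm, ← hd, hkill]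
      rw [← addOrderOf_dvd_iff_zsmul_eq_zero, hord, hd, Nat.cast_mul, Nat.cast_ofNat,
        mul_comm] at h0
      obtain ⟨j, rfl⟩ := Int.dvd_of_mul_dvd_mul_left (by omega) h0
      refine AddSubgroup.mem_zmultiples_iff.2 ⟨j, ?_⟩
      rw [← natCast_zsmul, smul_smul, mul_comm, Nat.cast_ofNat]
    · refine zsmul_mem (AddSubgroup.mem_zmultiples_iff.2 ⟨(d : ℤ) + 1, ?_⟩) k
      rw [← natCast_zsmul, smul_smul,
        show ((d : ℤ) + 1) * ((2 : ℕ) : ℤ) = (m : ℤ) + 1 by rw [hd]; push_cast; ring,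
        add_smul, one_smul, natCast_zsmul, hmP₀, zero_add]
  · refine Nat.le_of_dvd (mul_pos two_pos (IsOfFinAddOrder.addOrderOf_pos ?_)) ?_
    · exact (addOrderOf_pos_iff.1 (hord ▸ hm)).of_mem_zmultiples
        (nsmul_mem (AddSubgroup.mem_zmultiples P₀) 2)
    · conv_lhs => rw [← hord]
      refine addOrderOf_dvd_of_nsmul_eq_zero ?_
      rw [mul_comm, mul_smul, addOrderOf_nsmul_eq_zero]

/-- **Finitely many torsion points fixed by the commutators**, at a real place, without complex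
multiplication. -/
theorem finite_fixed_by_commutator (hL : (W.baseChange Kb).map φ = latCurve L) (hcm : NoCM L)
    (hreal : ∀ x : K, conj (φ (algebraMap K Kb x)) = φ (algebraMap K Kb x)) :
    {P : (W.toAffine⁄Kb).Point | IsOfFinAddOrder P ∧
      ∀ γ ∈ commutator (Kb ≃ₐ[K] Kb), γ • P = P}.Finite := by
  obtain ⟨B, hB⟩ := ((finite_stable hL hcm).image addOrderOf).bddAbove
  refine (finite_nsmul_eq_zero (W := W) (Kb := Kb) (n := (B * (2 * B)).factorial)
    (Nat.factorial_ne_zero _)).subset fun P ⟨hP, hfix⟩ => ?_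
  set n := addOrderOf P
  set H : AddSubgroup (W.toAffine⁄Kb).Point :=
    AddSubgroup.closure (Set.range fun σ : Kb ≃ₐ[K] Kb => σ • P)
  have hn : ∀ Q ∈ H, n • Q = 0 := fun Q hQ => by
    have hle : H ≤ (nsmulAddMonoidHom (α := (W.toAffine⁄Kb).Point) n).ker := by
      rw [AddSubgroup.closure_le]
      rintro _ ⟨σ, rfl⟩
      show n • σ • P = 0
      rw [← smul_nsmul', addOrderOf_nsmul_eq_zero, smul_zero]
    exact hle hQ
  have : Finite H := ((finite_nsmul_eq_zero (W := W) (Kb := Kb)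
    hP.addOrderOf_pos.ne').subset hn).to_subtype
  have hst : StableG H := fun σ Q hQ => by
    have hle : H ≤ H.comap (DistribSMul.toAddMonoidHom _ σ) := by
      rw [AddSubgroup.closure_le]
      rintro _ ⟨τ, rfl⟩
      exact AddSubgroup.subset_closure ⟨σ * τ, mul_smul σ τ P⟩
    exact hle hQ
  have hHfix : ∀ γ ∈ commutator (Kb ≃ₐ[K] Kb), ∀ Q ∈ H, γ • Q = Q := fun γ hγ Q hQ => by
    have hle : H ≤ AddMonoidHom.eqLocus (DistribSMul.toAddMonoidHom _ γ)
        (AddMonoidHom.id (W.toAffine⁄Kb).Point) := by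
      rw [AddSubgroup.closure_le]
      rintro _ ⟨σ, rfl⟩
      show γ • σ • P = σ • P
      have := hfix _ ((inferInstance : (commutator (Kb ≃ₐ[K] Kb)).Normal).conj_mem γ hγ σ⁻¹)
      rw [inv_inv, mul_smul, mul_smul] at this
      exact inv_smul_eq_iff.1 this
    exact hle hQ
  have hcom : ∀ σ τ : Kb ≃ₐ[K] Kb, ∀ Q ∈ H, σ • τ • Q = τ • σ • Q := fun σ τ Q hQ => by
    conv_rhs => rw [← hHfix ⁅σ, τ⁆ (Subgroup.commutator_mem_commutator (Subgroup.mem_top σ)
      (Subgroup.mem_top τ)) _ (hst τ _ (hst σ Q hQ))]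
    rw [← mul_smul, ← mul_smul, ← mul_smul, commutatorElement_def, inv_mul_cancel_right,
      inv_mul_cancel_right]
  obtain ⟨g, m, hm, hg, hgs, hiff⟩ := exists_cyclic_part (hL := hL) hst
  have hmH : ∀ R : (W.toAffine⁄Kb).Point, m • R = 0 → R ∈ H := fun R hR => by
    have := (hiff (toC W φ hL R)).2 (by rw [← map_nsmul, hR, map_zero]; exact zero_mem _)
    exact (AddSubgroup.mem_map_iff_mem (FA.Frob.mapHom_injective φ hL)).1 this
  obtain ⟨g', hg', hgs', hle⟩ := exists_stable_of_commute hL hreal hm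
    fun σ τ R hR => hcom σ τ R (hmH R hR)
  have hmB : m ≤ 2 * B := hle.trans (Nat.mul_le_mul_left 2 (hB ⟨g', ⟨hg', hgs'⟩, rfl⟩))
  have hgB : addOrderOf g ≤ B := hB ⟨g, ⟨hg, hgs⟩, rfl⟩
  have hPH : P ∈ H := AddSubgroup.subset_closure ⟨1, one_smul _ P⟩
  obtain ⟨Q, hQ, hQP⟩ := AddSubgroup.mem_map.1 ((hiff _).1 (AddSubgroup.mem_map_of_mem _ hPH))
  rw [← map_nsmul, (FA.Frob.mapHom_injective φ hL).eq_iff] at hQP
  obtain ⟨j, rfl⟩ := AddSubgroup.mem_zmultiples_iff.1 hQ
  have hkill : (addOrderOf g * m) • P = 0 := by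
    rw [mul_smul, ← hQP, smul_comm, addOrderOf_nsmul_eq_zero, smul_zero]
  obtain ⟨q, hq⟩ := Nat.dvd_factorial (mul_pos hg hm) (Nat.mul_le_mul hgB hmB)
  show (B * (2 * B)).factorial • P = 0
  rw [hq, mul_comm, mul_smul, hkill, smul_zero]

end FA.IsogenyNF

end
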