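import Fermat.Agent.IsogenyNF.TorsionBasis

/-!
# All matrices of determinant one at the large primes together

For an invariant which is not an algebraic integer the image of Galois contains every matrix of
determinant one on the points killed by `N`, for every `N` with large prime factors only, and so
is transitive on the points of exact order `N`.
-/

set_option autoImplicit false
set_option linter.unusedSectionVars false

noncomputable section

namespace FA.IsogenyNF

open WeierstrassCurve Matrix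
open scoped WeierstrassCurve.Affine

universe u v

variable {K : Type u} [Field K] [NumberField K] {Kb : Type v} [Field Kb] [DecidableEq Kb]
  [Algebra K Kb] [CharZero Kb] [IsAlgClosed Kb] [Algebra.IsAlgebraic K Kb]
  (E : WeierstrassCurve K) [E.IsElliptic]

set_option quotPrecheck false in
local notation "PtE" => (E.toAffine⁄Kb).Point

/-- A family of generators at the powers of finitely many primes. -/
abbrev GenFamily (S : Finset ℕ) (e : ℕ → ℕ) (P Q : ℕ → (E.toAffine⁄Kb).Point) : Prop :=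
  ∀ p ∈ S, TorGen E (p ^ (e p + 1)) (P p) (Q p)

/-- The determinant-one maps modulo `p` give those in coordinates. -/
theorem exists_modP_eq {p k : ℕ} (hp : p.Prime) {P Q : PtE} (h : TorGen E (p ^ (k + 1)) P Q)
    (hsl : ∀ f : Tor Kb E p →ₗ[ZMod p] Tor Kb E p, LinearMap.det f = 1 →
      ∃ σ : Kb ≃ₐ[K] Kb, ∀ x, f x = σ • x)
    {A : Matrix (Fin 2) (Fin 2) (ZMod p)} (hA : A.det = 1) :
    ∃ σ : Kb ≃ₐ[K] Kb, modP k.succ_ne_zero (h.rep (pow_ne_zero _ hp.ne_zero) σ) = A := by
  have := Fact.mk hp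
  have hn : p ^ (k + 1) ≠ 0 := pow_ne_zero _ hp.ne_zero
  have : NeZero (p ^ (k + 1)) := ⟨hn⟩
  have h₀ := h.toPrime hp.ne_zero
  have hmem : ∀ v, h₀.coord v ∈ Submodule.torsionBy ℤ (E.toAffine⁄Kb).Point (p : ℤ) := fun v => by
    rw [Submodule.mem_torsionBy_iff, natCast_zsmul, h₀.nsmul_coord]
  let c : (Fin 2 → ZMod p) →ₗ[ZMod p] Tor Kb E p :=
    (AddMonoidHom.mk' (fun v => (⟨h₀.coord v, hmem v⟩ : Tor Kb E p))
      fun v w => Subtype.ext (map_add h₀.coord v w)).toZModLinearMap p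
  have hc : Function.Bijective c :=
    ⟨fun v w e => h₀.coord_injective hp.ne_zero (congrArg Subtype.val e :),
      fun R => (h₀.coord_surj (nsmul_of_mem E R)).imp fun v hv => Subtype.ext hv⟩
  let ε := LinearEquiv.ofBijective c hc
  obtain ⟨σ, hσ⟩ := hsl ((ε.toLinearMap.comp (Matrix.toLin' A)).comp ε.symm.toLinearMap) (by
    rw [LinearMap.comp_assoc, LinearMap.det_conj, LinearMap.det_toLin', hA])
  refine ⟨σ, Matrix.ext_of_mulVec_single fun j => h₀.coord_injective hp.ne_zero ?_⟩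
  -- reduction is multiplication by `p ^ k`
  have hred : ∀ v : Fin 2 → ZMod (p ^ (k + 1)),
      p ^ k • h.coord v = h₀.coord (ZMod.castHom (dvd_pow_self p k.succ_ne_zero) (ZMod p) ∘ v) := by
    intro v
    have hv : v =
        ![(((v 0).val : ℤ) : ZMod (p ^ (k + 1))), (((v 1).val : ℤ) : ZMod (p ^ (k + 1)))] :=
      funext fun i => by fin_cases i <;> simp
    have hv₀ : ZMod.castHom (dvd_pow_self p k.succ_ne_zero) (ZMod p) ∘ v =
        ![(((v 0).val : ℤ) : ZMod p), (((v 1).val : ℤ) : ZMod p)] := funext fun i => by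
      conv_lhs => rw [hv]
      fin_cases i <;> simp
    rw [hv₀, h₀.coord_intCast]
    conv_lhs => rw [hv]
    rw [h.coord_intCast, nsmul_add, smul_comm (p ^ k), smul_comm (p ^ k) _ Q]
  have hone : (Pi.single j 1 : Fin 2 → ZMod p) =
      ZMod.castHom (dvd_pow_self p k.succ_ne_zero) (ZMod p) ∘ Pi.single j 1 := funext fun i => by
    rw [Function.comp_apply, Pi.single_apply, Pi.single_apply]
    split_ifs <;> simp
  have hσj : h₀.coord (A *ᵥ Pi.single j 1) = σ • h₀.coord (Pi.single j 1) := by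
    have h1 := congrArg Subtype.val (hσ (ε (Pi.single j 1)))
    simp only [LinearMap.comp_apply, LinearEquiv.coe_coe, LinearEquiv.symm_apply_apply,
      Matrix.toLin'_apply] at h1
    exact h1
  rw [hσj, hone, ← hred, smul_nsmul', h.rep_spec hn, hred]
  refine congrArg h₀.coord (funext fun i => ?_)
  rw [Function.comp_apply, RingHom.map_mulVec]
  rfl

/-- **All families of determinant one** at the powers of the large primes. -/
theorem exists_bound_family (hj : ¬ IsIntegral ℤ E.j) :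
    ∃ B : ℕ, ∀ (S : Finset ℕ), (∀ p ∈ S, p.Prime ∧ B < p) →
      ∀ (e : ℕ → ℕ) (P Q : ℕ → PtE) (h : GenFamily E S e P Q)
        (M : ∀ p : ℕ, MatN p (e p + 1)), (∀ p ∈ S, (M p).det = 1) →
        ∃ σ : Kb ≃ₐ[K] Kb, ∀ p (hp : p ∈ S), ∀ v,
          σ • (h p hp).coord v = (h p hp).coord (M p *ᵥ v) := by
  classical
  obtain ⟨B, hB⟩ := exists_bound_det_one (Kb := Kb) E hj
  refine ⟨B + 4, fun S hS e P Q h M hM => ?_⟩
  have hn : ∀ p ∈ S, p ^ (e p + 1) ≠ 0 := fun p hp => pow_ne_zero _ (hS p hp).1.ne_zero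
  let ρ : ∀ p : ℕ, (Kb ≃ₐ[K] Kb) →* MatN p (e p + 1) := fun p =>
    if hp : p ∈ S then (h p hp).rep (hn p hp) else 1
  have hρ : ∀ p (hp : p ∈ S), ρ p = (h p hp).rep (hn p hp) := fun p hp => dif_pos hp
  let G₁ : Subgroup (Kb ≃ₐ[K] Kb) := commutator (Kb ≃ₐ[K] Kb)
  have hdet : ∀ p ∈ S, ∀ g : G₁, (((ρ p).comp G₁.subtype) g).det = 1 := fun p _ g => by
    have h1 := Abelianization.commutator_subset_ker
      ((Matrix.detMonoidHom.comp (ρ p)).toHomUnits) g.2
    rw [MonoidHom.mem_ker] at h1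
    exact congrArg Units.val h1
  have hsl : ∀ p ∈ S, ∀ A : Matrix (Fin 2) (Fin 2) (ZMod p), A.det = 1 →
      ∃ g : G₁, modP (Nat.succ_ne_zero _) ((ρ p).comp G₁.subtype g) = A := fun p hp A hA => by
    obtain ⟨hpp, hBp⟩ := hS p hp
    have := Fact.mk hpp
    obtain ⟨g, hg, hgA⟩ := exists_commutator_modP (p := p) (by omega)
      ((modP (p := p) (e p).succ_ne_zero).toMonoidHom.comp (ρ p)) (fun B' hB' => by
        obtain ⟨σ, hσ⟩ := exists_modP_eq E hpp (h p hp) (hB p hpp (by omega)) hB'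
        exact ⟨σ, by rw [← hσ, hρ p hp]; rfl⟩) hA
    exact ⟨⟨g, hg⟩, hgA⟩
  obtain ⟨g, hg⟩ := exists_family_eq e (fun p => (ρ p).comp G₁.subtype) S
    (fun p hp => ⟨(hS p hp).1, by have := (hS p hp).2; omega⟩) hdet hsl M hM
  refine ⟨g, fun p hp v => ?_⟩
  rw [(h p hp).rep_spec (hn p hp), ← hρ p hp]
  exact congrArg (fun X => (h p hp).coord (X *ᵥ v)) (hg p hp)

/-- Points killed by `N` vanish with their multiples by the prime-to-`p` parts. -/
theorem eq_zero_of_ordCompl {A : Type*} [AddCommGroup A] {N : ℕ} (hN : N ≠ 0) {x : A}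
    (hx : N • x = 0) (h : ∀ p ∈ N.primeFactors, (N / p ^ N.factorization p) • x = 0) : x = 0 := by
  refine AddMonoid.addOrderOf_eq_one_iff.1 (Nat.eq_one_iff_not_exists_prime_dvd.2 fun q hq hd => ?_)
  have hqN : q ∣ N := hd.trans (addOrderOf_dvd_of_nsmul_eq_zero hx)
  exact Nat.not_dvd_ordCompl hq hN
    (hd.trans (addOrderOf_dvd_of_nsmul_eq_zero (h q (Nat.mem_primeFactors.2 ⟨hq, hqN, hN⟩))))

theorem ordCompl_spec {N p : ℕ} (hN : N ≠ 0) (hp : p ∈ N.primeFactors) :
    N.factorization p - 1 + 1 = N.factorization p ∧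
      p ^ N.factorization p * (N / p ^ N.factorization p) = N ∧
      Nat.Coprime (p ^ N.factorization p) (N / p ^ N.factorization p) := by
  have hpp := Nat.prime_of_mem_primeFactors hp
  have := hpp.factorization_pos_of_dvd hN (Nat.dvd_of_mem_primeFactors hp)
  exact ⟨by omega, Nat.ordProj_mul_ordCompl_eq_self N p,
    (hpp.coprime_iff_not_dvd.2 (Nat.not_dvd_ordCompl hpp hN)).pow_left _⟩

/-- **`SL₂(ℤ / N)`** for all `N` with large prime factors only. -/
theorem exists_bound_sl_two (hj : ¬ IsIntegral ℤ E.j) :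
    ∃ B : ℕ, ∀ N : ℕ, N ≠ 0 → (∀ p ∈ N.primeFactors, B < p) → ∀ P Q : PtE, TorGen E N P Q →
      ∀ a b c d : ℤ, ((a * d - b * c : ℤ) : ZMod N) = 1 →
        ∃ σ : Kb ≃ₐ[K] Kb, σ • P = a • P + c • Q ∧ σ • Q = b • P + d • Q := by
  obtain ⟨B, hB⟩ := exists_bound_family (Kb := Kb) E hj
  refine ⟨B, fun N hN hNB P Q h a b c d hdet => ?_⟩
  let e : ℕ → ℕ := fun p => N.factorization p - 1
  let m : ℕ → ℕ := fun p => N / p ^ N.factorization p
  have hgen : GenFamily E N.primeFactors e (fun p => m p • P) (fun p => m p • Q) := fun p hp => by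
    obtain ⟨he, hm, hcop⟩ := ordCompl_spec hN hp
    show TorGen E (p ^ (N.factorization p - 1 + 1)) _ _
    rw [he]
    exact (hm.symm ▸ h : TorGen E (p ^ N.factorization p * m p) P Q).of_coprime hcop
  obtain ⟨σ, hσ⟩ := hB N.primeFactors (fun p hp => ⟨Nat.prime_of_mem_primeFactors hp, hNB p hp⟩)
    e _ _ hgen (fun _ => !![(a : ZMod _), (b : ZMod _); (c : ZMod _), (d : ZMod _)]) fun p hp => by
      obtain ⟨he, hm, -⟩ := ordCompl_spec hN hp
      rw [det_fin_two_of]
      have hd : p ^ (e p + 1) ∣ N := by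
        show p ^ (N.factorization p - 1 + 1) ∣ N
        rw [he]; exact Nat.ordProj_dvd N p
      have := congrArg (ZMod.castHom hd (ZMod (p ^ (e p + 1)))) hdet
      rw [map_one, map_intCast] at this
      push_cast at this
      exact this
  have key : ∀ p (hp : p ∈ N.primeFactors),
      σ • (m p • P) = a • (m p • P) + c • (m p • Q) ∧
        σ • (m p • Q) = b • (m p • P) + d • (m p • Q) := fun p hp => by
    obtain ⟨h1, h2⟩ := (hgen p hp).coord_single
    dsimp only at h1 h2
    constructor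
    · conv_lhs => rw [← h1, hσ p hp, mulVec_single_one]
      rw [← (hgen p hp).coord_intCast]
      congr 1
      funext i; fin_cases i <;> simp [Matrix.col]
    · conv_lhs => rw [← h2, hσ p hp, mulVec_single_one]
      rw [← (hgen p hp).coord_intCast]
      congr 1
      funext i; fin_cases i <;> simp [Matrix.col]
  refine ⟨σ, sub_eq_zero.1 (eq_zero_of_ordCompl hN ?_ fun p hp => ?_),
    sub_eq_zero.1 (eq_zero_of_ordCompl hN ?_ fun p hp => ?_)⟩
  · simp only [nsmul_sub, nsmul_add, smul_comm N, h.left, h.right, smul_zero,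
      add_zero, sub_zero]
  · rw [nsmul_sub, ← smul_nsmul', (key p hp).1, nsmul_add, smul_comm, smul_comm (m p) c Q, sub_self]
  · simp only [nsmul_sub, nsmul_add, smul_comm N, h.left, h.right, smul_zero,
      add_zero, sub_zero]
  · rw [nsmul_sub, ← smul_nsmul', (key p hp).2, nsmul_add, smul_comm, smul_comm (m p) d Q, sub_self]

/-- **Transitive on the points of exact order `N`.** -/
theorem exists_bound_transitive_order (hj : ¬ IsIntegral ℤ E.j) :
    ∃ B : ℕ, ∀ N : ℕ, N ≠ 0 → (∀ p ∈ N.primeFactors, B < p) → ∀ P Q : PtE,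
      addOrderOf P = N → addOrderOf Q = N → ∃ σ : Kb ≃ₐ[K] Kb, σ • P = Q := by
  classical
  obtain ⟨B, hB⟩ := exists_bound_family (Kb := Kb) E hj
  refine ⟨B, fun N hN hNB P Q hP hQ => ?_⟩
  let e : ℕ → ℕ := fun p => N.factorization p - 1
  let m : ℕ → ℕ := fun p => N / p ^ N.factorization p
  have hord : ∀ R : PtE, addOrderOf R = N → ∀ p ∈ N.primeFactors,
      addOrderOf (m p • R) = p ^ (e p + 1) := fun R hR p hp => by
    obtain ⟨he, hm, -⟩ := ordCompl_spec hN hp
    show _ = p ^ (N.factorization p - 1 + 1)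
    rw [he, ← hR, addOrderOf_nsmul' _ (Nat.ordCompl_pos p hN).ne', hR,
      Nat.gcd_eq_right (Nat.ordCompl_dvd N p), Nat.div_div_self (Nat.ordProj_dvd N p) hN]
  have hex : ∀ p, ∃ R : PtE, p ∈ N.primeFactors → TorGen E (p ^ (e p + 1)) (m p • P) R :=
      fun p => by
    by_cases hp : p ∈ N.primeFactors
    · obtain ⟨R, hR⟩ := exists_torGen (Nat.prime_of_mem_primeFactors hp) (hord P hP p hp)
      exact ⟨R, fun _ => hR⟩
    · exact ⟨0, fun h => absurd h hp⟩
  choose R hR using hex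
  -- the coordinates of the multiples of `Q`
  have hM : ∀ p, ∃ M : MatN p (e p + 1), ∀ hp : p ∈ N.primeFactors,
      M.det = 1 ∧ (hR p hp).coord (M *ᵥ Pi.single 0 1) = m p • Q := fun p => by
    by_cases hp : p ∈ N.primeFactors
    swap
    · exact ⟨1, fun h => absurd h hp⟩
    have hpp := Nat.prime_of_mem_primeFactors hp
    have := Fact.mk hpp
    have hQ' := hord Q hQ p hp
    obtain ⟨v, hv⟩ := (hR p hp).coord_surj (R := m p • Q)
      (by rw [← hQ']; exact addOrderOf_nsmul_eq_zero _)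
    have hunit : IsUnit (v 0) ∨ IsUnit (v 1) := by
      by_contra! hnu
      have : NeZero (p ^ (e p + 1)) := ⟨pow_ne_zero _ hpp.ne_zero⟩
      have hdvd : ∀ i, ¬ IsUnit (v i) → ((p ^ e p : ℕ) : ZMod (p ^ (e p + 1))) * v i = 0 :=
        fun i hi => by
          rw [← ZMod.natCast_zmod_val (v i), ZMod.isUnit_iff_coprime,
            Nat.coprime_pow_right_iff (Nat.succ_pos _), Nat.coprime_comm,
            hpp.coprime_iff_not_dvd, not_not] at hi
          obtain ⟨t, ht⟩ := hi
          rw [← ZMod.natCast_zmod_val (v i), ht, ← Nat.cast_mul, ← mul_assoc, ← pow_succ,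
            Nat.cast_mul, ZMod.natCast_self, zero_mul]
      have h0 : p ^ e p • (m p • Q) = 0 := by
        rw [← hv, ← map_nsmul, show p ^ e p • v = 0 from funext fun i => by
          rw [Pi.smul_apply, nsmul_eq_mul, Pi.zero_apply]
          fin_cases i
          · exact hdvd 0 hnu.1
          · exact hdvd 1 hnu.2, map_zero]
      have := Nat.le_of_dvd (pow_pos hpp.pos _) (hQ' ▸ addOrderOf_dvd_of_nsmul_eq_zero h0)
      exact absurd this (not_le.2 (Nat.pow_lt_pow_succ hpp.one_lt))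
    rcases hunit with ⟨u, hu⟩ | ⟨u, hu⟩
    · refine ⟨!![v 0, 0; v 1, (↑u⁻¹ : ZMod (p ^ (e p + 1)))], fun _ => ⟨?_, ?_⟩⟩
      · rw [det_fin_two_of, zero_mul, sub_zero, ← hu, Units.mul_inv]
      · rw [mulVec_single_one, ← hv]
        congr 1
        funext i; fin_cases i <;> simp [Matrix.col]
    · refine ⟨!![v 0, -(↑u⁻¹ : ZMod (p ^ (e p + 1))); v 1, 0], fun _ => ⟨?_, ?_⟩⟩
      · rw [det_fin_two_of, mul_zero, ← hu, zero_sub, neg_mul, neg_neg, Units.inv_mul]
      · rw [mulVec_single_one, ← hv]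
        congr 1
        funext i; fin_cases i <;> simp [Matrix.col]
  choose M hM using hM
  obtain ⟨σ, hσ⟩ := hB N.primeFactors (fun p hp => ⟨Nat.prime_of_mem_primeFactors hp, hNB p hp⟩)
    e _ _ (fun p hp => hR p hp) M fun p hp => (hM p hp).1
  refine ⟨σ, sub_eq_zero.1 (eq_zero_of_ordCompl hN ?_ fun p hp => ?_)⟩
  · rw [nsmul_sub, ← smul_nsmul', ← hP, addOrderOf_nsmul_eq_zero, smul_zero, hP, ← hQ,
      addOrderOf_nsmul_eq_zero, sub_zero]
  · rw [nsmul_sub, ← smul_nsmul', ← (hM p hp).2, ← hσ p hp, (hR p hp).coord_single.1, sub_self]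

end FA.IsogenyNF

end
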