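import Fermat.Agent.IsogenyNF.QuotientHom
import Fermat.Agent.ClassNumberOne.Transport

/-!
# Stable groups from complex multiplication

A multiplier `ω` of the lattice acts on the algebraic points by rational functions; by transport
along automorphisms of `ℂ` it commutes with the automorphisms fixing `ω`. Its eigenvectors modulo
the primes dividing values of its characteristic polynomial span stable groups.
-/

set_option autoImplicit false
set_option linter.unusedSectionVars false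

noncomputable section

namespace FA.IsogenyNF

open WeierstrassCurve FA.Mazur.Wp
open FA.ClassNumberOne (xP yP xP_unif yP_unif)
open scoped WeierstrassCurve.Affine

universe u v

/-- A multiplier outside `ℤ` is a root of an integral quadratic, given by its matrix. -/
theorem exists_matrix {L : PeriodPair} {ω : ℂ} (hω : ∀ m : ℤ, ω ≠ m)
    (hst : ∀ l ∈ L.lattice, ω * l ∈ L.lattice) :
    ∃ A B C D : ℤ, ω * L.ω₁ = A * L.ω₁ + B * L.ω₂ ∧ ω * L.ω₂ = C * L.ω₁ + D * L.ω₂ ∧ B ≠ 0 ∧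
      ω ^ 2 - ((A + D : ℤ) : ℂ) * ω + ((A * D - B * C : ℤ) : ℂ) = 0 ∧ A * D - B * C ≠ 0 := by
  obtain ⟨A, B, h1⟩ := PeriodPair.mem_lattice.1 (hst _ L.ω₁_mem_lattice)
  obtain ⟨C, D, h2⟩ := PeriodPair.mem_lattice.1 (hst _ L.ω₂_mem_lattice)
  have hw : L.ω₁ ≠ 0 := L.indep.ne_zero 0
  have h : ω ^ 2 - ((A + D : ℤ) : ℂ) * ω + ((A * D - B * C : ℤ) : ℂ) = 0 := by
    refine mul_left_cancel₀ hw ?_
    push_cast
    rw [mul_zero]
    linear_combination (-(ω - D)) * h1 - (B : ℂ) * h2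
  refine ⟨A, B, C, D, h1.symm, h2.symm, ?_, h, fun hn => ?_⟩
  · rintro rfl
    refine hω A (mul_right_cancel₀ hw ?_)
    rw [← h1]
    simp
  · rw [hn, Int.cast_zero, add_zero, sq, ← sub_mul] at h
    rcases mul_eq_zero.1 h with h | h
    · exact hω (A + D) (sub_eq_zero.1 h)
    · exact hω 0 (by simpa using h)

/-- Infinitely many primes divide the values of a quadratic. -/
theorem infinite_primes_dvd_quadratic (t n : ℤ) (hn : n ≠ 0) :
    {p : ℕ | p.Prime ∧ ∃ a : ℤ, (p : ℤ) ∣ a ^ 2 - t * a + n}.Infinite := by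
  intro hfin
  set Q : ℕ := ∏ p ∈ hfin.toFinset, p with hQ
  have hQ0 : 0 < Q := Finset.prod_pos fun p hp => (hfin.mem_toFinset.1 hp).1.pos
  set m : ℕ := t.natAbs + 2 with hm
  set M : ℤ := (Q : ℤ) * m with hM
  have hbig : (2 : ℤ) ≤ n.natAbs * M ^ 2 - (t * M).natAbs - 1 := by
    have hMpos : 0 < M := by positivity
    rw [Int.natAbs_mul, Nat.cast_mul, Int.natCast_natAbs, Int.natCast_natAbs,
      Int.natCast_natAbs, abs_of_pos hMpos]
    have hmM : |t| + 2 ≤ M := by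
      rw [hM, hm]
      push_cast
      exact le_mul_of_one_le_left (by positivity) (by exact_mod_cast hQ0)
    have h1 : 1 ≤ |n| := Int.one_le_abs hn
    have h3 : M ^ 2 ≤ |n| * M ^ 2 := le_mul_of_one_le_left (sq_nonneg M) h1
    have h4 : (|t| + 2) * M ≤ M * M := mul_le_mul_of_nonneg_right hmM hMpos.le
    nlinarith [abs_nonneg t]
  set v : ℤ := n * M ^ 2 - t * M + 1 with hv
  have hv1 : v.natAbs ≠ 1 := by
    have h1 : ((n * M ^ 2).natAbs : ℤ) = n.natAbs * M ^ 2 := by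
      rw [Int.natAbs_mul, Nat.cast_mul, Int.natAbs_pow, Nat.cast_pow, Int.natCast_natAbs M, sq_abs]
    omega
  obtain ⟨p, hp, hpv⟩ := Nat.exists_prime_and_dvd hv1
  have hpv' : (p : ℤ) ∣ v := Int.natCast_dvd.2 hpv
  have hmem : p ∈ hfin.toFinset := hfin.mem_toFinset.2 ⟨hp, n * M, by
    rw [show (n * M) ^ 2 - t * (n * M) + n = n * v by rw [hv]; ring]
    exact dvd_mul_of_dvd_right hpv' n⟩
  have hpQ : (p : ℤ) ∣ M := dvd_mul_of_dvd_left
    (Int.natCast_dvd_natCast.2 (hQ ▸ Finset.dvd_prod_of_mem _ hmem)) _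
  have : (p : ℤ) ∣ 1 := by
    rw [show (1 : ℤ) = v - M * (n * M - t) by rw [hv]; ring]
    exact dvd_sub hpv' (dvd_mul_of_dvd_left hpQ _)
  exact hp.one_lt.ne' (Nat.dvd_one.1 (Int.natCast_dvd_natCast.1 (by simpa using this)))

section Scale

variable (L L' : PeriodPair) {ω : ℂ}

/-- Multiplication by `ω` as a bijection of lattices. -/
def mulEquiv (hω : ω ≠ 0) (h : ∀ x, x ∈ L'.lattice ↔ ω * x ∈ L.lattice) :
    L'.lattice ≃ L.lattice where
  toFun x := ⟨ω * x, (h x).1 x.2⟩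
  invFun y := ⟨y / ω, (h _).2 (by rw [mul_div_cancel₀ _ hω]; exact y.2)⟩
  left_inv x := Subtype.ext (mul_div_cancel_left₀ _ hω)
  right_inv y := Subtype.ext (mul_div_cancel₀ _ hω)

/-- The coordinates at `ω z`. -/
theorem wp_scale (hω : ω ≠ 0) (h : ∀ x, x ∈ L'.lattice ↔ ω * x ∈ L.lattice) (z : ℂ) :
    L.weierstrassP (ω * z) = L'.weierstrassP z / ω ^ 2 ∧
      L.derivWeierstrassP (ω * z) = L'.derivWeierstrassP z / ω ^ 3 := by
  constructor
  · refine ((mulEquiv L L' hω h).hasSum_iff.2 (L.hasSum_weierstrassP (ω * z))).unique ?_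
    convert! (L'.hasSum_weierstrassP z).div_const (ω ^ 2) using 2 with l
    simp only [Function.comp, mulEquiv, Equiv.coe_fn_mk, ← mul_sub, mul_pow]
    field_simp
  · refine ((mulEquiv L L' hω h).hasSum_iff.2 (L.hasSum_derivWeierstrassP (ω * z))).unique ?_
    convert! (L'.hasSum_derivWeierstrassP z).div_const (ω ^ 3) using 2 with l
    simp only [Function.comp, mulEquiv, Equiv.coe_fn_mk, ← mul_sub, mul_pow]
    field_simp

end Scale

variable {K : Type u} [Field K] [CharZero K] {Kb : Type v} [Field Kb] [DecidableEq Kb]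
  [Algebra K Kb] [CharZero Kb] [IsAlgClosed Kb] [Algebra.IsAlgebraic K Kb]
  {W : WeierstrassCurve K} [W.IsElliptic] {φ : Kb →+* ℂ} {L : PeriodPair}
  {hL : (W.baseChange Kb).map φ = latCurve L}

/-- An automorphism of `Kb` extends to `ℂ`. -/
theorem exists_extension (φ : Kb →+* ℂ) (σ : Kb ≃+* Kb) :
    ∃ τ : ℂ ≃+* ℂ, ∀ x, τ (φ x) = φ (σ x) := by
  let _ : Algebra Kb ℂ := φ.toAlgebra
  obtain ⟨ι, v, hv⟩ := exists_isTranscendenceBasis' Kb ℂ
  obtain ⟨τ, hτ⟩ := FA.Period.exists_ringEquiv_extending v hv (MvPolynomial.mapEquiv ι σ)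
  exact ⟨τ, fun x => by simpa [RingHom.algebraMap_toAlgebra] using hτ (MvPolynomial.C x)⟩

/-- An endomorphism given on the lattice by a multiplier commutes with the automorphisms fixing
it. -/
theorem smul_comm_of_fixed {ω : ℂ} {ω₀ : Kb} (hω₀ : φ ω₀ = ω)
    (hst : ∀ l ∈ L.lattice, ω * l ∈ L.lattice) {t n : ℤ} (hn : n ≠ 0)
    (hquad : ω ^ 2 - t * ω + n = 0) {θ : (W.toAffine⁄Kb).Point →+ (W.toAffine⁄Kb).Point}
    (hθ : ∀ P z, unif L z = toC W φ hL P → toC W φ hL (θ P) = unif L (ω * z))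
    {σ : Kb ≃ₐ[K] Kb} (hσ : σ ω₀ = ω₀) (P : (W.toAffine⁄Kb).Point) :
    θ (σ • P) = σ • θ P := by
  obtain ⟨τ, hτ⟩ := exists_extension φ σ.toRingEquiv
  have hτ' : ∀ x, τ (φ x) = φ (σ x) := hτ
  have ha : ∀ a : K, τ (φ (algebraMap K Kb a)) = φ (algebraMap K Kb a) := fun a => by
    rw [hτ', σ.commutes]
  have h2 : τ L.g₂ = L.g₂ := by
    have e : φ (algebraMap K Kb W.a₄) = -L.g₂ / 4 := congrArg WeierstrassCurve.a₄ hL
    rw [show L.g₂ = -4 * φ (algebraMap K Kb W.a₄) by rw [e]; ring, map_mul, map_neg, map_ofNat, ha]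
  have h3 : τ L.g₃ = L.g₃ := by
    have e : φ (algebraMap K Kb W.a₆) = -L.g₃ / 4 := congrArg WeierstrassCurve.a₆ hL
    rw [show L.g₃ = -4 * φ (algebraMap K Kb W.a₆) by rw [e]; ring, map_mul, map_neg, map_ofNat, ha]
  have hmap : ∀ R : (W.toAffine⁄Kb).Point,
      FA.ClassNumberOne.mapPt (τ : ℂ →+* ℂ) (FA.ClassNumberOne.map_latCurve τ h2 h3)
        (toC W φ hL R) = toC W φ hL (σ • R) := fun R => by
    rcases R with _ | ⟨x, y, h⟩
    · rfl
    · exact (Affine.Point.some.injEq ..).mpr ⟨hτ' x, hτ' y⟩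
  obtain ⟨z, hz⟩ := exists_preimage (hL := hL) P
  obtain ⟨z', hz'⟩ := exists_preimage (hL := hL) (σ • P)
  refine FA.Frob.mapHom_injective φ hL ?_
  refine (hθ _ _ hz').trans ?_
  have h := (FA.ClassNumberOne.transport τ h2 h3 hst hn hquad).2 (toC W φ hL P) z'
    ((hmap P).trans hz'.symm)
  rw [show τ ω = ω by rw [← hω₀, hτ', hσ], ← hz, FA.ClassNumberOne.mulPt_unif, ← hθ P z hz,
    hmap] at h
  exact h.symm

/-- **Complex multiplication gives an endomorphism commuting with the automorphisms fixing the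
multiplier.** -/
theorem exists_endomorphism (hL : (W.baseChange Kb).map φ = latCurve L) {ω : ℂ}
    (hω : ∀ m : ℤ, ω ≠ m) (hst : ∀ l ∈ L.lattice, ω * l ∈ L.lattice) :
    ∃ (ω₀ : Kb) (θ : (W.toAffine⁄Kb).Point →+ (W.toAffine⁄Kb).Point), φ ω₀ = ω ∧
      (∀ σ : Kb ≃ₐ[K] Kb, σ ω₀ = ω₀ → ∀ P, θ (σ • P) = σ • θ P) ∧
      ∀ P z, unif L z = toC W φ hL P → toC W φ hL (θ P) = unif L (ω * z) := by
  obtain ⟨A, B, C, D, h1, h2, hB, hquad, hn⟩ := exists_matrix hω hst
  set t : ℤ := A + D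
  set n : ℤ := A * D - B * C
  have hω0 : ω ≠ 0 := fun e => hω 0 (by simpa using e)
  obtain ⟨ω₀, hω₀⟩ : ∃ x : Kb, φ x = ω := by
    obtain ⟨r, hr⟩ := IsAlgClosed.exists_root
      (Polynomial.X ^ 2 - Polynomial.C (t : Kb) * Polynomial.X + Polynomial.C (n : Kb))
      (by
        rw [show (Polynomial.X ^ 2 - Polynomial.C (t : Kb) * Polynomial.X + Polynomial.C (n : Kb))
          = Polynomial.C 1 * Polynomial.X ^ 2 + Polynomial.C (-(t : Kb)) * Polynomial.X +
            Polynomial.C (n : Kb) by rw [map_one, map_neg]; ring,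
          Polynomial.degree_quadratic one_ne_zero]
        decide)
    have hr' : φ r ^ 2 - (t : ℂ) * φ r + (n : ℂ) = 0 := by
      simpa using congrArg φ hr
    have : (ω - φ r) * (ω + φ r - t) = 0 := by linear_combination hquad - hr'
    rcases mul_eq_zero.1 this with h | h
    · exact ⟨r, (sub_eq_zero.1 h).symm⟩
    · exact ⟨(t : Kb) - r, by rw [map_sub, map_intCast]; linear_combination -h⟩
  -- the kernel
  let G : AddSubgroup (W.toAffine⁄Kb).Point :=
    ((L.lattice.toAddSubgroup.comap (AddMonoidHom.mulLeft ω)).map (unifHom L)).comap (toC W φ hL)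
  have hkill : ∀ {z : ℂ}, ω * z ∈ L.lattice → unif L ((n : ℂ) * z) = 0 := fun {z} hz => by
    rw [unif_eq_zero_iff, show (n : ℂ) * z = t • (ω * z) - ω * (ω * z) by
      rw [zsmul_eq_mul]; linear_combination z * hquad]
    exact sub_mem (zsmul_mem hz t) (hst _ hz)
  have hGn : ∀ P ∈ G, n.natAbs • P = 0 := fun P hP => by
    obtain ⟨z, hz, e⟩ := AddSubgroup.mem_map.1 (AddSubgroup.mem_comap.1 hP)
    refine FA.Frob.mapHom_injective φ hL ?_
    rw [map_zero, map_nsmul]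
    have h0 := hkill (z := z) hz
    rw [unif_int_mul, ← unifHom_apply, e] at h0
    rw [← natCast_zsmul, Int.natCast_natAbs]
    rcases abs_choice n with h | h <;> rw [h]
    · exact h0
    · rw [neg_zsmul, h0, neg_zero]
  have hfinG : Finite G := ((finite_nsmul_eq_zero (W := W) (Kb := Kb)
    (Int.natAbs_ne_zero.2 hn)).subset fun P hP => hGn P hP).to_subtype
  let L' := FA.JInj.scalePair L ω⁻¹ (inv_ne_zero hω0)
  have hL'mem : ∀ x, x ∈ L'.lattice ↔ ω * x ∈ L.lattice := fun x => by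
    rw [FA.JInj.mem_scalePair]
    exact ⟨fun ⟨y, hy, e⟩ => by rw [← e, mul_inv_cancel_left₀ hω0]; exact hy,
      fun h => ⟨_, h, inv_mul_cancel_left₀ hω0 x⟩⟩
  have hquot : IsQuotG W φ hL G L' := fun x => by
    rw [hL'mem]
    constructor
    · intro hx
      obtain ⟨P, hP, -⟩ := exists_of_nsmul_eq_zero (hL := hL) (Int.natAbs_ne_zero.2 hn)
        (Q := unif L x) (by
          have h0 := hkill hx
          rw [unif_int_mul] at h0
          rw [← natCast_zsmul, Int.natCast_natAbs]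
          rcases abs_choice n with h | h <;> rw [h]
          · exact h0
          · rw [neg_zsmul, h0, neg_zero])
      exact AddSubgroup.mem_map.2 ⟨P, AddSubgroup.mem_comap.2 (hP ▸ AddSubgroup.mem_map.2
        ⟨x, hx, rfl⟩), hP⟩
    · intro hx
      obtain ⟨P, hP, e⟩ := AddSubgroup.mem_map.1 hx
      obtain ⟨z, hz, e'⟩ := AddSubgroup.mem_map.1 (AddSubgroup.mem_comap.1 hP)
      have hd : ω * (x - z) ∈ L.lattice :=
        hst _ ((unif_eq_unif_iff L).1 (e.symm.trans e'.symm))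
      have := add_mem hd (show ω * z ∈ L.lattice from hz)
      rwa [← mul_add, sub_add_cancel] at this
  have himg : ∀ P, ∃ Q : (W.toAffine⁄Kb).Point, ∀ z, unif L z = toC W φ hL P →
      toC W φ hL Q = unif L (ω * z) := fun P => by
    obtain ⟨z₀, hz₀⟩ := exists_preimage (hL := hL) P
    have hd : ∀ z, unif L z = toC W φ hL P → unif L (ω * z) = unif L (ω * z₀) := fun z hz =>
      (unif_eq_unif_iff L).2 (by
        rw [← mul_sub]
        exact hst _ ((unif_eq_unif_iff L).1 (hz.trans hz₀.symm)))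
    by_cases hm : z₀ ∈ L'.lattice
    · exact ⟨0, fun z hz => by rw [map_zero, hd z hz, unif_of_mem L ((hL'mem _).1 hm)]⟩
    have hm' : ω * z₀ ∉ L.lattice := fun h => hm ((hL'mem _).2 h)
    obtain ⟨ex, ey⟩ := wp_scale L L' hω0 hL'mem z₀
    have cx : φ (quotX G P / ω₀ ^ 2) = L.weierstrassP (ω * z₀) := by
      rw [map_div₀, map_pow, hω₀, (map_quot hquot hz₀).1, ex]
    have cy : φ (quotY G P / ω₀ ^ 3) = L.derivWeierstrassP (ω * z₀) / 2 := by
      rw [map_div₀, map_pow, hω₀, (map_quot hquot hz₀).2, ey]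
      ring
    have hns := Affine.equation_iff_nonsingular.1 (equation_latCurve L hm')
    rw [← cx, ← cy, ← hL] at hns
    refine ⟨.some _ _ (((W.baseChange Kb).toAffine.map_nonsingular φ.injective _ _).1 hns),
      fun z hz => ?_⟩
    rw [hd z hz, unif_of_notMem L hm', toC, FA.Frob.mapHom_some]
    simp only [cx, cy]
  choose θ hθ using himg
  let θ' : (W.toAffine⁄Kb).Point →+ (W.toAffine⁄Kb).Point := AddMonoidHom.mk' θ fun P P' => by
    obtain ⟨z, hz⟩ := exists_preimage (hL := hL) P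
    obtain ⟨z', hz'⟩ := exists_preimage (hL := hL) P'
    refine FA.Frob.mapHom_injective φ hL ?_
    refine (hθ (P + P') (z + z') (by rw [map_add, ← hz, ← hz', unif_add])).trans ?_
    rw [map_add, hθ P z hz, hθ P' z' hz', mul_add, unif_add]
  exact ⟨ω₀, θ', hω₀, fun σ hσ P => smul_comm_of_fixed (θ := θ') hω₀ hst hn hquad
    (fun P z hz => hθ P z hz) hσ P, fun P z hz => hθ P z hz⟩

/-- The field of a multiplier has degree at most two. -/
theorem finrank_adjoin_le {ω₀ : Kb} {t n : ℤ} (h : ω₀ ^ 2 - (t : Kb) * ω₀ + (n : Kb) = 0) :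
    FiniteDimensional K (IntermediateField.adjoin K {ω₀}) ∧
      Module.finrank K (IntermediateField.adjoin K {ω₀}) ≤ 2 := by
  have hi : IsIntegral K ω₀ := Algebra.IsIntegral.isIntegral ω₀
  refine ⟨IntermediateField.adjoin.finiteDimensional hi, ?_⟩
  rw [IntermediateField.adjoin.finrank hi]
  have hmon : (Polynomial.X ^ 2 - Polynomial.C (t : K) * Polynomial.X +
      Polynomial.C (n : K)).Monic := by
    monicity!
  refine (Polynomial.natDegree_le_of_dvd (minpoly.dvd K ω₀ ?_) hmon.ne_zero).trans ?_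
  · simpa using h
  · compute_degree

/-- **Infinitely many stable groups of prime order** over an extension of degree at most two. -/
theorem exists_infinite_prime_stable (hL : (W.baseChange Kb).map φ = latCurve L) (hcm : ¬ NoCM L) :
    ∃ F : IntermediateField K Kb, (FiniteDimensional K F ∧ Module.finrank K F ≤ 2) ∧
      {p : ℕ | p.Prime ∧ ∃ g : (W.toAffine⁄Kb).Point, addOrderOf g = p ∧
        ∀ σ ∈ F.fixingSubgroup, σ • g ∈ AddSubgroup.zmultiples g}.Infinite := by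
  simp only [NoCM, not_forall, not_exists, exists_prop] at hcm
  obtain ⟨ω, hst, hω⟩ := hcm
  obtain ⟨A, B, C, D, h1, h2, hB, hquad, hn⟩ := exists_matrix hω hst
  obtain ⟨ω₀, θ, hω₀, heq', hθ⟩ := exists_endomorphism hL hω hst
  have hroot : ω₀ ^ 2 - ((A + D : ℤ) : Kb) * ω₀ + ((A * D - B * C : ℤ) : Kb) =
      0 := φ.injective <| by
    rw [map_add, map_sub, map_pow, map_mul, map_intCast, map_intCast, hω₀, map_zero]
    exact hquad
  have hF := finrank_adjoin_le (K := K) hroot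
  set F := IntermediateField.adjoin K {ω₀} with hFdef
  have heq : ∀ σ ∈ F.fixingSubgroup, ∀ P, θ (σ • P) = σ • θ P := fun σ hσ =>
    heq' σ ((IntermediateField.mem_fixingSubgroup_iff F σ).1 hσ ω₀
      (IntermediateField.subset_adjoin K _ rfl))
  refine ⟨F, hF, ((infinite_primes_dvd_quadratic (A + D) _ hn).sdiff
    (B.natAbs.primeFactors.finite_toSet)).mono ?_⟩
  rintro p ⟨⟨hp, a, ha⟩, hpB⟩
  have hpB' : ¬ (p : ℤ) ∣ B := fun h => hpB (Finset.mem_coe.2
    (Nat.mem_primeFactors.2 ⟨hp, Int.natCast_dvd.1 h, Int.natAbs_ne_zero.2 hB⟩))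
  refine ⟨hp, ?_⟩
  have hp0 : (p : ℂ) ≠ 0 := Nat.cast_ne_zero.2 hp.ne_zero
  have hind : ∀ {x y : ℤ}, ((x : ℂ) * L.ω₁ + y * L.ω₂) / p ∈ L.lattice →
      (p : ℤ) ∣ x ∧ (p : ℤ) ∣ y := fun {x y} h => by
    rw [show ((x : ℂ) * L.ω₁ + y * L.ω₂) / p = (((x : ℚ) / (p : ℤ) : ℚ) : ℂ) * L.ω₁ +
      (((y : ℚ) / (p : ℤ) : ℚ) : ℂ) * L.ω₂ by push_cast; ring,
      PeriodPair.mul_ω₁_add_mul_ω₂_mem_lattice] at h
    have hp' : (p : ℤ) ≠ 0 := by exact_mod_cast hp.ne_zero
    exact ⟨(Rat.den_div_intCast_eq_one_iff x p hp').1 h.1,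
      (Rat.den_div_intCast_eq_one_iff y p hp').1 h.2⟩
  set z : ℂ := (((a - D : ℤ) : ℂ) * L.ω₁ + B * L.ω₂) / p with hz
  have hzp : (p : ℂ) * z ∈ L.lattice := PeriodPair.mem_lattice.2 ⟨a - D, B, by
    rw [hz, mul_div_cancel₀ _ hp0]⟩
  obtain ⟨k₀, hk₀⟩ := ha
  have hza : (ω - a) * z ∈ L.lattice := by
    refine PeriodPair.mem_lattice.2 ⟨-k₀, 0, ?_⟩
    rw [hz, mul_div_assoc', eq_div_iff hp0]
    have e : ((a : ℂ) ^ 2 - (A + D) * a + (A * D - B * C)) = p * k₀ := by exact_mod_cast hk₀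
    push_cast
    linear_combination L.ω₁ * e - ((a : ℂ) - D) * h1 - (B : ℂ) * h2
  obtain ⟨g, hg, hg0⟩ := exists_of_nsmul_eq_zero (hL := hL) hp.ne_zero (Q := unif L z)
    (by rw [← natCast_zsmul, ← unif_int_mul, Int.cast_natCast, unif_of_mem L hzp])
  have hgne : g ≠ 0 := fun e => by
    rw [e, map_zero, eq_comm, unif_eq_zero_iff] at hg
    exact hpB' (hind hg).2
  have : Fact p.Prime := ⟨hp⟩
  refine ⟨g, addOrderOf_eq_prime hg0 hgne, fun σ hσ => ?_⟩
  have hθg : θ g = a • g := FA.Frob.mapHom_injective φ hL (by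
    rw [map_zsmul, show FA.Frob.mapHom φ hL g = unif L z from hg, ← unif_int_mul]
    refine (hθ g z hg.symm).trans ((unif_eq_unif_iff L).2 ?_)
    rwa [← sub_mul])
  obtain ⟨w, hw⟩ := exists_preimage (hL := hL) (σ • g)
  have hwp : (p : ℂ) * w ∈ L.lattice := by
    rw [← unif_eq_zero_iff, ← Int.cast_natCast, unif_int_mul, hw, natCast_zsmul, ← map_nsmul,
      ← smul_nsmul', hg0, smul_zero, map_zero]
  have hwa : (ω - a) * w ∈ L.lattice := by
    rw [sub_mul, ← unif_eq_unif_iff, unif_int_mul, hw, ← map_zsmul, ← smul_zsmul', ← hθg,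
      ← heq σ hσ, hθ _ w hw]
  obtain ⟨x, y, hxy⟩ := PeriodPair.mem_lattice.1 hwp
  have hw' : w = ((x : ℂ) * L.ω₁ + y * L.ω₂) / p := by
    rw [eq_div_iff hp0, mul_comm]
    exact hxy.symm
  have hdvd : (p : ℤ) ∣ B * x + (D - a) * y := (hind (x := (A - a) * x + C * y) (by
    rw [show (((A - a) * x + C * y : ℤ) : ℂ) * L.ω₁ + ((B * x + (D - a) * y : ℤ) : ℂ) * L.ω₂ =
      (ω - a) * ((x : ℂ) * L.ω₁ + y * L.ω₂) by
        push_cast; linear_combination -(x : ℂ) * h1 - (y : ℂ) * h2,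
      mul_div_assoc, ← hw']
    exact hwa)).2
  obtain ⟨u, v, huv⟩ : IsCoprime (B : ℤ) (p : ℤ) :=
    ((Nat.prime_iff_prime_int.1 hp).coprime_iff_not_dvd.2 hpB').symm
  obtain ⟨c, hc⟩ := hdvd
  refine AddSubgroup.mem_zmultiples_iff.2 ⟨u * y, FA.Frob.mapHom_injective φ hL ?_⟩
  rw [map_zsmul, hg, ← unif_int_mul]
  refine ((unif_eq_unif_iff L).2 (PeriodPair.mem_lattice.2
    ⟨-(u * c) - v * x, -(v * y), ?_⟩)).trans hw
  rw [hz, hw', eq_comm, mul_div_assoc', ← sub_div, div_eq_iff hp0]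
  have huv' : (u : ℂ) * B + v * p = 1 := by exact_mod_cast huv
  have hc' : (B : ℂ) * x + (D - a) * y = p * c := by exact_mod_cast hc
  push_cast
  linear_combination ((x : ℂ) * L.ω₁ + y * L.ω₂) * huv' - (u : ℂ) * L.ω₁ * hc'

end FA.IsogenyNF

end
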