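import Fermat.Agent.IsogenyNF.PlaceLevel
import Fermat.Agent.IsogenyNF.OrderCount

/-!
# The determinant at a prime power is the cyclotomic character

A Frobenius element satisfies the quadratic equation of the `q`-power map, so by the theorem of
Cayley and Hamilton its determinant is `q` as soon as it is not scalar modulo `p`. Commutators
act trivially on the roots of unity and with determinant one, and one of them is not scalar.
-/

set_option autoImplicit false
set_option linter.unusedSectionVars false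

noncomputable section

namespace FA.IsogenyNF

open WeierstrassCurve Matrix FA.Local FA.Frob FA.HasseBound
open FA.ClassNumberOne (xP yP)
open scoped WeierstrassCurve.Affine

universe u v

variable {K : Type u} [Field K] [NumberField K] {Kb : Type v} [Field Kb] [DecidableEq Kb]
  [Algebra K Kb] [CharZero Kb] [IsAlgClosed Kb] [Algebra.IsAlgebraic K Kb]
  {W : WeierstrassCurve K} [W.IsElliptic] {σ : Kb ≃ₐ[K] Kb} {N : ℕ}

/-- A divisor of `N` is a unit at the place. -/
theorem FrobPlace.level_of_dvd (F : FrobPlace W σ N) {d : ℕ} (h : d ∣ N) :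
    F.A.valuation (d : Kb) = 1 := by
  obtain ⟨c, rfl⟩ := h
  have hle : ∀ m : ℕ, F.A.valuation (m : Kb) ≤ 1 := fun m =>
    (F.A.valuation_le_one_iff _).2 (natCast_mem F.A m)
  refine le_antisymm (hle d) ?_
  have h1 := F.level
  rw [Nat.cast_mul, map_mul] at h1
  exact h1.symm.le.trans (mul_le_of_le_one_right' (hle c))

/-- **The quadratic equation of `σ`** on the points killed by `N`. -/
theorem FrobPlace.exists_quadratic (F : FrobPlace W σ N) :
    ∃ t : ℤ, ∀ P : (W.toAffine⁄Kb).Point, N • P = 0 →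
      σ • σ • P - t • σ • P + ((F.l : ℤ) ^ F.n) • P = 0 := by
  classical
  have := F.charP
  have : Fact F.l.Prime := ⟨F.prime⟩
  have := residueField_isAlgClosed F.A
  have := redCurve_isElliptic F.int F.good
  set Wk := redCurve F.A (W.baseChange Kb).toAffine F.int with hWk
  have hfixr : ∀ (x : Kb) (hx : x ∈ F.A), F.A.valuation (x ^ F.l ^ F.n - x) < 1 →
      iterateFrobenius (Res F.A) F.l F.n (IsLocalRing.residue F.A ⟨x, hx⟩) =
        IsLocalRing.residue F.A ⟨x, hx⟩ := fun x hx h => by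
    rw [iterateFrobenius_def, ← map_pow, residue_eq_iff]
    simpa using h
  have hmem : ∀ {x : Kb}, F.A.valuation x ≤ 1 → x ∈ F.A :=
    fun h => (F.A.valuation_le_one_iff _).1 h
  have hW : Wk.map (iterateFrobenius (Res F.A) F.l F.n) = Wk := by
    refine WeierstrassCurve.ext ?_ ?_ ?_ ?_ ?_
    · exact hfixr _ (hmem F.int.h₁) (F.congr_coef _ (by simp))
    · exact hfixr _ (hmem F.int.h₂) (F.congr_coef _ (by simp))
    · exact hfixr _ (hmem F.int.h₃) (F.congr_coef _ (by simp))
    · exact hfixr _ (hmem F.int.h₄) (F.congr_coef _ (by simp))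
    · exact hfixr _ (hmem F.int.h₆) (F.congr_coef _ (by simp))
  let r : (W.toAffine⁄Kb).Point →+ Wk.toAffine.Point := redHom F.int F.good
  have hinj : ∀ P : (W.toAffine⁄Kb).Point, N • P = 0 → r P = 0 → P = 0 := fun P hP hrP => by
    by_contra hne
    obtain ⟨p, hp, hpd⟩ := Nat.exists_prime_and_dvd (n := addOrderOf P)
      fun h => hne (AddMonoid.addOrderOf_eq_one_iff.1 h)
    obtain ⟨m, hm⟩ := hpd
    have hdvd := addOrderOf_dvd_of_nsmul_eq_zero hP
    have h0 : m • P = 0 := redHom_injOn F.int F.good hp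
      (F.level_of_dvd (((Dvd.intro m hm.symm)).trans hdvd))
      (by rw [← mul_nsmul', ← hm, addOrderOf_nsmul_eq_zero])
      (by show r (m • P) = 0; rw [map_nsmul, hrP, nsmul_zero])
    have hN : N ≠ 0 := fun h => by simpa [h] using F.level
    have hpos : 0 < addOrderOf P :=
      Nat.pos_of_ne_zero fun h => hN (Nat.eq_zero_of_zero_dvd (h ▸ hdvd))
    have hm0 : 0 < m := Nat.pos_of_ne_zero fun h => by rw [hm, h, mul_zero] at hpos; omega
    have := Nat.le_of_dvd hm0 (addOrderOf_dvd_of_nsmul_eq_zero h0)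
    rw [hm] at this
    exact absurd this (not_le.2 ((Nat.lt_mul_iff_one_lt_left hm0).2 hp.one_lt))
  have hcomm : ∀ P : (W.toAffine⁄Kb).Point, N • P = 0 → r (σ • P) = qEnd Wk hW (r P) := by
    intro P hP
    rcases P with _ | ⟨x, y, h⟩
    · exact (congrArg r (smul_zero σ)).trans (map_zero r) |>.trans (map_zero (qEnd Wk hW)).symm
    have hx : x ∈ F.A := by
      by_contra hx
      refine Affine.Point.some_ne_zero h (hinj _ hP ?_)
      show redHom F.int F.good _ = 0
      rw [redHom_apply, redFun_eq_zero_iff, e1_some]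
      exact not_le.1 fun h1 => hx ((F.A.valuation_le_one_iff x).1 h1)
    obtain ⟨hxc, hyc⟩ := F.congr_coord _ hP
    change F.A.valuation (σ x - x ^ F.l ^ F.n) < 1 at hxc
    change F.A.valuation (σ y - y ^ F.l ^ F.n) < 1 at hyc
    obtain ⟨h', he⟩ := smul_some (σ := σ) W h
    rw [he]
    have hy := y_mem F.int h.1 hx
    have hσx : σ x ∈ F.A := by
      have := add_mem ((F.A.valuation_le_one_iff _).1 hxc.le) (pow_mem hx (F.l ^ F.n))
      rwa [sub_add_cancel] at this
    obtain ⟨k₁, e₁⟩ := redFun_of_mem F.int h hx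
    obtain ⟨k₂, e₂⟩ := redFun_of_mem F.int h' hσx
    show redHom F.int F.good _ = qEnd Wk hW (redHom F.int F.good _)
    rw [redHom_apply, redHom_apply, e₁, e₂, qEnd, mapHom_some]
    simp only [Affine.Point.some.injEq, iterateFrobenius_def]
    refine ⟨?_, ?_⟩
    · rw [resOf, resOf, dif_pos hσx, dif_pos hx, ← map_pow, residue_eq_iff]
      simpa using hxc
    · rw [resOf, resOf, dif_pos (y_mem F.int h'.1 hσx), dif_pos hy, ← map_pow, residue_eq_iff]
      simpa using hyc
  refine ⟨trQ Wk hW, fun P hP => hinj _ ?_ ?_⟩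
  · rw [nsmul_add, nsmul_sub, smul_comm N (trQ Wk hW), ← smul_nsmul', ← smul_nsmul',
      hP, smul_zero, smul_zero, zsmul_zero, sub_zero, zero_add, smul_comm N, hP, zsmul_zero]
  · have hσP : N • (σ • P) = 0 := by rw [← smul_nsmul', hP, smul_zero]
    rw [map_add, map_sub, map_zsmul, map_zsmul, hcomm _ hσP, hcomm P hP]
    exact qEnd_quadratic Wk hW F.pos (r P)

/-- **Cayley and Hamilton**: the determinant from a monic quadratic equation. -/
theorem det_eq_of_quadratic {p k : ℕ} [hp : Fact p.Prime] {M : MatN p (k + 1)}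
    {t q : ZMod (p ^ (k + 1))} (h : M * M - t • M + q • 1 = 0)
    (hns : ∀ c : ZMod p, modP k.succ_ne_zero M ≠ c • 1) : M.det = q := by
  have e00 := congrFun (congrFun h 0) 0
  have e01 := congrFun (congrFun h 0) 1
  have e10 := congrFun (congrFun h 1) 0
  have e11 := congrFun (congrFun h 1) 1
  simp [Matrix.mul_apply, Fin.sum_univ_two] at e00 e01 e10 e11
  rw [det_fin_two]
  set a := M 0 0
  set b := M 0 1
  set c := M 1 0
  set d := M 1 1
  let π := ZMod.castHom (dvd_pow_self p k.succ_ne_zero) (ZMod p)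
  have hunit : ∀ x, π x ≠ 0 → IsUnit x := fun x hx => by
    have : NeZero (p ^ (k + 1)) := ⟨pow_ne_zero _ hp.out.ne_zero⟩
    rw [← ZMod.natCast_zmod_val x, ZMod.isUnit_iff_coprime,
      Nat.coprime_pow_right_iff (Nat.succ_pos _), Nat.coprime_comm,
      hp.out.coprime_iff_not_dvd]
    intro hd
    refine hx ?_
    rw [← ZMod.natCast_zmod_val x, map_natCast]
    exact (ZMod.natCast_eq_zero_iff _ _).2 hd
  have ht : t = a + d := by
    by_cases hb : π b ≠ 0
    · exact ((hunit b hb).mul_left_cancel (by linear_combination e01)).symm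
    by_cases hc : π c ≠ 0
    · exact ((hunit c hc).mul_left_cancel (by linear_combination e10)).symm
    by_cases had : π (a - d) ≠ 0
    · exact ((hunit _ had).mul_left_cancel (by linear_combination e00 - e11)).symm
    push Not at hb hc had
    refine absurd ?_ (hns (π a))
    rw [map_sub, sub_eq_zero] at had
    ext i j
    fin_cases i <;> fin_cases j <;> simp [modP, RingHom.mapMatrix_apply]
    · rfl
    · exact hb
    · exact hc
    · exact had.symm
  linear_combination -e00 - a * ht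

/-- The commutators fix the roots of unity. -/
theorem commutator_fix_root {n : ℕ} (hn : n ≠ 0) {γ : Kb ≃ₐ[K] Kb}
    (hγ : γ ∈ commutator (Kb ≃ₐ[K] Kb)) {μ : Kb} (hμ : μ ^ n = 1) : γ μ = μ := by
  let H : Subgroup (Kb ≃ₐ[K] Kb) :=
    { carrier := {g | ∀ ν : Kb, ν ^ n = 1 → g ν = ν}
      one_mem' := fun ν _ => rfl
      mul_mem' := fun {f g} hf hg ν hν => (congrArg f (hg ν hν)).trans (hf ν hν)
      inv_mem' := fun {f} hf ν hν => f.injective
        ((show f (f⁻¹ ν) = ν from f.apply_symm_apply ν).trans (hf ν hν).symm) }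
  suffices h : commutator (Kb ≃ₐ[K] Kb) ≤ H from h hγ μ hμ
  rw [commutator_eq_closure, Subgroup.closure_le]
  rintro _ ⟨f, g, rfl⟩ ν hν
  have : NeZero (n : Kb) := ⟨Nat.cast_ne_zero.2 hn⟩
  have : NeZero n := ⟨hn⟩
  obtain ⟨ζ, hζ⟩ := HasEnoughRootsOfUnity.exists_primitiveRoot Kb n
  have hcomm : ∀ ξ : Kb, ξ ^ n = 1 → f (g ξ) = g (f ξ) := fun ξ hξ => by
    obtain ⟨i, -, rfl⟩ := hζ.eq_pow_of_pow_eq_one hξ
    obtain ⟨s, -, hs⟩ := hζ.eq_pow_of_pow_eq_one (ξ := f ζ)
      (by rw [← map_pow, hζ.pow_eq_one, map_one])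
    obtain ⟨t, -, ht⟩ := hζ.eq_pow_of_pow_eq_one (ξ := g ζ)
      (by rw [← map_pow, hζ.pow_eq_one, map_one])
    simp only [map_pow, ← hs, ← ht, ← pow_mul]
    rw [mul_left_comm]
  show (f * g * f⁻¹ * g⁻¹) ν = ν
  have e := hcomm ((f⁻¹) ((g⁻¹) ν)) (by rw [← map_pow, ← map_pow, hν, map_one, map_one])
  refine e.trans ?_
  rw [show f (f⁻¹ (g⁻¹ ν)) = g⁻¹ ν from f.apply_symm_apply _]
  exact g.apply_symm_apply ν

/-- **The determinant at the powers of all large primes is the cyclotomic character.** -/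
theorem exists_bound_det_rep (E : WeierstrassCurve K) [E.IsElliptic] (hj : ¬ IsIntegral ℤ E.j) :
    ∃ B : ℕ, ∀ (p k : ℕ) (hp : p.Prime), B < p → ∀ (P Q : (E.toAffine⁄Kb).Point)
      (h : TorGen E (p ^ (k + 1)) P Q) (σ : Kb ≃ₐ[K] Kb) (a : ℕ),
      (∀ μ : Kb, μ ^ p ^ (k + 1) = 1 → σ μ = μ ^ a) →
        (h.rep (pow_ne_zero _ hp.ne_zero) σ).det = (a : ZMod (p ^ (k + 1))) := by
  obtain ⟨B, hB⟩ := exists_bound_det_one (Kb := Kb) E hj
  refine ⟨B + 4, fun p k hp hlt P Q h σ a ha => ?_⟩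
  have := Fact.mk hp
  have hn : p ^ (k + 1) ≠ 0 := pow_ne_zero _ hp.ne_zero
  have : NeZero (p ^ (k + 1)) := ⟨hn⟩
  set ρ := h.rep hn
  let ψ : (Kb ≃ₐ[K] Kb) →* Matrix (Fin 2) (Fin 2) (ZMod p) :=
    (modP (p := p) k.succ_ne_zero).toMonoidHom.comp ρ
  obtain ⟨γ, hγ, hγψ⟩ := exists_commutator_modP (by omega) ψ
    (fun A hA => exists_modP_eq E hp h (hB p hp (by omega)) hA)
    (M := !![1, 1; 0, 1]) (by simp [det_fin_two])
  have hγdet : (ρ γ).det = 1 := by
    have h1 := Abelianization.commutator_subset_ker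
      ((Matrix.detMonoidHom.comp ρ).toHomUnits) hγ
    rw [MonoidHom.mem_ker] at h1
    exact congrArg Units.val h1
  -- a representative which is not scalar modulo `p`
  obtain ⟨τ, hτ, hτdet, hns⟩ : ∃ τ, (∀ μ : Kb, μ ^ p ^ (k + 1) = 1 → τ μ = μ ^ a) ∧
      (ρ τ).det = (ρ σ).det ∧ ∀ c : ZMod p, ψ τ ≠ c • 1 := by
    by_cases hs : ∀ c : ZMod p, ψ σ ≠ c • 1
    · exact ⟨σ, ha, rfl, hs⟩
    push Not at hs
    obtain ⟨c, hc⟩ := hs
    refine ⟨σ * γ, fun μ hμ => ?_, by rw [map_mul, det_mul, hγdet, mul_one], fun d hd => ?_⟩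
    · rw [AlgEquiv.mul_apply, commutator_fix_root hn hγ hμ, ha μ hμ]
    · rw [map_mul, hc, hγψ] at hd
      have h01 := congrFun (congrFun hd 0) 1
      simp at h01
      have hu : ψ σ * ψ σ⁻¹ = 1 := by rw [← map_mul, mul_inv_cancel, map_one]
      rw [hc, h01, zero_smul, zero_mul] at hu
      exact zero_ne_one hu
  obtain ⟨F⟩ := exists_frobPlace E τ hn
  obtain ⟨t, ht⟩ := F.exists_quadratic
  have hq : ρ τ * ρ τ - (t : ZMod (p ^ (k + 1))) • ρ τ +
      (((F.l : ℤ) ^ F.n : ℤ) : ZMod (p ^ (k + 1))) • 1 = 0 :=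
    Matrix.ext_of_mulVec_single fun i => h.coord_injective hn (by
      rw [add_mulVec, sub_mulVec, ← mulVec_mulVec, smul_mulVec, smul_mulVec, one_mulVec,
        zero_mulVec, map_zero, map_add, map_sub, Int.cast_smul_eq_zsmul, Int.cast_smul_eq_zsmul,
        map_zsmul, map_zsmul, ← h.rep_spec hn, ← h.rep_spec hn]
      exact ht _ (h.nsmul_coord _))
  rw [← hτdet, det_eq_of_quadratic hq hns]
  have : NeZero ((p ^ (k + 1) : ℕ) : Kb) := ⟨Nat.cast_ne_zero.2 hn⟩
  obtain ⟨μ, hμ⟩ := HasEnoughRootsOfUnity.exists_primitiveRoot Kb (p ^ (k + 1))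
  have e := F.congr_root μ hμ.pow_eq_one
  rw [hτ μ hμ.pow_eq_one, (hμ.isOfFinOrder hn).pow_eq_pow_iff_modEq, ← hμ.eq_orderOf] at e
  rw [(ZMod.natCast_eq_natCast_iff ..).2 e]
  push_cast
  rfl

end FA.IsogenyNF

end
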