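import Fermat.Agent.IsogenyNF.Transfer

/-!
# Stable groups over a finite extension
-/

set_option autoImplicit false
set_option linter.unusedSectionVars false

noncomputable section

namespace FA.IsogenyNF

open WeierstrassCurve
open scoped WeierstrassCurve.Affine

universe u v

variable {K : Type u} [Field K] [NumberField K] {Kb : Type v} [Field Kb] [DecidableEq Kb]
  [Algebra K Kb] [IsAlgClosed Kb] [Algebra.IsAlgebraic K Kb]

/-- Without complex multiplication finitely many cyclic groups are stable over an extension. -/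
theorem finite_stable_extension (E : WeierstrassCurve K) [E.IsElliptic] (ψ : K →+* ℂ)
    (hcm : ¬ HasCM E ψ) (F : IntermediateField K Kb) [FiniteDimensional K F] :
    {g : (E.toAffine⁄Kb).Point | 0 < addOrderOf g ∧
      ∀ σ : Kb ≃ₐ[F] Kb, σ • g ∈ AddSubgroup.zmultiples g}.Finite := by
  have : NumberField F := NumberField.of_module_finite K F
  have : Algebra.IsAlgebraic F Kb := Algebra.IsAlgebraic.tower_top (K := K) F
  let _ := ψ.toAlgebra
  let φ : Kb →ₐ[K] ℂ := IsAlgClosed.lift
  let ψF : F →+* ℂ := (φ : Kb →+* ℂ).comp F.val.toRingHom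
  have hψ : ∀ x : K, ψF (algebraMap K F x) = ψ x := fun x => φ.commutes x
  have hcm' : ¬ HasCM (E.baseChange F) ψF := fun ⟨L, h2, h3, h⟩ => hcm
    ⟨L, by rw [h2, WeierstrassCurve.baseChange, map_c₄, hψ],
      by rw [h3, WeierstrassCurve.baseChange, map_c₆, hψ], h⟩
  have hW : (E.baseChange Kb).map (RingHom.id Kb) = (E.baseChange F).baseChange Kb := by
    simp only [WeierstrassCurve.baseChange, map_map, RingHom.id_comp,
      ← IsScalarTower.algebraMap_eq]
  let f : (E.toAffine⁄Kb).Point →+ ((E.baseChange F).toAffine⁄Kb).Point :=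
    FA.Frob.mapHom (RingHom.id Kb) hW
  have hf : ∀ (σ : Kb ≃ₐ[F] Kb) P, f (σ • P) = σ • f P := fun σ P => by
    rcases P with _ | ⟨x, y, h⟩
    · exact (smul_zero σ).symm
    · rfl
  refine ((finite_stable_points (Kb := Kb) (E.baseChange F) ψF hcm').preimage
    (f := f) (FA.Frob.mapHom_injective _ hW).injOn).subset fun g ⟨hg, hst⟩ => ?_
  refine ⟨(addOrderOf_injective f (FA.Frob.mapHom_injective _ hW) g).symm ▸ hg, fun σ => ?_⟩
  rw [← hf]
  obtain ⟨k, hk⟩ := AddSubgroup.mem_zmultiples_iff.1 (hst σ)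
  exact AddSubgroup.mem_zmultiples_iff.2 ⟨k, by rw [← hk, map_zsmul]⟩

end FA.IsogenyNF

end
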