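import Fermat.Agent.IsogenyNF.Points
import Fermat.Agent.Roth.Field.SIntegral
import Mathlib.RingTheory.Valuation.Integral
import Mathlib.FieldTheory.IsAlgClosed.Basic

/-!
# Finiteness of the quotients by rational cyclic groups

The Legendre parameters of the quotients are units outside the primes over `2` and the poles of
`j`, by the monic modular equation, so they are finite in number by the unit equation. Without
complex multiplication this bounds the groups themselves.
-/

set_option autoImplicit false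
set_option linter.unusedSectionVars false

noncomputable section

namespace FA.IsogenyNF

open WeierstrassCurve FA.Mazur.Wp FA.CyclicLattice NumberField IsDedekindDomain Polynomial
open scoped WeierstrassCurve.Affine

universe u v

section Valuation

variable {F : Type*} [Field F] [NumberField F] (v : HeightOneSpectrum (𝓞 F))

/-- A root of a monic equation over `ℤ[j]` is integral where `j` is. -/
theorem valuation_root_le_one {Φ : ℤ[X][X]} (hΦ : Φ.Monic) {j x : F} (hj : v.valuation F j ≤ 1)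
    (hx : Φ.eval₂ (aeval (R := ℤ) j).toRingHom x = 0) : v.valuation F x ≤ 1 := by
  let O := (v.valuation F).integer
  refine (Valuation.integer.integers (v.valuation F)).mem_of_integral (x := x)
    ⟨Φ.map (aeval (R := ℤ) (⟨j, hj⟩ : O)).toRingHom, hΦ.map _, ?_⟩
  rw [eval₂_map, ← hx]
  congr 1
  refine Polynomial.ringHom_ext (fun n => ?_) ?_
  · simp
  · simp; rfl

/-- The Legendre parameter is integral and prime to `v` where `j` is integral and `2` a unit. -/
theorem valuation_legendre {j l : F} (h2 : v.valuation F 2 = 1) (hj : v.valuation F j ≤ 1)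
    (h : j * (l ^ 2 * (l - 1) ^ 2) = 256 * (l ^ 2 - l + 1) ^ 3) :
    v.valuation F l = 1 := by
  set w := v.valuation F
  have h256 : w 256 = 1 := by
    rw [show (256 : F) = 2 ^ 8 by norm_num, map_pow, h2, one_pow]
  have hw := congrArg w h
  rw [map_mul, map_mul, map_mul, map_pow, map_pow, map_pow, h256, one_mul] at hw
  rcases lt_trichotomy (w l) 1 with hl | hl | hl
  · have e : w (l ^ 2 - l + 1) = 1 := by
      refine Valuation.map_add_eq_of_lt_right _ ?_ |>.trans (map_one w)
      rw [map_one]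
      refine (Valuation.map_sub _ _ _).trans_lt (max_lt ?_ hl)
      rw [map_pow]
      exact pow_lt_one₀ zero_le hl two_ne_zero
    have e1 : w (l - 1) = 1 := by
      rw [Valuation.map_sub_eq_of_lt_right _ (by rwa [map_one]), map_one]
    rw [e, e1, one_pow, one_pow, mul_one] at hw
    have : w j * w l ^ 2 < 1 := (mul_le_of_le_one_left zero_le hj).trans_lt
      (pow_lt_one₀ zero_le hl two_ne_zero)
    rw [hw] at this
    exact absurd this (lt_irrefl _)
  · exact hl
  · have h0 : 0 < w l := zero_lt_one.trans hl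
    have e1 : w (l - 1) = w l := Valuation.map_sub_eq_of_lt_left _ (by rwa [map_one])
    have e : w (l ^ 2 - l + 1) = w l ^ 2 := by
      rw [show l ^ 2 - l + 1 = l * (l - 1) + 1 by ring,
        Valuation.map_add_eq_of_lt_left _ (by
          rw [map_one, map_mul, e1, ← sq]; exact one_lt_pow₀ hl two_ne_zero), map_mul, e1, sq]
    rw [e, e1] at hw
    have : w j * (w l ^ 2 * w l ^ 2) < (w l ^ 2) ^ 3 := by
      refine (mul_le_of_le_one_left zero_le hj).trans_lt ?_
      rw [← pow_add, ← pow_mul]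
      exact pow_lt_pow_right₀ hl (by norm_num)
    rw [hw] at this
    exact absurd this (lt_irrefl _)

end Valuation

/-- **Finitely many Legendre parameters** outside a finite set of primes. -/
theorem finite_parameters {F : Type*} [Field F] [NumberField F] (j : F) :
    {l : F | l ≠ 0 ∧ l ≠ 1 ∧ ∃ Φ : ℤ[X][X], Φ.Monic ∧
      Φ.eval₂ (aeval (R := ℤ) j).toRingHom
        (256 * (l ^ 2 - l + 1) ^ 3 / (l ^ 2 * (l - 1) ^ 2)) = 0}.Finite := by
  let S : Set (HeightOneSpectrum (𝓞 F)) :=
    {v | v.valuation F 2 ≠ 1} ∪ {v | 1 < v.valuation F j}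
  have hS : S.Finite := by
    refine (FA.Roth.finite_valuation_ne_one two_ne_zero).union ?_
    rcases eq_or_ne j 0 with rfl | hj
    · simp
    · exact (FA.Roth.finite_valuation_ne_one hj).subset fun v hv => ne_of_gt hv
  refine ((FA.Roth.finite_sunit_equation hS (one_ne_zero (α := F)) one_ne_zero one_ne_zero).image
    fun p => ((p.1 : Fˣ) : F)).subset ?_
  rintro l ⟨hl0, hl1, Φ, hΦ, hl⟩
  have hden : l ^ 2 * (l - 1) ^ 2 ≠ 0 :=
    mul_ne_zero (pow_ne_zero 2 hl0) (pow_ne_zero 2 (sub_ne_zero.2 hl1))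
  have key : ∀ v ∉ S, v.valuation F l = 1 ∧ v.valuation F (1 - l) = 1 := fun v hv => by
    simp only [S, Set.mem_union, Set.mem_ofPred_eq, not_or, not_not, not_lt] at hv
    have hj := valuation_root_le_one v hΦ hv.2 hl
    have h := div_mul_cancel₀ (256 * (l ^ 2 - l + 1) ^ 3) hden
    exact ⟨valuation_legendre v hv.1 hj h,
      valuation_legendre v hv.1 hj (by linear_combination h)⟩
  obtain ⟨x, hx⟩ := FA.Roth.exists_sunit hl0 fun v hv => (key v hv).1
  obtain ⟨y, hy⟩ := FA.Roth.exists_sunit (sub_ne_zero.2 (Ne.symm hl1)) fun v hv => (key v hv).2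
  exact ⟨(x, y), by simp [hx, hy], hx⟩

variable {K : Type u} [Field K] [NumberField K] {Kb : Type v} [Field Kb] [DecidableEq Kb]
  [Algebra K Kb] [IsAlgClosed Kb] [Algebra.IsAlgebraic K Kb] [CharZero Kb]
  {W : WeierstrassCurve K} [W.IsElliptic] {φ : Kb →+* ℂ} {L : PeriodPair}
  {hL : (W.baseChange Kb).map φ = latCurve L}

theorem jInv_eq (hL : (W.baseChange Kb).map φ = latCurve L) :
    jInv L = φ (algebraMap K Kb W.j) := by
  rw [jInv, ← FA.Homothety.j_latCurve]
  simp only [← hL, WeierstrassCurve.baseChange, map_j]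

theorem IsQuot.lattice_eq {g : (W.toAffine⁄Kb).Point} {L' L'' : PeriodPair}
    (h : IsQuot W φ hL g L') (h' : IsQuot W φ hL g L'') : L'.lattice = L''.lattice :=
  SetLike.ext fun x => (h x).trans (h' x).symm

theorem jInv_congr {L' L'' : PeriodPair} (h : L'.lattice = L''.lattice) : jInv L' = jInv L'' := by
  obtain ⟨e2, e3⟩ := (FA.JInj.lattice_eq_iff _ _).1 h
  rw [jInv, jInv, e2, e3]

/-- The invariant of a quotient is a root of a monic equation over `ℤ[j]`. -/
theorem exists_equation {g : (W.toAffine⁄Kb).Point} (hg : 0 < addOrderOf g) {L' : PeriodPair}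
    (h : IsQuot W φ hL g L') : ∃ Φ : ℤ[X][X], Φ.Monic ∧
      Φ.eval₂ (aeval (R := ℤ) (jInv L)).toRingHom (jInv L') = 0 := by
  rcases Nat.lt_or_ge 1 (addOrderOf g) with h1 | h1
  · have : NeZero (addOrderOf g) := ⟨hg.ne'⟩
    let _ := Fintype.ofFinite (FA.Dim.Cos (addOrderOf g))
    obtain ⟨L'', h'', hc⟩ := exists_isQuot (hL := hL) hg
    rw [jInv_congr (h.lattice_eq h'')]
    exact ⟨_, FA.ModPoly.phi_monic _,
      (cyclicSub_iff _ _ _).1 (cyclicSub_symm _ h1 hc)⟩
  · have hg0 : g = 0 := AddMonoid.addOrderOf_eq_one_iff.1 (by omega)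
    have : L'.lattice = L.lattice := SetLike.ext fun x => by
      rw [h x, hg0, AddSubgroup.zmultiples_zero_eq_bot, AddSubgroup.map_bot, AddSubgroup.mem_bot,
        unif_eq_zero_iff]
    refine ⟨X - C X, monic_X_sub_C _, ?_⟩
    rw [jInv_congr this]
    simp

/-- **Finitely many invariants** of the quotients with rational halves. -/
theorem exists_finite_jInv (hL : (W.baseChange Kb).map φ = latCurve L) :
    ∃ J : Set ℂ, J.Finite ∧ ∀ g : (W.toAffine⁄Kb).Point, 0 < addOrderOf g → Stable g →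
      HasHalves (twoField Kb W) g → ∀ L', IsQuot W φ hL g L' → jInv L' ∈ J := by
  have : IsAlgClosure K Kb := ⟨inferInstance, inferInstance⟩
  have : IsGalois K Kb := IsAlgClosure.isGalois K Kb
  have := finiteDimensional_twoField (K := K) (Kb := Kb) (W := W)
  have : NumberField (twoField Kb W) := NumberField.of_module_finite K _
  let ι : twoField Kb W →+* ℂ := φ.comp (twoField Kb W).val.toRingHom
  refine ⟨_, (finite_parameters (algebraMap K (twoField Kb W) W.j)).image
    fun l => ι (256 * (l ^ 2 - l + 1) ^ 3 / (l ^ 2 * (l - 1) ^ 2)), fun g hg hst hh L' h => ?_⟩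
  obtain ⟨l, h0, h1, hl⟩ := exists_lambda hg hst hh h
  obtain ⟨Φ, hΦ, he⟩ := exists_equation hg h
  have hl' : jInv L' = ι (256 * (l ^ 2 - l + 1) ^ 3 / (l ^ 2 * (l - 1) ^ 2)) := by
    rw [map_div₀, eq_div_iff (by
      simp only [map_mul, map_pow, map_sub, map_one]
      exact mul_ne_zero (pow_ne_zero 2 h0) (pow_ne_zero 2 (sub_ne_zero.2 h1)))]
    simp only [map_mul, map_pow, map_sub, map_add, map_one, map_ofNat]
    exact hl
  refine ⟨l, ⟨fun e => h0 (by simp [e]), fun e => h1 (by simp [e]), Φ, hΦ, ι.injective ?_⟩,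
    hl'.symm⟩
  rw [map_zero, ← he, hom_eval₂, ← hl']
  congr 1
  refine Polynomial.ringHom_ext (fun n => by simp) ?_
  simp [ι, jInv_eq hL]

/-- **Finitely many invariants of quotients** by rational cyclic groups, in every case. -/
theorem finite_jInv_quot (hL : (W.baseChange Kb).map φ = latCurve L) :
    {x : ℂ | ∃ g : (W.toAffine⁄Kb).Point, 0 < addOrderOf g ∧ Stable g ∧
      ∃ L', IsQuot W φ hL g L' ∧ jInv L' = x}.Finite := by
  obtain ⟨J, hJ, hmem⟩ := exists_finite_jInv hL
  let _ := Fintype.ofFinite (FA.Dim.Cos 2)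
  refine (hJ.union (hJ.biUnion fun j _ => ((FA.ModPoly.phi 2).map
    (aeval (R := ℤ) j).toRingHom).finite_setOfPred_isRoot
      ((FA.ModPoly.phi_monic 2).map _).ne_zero)).subset ?_
  rintro x ⟨g, hg, hst, L', h, rfl⟩
  obtain ⟨g', hg', hst', hord', hh⟩ := exists_halves hg hst
  obtain ⟨L₁, h₁, -⟩ := exists_isQuot (hL := hL) hord'
  rcases hg' with rfl | ⟨rfl, hne⟩
  · exact Or.inl (hmem g' hg hst hh L' h)
  refine Or.inr (Set.mem_biUnion (hmem _ hord' hst' hh L₁ h₁) ?_)
  obtain ⟨w, hw⟩ := exists_preimage (hL := hL) g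
  have h2w : unif L (2 * w) = toC W φ hL ((2 : ℕ) • g) := by
    rw [map_nsmul, ← hw, show (2 : ℂ) * w = ((2 : ℤ) : ℂ) * w by norm_num, unif_int_mul,
      ← natCast_zsmul]
    rfl
  have hL1 := (isQuot_iff hw).1 h
  have hL2 := (isQuot_iff h2w).1 h₁
  have hnot : w ∉ L₁.lattice := fun hm => hne (by
    rw [h₁, hw] at hm
    exact (AddSubgroup.mem_map_iff_mem (FA.Frob.mapHom_injective φ hL)).1 hm)
  have ho : OrderMod L₁ w 2 := fun k => by
    refine ⟨fun hk => ?_, ?_⟩
    · rcases Int.even_or_odd' k with ⟨d, rfl | rfl⟩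
      · exact dvd_mul_right _ _
      · exfalso
        refine hnot ?_
        rw [show w = ((2 * d + 1 : ℤ) : ℂ) * w - d • (2 * w) by
          rw [zsmul_eq_mul]; push_cast; ring]
        exact sub_mem hk (zsmul_mem hL2.self_mem d)
    · rintro ⟨d, rfl⟩
      rw [show (((2 : ℕ) : ℤ) * d : ℤ) = 2 * d from rfl, show ((2 * d : ℤ) : ℂ) * w = d • (2 * w) by
        rw [zsmul_eq_mul]; push_cast; ring]
      exact zsmul_mem hL2.self_mem d
  obtain ⟨L₂, h₂, hc⟩ := exists_sum ho two_pos
  have : L'.lattice = L₂.lattice := SetLike.ext fun x => by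
    rw [hL1 x, h₂ x]
    refine ⟨fun ⟨k, hk⟩ => ⟨k, hL2.le hk⟩, fun ⟨k, hk⟩ => ?_⟩
    obtain ⟨d, hd⟩ := (hL2 _).1 hk
    refine ⟨k + 2 * d, ?_⟩
    convert hd using 1
    push_cast
    ring
  show IsRoot _ _
  rw [IsRoot, eval_map, jInv_congr this]
  exact (cyclicSub_iff 2 _ _).1 (cyclicSub_symm 2 one_lt_two hc)

/-- **Without complex multiplication there are finitely many rational cyclic groups.** -/
theorem finite_stable (hL : (W.baseChange Kb).map φ = latCurve L) (hcm : NoCM L) :
    {g : (W.toAffine⁄Kb).Point | 0 < addOrderOf g ∧ Stable g}.Finite := by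
  obtain ⟨J, hJ, hmem⟩ := exists_finite_jInv hL
  set T := {g : (W.toAffine⁄Kb).Point |
    0 < addOrderOf g ∧ Stable g ∧ HasHalves (twoField Kb W) g}
  have hT : T.Finite := by
    have hfib : ∀ j : ℂ, {g ∈ T | ∃ L', IsQuot W φ hL g L' ∧ jInv L' = j}.Finite := fun j => by
      rcases Set.eq_empty_or_nonempty {g ∈ T | ∃ L', IsQuot W φ hL g L' ∧ jInv L' = j} with
        he | ⟨g₀, ⟨h0, -, -⟩, L₀, hL₀, hj₀⟩
      · rw [he]; exact Set.finite_empty
      refine (addOrderOf_pos_iff.1 h0).finite_zmultiples.subset ?_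
      rintro g ⟨⟨hg, -, -⟩, L', h, hj⟩
      obtain ⟨w, hw⟩ := exists_preimage (hL := hL) g
      obtain ⟨w₀, hw₀⟩ := exists_preimage (hL := hL) g₀
      have e := lattice_eq_of_jInv_eq hcm (orderMod hw) hg ((isQuot_iff hw).1 h) (orderMod hw₀) h0
        ((isQuot_iff hw₀).1 hL₀) (hj.trans hj₀.symm)
      have hm : w ∈ L₀.lattice := e ▸ ((isQuot_iff hw).1 h).self_mem
      rw [hL₀, hw] at hm
      exact (AddSubgroup.mem_map_iff_mem (FA.Frob.mapHom_injective φ hL)).1 hm
    refine (hJ.biUnion fun j _ => hfib j).subset fun g hg => ?_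
    obtain ⟨L', h, -⟩ := exists_isQuot (hL := hL) hg.1
    exact Set.mem_biUnion (hmem g hg.1 hg.2.1 hg.2.2 L' h) ⟨hg, L', h, rfl⟩
  refine (hT.union (hT.biUnion fun t ht => finite_nsmul_eq_zero (W := W) (Kb := Kb)
    (n := 2 * addOrderOf t) (by have := ht.1; omega))).subset ?_
  rintro g ⟨hg, hst⟩
  obtain ⟨g', hg', hst', hord', hh⟩ := exists_halves hg hst
  rcases hg' with rfl | ⟨rfl, -⟩
  · exact Or.inl ⟨hg, hst, hh⟩
  · refine Or.inr (Set.mem_biUnion (show (2 : ℕ) • g ∈ T from ⟨hord', hst', hh⟩) ?_)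
    show (2 * addOrderOf ((2 : ℕ) • g)) • g = 0
    rw [mul_comm, mul_nsmul', addOrderOf_nsmul_eq_zero]

end FA.IsogenyNF

end
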