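import Fermat.Agent.HasseBound.Extensions

/-!
# The determinant of the `q`-power map on the `p`-torsion

Over an algebraically closed field of characteristic `l` the `q`-power map `π` of an elliptic
curve fixed by it, `q = l ^ n`, satisfies `π² - t π + q = 0` and `#ker (c - π) = c² - t c + q` for
`c` prime to `l`, so a plane of `p`-torsion intertwined with it has determinant `q`.
-/

set_option autoImplicit false
set_option linter.unusedSectionVars false

noncomputable section

namespace FA.IsogenyNF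

open WeierstrassCurve Polynomial FA.Frob FA.HasseBound

universe u

variable {k : Type u} [Field k] [IsAlgClosed k] [DecidableEq k] {l : ℕ} [Fact l.Prime] [CharP k l]
  {n : ℕ} (W : WeierstrassCurve k) [W.IsElliptic] [DecidableEq (FF W)]
  (hW : W.map (iterateFrobenius k l n) = W)

/-- The trace of the `q`-power map. -/
def trQ : ℤ := pol (hM W) (g0 W) (gi W hW 1)

/-- **The quadratic equation of the `q`-power map.** -/
theorem qEnd_quadratic (hn : n ≠ 0) (P : W.toAffine.Point) :
    qEnd W hW (qEnd W hW P) - trQ W hW • qEnd W hW P + ((l : ℤ) ^ n) • P = 0 := by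
  have hh := isPara_hM W
  set q : ℤ := (l : ℤ) ^ n with hq
  set t := trQ W hW with ht
  have e12 : pol (hM W) (gi W hW 1) (gi W hW 2) = q * t := by
    have key : (⟨qGen W hW (g0 W + gi W hW 1).1, qGen_mem W hW (g0 W + gi W hW 1).2⟩ : MM W) =
        gi W hW 1 + gi W hW 2 := Subtype.ext (map_add _ _ _)
    have h := hM_shift W hW (g0 W + gi W hW 1)
    rw [key] at h
    rw [ht]
    simp only [trQ, pol]
    rw [h, hM_gi, hM_gi, hM_g0, ← hq]
    ring
  set Z := ((-t) • gi W hW 1 + q • g0 W) + gi W hW 2 with hZ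
  have h0 : hM W Z = 0 := by
    rw [hh.map_add, hh.map_combo, hh.pol_add_left, hh.pol_zsmul_left, hh.pol_zsmul_left, e12,
      pol_gi_two W hW hn, hM_gi, hM_gi, hM_g0, hh.pol_comm (gi W hW 1) (g0 W), ← trQ, ← ht, ← hq]
    ring
  have hS : Spec W Z.1
      (((-t) • qIter W hW 1 + q • AddMonoidHom.id _) + qIter W hW 2) :=
    (((spec_gi W hW 1).zsmul W _).add W ((spec_gen W).zsmul W _)).add W (spec_gi W hW 2)
  have hfin := eq_zero_of_hgt_eq_zero W Z.2 hS (by simpa [hM] using h0)
  have := DFunLike.congr_fun hfin P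
  simp only [qIter, AddMonoidHom.add_apply, AddMonoidHom.zero_apply, AddMonoidHom.comp_apply,
    AddMonoidHom.id_apply, AddMonoidHom.coe_smul, Pi.smul_apply, neg_zsmul] at this
  rw [← this]
  simp only [AddMonoidHom.neg_apply, AddMonoidHom.coe_smul, Pi.smul_apply, AddMonoidHom.comp_apply,
    AddMonoidHom.id_apply]
  abel

/-- `#ker (c - π) = c² - t c + q`. -/
theorem natCard_ker_sub_qEnd (hn : n ≠ 0) {c : ℤ} (hc : ¬ (l : ℤ) ∣ c) :
    (Nat.card (c • AddMonoidHom.id _ - qEnd W hW).ker : ℤ) =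
      c ^ 2 - trQ W hW * c + (l : ℤ) ^ n := by
  have hl : Prime (l : ℤ) := Nat.prime_iff_prime_int.1 (Fact.out : l.Prime)
  have h := natCard_ker_sub_aux W (cast_ne_zero_of_not_dvd (k := k) hc)
    (π := qEnd W hW) (F := gi W hW 1) (spec_qGen W hW (spec_gen W))
    (insep_qGen W hW hn (gi W hW 0).2) (by rw [hM_gi, pow_one]; exact pow_ne_zero _ hl.ne_zero)
    (by
      rw [hM_gi, pow_one]
      exact fun h => hc (hl.dvd_of_dvd_pow (h ▸ dvd_pow_self _ hn)))
  rw [h.1, hM_gi, pow_one, trQ]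
  ring

/-- **A plane of `p`-torsion intertwined with the `q`-power map has determinant `q`.** -/
theorem det_of_intertwine (hn : n ≠ 0) {p : ℕ} [Fact p.Prime] (hpl : p ≠ l) {V : Type*}
    [AddCommGroup V] [Module (ZMod p) V] [Module.Finite (ZMod p) V]
    (hV : Module.finrank (ZMod p) V = 2) (f : Module.End (ZMod p) V)
    (r : V →+ W.toAffine.Point) (hr : Function.Injective r)
    (hf : ∀ P, r (f P) = qEnd W hW (r P)) :
    LinearMap.det f = ((l : ZMod p) ^ n) := by
  classical
  have hpp := (Fact.out : p.Prime)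
  have hll := (Fact.out : l.Prime)
  have hsm : ∀ (m : ℤ) (P : V), r ((m : ZMod p) • P) = m • r P := fun m P => by
    rw [Int.cast_smul_eq_zsmul, map_zsmul]
  set a := trQ W hW
  set g : (ZMod p)[X] := X ^ 2 - C (a : ZMod p) * X + C ((l : ZMod p) ^ n) with hg
  have hgm : g.Monic := by rw [hg]; monicity!
  have hgd : g.natDegree = 2 := by rw [hg]; compute_degree!
  have h0 : aeval f g = 0 := by
    refine LinearMap.ext fun P => hr ?_
    simp only [hg, map_add, map_sub, map_mul, map_zero, aeval_X, aeval_C,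
      LinearMap.add_apply, LinearMap.sub_apply, LinearMap.zero_apply, Module.algebraMap_end_apply,
      sq, Module.End.mul_apply, hsm, hf]
    rw [show ((l : ZMod p) ^ n) = (((l : ℤ) ^ n : ℤ) : ZMod p) by push_cast; rfl, hsm]
    exact qEnd_quadratic W hW hn (r P)
  suffices h : f.charpoly = g by
    rw [LinearMap.det_eq_sign_charpoly_coeff, h, hV, hg]
    simp [coeff_X, -map_pow]
  by_cases hns : ∀ c : ZMod p, f ≠ c • 1
  · exact charpoly_eq_of_aeval hV hgm hgd h0 hns
  push Not at hns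
  obtain ⟨c, hc⟩ := hns
  have hlp : ¬ (l : ℤ) ∣ p := fun h =>
    hpl ((Nat.prime_dvd_prime_iff_eq hll hpp).mp (Int.natCast_dvd_natCast.mp h)).symm
  obtain ⟨c₀, hc₀, hc₀l⟩ : ∃ c₀ : ℤ, (c₀ : ZMod p) = c ∧ ¬ (l : ℤ) ∣ c₀ := by
    by_cases h : (l : ℤ) ∣ c.val
    · exact ⟨c.val + p, by simp, fun h' => hlp ((Int.dvd_add_right h).mp h')⟩
    · exact ⟨c.val, by simp, h⟩
  have hcard : Nat.card r.range = p ^ 2 := by
    rw [← Nat.card_congr (AddMonoidHom.ofInjective hr).toEquiv,
      Module.natCard_eq_pow_finrank (K := ZMod p), hV, Nat.card_zmod]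
  have hdvd : ∀ m : ℤ, (m : ZMod p) = c → ¬ (l : ℤ) ∣ m →
      (p : ℤ) ^ 2 ∣ m ^ 2 - a * m + (l : ℤ) ^ n := by
    intro m hm hml
    rw [← natCard_ker_sub_qEnd W hW hn hml, ← Nat.cast_pow, Int.natCast_dvd_natCast, ← hcard]
    refine AddSubgroup.card_dvd_of_le ?_
    rintro _ ⟨P, rfl⟩
    simp only [AddMonoidHom.mem_ker, AddMonoidHom.sub_apply, AddMonoidHom.coe_smul, Pi.smul_apply,
      AddMonoidHom.id_apply]
    rw [← hf, hc, LinearMap.smul_apply, Module.End.one_apply, ← hm, hsm, sub_self]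
  obtain ⟨u, hu⟩ := hdvd c₀ hc₀ hc₀l
  obtain ⟨v, hv⟩ := hdvd (c₀ + l * p) (by simp [hc₀]) fun h => hc₀l
    ((Int.dvd_add_left (dvd_mul_right _ _)).mp h)
  have hp0 : (p : ℤ) ≠ 0 := by exact_mod_cast hpp.ne_zero
  have hd2 : (l : ℤ) * (2 * c₀ - a) = p * (v - u - l * l) := by
    refine mul_left_cancel₀ hp0 ?_
    linear_combination hv - hu
  have hd3 := congrArg (Int.cast : ℤ → ZMod p) hd2
  have hd4 := congrArg (Int.cast : ℤ → ZMod p) hu
  push_cast [hc₀, ZMod.natCast_self, zero_mul, mul_zero] at hd3 hd4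
  have hl0 : (l : ZMod p) ≠ 0 := fun h => by
    rw [ZMod.natCast_eq_zero_iff] at h
    exact hpl ((Nat.prime_dvd_prime_iff_eq hpp hll).mp h)
  have ha : (a : ZMod p) = 2 * c := by
    linear_combination -(mul_eq_zero.mp hd3).resolve_left hl0
  have hl : (l : ZMod p) ^ n = c ^ 2 := by
    rw [zero_pow two_ne_zero, zero_mul] at hd4
    linear_combination hd4 + c * ha
  rw [hc, two_smul_charpoly hV, hg, ha, hl]

end FA.IsogenyNF

end
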