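import Fermat.Agent.IsogenyNF.FiniteFieldDet
import Fermat.Agent.IsogenyNF.Image
import Fermat.Agent.Frob.Reduction

/-!
# The determinant of an automorphism congruent to a power map

At a place of good reduction of residue characteristic `l ≠ p`, an automorphism which is congruent
to the `q`-power map, `q = l ^ n`, on the coordinates of the points killed by `p` acts on them
through the `q`-power map of the reduced curve, so with determinant `q`.
-/

set_option autoImplicit false
set_option linter.unusedSectionVars false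

noncomputable section

namespace FA.IsogenyNF

open WeierstrassCurve FA.Local FA.Frob FA.HasseBound
open FA.ClassNumberOne (xP yP)
open scoped WeierstrassCurve.Affine

universe u v

variable {K : Type u} [Field K] [NumberField K] {Kb : Type v} [Field Kb] [DecidableEq Kb]
  [Algebra K Kb] [CharZero Kb] [IsAlgClosed Kb] [Algebra.IsAlgebraic K Kb]
  (W : WeierstrassCurve K) [W.IsElliptic]

/-- **The determinant is `q`** for an automorphism congruent to the `q`-power map. -/
theorem det_torRep_of_congr (A : ValuationSubring Kb)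
    (hI : IntCoeff A.valuation (W.baseChange Kb).toAffine)
    (hΔ : A.valuation (W.baseChange Kb).toAffine.Δ = 1) {l n : ℕ} (hl : l.Prime)
    [CharP (Res A) l] (hn : n ≠ 0) {p : ℕ} (hp : p.Prime) (hpl : p ≠ l) (σ : Kb ≃ₐ[K] Kb)
    (hcoef : ∀ a ∈ [W.a₁, W.a₂, W.a₃, W.a₄, W.a₆],
      A.valuation (algebraMap K Kb a ^ l ^ n - algebraMap K Kb a) < 1)
    (hcoord : ∀ P : (W.toAffine⁄Kb).Point, p • P = 0 → A.valuation (xP P) ≤ 1 →
      A.valuation (σ (xP P) - xP P ^ l ^ n) < 1 ∧ A.valuation (σ (yP P) - yP P ^ l ^ n) < 1) :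
    LinearMap.det (torRep W p σ) = ((l : ZMod p) ^ n) := by
  classical
  have : Fact p.Prime := ⟨hp⟩
  have : Fact l.Prime := ⟨hl⟩
  have := residueField_isAlgClosed A
  have := redCurve_isElliptic hI hΔ
  set Wk := redCurve A (W.baseChange Kb).toAffine hI with hWk
  have hfixr : ∀ (x : Kb) (hx : x ∈ A), A.valuation (x ^ l ^ n - x) < 1 →
      iterateFrobenius (Res A) l n (IsLocalRing.residue A ⟨x, hx⟩) =
        IsLocalRing.residue A ⟨x, hx⟩ := fun x hx h => by
    rw [iterateFrobenius_def, ← map_pow, residue_eq_iff]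
    simpa using h
  have hmem : ∀ {x : Kb}, A.valuation x ≤ 1 → x ∈ A := fun h => (A.valuation_le_one_iff _).1 h
  have hW : Wk.map (iterateFrobenius (Res A) l n) = Wk := by
    refine WeierstrassCurve.ext ?_ ?_ ?_ ?_ ?_
    · exact hfixr _ (hmem hI.h₁) (hcoef _ (by simp))
    · exact hfixr _ (hmem hI.h₂) (hcoef _ (by simp))
    · exact hfixr _ (hmem hI.h₃) (hcoef _ (by simp))
    · exact hfixr _ (hmem hI.h₄) (hcoef _ (by simp))
    · exact hfixr _ (hmem hI.h₆) (hcoef _ (by simp))
  have hpk : (p : Res A) ≠ 0 := fun h => hpl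
    ((Nat.prime_dvd_prime_iff_eq hl hp).mp ((CharP.cast_eq_zero_iff (Res A) l p).mp h)).symm
  have hpv : A.valuation (p : Kb) = 1 := by
    have : IsUnit (p : A) := IsLocalRing.notMem_maximalIdeal.mp fun h => hpk (by
      rw [← map_natCast (IsLocalRing.residue A) p]
      exact IsLocalRing.residue_eq_zero_iff _ |>.mpr h)
    simpa using (FA.Frob.valuation_eq_one_iff A _).mpr this
  let T := Tor Kb W p
  obtain ⟨hTfin, hfr⟩ := finrank_tor (Kb := Kb) W hp
  have : Module.Finite (ZMod p) T := Module.finite_of_finrank_eq_succ hfr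
  let r : T →+ Wk.toAffine.Point := (redHom hI hΔ).comp T.subtype.toAddMonoidHom
  have hrinj : Function.Injective r := (injective_iff_map_eq_zero r).mpr fun P hP => Subtype.ext
    (redHom_injOn hI hΔ hp hpv (nsmul_of_mem W P) hP)
  refine det_of_intertwine Wk hW hn hpl hfr (torRep W p σ) r hrinj fun P => ?_
  show redHom hI hΔ (σ • (P : (W.toAffine⁄Kb).Point)) =
    qEnd Wk hW (redHom hI hΔ (P : (W.toAffine⁄Kb).Point))
  rcases hPe : (P : (W.toAffine⁄Kb).Point) with _ | ⟨x, y, h⟩
  · exact (map_zero (qEnd Wk hW)).symm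
  have hPp : p • (Affine.Point.some x y h : (W.toAffine⁄Kb).Point) = 0 := hPe ▸ nsmul_of_mem W P
  have hx : x ∈ A := by
    by_contra hx
    refine Affine.Point.some_ne_zero h (redHom_injOn hI hΔ hp hpv hPp ?_)
    rw [redHom_apply, redFun_eq_zero_iff, e1_some]
    exact not_le.1 fun h1 => hx ((A.valuation_le_one_iff x).1 h1)
  obtain ⟨hxc, hyc⟩ := hcoord _ hPp ((A.valuation_le_one_iff x).2 hx)
  change A.valuation (σ x - x ^ l ^ n) < 1 at hxc
  change A.valuation (σ y - y ^ l ^ n) < 1 at hyc
  obtain ⟨h', he⟩ := smul_some (σ := σ) W h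
  rw [he]
  have hy := y_mem hI h.1 hx
  have hxq : x ^ l ^ n ∈ A := pow_mem hx _
  have hσx : σ x ∈ A := by
    have := add_mem ((A.valuation_le_one_iff _).1 hxc.le) hxq
    rwa [sub_add_cancel] at this
  obtain ⟨k₁, e₁⟩ := redFun_of_mem hI h hx
  obtain ⟨k₂, e₂⟩ := redFun_of_mem hI h' hσx
  rw [redHom_apply, redHom_apply, e₁, e₂, qEnd, mapHom_some]
  simp only [Affine.Point.some.injEq, iterateFrobenius_def]
  refine ⟨?_, ?_⟩
  · rw [resOf, resOf, dif_pos hσx, dif_pos hx, ← map_pow, residue_eq_iff]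
    simpa using hxc
  · rw [resOf, resOf, dif_pos (y_mem hI h'.1 hσx), dif_pos hy, ← map_pow, residue_eq_iff]
    simpa using hyc

end FA.IsogenyNF

end
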