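import Fermat.Agent.Root.SummarySurjectiveAdelic

/-!
# Simultaneous lifting of determinant one at the powers of several large primes

For `p ≥ 5` a group of determinant one over `ℤ / p ^ n` which is everything modulo `p` is
everything. If finitely many representations, at powers of distinct primes `p ≥ 5`, contain every
matrix of determinant one modulo `p`, then together they reach every family of matrices of
determinant one: the orders of the images at the smaller primes are prime to the largest one.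
-/

set_option autoImplicit false
set_option linter.unusedSectionVars false

noncomputable section

namespace FA.IsogenyNF

open Matrix FA.PadicImage

universe u

/-- The matrices over `ℤ / p ^ n`. -/
abbrev MatN (p n : ℕ) := Matrix (Fin 2) (Fin 2) (ZMod (p ^ n))

/-- Reduction modulo `p`, zero at level zero. -/
def modP {p n : ℕ} (hn : n ≠ 0) : MatN p n →+* Matrix (Fin 2) (Fin 2) (ZMod p) :=
  (ZMod.castHom (dvd_pow_self p hn) (ZMod p)).mapMatrix

section Lift

variable {p : ℕ} [hp : Fact p.Prime]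

/-- Reduction of `p`-adic matrices. -/
abbrev redZ (n : ℕ) : Matrix (Fin 2) (Fin 2) ℤ_[p] →+* MatN p n :=
  (PadicInt.toZModPow n).mapMatrix

theorem redZ_surjective (n : ℕ) : Function.Surjective (redZ (p := p) n) := fun M => by
  have : NeZero (p ^ n) := ⟨pow_ne_zero _ hp.out.ne_zero⟩
  exact ⟨fun i j => ((M i j).val : ℤ_[p]), Matrix.ext fun i j => by
    simp only [RingHom.mapMatrix_apply, Matrix.map_apply, map_natCast, ZMod.natCast_zmod_val]⟩

theorem redZ_smul (n : ℕ) (Y : Matrix (Fin 2) (Fin 2) ℤ_[p]) :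
    redZ n ((p : ℤ_[p]) ^ n • Y) = 0 := Matrix.ext fun i j => by
  simp only [RingHom.mapMatrix_apply, Matrix.map_apply, Matrix.smul_apply, smul_eq_mul, map_mul,
    map_natCast, Matrix.zero_apply, ← Nat.cast_pow, ZMod.natCast_self, zero_mul]

theorem exists_of_redZ_eq {n : ℕ} {X Y : Matrix (Fin 2) (Fin 2) ℤ_[p]}
    (h : redZ n X = redZ n Y) : ∃ Z, X = Y + (p : ℤ_[p]) ^ n • Z := by
  have h' : ∀ i j, ∃ z, X i j - Y i j = (p : ℤ_[p]) ^ n * z := fun i j => by
    refine Ideal.mem_span_singleton.mp ?_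
    rw [← PadicInt.ker_toZModPow, RingHom.mem_ker, map_sub, sub_eq_zero]
    exact congrFun (congrFun h i) j
  choose Z hZ using h'
  exact ⟨Matrix.of Z, Matrix.ext fun i j => by
    show X i j = Y i j + (p : ℤ_[p]) ^ n * Z i j
    rw [← hZ]; ring⟩

/-- The restriction to a lower level. -/
def lowerLevel (n : ℕ) : MatN p (n + 1) →+* MatN p n :=
  (ZMod.castHom (pow_dvd_pow p n.le_succ) (ZMod (p ^ n))).mapMatrix

theorem lowerLevel_redZ (n : ℕ) (X : Matrix (Fin 2) (Fin 2) ℤ_[p]) :
    lowerLevel n (redZ (n + 1) X) = redZ n X := Matrix.ext fun i j => by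
  show ZMod.castHom (pow_dvd_pow p n.le_succ) (ZMod (p ^ n)) (PadicInt.toZModPow (n + 1) (X i j)) =
    PadicInt.toZModPow n (X i j)
  rw [← PadicInt.zmod_cast_comp_toZModPow n (n + 1) n.le_succ]
  rfl

theorem det_lowerLevel (n : ℕ) (M : MatN p (n + 1)) :
    (lowerLevel n M).det = ZMod.castHom (pow_dvd_pow p n.le_succ) (ZMod (p ^ n)) M.det :=
  (RingHom.map_det _ M).symm

/-- **Everything of determinant one** from everything modulo `p`, for `p ≥ 5`. -/
theorem exists_eq_of_modP (h5 : 5 ≤ p) {G : Type u} [Group G] :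
    ∀ (n : ℕ) (ρ : G →* MatN p (n + 1)), (∀ g, (ρ g).det = 1) →
    (∀ M : Matrix (Fin 2) (Fin 2) (ZMod p), M.det = 1 →
      ∃ g, modP n.succ_ne_zero (ρ g) = M) →
    ∀ M : MatN p (n + 1), M.det = 1 → ∃ g, ρ g = M := by
  intro n
  induction n with
  | zero =>
    intro ρ _ h M hM
    have hinj : Function.Injective (ZMod.castHom (dvd_pow_self p (one_ne_zero)) (ZMod p)) :=
      ((Nat.bijective_iff_surjective_and_card _).mpr ⟨ZMod.castHom_surjective _,
        by rw [Nat.card_zmod, Nat.card_zmod, pow_one]⟩).1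
    obtain ⟨g, hg⟩ := h (modP one_ne_zero M) (by rw [modP, ← RingHom.map_det, hM, map_one])
    exact ⟨g, Matrix.ext fun i j => hinj (congrFun (congrFun hg i) j)⟩
  | succ n ih =>
    intro ρ hdet h M hM
    have hlow : ∀ N : MatN p (n + 1), N.det = 1 → ∃ g, lowerLevel (n + 1) (ρ g) = N :=
      ih ((lowerLevel (n + 1)).toMonoidHom.comp ρ) (fun g => by
        show (lowerLevel (n + 1) (ρ g)).det = 1
        rw [det_lowerLevel, hdet, map_one]) fun N hN => by
        obtain ⟨g, hg⟩ := h N hN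
        refine ⟨g, Eq.trans ?_ hg⟩
        ext i j
        exact DFunLike.congr_fun (ZMod.castHom_comp (n := p) (m := p ^ (n + 1)) (d := p ^ (n + 2))
          (dvd_pow_self p n.succ_ne_zero) (pow_dvd_pow p (n + 1).le_succ)) (ρ g i j)
    set c : ZMod (p ^ (n + 1 + 1)) := (p : ZMod (p ^ (n + 1 + 1))) ^ (n + 1) with hcdef
    have hcp : c * (p : ZMod (p ^ (n + 1 + 1))) = 0 := by
      rw [hcdef, ← pow_succ, ← Nat.cast_pow, ZMod.natCast_self]
    have hcc : c * c = 0 := by
      rw [show c * c = c * (p : ZMod (p ^ (n + 1 + 1))) * (p : ZMod (p ^ (n + 1 + 1))) ^ n by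
        rw [hcdef]; ring, hcp, zero_mul]
    have hred : ∀ X : Matrix (Fin 2) (Fin 2) ℤ_[p],
        redZ (n + 1 + 1) ((p : ℤ_[p]) ^ (n + 1) • X) = c • redZ (n + 1 + 1) X :=
      fun X => Matrix.ext fun i j => by
        show PadicInt.toZModPow (n + 1 + 1) ((p : ℤ_[p]) ^ (n + 1) * X i j) =
          c * PadicInt.toZModPow (n + 1 + 1) (X i j)
        rw [map_mul, map_pow, map_natCast, hcdef]
    -- the deepest layer contains the square-zero matrices
    have hsq : ∀ X : Matrix (Fin 2) (Fin 2) ℤ_[p], X * X = 0 →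
        ∃ g, ρ g = 1 + c • redZ (n + 1 + 1) X := fun X hX => by
      obtain ⟨g, hg⟩ := hlow (redZ (n + 1) (1 + (p : ℤ_[p]) ^ n • X)) (by
        rw [← RingHom.map_det]
        have hd : (1 + (p : ℤ_[p]) ^ n • X).det = 1 := by
          have ht : X.trace ^ 2 = 0 ∧ X.det = 0 := by
            have h1 := congrFun (congrFun hX 0) 0
            have h2 := congrFun (congrFun hX 1) 1
            have h0 : X.det = 0 := by
              have := congrArg Matrix.det hX
              rwa [det_mul, det_zero, mul_self_eq_zero] at this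
            refine ⟨?_, h0⟩
            rw [det_fin_two] at h0
            simp only [Matrix.mul_apply, Fin.sum_univ_two, Matrix.zero_apply] at h1 h2
            rw [trace_fin_two]
            linear_combination h1 + h2 + 2 * h0
          have ht' : X.trace = 0 := pow_eq_zero_iff two_ne_zero |>.mp ht.1
          have hd0 := ht.2
          rw [det_fin_two] at hd0 ⊢
          rw [trace_fin_two] at ht'
          simp
          linear_combination (p : ℤ_[p]) ^ n * ht' + (p : ℤ_[p]) ^ n * (p : ℤ_[p]) ^ n * hd0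
        rw [hd, map_one])
      obtain ⟨L, hL⟩ := redZ_surjective (n + 1 + 1) (ρ g)
      rw [← hL, lowerLevel_redZ] at hg
      obtain ⟨Y, rfl⟩ := exists_of_redZ_eq hg
      obtain ⟨Z, hZ⟩ := exists_pow_eq h5 (n := n) (Or.inr hX) Y
      refine ⟨g ^ p, ?_⟩
      rw [map_pow, ← hL, ← map_pow, hZ, map_add, map_add, map_one, hred, redZ_smul, add_zero]
    obtain ⟨g, hg⟩ := hlow (lowerLevel (n + 1) M) (by rw [det_lowerLevel, hM, map_one])
    -- the quotient is congruent to one
    obtain ⟨A, hA⟩ := redZ_surjective (n + 1 + 1) (ρ g⁻¹ * M)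
    have hA1 : redZ (n + 1) A = redZ (n + 1) 1 := by
      rw [← lowerLevel_redZ, hA, map_mul, ← hg, ← map_mul, ← map_mul ρ, inv_mul_cancel, map_one,
        map_one, map_one]
    obtain ⟨X, rfl⟩ := exists_of_redZ_eq hA1
    rw [map_add, map_one, hred] at hA
    suffices hh : ∃ k, ρ k = ρ g⁻¹ * M by
      obtain ⟨k, hk⟩ := hh
      exact ⟨g * k, by rw [map_mul, hk, ← mul_assoc, ← map_mul, mul_inv_cancel, map_one, one_mul]⟩
    set a := X 0 0
    set b := X 0 1
    set d := X 1 0
    obtain ⟨g₁, h₁⟩ := hsq !![0, b - a; 0, 0]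
      (by ext i j; fin_cases i <;> fin_cases j <;> simp [Matrix.mul_apply, Fin.sum_univ_two])
    obtain ⟨g₂, h₂⟩ := hsq !![0, 0; d + a, 0]
      (by ext i j; fin_cases i <;> fin_cases j <;> simp [Matrix.mul_apply, Fin.sum_univ_two])
    obtain ⟨g₃, h₃⟩ := hsq (a • !![1, 1; -1, -1])
      (by ext i j; fin_cases i <;> fin_cases j <;> simp [Matrix.mul_apply, Fin.sum_univ_two])
    set x := fun i j => PadicInt.toZModPow (n + 1 + 1) (X i j) with hx
    -- the trace vanishes in the layer
    have htr : c * x 1 1 = -(c * x 0 0) := by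
      have h1 := congrArg Matrix.det hA
      rw [det_mul, hM, hdet, mul_one, det_fin_two] at h1
      simp only [Matrix.add_apply, Matrix.one_apply, Matrix.smul_apply, smul_eq_mul,
        RingHom.mapMatrix_apply, Matrix.map_apply] at h1
      simp at h1
      linear_combination h1 - (x 0 0 * x 1 1 - x 0 1 * x 1 0) * hcc
    have key : ∀ U V : MatN p (n + 1 + 1), (1 + c • U) * (1 + c • V) = 1 + c • (U + V) :=
      fun U V => by
      rw [add_mul, one_mul, mul_add, mul_one, smul_mul_smul_comm, hcc, zero_smul, smul_add]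
      abel
    refine ⟨g₁ * g₂ * g₃, ?_⟩
    rw [map_mul, map_mul, h₁, h₂, h₃, ← hA, key, key]
    clear_value c
    ext i j
    fin_cases i <;> fin_cases j <;> simp [RingHom.mapMatrix_apply, a, b, d]
    all_goals first
      | ring1
      | linear_combination -htr

/-- The exponent of the matrices invertible modulo `p ^ n`. -/
theorem pow_card_level {G : Type u} [Group G] (n : ℕ) (ρ : G →* MatN p (n + 1)) (g : G) :
    ρ (g ^ (Nat.card (GL (Fin 2) (ZMod p)) * p ^ n)) = 1 := by
  set h := g ^ Nat.card (GL (Fin 2) (ZMod p)) with hh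
  have h1 : modP n.succ_ne_zero (ρ h) = 1 := by
    let ψ : G →* Matrix (Fin 2) (Fin 2) (ZMod p) :=
      (modP (p := p) n.succ_ne_zero).toMonoidHom.comp ρ
    show ψ h = 1
    rw [hh, map_pow, ← MonoidHom.coe_toHomUnits, ← Units.val_pow_eq_pow_val, pow_card_eq_one',
      Units.val_one]
  obtain ⟨L, hL⟩ := redZ_surjective (n + 1) (ρ h)
  have hL1 : L.map PadicInt.toZMod = (1 : Matrix (Fin 2) (Fin 2) ℤ_[p]).map PadicInt.toZMod := by
    have hc : (ZMod.castHom (dvd_pow_self p n.succ_ne_zero) (ZMod p)).comp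
        (PadicInt.toZModPow (n + 1)) = PadicInt.toZMod := by
      refine RingHom.ext fun x => ?_
      obtain ⟨z, hz⟩ := exists_eq_add (A := fun _ _ => x) (B := fun _ _ =>
        ((PadicInt.toZMod x).val : ℤ_[p])) (Matrix.ext fun _ _ => by
          show PadicInt.toZMod x = PadicInt.toZMod ((PadicInt.toZMod x).val : ℤ_[p])
          rw [map_natCast, ZMod.natCast_zmod_val])
      have e : x = ((PadicInt.toZMod x).val : ℤ_[p]) + (p : ℤ_[p]) * z 0 0 :=
        congrFun (congrFun hz 0) 0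
      conv_lhs => rw [e]
      rw [map_add, map_mul, RingHom.comp_apply, RingHom.comp_apply, map_natCast, map_natCast,
        map_natCast, map_natCast, ZMod.natCast_self, zero_mul, add_zero, ZMod.natCast_zmod_val]
    rw [← hL] at h1
    have e : ∀ X : Matrix (Fin 2) (Fin 2) ℤ_[p],
        modP n.succ_ne_zero (redZ (n + 1) X) = X.map PadicInt.toZMod := fun X =>
      Matrix.ext fun i j => DFunLike.congr_fun hc (X i j)
    rw [← e, ← e, h1, map_one, map_one]
  obtain ⟨X, rfl⟩ := exists_eq_add hL1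
  obtain ⟨Y, hY⟩ := exists_pow_congr_one X n
  rw [pow_mul, ← hh, map_pow, ← hL, ← map_pow, hY, map_add, map_one, redZ_smul, add_zero]

end Lift

theorem not_dvd_card {p l : ℕ} (hp : p.Prime) (hl : l.Prime) (hlp : l + 1 < p) (n : ℕ) :
    ¬ p ∣ Nat.card (GL (Fin 2) (ZMod l)) * l ^ n := by
  have := Fact.mk hl
  have hl2 := hl.two_le
  have hsmall : ∀ k, 0 < k → k ≤ l + 1 → ¬ p ∣ k := fun k h0 hk hd => by
    have := Nat.le_of_dvd h0 hd; omega
  rw [Matrix.card_GL_field, Fin.prod_univ_two, hp.dvd_mul, hp.dvd_mul, not_or, not_or]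
  simp only [ZMod.card, Fin.val_zero, Fin.val_one, pow_zero, pow_one]
  refine ⟨⟨?_, ?_⟩, fun hd => hsmall l hl.pos (by omega) (hp.dvd_of_dvd_pow hd)⟩
  · rw [show l ^ 2 - 1 = (l + 1) * (l - 1) by rw [← Nat.sq_sub_sq, one_pow], hp.dvd_mul, not_or]
    exact ⟨hsmall _ (by omega) le_rfl, hsmall _ (by omega) (by omega)⟩
  · rw [show l ^ 2 - l = l * (l - 1) by rw [Nat.mul_sub, mul_one, sq], hp.dvd_mul, not_or]
    exact ⟨hsmall _ (by omega) (by omega), hsmall _ (by omega) (by omega)⟩

/-- A submonoid closed under conjugation by elements which reach every map of determinant one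
contains all of them once it has a transvection. -/
theorem mem_of_transvection {p : ℕ} [Fact p.Prime]
    (T : Submonoid (Matrix (Fin 2) (Fin 2) (ZMod p)))
    (hconj : ∀ A B : Matrix (Fin 2) (Fin 2) (ZMod p), A.det = 1 → B ∈ T → A * B * A⁻¹ ∈ T)
    {x : ZMod p} (hx : x ≠ 0) (h : !![1, x; 0, 1] ∈ T)
    {M : Matrix (Fin 2) (Fin 2) (ZMod p)} (hM : M.det = 1) : M ∈ T := by
  have hup : ∀ z, !![1, z; 0, 1] ∈ T := fun z => by
    have hpow : ∀ k : ℕ, !![1, (k : ZMod p) * x; 0, 1] ∈ T := fun k => by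
      induction k with
      | zero => simp [← one_fin_two]
      | succ k ih =>
        convert T.mul_mem ih h using 1
        ext i j
        fin_cases i <;> fin_cases j <;> simp [Matrix.mul_apply, Fin.sum_univ_two]
        ring
    have := hpow (z / x).val
    rwa [ZMod.natCast_zmod_val, div_mul_cancel₀ z hx] at this
  refine FA.Ribet.mem_of_elementary_field T hup (fun z => ?_) hM
  have := hconj !![0, -1; 1, 0] _ (by simp [det_fin_two]) (hup (-z))
  rwa [show (!![0, -1; 1, 0] : Matrix (Fin 2) (Fin 2) (ZMod p))⁻¹ = !![0, 1; -1, 0] from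
    Matrix.inv_eq_right_inv (by simp [one_fin_two]),
    show (!![0, -1; 1, 0] * !![1, -z; 0, 1] * !![0, 1; -1, 0] :
      Matrix (Fin 2) (Fin 2) (ZMod p)) = !![1, 0; z, 1] by simp] at this

/-- The commutators already give every matrix of determinant one modulo `p ≥ 5`. -/
theorem exists_commutator_modP {p : ℕ} [hp : Fact p.Prime] (h5 : 5 ≤ p) {G : Type u} [Group G]
    (ψ : G →* Matrix (Fin 2) (Fin 2) (ZMod p))
    (hsl : ∀ M : Matrix (Fin 2) (Fin 2) (ZMod p), M.det = 1 → ∃ g, ψ g = M)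
    {M : Matrix (Fin 2) (Fin 2) (ZMod p)} (hM : M.det = 1) :
    ∃ g ∈ commutator G, ψ g = M := by
  have hinv : ∀ g, ψ g⁻¹ = (ψ g)⁻¹ := fun g =>
    (Matrix.inv_eq_right_inv (by rw [← map_mul, mul_inv_cancel, map_one])).symm
  have h2 : (2 : ZMod p) ≠ 0 := fun h => by
    have := Nat.le_of_dvd two_pos ((ZMod.natCast_eq_zero_iff 2 p).mp (by exact_mod_cast h))
    omega
  have h3 : (3 : ZMod p) ≠ 0 := fun h => by
    have := Nat.le_of_dvd three_pos ((ZMod.natCast_eq_zero_iff 3 p).mp (by exact_mod_cast h))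
    omega
  obtain ⟨d, hd⟩ := hsl !![2, 0; 0, 2⁻¹] (by simp [det_fin_two, h2])
  obtain ⟨u, hu⟩ := hsl !![1, 1; 0, 1] (by simp [det_fin_two])
  obtain ⟨g, hg⟩ := MonoidHom.mem_mrange.1 (mem_of_transvection
    (MonoidHom.mrange (ψ.comp (commutator G).subtype)) (fun B C hB hC => by
      obtain ⟨c, rfl⟩ := MonoidHom.mem_mrange.1 hC
      obtain ⟨b, rfl⟩ := hsl B hB
      exact ⟨⟨_, Subgroup.Normal.conj_mem inferInstance _ c.2 b⟩, by
        show ψ (b * c * b⁻¹) = ψ b * ψ c * (ψ b)⁻¹
        rw [map_mul, map_mul, hinv]⟩) h3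
    ⟨⟨d * u * d⁻¹ * u⁻¹, by
      rw [commutator_eq_closure]
      exact Subgroup.subset_closure ⟨d, u, rfl⟩⟩, by
      show ψ (d * u * d⁻¹ * u⁻¹) = _
      rw [map_mul, map_mul, map_mul, hinv, hinv, hd, hu,
        Matrix.inv_eq_right_inv (show !![2, 0; 0, (2 : ZMod p)⁻¹] * !![2⁻¹, 0; 0, 2] = 1 by
          simp [h2, one_fin_two]),
        Matrix.inv_eq_right_inv (show !![1, (1 : ZMod p); 0, 1] * !![1, -1; 0, 1] = 1 by
          simp [one_fin_two])]
      ext i j
      fin_cases i <;> fin_cases j <;> simp [h2]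
      ring⟩ hM)
  exact ⟨g, g.2, hg⟩

/-- **Simultaneously all matrices of determinant one** at the powers of distinct primes `p ≥ 5`,
from all of them modulo each `p`, for a group of determinant one. -/
theorem exists_family_eq {G : Type u} [Group G] (e : ℕ → ℕ)
    (ρ : ∀ p : ℕ, G →* MatN p (e p + 1)) :
    ∀ S : Finset ℕ, (∀ p ∈ S, p.Prime ∧ 5 ≤ p) → (∀ p ∈ S, ∀ g, (ρ p g).det = 1) →
    (∀ p ∈ S, ∀ M : Matrix (Fin 2) (Fin 2) (ZMod p), M.det = 1 →
      ∃ g, modP (Nat.succ_ne_zero _) (ρ p g) = M) →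
    ∀ M : ∀ p : ℕ, MatN p (e p + 1), (∀ p ∈ S, (M p).det = 1) → ∃ g, ∀ p ∈ S, ρ p g = M p := by
  intro S
  induction S using Finset.induction_on_max with
  | empty => exact fun _ _ _ M _ => ⟨1, fun p hp => absurd hp (Finset.notMem_empty p)⟩
  | insert p s hlt ih =>
    intro hS hdet hsl M hM
    have hsub : ∀ l ∈ s, l ∈ insert p s := fun l hl => Finset.mem_insert_of_mem hl
    obtain ⟨hp, h5⟩ := hS p (Finset.mem_insert_self p s)
    have := Fact.mk hp
    let H : Subgroup G := ⨅ l ∈ s, (ρ l).ker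
    have hH : ∀ g, g ∈ H ↔ ∀ l ∈ s, ρ l g = 1 := fun g => by
      simp only [H, Subgroup.mem_iInf, MonoidHom.mem_ker]
    let ψ : G →* Matrix (Fin 2) (Fin 2) (ZMod p) :=
      (modP (p := p) (e p).succ_ne_zero).toMonoidHom.comp (ρ p)
    have hsl' := hsl p (Finset.mem_insert_self p s)
    have hψinv : ∀ g, ψ g⁻¹ = (ψ g)⁻¹ := fun g =>
      (Matrix.inv_eq_right_inv (by rw [← map_mul, mul_inv_cancel, map_one])).symm
    set k := ∏ l ∈ s, Nat.card (GL (Fin 2) (ZMod l)) * l ^ e l with hk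
    have hpk : ¬ p ∣ k := by
      rw [hk, Prime.dvd_finsetProd_iff hp.prime]
      rintro ⟨l, hl, hd⟩
      obtain ⟨hl', hl5⟩ := hS l (hsub l hl)
      refine not_dvd_card hp hl' ?_ _ hd
      obtain ⟨a, ha⟩ := hp.odd_of_ne_two (by omega)
      obtain ⟨b, hb⟩ := hl'.odd_of_ne_two (by omega)
      have := hlt l hl
      omega
    obtain ⟨u₀, hu₀⟩ := hsl' !![1, 1; 0, 1] (by simp [det_fin_two])
    have huψ : ∀ m : ℕ, ψ (u₀ ^ m) = !![1, (m : ZMod p); 0, 1] := fun m => by
      rw [map_pow, show ψ u₀ = !![1, 1; 0, 1] from hu₀]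
      induction m with
      | zero => simp [one_fin_two]
      | succ m ih => rw [pow_succ, ih]; simp [add_comm]
    have htriv : u₀ ^ k ∈ H := (hH _).2 fun l hl => by
      have := Fact.mk (hS l (hsub l hl)).1
      obtain ⟨m, hm⟩ := Finset.dvd_prod_of_mem
        (fun l => Nat.card (GL (Fin 2) (ZMod l)) * l ^ e l) hl
      rw [hk, hm, pow_mul, map_pow, pow_card_level, one_pow]
    have hall : ∀ A : Matrix (Fin 2) (Fin 2) (ZMod p), A.det = 1 →
        ∃ g : H, ψ (g : G) = A := fun A hA =>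
      MonoidHom.mem_mrange.1 (mem_of_transvection (MonoidHom.mrange (ψ.comp H.subtype))
        (fun B C hB hC => by
          obtain ⟨c, rfl⟩ := MonoidHom.mem_mrange.1 hC
          obtain ⟨b, rfl⟩ := hsl' B hB
          refine ⟨⟨b * c * b⁻¹, (hH _).2 fun l hl => ?_⟩, ?_⟩
          · rw [map_mul, map_mul, (hH _).1 c.2 l hl, mul_one, ← map_mul, mul_inv_cancel, map_one]
          · show ψ (b * c * b⁻¹) = ψ b * ψ c * (ψ b)⁻¹
            rw [map_mul, map_mul, hψinv])
        (fun h => hpk ((ZMod.natCast_eq_zero_iff _ _).mp h)) ⟨⟨_, htriv⟩, huψ k⟩ hA)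
    obtain ⟨g₁, hg₁⟩ := ih (fun l hl => hS l (hsub l hl)) (fun l hl => hdet l (hsub l hl))
      (fun l hl => hsl l (hsub l hl)) M fun l hl => hM l (hsub l hl)
    have hdp := hdet p (Finset.mem_insert_self p s)
    obtain ⟨g₂, hg₂⟩ := exists_eq_of_modP h5 (e p) ((ρ p).comp H.subtype) (fun g => hdp g) hall
      (ρ p g₁⁻¹ * M p) (by rw [det_mul, hdp, hM p (Finset.mem_insert_self p s), mul_one])
    refine ⟨g₁ * g₂, fun l hl => ?_⟩
    rcases Finset.mem_insert.1 hl with rfl | hl
    · rw [map_mul, show ρ l (g₂ : G) = ρ l g₁⁻¹ * M l from hg₂, ← mul_assoc, ← map_mul,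
        mul_inv_cancel, map_one, one_mul]
    · rw [map_mul, (hH _).1 g₂.2 l hl, mul_one, hg₁ l hl]

end FA.IsogenyNF

end
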