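import Fermat.Agent.IsogenyNF.QuotientPoints

/-!
# Galois conjugates of the invariant of a quotient

The invariant of the quotient by a cyclic group is a rational function of the abscissae of two of
its half periods, so an automorphism carries it to the invariant of the conjugate group.
-/

set_option autoImplicit false
set_option linter.unusedSectionVars false

noncomputable section

namespace FA.IsogenyNF

open WeierstrassCurve FA.Mazur.Wp FA.CyclicLattice
open scoped WeierstrassCurve.Affine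

universe u v

/-- The invariants from the abscissae of two half periods. -/
theorem invariants_of_halves (L : PeriodPair) {z z' : ℂ} (hz : z ∉ L.lattice) (hz' : z' ∉ L.lattice)
    (h2 : 2 * z ∈ L.lattice) (h2' : 2 * z' ∈ L.lattice) (hd : z - z' ∉ L.lattice) :
    L.g₂ = 4 * (L.weierstrassP z ^ 2 + L.weierstrassP z * L.weierstrassP z' +
        L.weierstrassP z' ^ 2) ∧
      L.g₃ = -4 * L.weierstrassP z * L.weierstrassP z' *
        (L.weierstrassP z + L.weierstrassP z') := by
  have hne : L.weierstrassP z - L.weierstrassP z' ≠ 0 :=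
    sub_ne_zero.2 fun e => hd (sub_mem_of_half hz hz' h2 h2' e)
  have r := (root_of_half hz h2).1
  have r' := (root_of_half hz' h2').1
  have e2 : L.g₂ = 4 * (L.weierstrassP z ^ 2 + L.weierstrassP z * L.weierstrassP z' +
      L.weierstrassP z' ^ 2) :=
    mul_left_cancel₀ hne (by linear_combination r' - r)
  exact ⟨e2, by linear_combination -r - L.weierstrassP z * e2⟩

variable {K : Type u} [Field K] [CharZero K] {Kb : Type v} [Field Kb] [DecidableEq Kb]
  [Algebra K Kb] [CharZero Kb] [IsAlgClosed Kb] {W : WeierstrassCurve K} [W.IsElliptic]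
  {φ : Kb →+* ℂ} {L : PeriodPair} {hL : (W.baseChange Kb).map φ = latCurve L}

/-- The invariant from the abscissae of two half periods. -/
def invOfHalves (x y : Kb) : Kb :=
  1728 * ((4 * (x ^ 2 + x * y + y ^ 2)) ^ 3 /
    ((4 * (x ^ 2 + x * y + y ^ 2)) ^ 3 - 27 * (-4 * x * y * (x + y)) ^ 2))

/-- **The invariant of a quotient is algebraic and transforms under Galois.** -/
theorem exists_invariant {g : (W.toAffine⁄Kb).Point} (hg : 0 < addOrderOf g) :
    ∃ y : Kb, (∀ L', IsQuot W φ hL g L' → jInv L' = φ y) ∧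
      ∀ (σ : Kb ≃ₐ[K] Kb) (L'' : PeriodPair),
        IsQuot W φ hL (σ • g) L'' → jInv L'' = φ (σ y) := by
  have hfin : Finite (AddSubgroup.zmultiples g) := Nat.finite_of_card_ne_zero (by
    rw [Nat.card_zmultiples]; exact hg.ne')
  obtain ⟨L₀, h₀, -⟩ := exists_isQuot (hL := hL) hg
  have hG : IsQuotG W φ hL (AddSubgroup.zmultiples g) L₀ := h₀
  have m₁ : 2 * (L₀.ω₁ / 2) ∈ L₀.lattice := by
    rw [mul_div_cancel₀ _ two_ne_zero]; exact L₀.ω₁_mem_lattice
  have m₂ : 2 * (L₀.ω₂ / 2) ∈ L₀.lattice := by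
    rw [mul_div_cancel₀ _ two_ne_zero]; exact L₀.ω₂_mem_lattice
  obtain ⟨P, hP, hPG, hP2⟩ := exists_half hG L₀.ω₁_div_two_notMem_lattice m₁
  obtain ⟨Q, hQ, hQG, hQ2⟩ := exists_half hG L₀.ω₂_div_two_notMem_lattice m₂
  have hPQ : P - Q ∉ AddSubgroup.zmultiples g := fun hm => by
    have := (hG.mem_iff (z := L₀.ω₁ / 2 - L₀.ω₂ / 2) (P := P - Q) (by
      rw [map_sub, ← hP, ← hQ, ← unifHom_apply, ← unifHom_apply, ← unifHom_apply, map_sub])).2 hm
    rw [show L₀.ω₁ / 2 - L₀.ω₂ / 2 = ((1 / 2 : ℚ) : ℂ) * L₀.ω₁ + ((-1 / 2 : ℚ) : ℂ) * L₀.ω₂ by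
      push_cast; ring, PeriodPair.mul_ω₁_add_mul_ω₂_mem_lattice] at this
    norm_num at this
  have key : ∀ {h R S : (W.toAffine⁄Kb).Point} {L' : PeriodPair}, 0 < addOrderOf h →
      IsQuot W φ hL h L' → R ∉ AddSubgroup.zmultiples h → S ∉ AddSubgroup.zmultiples h →
      (2 : ℕ) • R ∈ AddSubgroup.zmultiples h → (2 : ℕ) • S ∈ AddSubgroup.zmultiples h →
      R - S ∉ AddSubgroup.zmultiples h → jInv L' = φ (invOfHalves (eX h R) (eX h S)) := by
    intro h R S L' hh hq hR hS hR2 hS2 hRS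
    obtain ⟨z, hz⟩ := exists_preimage (hL := hL) R
    obtain ⟨z', hz'⟩ := exists_preimage (hL := hL) S
    have hmem : ∀ {x : ℂ} {T : (W.toAffine⁄Kb).Point}, unif L x = toC W φ hL T →
        (x ∈ L'.lattice ↔ T ∈ AddSubgroup.zmultiples h) := fun {x T} hx => by
      rw [hq x, hx]
      exact AddSubgroup.mem_map_iff_mem (FA.Frob.mapHom_injective φ hL)
    have h2 : ∀ {x : ℂ} {T : (W.toAffine⁄Kb).Point}, unif L x = toC W φ hL T →
        (2 : ℕ) • T ∈ AddSubgroup.zmultiples h → 2 * x ∈ L'.lattice := fun {x T} hx hT => by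
      refine (hmem ?_).2 hT
      rw [map_nsmul, ← hx, ← natCast_zsmul, ← unif_int_mul]
      norm_num
    obtain ⟨e2, e3⟩ := invariants_of_halves L' (z := z) (z' := z')
      (fun m => hR ((hmem hz).1 m)) (fun m => hS ((hmem hz').1 m)) (h2 hz hR2) (h2 hz' hS2)
      (fun m => hRS ((hmem (by
        rw [map_sub, ← hz, ← hz', ← unifHom_apply, ← unifHom_apply, ← unifHom_apply,
          map_sub])).1 m))
    rw [jInv, e2, e3, ← map_eX hh hq hz, ← map_eX hh hq hz', invOfHalves]
    simp only [map_mul, map_div₀, map_pow, map_sub, map_add, map_neg, map_ofNat]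
  refine ⟨invOfHalves (eX g P) (eX g Q), fun L' h => key hg h hPG hQG hP2 hQ2 hPQ,
    fun σ L'' h => ?_⟩
  have hsm : ∀ {R : (W.toAffine⁄Kb).Point}, R ∈ AddSubgroup.zmultiples g ↔
      σ • R ∈ AddSubgroup.zmultiples (σ • g) := fun {R} => by
    simp only [AddSubgroup.mem_zmultiples_iff, ← smul_zsmul', (MulAction.injective σ).eq_iff]
  rw [key (addOrderOf_smul σ g ▸ hg) h (fun m => hPG (hsm.2 m)) (fun m => hQG (hsm.2 m))
    (by rw [← smul_nsmul']; exact hsm.1 hP2) (by rw [← smul_nsmul']; exact hsm.1 hQ2)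
    (by rw [← smul_sub]; exact fun m => hPQ (hsm.2 m))]
  simp only [invOfHalves, map_mul, map_div₀, map_pow, map_sub, map_add, map_neg, map_ofNat,
    smul_eX]

end FA.IsogenyNF

end
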