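import Fermat.Agent.Tau.CyclicSublattice
import Fermat.Agent.Tau.Homothety

/-!
# Lattices containing a lattice with cyclic quotient

If `w` has order `M` modulo `L`, then `L + ℤ w` is a lattice `L'`, the abscissa of `ℂ/L'` is a sum
of translates of the abscissa of `ℂ/L`, and its half periods give the Legendre parameter. Without
complex multiplication `L'` is determined by its invariant.
-/

set_option autoImplicit false

noncomputable section

namespace FA.IsogenyNF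

open FA.Mazur.Wp FA.CyclicLattice

variable (L : PeriodPair)

/-- `w` has order exactly `M` modulo `L`. -/
def OrderMod (w : ℂ) (M : ℕ) : Prop := ∀ k : ℤ, (k : ℂ) * w ∈ L.lattice ↔ (M : ℤ) ∣ k

/-- `L' = L + ℤ w`. -/
def IsSum (w : ℂ) (L' : PeriodPair) : Prop :=
  ∀ x : ℂ, x ∈ L'.lattice ↔ ∃ k : ℤ, x - (k : ℂ) * w ∈ L.lattice

variable {L} {w : ℂ} {M : ℕ} {L' : PeriodPair}

theorem IsSum.le (h : IsSum L w L') {x : ℂ} (hx : x ∈ L.lattice) : x ∈ L'.lattice :=
  (h x).2 ⟨0, by simpa using hx⟩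

theorem IsSum.self_mem (h : IsSum L w L') : w ∈ L'.lattice :=
  (h w).2 ⟨1, by simp⟩

/-- The coordinates of `M w`. -/
theorem exists_coords (hord : OrderMod L w M) (hM : 0 < M) :
    ∃ a b : ℤ, (M : ℂ) * w = a * L.ω₁ + b * L.ω₂ ∧ Nat.gcd (Int.gcd a b) M = 1 := by
  obtain ⟨a, b, hab⟩ := PeriodPair.mem_lattice.1
    ((hord M).2 dvd_rfl : ((M : ℤ) : ℂ) * w ∈ L.lattice)
  rw [Int.cast_natCast] at hab
  refine ⟨a, b, hab.symm, ?_⟩
  set d := Nat.gcd (Int.gcd a b) M with hd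
  obtain ⟨m, hm⟩ : d ∣ M := Nat.gcd_dvd_right _ _
  have hg : (d : ℤ) ∣ (Int.gcd a b : ℤ) := Int.natCast_dvd_natCast.2 (Nat.gcd_dvd_left _ _)
  obtain ⟨a', ha⟩ := hg.trans (Int.gcd_dvd_left a b)
  obtain ⟨b', hb⟩ := hg.trans (Int.gcd_dvd_right a b)
  have hd0 : (d : ℂ) ≠ 0 := by
    norm_cast
    rintro h
    rw [h, zero_mul] at hm
    omega
  have hmem : ((m : ℤ) : ℂ) * w ∈ L.lattice := by
    refine PeriodPair.mem_lattice.2 ⟨a', b', mul_left_cancel₀ hd0 ?_⟩
    rw [hm] at hab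
    rw [ha, hb] at hab
    push_cast at hab ⊢
    linear_combination hab
  have hdm : M ∣ m := Int.natCast_dvd_natCast.1 ((hord m).1 hmem)
  rw [hm] at hdm
  rcases Nat.eq_zero_or_pos m with h | h
  · rw [h, mul_zero] at hm; omega
  · exact Nat.dvd_one.1 ((Nat.mul_dvd_mul_iff_right h).1 (by simpa using hdm))

/-- **`L + ℤ w` is a lattice with `L` of cyclic index `M`.** -/
theorem exists_sum (hord : OrderMod L w M) (hM : 0 < M) :
    ∃ L', IsSum L w L' ∧ CyclicSub M L L' := by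
  have : NeZero M := ⟨hM.ne'⟩
  obtain ⟨a, b₀, hab, hg⟩ := exists_coords hord hM
  obtain ⟨b, hb, hbd⟩ : ∃ b : ℤ, b ≠ 0 ∧ (M : ℤ) ∣ b₀ - b := by
    by_cases h : b₀ = 0
    · exact ⟨M, by simpa using hM.ne', by simp [h]⟩
    · exact ⟨b₀, h, by simp⟩
  have hgb : Nat.gcd (Int.gcd a b) M = 1 := by
    refine Nat.dvd_one.1 (hg ▸ Nat.dvd_gcd (Int.natCast_dvd_natCast.1 (Int.dvd_coe_gcd
      ((Int.natCast_dvd_natCast.2 (Nat.gcd_dvd_left _ _)).trans (Int.gcd_dvd_left a b)) ?_))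
      (Nat.gcd_dvd_right _ _))
    have h1 : (Nat.gcd (Int.gcd a b) M : ℤ) ∣ b₀ - b :=
      (Int.natCast_dvd_natCast.2 (Nat.gcd_dvd_right _ _)).trans hbd
    have h2 : (Nat.gcd (Int.gcd a b) M : ℤ) ∣ b :=
      (Int.natCast_dvd_natCast.2 (Nat.gcd_dvd_left _ _)).trans (Int.gcd_dvd_right a b)
    exact (dvd_sub_left h2).1 h1
  obtain ⟨a', hcop, ha'⟩ := FA.Dim.exists_coprime_lift (d := b.natAbs) (M := M)
    (Int.natAbs_ne_zero.mpr hb) (a : ZMod M) (by
      rw [map_intCast, ZMod.coe_int_isUnit_iff_isCoprime, Int.isCoprime_iff_gcd_eq_one]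
      rw [Int.gcd_def, Int.natAbs_natCast, Nat.gcd_right_comm]
      simpa [Int.gcd_def, Nat.gcd_comm, Nat.gcd_left_comm, Nat.gcd_assoc] using hgb)
  obtain ⟨x, y, hxy⟩ : IsCoprime a' b := by
    rw [Int.isCoprime_iff_gcd_eq_one] at hcop ⊢
    simpa [Int.gcd, Int.natAbs_abs] using hcop
  obtain ⟨t, ht⟩ : (M : ℤ) ∣ a' - a := (ZMod.intCast_eq_intCast_iff_dvd_sub _ _ _).1 ha'.symm
  obtain ⟨s, hs⟩ := hbd
  have hM0 : (M : ℂ) ≠ 0 := by exact_mod_cast hM.ne'
  set u : ℂ := (a' : ℂ) * L.ω₁ + b * L.ω₂ with hu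
  set v : ℂ := (-y : ℂ) * L.ω₁ + x * L.ω₂ with hv
  have hxy' : (x : ℂ) * a' + y * b = 1 := by exact_mod_cast hxy
  have ht' : (a' : ℂ) - a = M * t := by exact_mod_cast ht
  have hs' : (b₀ : ℂ) - b = M * s := by exact_mod_cast hs
  have h1 : L.ω₁ = x * u - b * v := by rw [hu, hv]; linear_combination -L.ω₁ * hxy'
  have h2 : L.ω₂ = y * u + a' * v := by rw [hu, hv]; linear_combination -L.ω₂ * hxy'
  have huw : u / M - w ∈ L.lattice := by
    refine PeriodPair.mem_lattice.2 ⟨t, -s, mul_left_cancel₀ hM0 ?_⟩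
    rw [mul_sub, mul_div_cancel₀ _ hM0, hab, hu]
    push_cast
    linear_combination -L.ω₁ * ht' + L.ω₂ * hs'
  have hind : LinearIndependent ℝ ![u / M, v] := by
    rw [LinearIndependent.pair_iff]
    intro p q hpq
    simp only [Complex.real_smul] at hpq
    have := LinearIndependent.pair_iff.mp L.indep ((p / M) * a' - q * y) ((p / M) * b + q * x) (by
      simp only [Complex.real_smul]
      push_cast
      rw [hu, hv] at hpq
      linear_combination hpq)
    have hM' : (M : ℝ) ≠ 0 := by exact_mod_cast hM.ne'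
    have hxyR : (x : ℝ) * a' + y * b = 1 := by exact_mod_cast hxy
    have e1 : p / M = 0 := by linear_combination (x : ℝ) * this.1 + y * this.2 - p / M * hxyR
    have e2 : q = 0 := by linear_combination -(b : ℝ) * this.1 + a' * this.2 - q * hxyR
    exact ⟨by rcases div_eq_zero_iff.1 e1 with h | h
              · exact h
              · exact absurd h hM', e2⟩
  let L' : PeriodPair := ⟨u / M, v, hind⟩
  have hLv : v ∈ L.lattice := PeriodPair.mem_lattice.2 ⟨-y, x, by rw [hv]; push_cast; ring⟩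
  have hmem : IsSum L w L' := fun z => by
    refine ⟨fun hz => ?_, fun ⟨k, hk⟩ => ?_⟩
    · obtain ⟨m, n, rfl⟩ := PeriodPair.mem_lattice.1 hz
      refine ⟨m, ?_⟩
      show (m : ℂ) * (u / M) + n * v - m * w ∈ L.lattice
      rw [show (m : ℂ) * (u / M) + n * v - m * w = m • (u / M - w) + n • v by
        simp only [zsmul_eq_mul]; ring]
      exact add_mem (zsmul_mem huw m) (zsmul_mem hLv n)
    · have hle : ∀ l ∈ L.lattice, l ∈ L'.lattice := fun l hl => by
        obtain ⟨m, n, rfl⟩ := PeriodPair.mem_lattice.1 hl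
        refine PeriodPair.mem_lattice.2 ⟨(m * x + n * y) * M, n * a' - m * b, ?_⟩
        show ((((m * x + n * y) * M : ℤ)) : ℂ) * (u / M) + ((n * a' - m * b : ℤ) : ℂ) * v = _
        rw [h1, h2]
        push_cast
        field_simp
        ring
      have hwL : w ∈ L'.lattice := by
        rw [show w = u / M - (u / M - w) by ring]
        exact sub_mem L'.ω₁_mem_lattice (hle _ huw)
      rw [show z = (z - k * w) + k • w by simp]
      exact add_mem (hle _ hk) (zsmul_mem hwL k)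
  let f : L'.lattice →+ ZMod M :=
    { toFun := fun z => ((L'.latticeEquivProd z).1 : ZMod M)
      map_zero' := by simp
      map_add' := fun z z' => by simp }
  refine ⟨L', hmem, 1, one_ne_zero, f, fun c => ?_, fun z => ?_⟩
  · obtain ⟨m, rfl⟩ := ZMod.intCast_surjective c
    exact ⟨L'.latticeEquivProd.symm (m, 0), by simp [f]⟩
  · simp only [one_mul, Set.image_id']
    have key : ∀ z : L'.lattice, (z : ℂ) ∈ L.lattice ↔ f z = 0 := fun z => by
      obtain ⟨⟨m, n⟩, rfl⟩ := L'.latticeEquivProd.symm.surjective z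
      rw [show f _ = (m : ZMod M) by simp [f], ZMod.intCast_zmod_eq_zero_iff_dvd, ← hord,
        PeriodPair.latticeEquiv_symm_apply]
      show (m : ℂ) * (u / M) + n * v ∈ L.lattice ↔ _
      rw [show (m : ℂ) * (u / M) + n * v = m * w + (m • (u / M - w) + n • v) by
        simp only [zsmul_eq_mul]; ring]
      exact L.lattice.add_mem_iff_left (add_mem (zsmul_mem huw m) (zsmul_mem hLv n))
    exact ⟨fun hz => ⟨hmem.le hz, (key ⟨z, hmem.le hz⟩).1 hz⟩, fun ⟨hz, h0⟩ => (key ⟨z, hz⟩).2 h0⟩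

/-- **The abscissa of the quotient** is a sum over translates. -/
theorem wp_sum (hord : OrderMod L w M) (hM : 0 < M) (h : IsSum L w L') (z : ℂ) :
    L'.weierstrassP z = ∑ i ∈ Finset.range M,
      (L.weierstrassP (z - (i : ℂ) * w) - L.weierstrassP ((i : ℂ) * w)) := by
  let F : Fin M × L.lattice → L'.lattice := fun p =>
    ⟨(p.1 : ℕ) * w + p.2, add_mem (by
      simpa using zsmul_mem h.self_mem ((p.1 : ℕ) : ℤ)) (h.le p.2.2)⟩
  have hF : Function.Bijective F := by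
    constructor
    · rintro ⟨i, l⟩ ⟨j, l'⟩ e
      have e' := congrArg (fun x : L'.lattice => (x : ℂ)) e
      simp only [F] at e'
      have hd : (M : ℤ) ∣ (i : ℕ) - (j : ℕ) := (hord _).1 (by
        rw [show (((i : ℕ) - (j : ℕ) : ℤ) : ℂ) * w = (l' : ℂ) - l by
          push_cast; linear_combination e']
        exact sub_mem l'.2 l.2)
      have hij : i = j := by
        apply Fin.ext
        obtain ⟨c, hc⟩ := hd
        have := i.isLt; have := j.isLt
        rcases lt_trichotomy c 0 with h' | h' | h'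
        · nlinarith
        · subst h'; omega
        · nlinarith
      subst hij
      exact Prod.ext rfl (Subtype.ext (add_left_cancel e'))
    · rintro ⟨x, hx⟩
      obtain ⟨k, hk⟩ := (h x).1 hx
      have hM' : (M : ℤ) ≠ 0 := by exact_mod_cast hM.ne'
      refine ⟨(⟨(k % M).toNat, by have := Int.emod_lt_of_pos k (by omega : (0 : ℤ) < M); omega⟩,
        ⟨x - ((k % M).toNat : ℕ) * w, ?_⟩), Subtype.ext (add_sub_cancel _ _)⟩
      have hk' : ((k % M).toNat : ℤ) = k - M * (k / M) := by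
        rw [Int.toNat_of_nonneg (Int.emod_nonneg k hM'), Int.emod_def]
      rw [← Int.cast_natCast (R := ℂ) (k % M).toNat, hk']
      rw [show x - ((k - M * (k / M) : ℤ) : ℂ) * w = (x - k * w) + ((M * (k / M) : ℤ) : ℂ) * w by
        push_cast; ring]
      exact add_mem hk ((hord _).2 (dvd_mul_right _ _))
  refine ((L'.hasSum_weierstrassP z).unique ?_)
  rw [← (Equiv.ofBijective F hF).hasSum_iff]
  have hfib : ∀ i : Fin M, HasSum (fun l : L.lattice =>
      1 / (z - ((i : ℕ) * w + (l : ℂ))) ^ 2 - 1 / ((i : ℕ) * w + (l : ℂ)) ^ 2)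
      (L.weierstrassP (z - (i : ℕ) * w) - L.weierstrassP ((i : ℕ) * w)) := fun i => by
    have e := (L.hasSum_weierstrassP (z - (i : ℕ) * w)).sub
      (L.hasSum_weierstrassP (-((i : ℕ) * w)))
    rw [L.weierstrassP_neg] at e
    convert! e using 2 with l
    ring
  rw [← Fin.sum_univ_eq_sum_range (fun i : ℕ =>
    L.weierstrassP (z - (i : ℂ) * w) - L.weierstrassP ((i : ℂ) * w))]
  have hsum := ((Equiv.ofBijective F hF).summable_iff.2 (L'.hasSum_weierstrassP z).summable)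
  have := hsum.hasSum.prod_fiberwise fun i => hfib i
  rw [(hasSum_fintype _).unique this]
  exact hsum.hasSum

/-- At a half period the cubic vanishes. -/
theorem root_of_half {z : ℂ} (hz : z ∉ L.lattice) (h2 : 2 * z ∈ L.lattice) :
    4 * L.weierstrassP z ^ 3 - L.g₂ * L.weierstrassP z - L.g₃ = 0 ∧
      L.derivWeierstrassP z = 0 := by
  have h := L.derivWeierstrassP_add_coe (-z) ⟨2 * z, h2⟩
  rw [show -z + 2 * z = z by ring, L.derivWeierstrassP_neg] at h
  have h0 : L.derivWeierstrassP z = 0 := by linear_combination h / 2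
  refine ⟨?_, h0⟩
  have := L.derivWeierstrassP_sq z hz
  rw [h0] at this
  linear_combination -this

/-- Half periods with the same abscissa are congruent. -/
theorem sub_mem_of_half {z z' : ℂ} (hz : z ∉ L.lattice) (hz' : z' ∉ L.lattice)
    (h2 : 2 * z ∈ L.lattice) (h2' : 2 * z' ∈ L.lattice)
    (he : L.weierstrassP z = L.weierstrassP z') : z - z' ∈ L.lattice := by
  rw [← unif_eq_unif_iff, unif_of_notMem L hz, unif_of_notMem L hz']
  simp only [he, (root_of_half hz h2).2, (root_of_half hz' h2').2]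

/-- The invariant in terms of the Legendre parameter. -/
theorem jInv_legendre {e : Fin 3 → ℂ} (he : Function.Injective e)
    (hr : ∀ i, 4 * e i ^ 3 - L.g₂ * e i - L.g₃ = 0) :
    jInv L * (((e 2 - e 0) / (e 1 - e 0)) ^ 2 * ((e 2 - e 0) / (e 1 - e 0) - 1) ^ 2) =
      256 * (((e 2 - e 0) / (e 1 - e 0)) ^ 2 - (e 2 - e 0) / (e 1 - e 0) + 1) ^ 3 := by
  have d01 : e 1 - e 0 ≠ 0 := sub_ne_zero.2 (he.ne (by decide))
  have d02 : e 2 - e 0 ≠ 0 := sub_ne_zero.2 (he.ne (by decide))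
  have d12 : e 2 - e 1 ≠ 0 := sub_ne_zero.2 (he.ne (by decide))
  have s1 : L.g₂ = 4 * (e 1 ^ 2 + e 1 * e 0 + e 0 ^ 2) :=
    mul_left_cancel₀ d01 (by linear_combination hr 0 - hr 1)
  have s2 : L.g₂ = 4 * (e 2 ^ 2 + e 2 * e 0 + e 0 ^ 2) :=
    mul_left_cancel₀ d02 (by linear_combination hr 0 - hr 2)
  have hsum : e 2 = -e 0 - e 1 := by
    have : (e 2 - e 1) * (e 0 + e 1 + e 2) = 0 := by linear_combination (s1 - s2) / 4
    linear_combination (mul_eq_zero.1 this).resolve_left d12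
  have h3 : L.g₃ = 4 * e 0 * e 1 * e 2 := by
    linear_combination -(hr 0) - e 0 * s1 - 4 * e 0 * e 1 * hsum
  have hΔ := FA.Summary.lattice_discriminant_ne_zero L
  rw [jInv]
  field_simp
  rw [s1, h3, hsum]
  ring

/-- No multiplier outside `ℤ`. -/
def NoCM (L : PeriodPair) : Prop :=
  ∀ ω : ℂ, (∀ l ∈ L.lattice, ω * l ∈ L.lattice) → ∃ m : ℤ, ω = m

/-- A cyclic extension contains no `L / q`, `q > 1`. -/
theorem eq_one_of_div_mem (hord : OrderMod L w M) (hM : 0 < M) (h : IsSum L w L') {q : ℕ}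
    (hq : 0 < q) (hdiv : ∀ l ∈ L.lattice, l / (q : ℂ) ∈ L'.lattice) : q = 1 := by
  obtain ⟨k₁, hk₁⟩ := (h _).1 (hdiv _ L.ω₁_mem_lattice)
  obtain ⟨k₂, hk₂⟩ := (h _).1 (hdiv _ L.ω₂_mem_lattice)
  have hq0 : (q : ℂ) ≠ 0 := by exact_mod_cast hq.ne'
  have hdvd : ∀ {k : ℤ} {o : ℂ}, o ∈ L.lattice → o / (q : ℂ) - k * w ∈ L.lattice →
      (M : ℤ) ∣ q * k := fun {k o} ho hk => (hord _).1 (by
    rw [show (((q : ℤ) * k : ℤ) : ℂ) * w = o - q • (o / (q : ℂ) - k * w) by
      rw [nsmul_eq_mul, mul_sub, mul_div_cancel₀ _ hq0]; push_cast; ring]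
    exact sub_mem ho (nsmul_mem hk q))
  have d1 := hdvd L.ω₁_mem_lattice hk₁
  have d2 := hdvd L.ω₂_mem_lattice hk₂
  set g := Int.gcd (q : ℤ) M with hg
  obtain ⟨q', hq'⟩ : (g : ℤ) ∣ q := Int.gcd_dvd_left _ _
  obtain ⟨m, hm⟩ : (g : ℤ) ∣ M := Int.gcd_dvd_right _ _
  have hg0 : (g : ℤ) ≠ 0 := fun h0 => by rw [h0, zero_mul] at hm; omega
  have hcop : IsCoprime m q' := by
    obtain ⟨x, y, hxy⟩ : ∃ x y : ℤ, (g : ℤ) = q * x + M * y := ⟨_, _, Int.gcd_eq_gcd_ab _ _⟩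
    rw [hq', hm] at hxy
    exact ⟨y, x, mul_left_cancel₀ hg0 (by linear_combination -hxy)⟩
  have hm' : ∀ {k : ℤ}, (M : ℤ) ∣ q * k → m ∣ k := fun {k} hk => by
    rw [hm, hq', mul_assoc] at hk
    exact hcop.dvd_of_dvd_mul_left (Int.dvd_of_mul_dvd_mul_left hg0 hk)
  obtain ⟨t₁, rfl⟩ := hm' d1
  obtain ⟨t₂, rfl⟩ := hm' d2
  have hmem : ((((t₂ : ℚ) / q : ℚ)) : ℂ) * L.ω₁ + (((-(t₁ : ℚ) / q : ℚ)) : ℂ) * L.ω₂
      ∈ L.lattice := by
    rw [show ((((t₂ : ℚ) / q : ℚ)) : ℂ) * L.ω₁ + (((-(t₁ : ℚ) / q : ℚ)) : ℂ) * L.ω₂ =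
      t₂ • (L.ω₁ / (q : ℂ) - ((m * t₁ : ℤ) : ℂ) * w) -
        t₁ • (L.ω₂ / (q : ℂ) - ((m * t₂ : ℤ) : ℂ) * w) by
      simp only [zsmul_eq_mul]; push_cast; ring]
    exact sub_mem (zsmul_mem hk₁ t₂) (zsmul_mem hk₂ t₁)
  obtain ⟨-, e1⟩ := PeriodPair.mul_ω₁_add_mul_ω₂_mem_lattice.1 hmem
  have hqt : (q : ℤ) ∣ t₁ := by
    have := (Rat.den_div_intCast_eq_one_iff (-t₁) q (by exact_mod_cast hq.ne')).1
      (by push_cast; exact e1)
    exact (dvd_neg).1 this
  have hw : ((m * t₁ : ℤ) : ℂ) * w ∈ L.lattice := (hord _).2 (by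
    obtain ⟨c, rfl⟩ := hqt
    rw [hm, hq']
    exact ⟨q' * c, by ring⟩)
  have := add_mem hk₁ hw
  rw [sub_add_cancel, show L.ω₁ / (q : ℂ) = ((((1 : ℚ) / q : ℚ)) : ℂ) * L.ω₁ +
    (((0 : ℚ)) : ℂ) * L.ω₂ by push_cast; ring, PeriodPair.mul_ω₁_add_mul_ω₂_mem_lattice] at this
  have := (Rat.den_div_intCast_eq_one_iff 1 q (by exact_mod_cast hq.ne')).1
    (by push_cast; exact this.1)
  exact_mod_cast Nat.dvd_one.1 (Int.natCast_dvd_natCast.1 (by simpa using this))

/-- **Without complex multiplication the invariant determines the extension.** -/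
theorem lattice_eq_of_jInv_eq (hcm : NoCM L) {w' : ℂ} {N : ℕ} {L'' : PeriodPair}
    (hord : OrderMod L w M) (hM : 0 < M) (h : IsSum L w L')
    (hord' : OrderMod L w' N) (hN : 0 < N) (h' : IsSum L w' L'')
    (hj : jInv L' = jInv L'') : L'.lattice = L''.lattice := by
  obtain ⟨c, hc, hcL⟩ := (FA.Homothety.homothetic_iff_j L' L'').2 (by
    rw [FA.Homothety.j_latCurve, FA.Homothety.j_latCurve]; exact hj)
  have hcL' : ∀ x, x ∈ L'.lattice → c * x ∈ L''.lattice := fun x hx => by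
    rw [← SetLike.mem_coe, hcL]; exact ⟨x, hx, rfl⟩
  have hN' : ∀ x ∈ L''.lattice, (N : ℂ) * x ∈ L.lattice := fun x hx => by
    obtain ⟨k, hk⟩ := (h' x).1 hx
    rw [show (N : ℂ) * x = N • (x - k * w') + ((N * k : ℤ) : ℂ) * w' by
      rw [nsmul_eq_mul]; push_cast; ring]
    exact add_mem (nsmul_mem hk N) ((hord' _).2 (dvd_mul_right _ _))
  obtain ⟨p, hp⟩ := hcm ((N : ℂ) * c) fun l hl => by
    rw [mul_assoc]; exact hN' _ (hcL' _ (h.le hl))
  have hN0 : (N : ℂ) ≠ 0 := by exact_mod_cast hN.ne'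
  obtain ⟨r, hr⟩ : ∃ r : ℚ, c = r :=
    ⟨(p : ℚ) / N, by push_cast; rw [← hp]; field_simp⟩
  have hr0 : r ≠ 0 := fun h0 => hc (by rw [hr, h0, Rat.cast_zero])
  have key : ∀ {s : ℚ} {v : ℂ} {R : ℕ} {P : PeriodPair}, OrderMod L v R → 0 < R → IsSum L v P →
      (∀ l ∈ L.lattice, (s : ℂ) * l ∈ P.lattice) → s.den = 1 := by
    intro s v R P ho hR hP hs
    refine eq_one_of_div_mem ho hR hP s.pos fun l hl => ?_
    obtain ⟨a, b, hab⟩ : IsCoprime s.num (s.den : ℤ) := by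
      rw [Int.isCoprime_iff_gcd_eq_one]
      simpa [Int.gcd_def] using s.reduced
    have hab' : (a : ℂ) * s.num + b * s.den = 1 := by exact_mod_cast hab
    have hd : (s.den : ℂ) ≠ 0 := by exact_mod_cast s.den_pos.ne'
    rw [show l / (s.den : ℂ) = a • ((s : ℂ) * l) + b • l by
      rw [Rat.cast_def, zsmul_eq_mul, zsmul_eq_mul]
      field_simp
      linear_combination -l * hab']
    exact add_mem (zsmul_mem (hs l hl) a) (zsmul_mem (hP.le hl) b)
  have hd1 : r.den = 1 := key hord' hN h' fun l hl => hr ▸ hcL' l (h.le hl)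
  have hd2 : r⁻¹.den = 1 := key hord hM h fun l hl => by
    have hl' := h'.le hl
    rw [← SetLike.mem_coe, hcL] at hl'
    obtain ⟨x, hx, rfl⟩ := hl'
    rw [Rat.cast_inv, ← hr]
    simpa [hc] using hx
  have hnum : r.num.natAbs = 1 := by
    rw [Rat.den_inv_of_ne_zero hr0] at hd2
    exact hd2
  have hc1 : c = 1 ∨ c = -1 := by
    rw [hr, Rat.cast_def, hd1]
    rcases Int.natAbs_eq r.num with e | e <;> rw [e, hnum] <;> simp
  refine SetLike.coe_injective ?_
  rw [hcL]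
  rcases hc1 with rfl | rfl
  · simp
  · ext x
    refine ⟨fun hx => ⟨-x, neg_mem hx, by ring⟩, ?_⟩
    rintro ⟨y, hy, rfl⟩
    simpa using neg_mem hy

end FA.IsogenyNF

end
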