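import Fermat.Agent.IsogenyNF.Invariant
import Fermat.Agent.IsogenyNF.QuotientTransfer
import Fermat.Agent.IsogenyNF.CMStable

/-!
# Roots of modular polynomials in a number field

A root of `Φ_N(j, X)` is the invariant of the quotient by a cyclic group of order `N`. Without
complex multiplication the invariant determines the group, so a root in the ground field gives a
stable group and `N` is bounded. With complex multiplication there are infinitely many roots over
a finite extension.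
-/

set_option autoImplicit false
set_option linter.unusedSectionVars false

noncomputable section

namespace FA.IsogenyNF

open WeierstrassCurve FA.Mazur.Wp FA.CyclicLattice Polynomial
open scoped WeierstrassCurve.Affine

universe u v

/-- The classical modular polynomial of level `N`. -/
def modPhi (N : ℕ) [NeZero N] : ℤ[X][X] :=
  letI := Fintype.ofFinite (FA.Dim.Cos N)
  FA.ModPoly.phi N

/-- `z` is the value of `j` at a root of an integral quadratic. -/
def IsSingularModulus (z : ℂ) : Prop :=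
  ∃ (τ : UpperHalfPlane) (a b c : ℤ), a ≠ 0 ∧ (a : ℂ) * (τ : ℂ) ^ 2 + b * τ + c = 0 ∧
    FA.ModField.jfun τ = z

/-- Singular moduli are algebraic integers. -/
theorem IsSingularModulus.isIntegral {z : ℂ} (h : IsSingularModulus z) : IsIntegral ℤ z := by
  obtain ⟨τ, a, b, c, ha, hroot, rfl⟩ := h
  exact isIntegral_jfun_of_root ha hroot

section CM

variable {K : Type u} [Field K] (E : WeierstrassCurve K) [E.IsElliptic]

/-- **Complex multiplication is a singular invariant.** -/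
theorem hasCM_iff_isSingularModulus (ψ : K →+* ℂ) : HasCM E ψ ↔ IsSingularModulus (ψ E.j) := by
  refine ⟨fun h => ?_, fun ⟨σ, a, b, c, ha, hroot, hσ⟩ => ?_⟩
  · obtain ⟨τ, A, B, C, hA, hroot, e⟩ := exists_quadratic_point E h
    exact ⟨τ, A, B, C, hA.ne', hroot, e⟩
  obtain ⟨L, h2, h3⟩ := exists_lattice E ψ
  obtain ⟨τ, t, ht, hlat⟩ := FA.JInj.exists_latPair L
  have hj : FA.ModField.jfun τ = ψ E.j := by
    rw [← FA.CyclicLattice.jInv_eq (hc := ht) hlat, jInv, h2, h3, WeierstrassCurve.j,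
      Units.val_inv_eq_inv_val, WeierstrassCurve.coe_Δ', map_mul, map_inv₀, map_pow]
    have hd : (ψ E.c₄ / 12) ^ 3 - 27 * (ψ E.c₆ / 216) ^ 2 = ψ E.Δ := by
      have h := congrArg ψ E.c_relation
      simp only [map_mul, map_sub, map_pow, map_ofNat] at h
      linear_combination -(1 / 1728 : ℂ) * h
    rw [hd]
    ring
  obtain ⟨γ, hγ⟩ := (FA.JInj.jfun_eq_iff σ τ).mp (hσ.trans hj.symm)
  obtain ⟨hst, -⟩ := FA.Singular.stable_of_form (t := (a, b, c))
    (show FA.Singular.IsRoot (a, b, c) σ by simpa [FA.Singular.IsRoot] using hroot)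
  refine ⟨L, h2, h3, (a : ℂ) * σ, fun m hm => ?_, (FA.Singular.stable_congr hlat _).mpr
    ((FA.Singular.stable_scale _ ht _).mpr (hγ ▸ (FA.Singular.stable_smul σ γ _).mpr hst))⟩
  have := congrArg Complex.im hm
  simp [ha, σ.im_pos.ne'] at this

end CM

/-- Every complex number is the invariant of a lattice. -/
theorem exists_jInv (z : ℂ) : ∃ L : PeriodPair, jInv L = z := by
  obtain ⟨τ, hτ⟩ := FA.ModField.exists_jfun_eq z
  refine ⟨latPair τ, ?_⟩
  rw [← hτ, jInv, ← FA.Singular.jfun_eq_invariant]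

variable {K : Type u} [Field K] [NumberField K] {Kb : Type v} [Field Kb] [DecidableEq Kb]
  [Algebra K Kb] [CharZero Kb] [IsAlgClosed Kb] [Algebra.IsAlgebraic K Kb]
  {W : WeierstrassCurve K} [W.IsElliptic] {φ : Kb →+* ℂ} {L : PeriodPair}
  {hL : (W.baseChange Kb).map φ = latCurve L}

theorem eval_modPhi {N : ℕ} [NeZero N] {F : Type*} [Field F] (f : F →+* ℂ) {j x : F}
    (h : (modPhi N).eval₂ (aeval (R := ℤ) j).toRingHom x = 0) :
    (modPhi N).eval₂ (aeval (R := ℤ) (f j)).toRingHom (f x) = 0 := by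
  rw [← map_zero f, ← h, hom_eval₂]
  congr 1
  refine Polynomial.ringHom_ext (fun n => by simp) ?_
  simp

/-- A root of `Φ_N(j, X)` comes from a cyclic group of order `N`. -/
theorem exists_point_of_root {N : ℕ} [NeZero N] (hN : 1 < N) {x : ℂ}
    (h : (modPhi N).eval₂ (aeval (R := ℤ) (jInv L)).toRingHom x = 0) :
    ∃ g : (W.toAffine⁄Kb).Point, addOrderOf g = N ∧
      ∃ L' : PeriodPair, IsQuot W φ hL g L' ∧ jInv L' = x := by
  let _ := Fintype.ofFinite (FA.Dim.Cos N)
  obtain ⟨L₁, rfl⟩ := exists_jInv x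
  obtain ⟨c, hc, f, hf, hker⟩ := cyclicSub_symm N hN ((cyclicSub_iff N L₁ L).2 h)
  obtain ⟨⟨w₁, hw₁⟩, hf1⟩ := hf 1
  have hker' : ∀ z : ℂ, z ∈ L.lattice ↔ ∃ hz : c * z ∈ L₁.lattice, f ⟨c * z, hz⟩ = 0 := fun z => by
    rw [← hker]
    exact ⟨fun hz => ⟨z, hz, rfl⟩, fun ⟨y, hy, e⟩ => mul_left_cancel₀ hc e ▸ hy⟩
  have hmul : ∀ k : ℤ, ∀ hz : (k : ℂ) * w₁ ∈ L₁.lattice, f ⟨_, hz⟩ = (k : ZMod N) := fun k hz => by
    rw [show (⟨_, hz⟩ : L₁.lattice) = k • ⟨w₁, hw₁⟩ from Subtype.ext (by simp [zsmul_eq_mul]),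
      map_zsmul, hf1, zsmul_one]
  set w := w₁ / c
  have hord : OrderMod L w N := fun k => by
    have e : c * ((k : ℂ) * w) = (k : ℂ) * w₁ := by simp only [w]; field_simp
    have hm : (k : ℂ) * w₁ ∈ L₁.lattice := by simpa using zsmul_mem hw₁ k
    rw [hker', ← ZMod.intCast_zmod_eq_zero_iff_dvd, ← hmul k hm]
    simp only [e]
    exact ⟨fun ⟨_, h0⟩ => h0, fun h0 => ⟨hm, h0⟩⟩
  let L' := FA.JInj.scalePair L₁ c⁻¹ (inv_ne_zero hc)
  have hmem : ∀ z, z ∈ L'.lattice ↔ c * z ∈ L₁.lattice := fun z => by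
    rw [FA.JInj.mem_scalePair]
    exact ⟨fun ⟨y, hy, e⟩ => by rw [← e, mul_inv_cancel_left₀ hc]; exact hy,
      fun h => ⟨_, h, inv_mul_cancel_left₀ hc z⟩⟩
  have hsum : IsSum L w L' := fun z => by
    rw [hmem]
    constructor
    · intro hz
      obtain ⟨k, hk⟩ := ZMod.intCast_surjective (f ⟨_, hz⟩)
      refine ⟨k, (hker' _).2 ?_⟩
      have hm : (k : ℂ) * w₁ ∈ L₁.lattice := by simpa using zsmul_mem hw₁ k
      have e : c * (z - (k : ℂ) * w) = c * z - (k : ℂ) * w₁ := by simp only [w]; field_simp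
      simp only [e]
      refine ⟨sub_mem hz hm, ?_⟩
      rw [show (⟨_, sub_mem hz hm⟩ : L₁.lattice) = ⟨_, hz⟩ - ⟨_, hm⟩ from rfl, map_sub, hmul k hm,
        hk, sub_self]
    · rintro ⟨k, hk⟩
      obtain ⟨hz, -⟩ := (hker' _).1 hk
      have hm : (k : ℂ) * w₁ ∈ L₁.lattice := by simpa using zsmul_mem hw₁ k
      have := add_mem hz hm
      rwa [show c * (z - (k : ℂ) * w) + (k : ℂ) * w₁ = c * z by simp only [w]; field_simp; ring]
        at this
  obtain ⟨g, hg, -⟩ := exists_of_nsmul_eq_zero (hL := hL) (NeZero.ne N) (Q := unif L w) (by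
    rw [← natCast_zsmul, ← unif_int_mul, unif_of_mem L ((hord _).2 dvd_rfl)])
  have hgN : addOrderOf g = N := by
    have h1 := orderMod hg.symm
    exact Nat.dvd_antisymm (Int.natCast_dvd_natCast.1 ((h1 N).1 ((hord N).2 dvd_rfl)))
      (Int.natCast_dvd_natCast.1 ((hord _).1 ((h1 (addOrderOf g)).2 dvd_rfl)))
  refine ⟨g, hgN, L', (isQuot_iff hg.symm).2 hsum, ?_⟩
  have := (FA.Homothety.homothetic_iff_j L₁ L').1
    ((FA.Homothety.homothetic_iff_scale L₁ L').2 ⟨_, inv_ne_zero hc, rfl⟩)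
  rw [FA.Homothety.j_latCurve, FA.Homothety.j_latCurve] at this
  exact this.symm

/-- A group whose quotient has rational invariant is stable. -/
theorem stable_of_rational (hcm : NoCM L) {g : (W.toAffine⁄Kb).Point} (hg : 0 < addOrderOf g)
    {L' : PeriodPair} (h : IsQuot W φ hL g L') {x : K} (hx : jInv L' = φ (algebraMap K Kb x)) :
    Stable g := by
  obtain ⟨y, hy, hσy⟩ := exists_invariant (hL := hL) hg
  have hyx : y = algebraMap K Kb x := φ.injective ((hy L' h).symm.trans hx)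
  intro σ
  have hg' : 0 < addOrderOf (σ • g) := addOrderOf_smul σ g ▸ hg
  obtain ⟨L'', h'', -⟩ := exists_isQuot (hL := hL) hg'
  obtain ⟨w, hw⟩ := exists_preimage (hL := hL) g
  obtain ⟨w', hw'⟩ := exists_preimage (hL := hL) (σ • g)
  have e := lattice_eq_of_jInv_eq hcm (orderMod hw) hg ((isQuot_iff hw).1 h) (orderMod hw') hg'
    ((isQuot_iff hw').1 h'') (by rw [hσy σ L'' h'', hyx, σ.commutes, hx])
  have hm : w' ∈ L'.lattice := e ▸ ((isQuot_iff hw').1 h'').self_mem
  rw [h, hw'] at hm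
  exact (AddSubgroup.mem_map_iff_mem (FA.Frob.mapHom_injective φ hL)).1 hm

/-- **Finitely many levels with a root**, without complex multiplication. -/
theorem finite_levels (hL : (W.baseChange Kb).map φ = latCurve L) (hcm : NoCM L) :
    {N : ℕ | ∃ (_ : NeZero N) (x : K),
      (modPhi N).eval₂ (aeval (R := ℤ) W.j).toRingHom x = 0}.Finite := by
  refine (((finite_stable hL hcm).image addOrderOf).insert 1).subset ?_
  rintro N ⟨hN, x, hx⟩
  rcases eq_or_ne N 1 with rfl | h1
  · exact Set.mem_insert _ _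
  have hN1 : 1 < N := by have := NeZero.ne N; omega
  have hx' := eval_modPhi (φ.comp (algebraMap K Kb)) hx
  rw [show (φ.comp (algebraMap K Kb)) W.j = jInv L from (jInv_eq hL).symm] at hx'
  obtain ⟨g, hg, L', h, hj⟩ := exists_point_of_root (hL := hL) hN1 hx'
  have hg0 : 0 < addOrderOf g := by omega
  exact Set.mem_insert_of_mem _ ⟨g, ⟨hg0, stable_of_rational hcm hg0 h hj⟩, hg⟩

/-- **Infinitely many levels with a root** over a finite extension, with complex multiplication. -/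
theorem exists_infinite_levels (hL : (W.baseChange Kb).map φ = latCurve L) (hcm : ¬ NoCM L) :
    ∃ F : IntermediateField K Kb, FiniteDimensional K F ∧
      {N : ℕ | ∃ (_ : NeZero N) (x : F), (modPhi N).eval₂
        (aeval (R := ℤ) (algebraMap K F W.j)).toRingHom x = 0}.Infinite := by
  have := isGalois_closure (K := K) (Kb := Kb)
  obtain ⟨F, ⟨hF, -⟩, hinf⟩ := exists_infinite_prime_stable hL hcm
  refine ⟨F, hF, hinf.mono ?_⟩
  rintro p ⟨hp, g, hg, hst⟩
  have hp' : NeZero p := ⟨hp.ne_zero⟩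
  have hg0 : 0 < addOrderOf g := hg.symm ▸ hp.pos
  obtain ⟨L', h, hc⟩ := exists_isQuot (hL := hL) hg0
  obtain ⟨y, hy, hσy⟩ := exists_invariant (hL := hL) hg0
  have hyF : y ∈ F := mem_of_fixed fun σ hσ => by
    have hz : AddSubgroup.zmultiples (σ • g) = AddSubgroup.zmultiples g := by
      refine le_antisymm (AddSubgroup.zmultiples_le.2 (hst σ hσ)) (AddSubgroup.zmultiples_le.2 ?_)
      obtain ⟨m, hm⟩ := AddSubgroup.mem_zmultiples_iff.1 (hst σ⁻¹ (inv_mem hσ))
      exact AddSubgroup.mem_zmultiples_iff.2 ⟨m, by rw [← smul_zsmul', hm, smul_inv_smul]⟩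
    have h' : IsQuot W φ hL (σ • g) L' := fun z => by rw [hz]; exact h z
    exact φ.injective ((hσy σ L' h').symm.trans (hy L' h))
  refine ⟨hp', ⟨y, hyF⟩, (φ.comp F.val.toRingHom).injective ?_⟩
  let _ := Fintype.ofFinite (FA.Dim.Cos p)
  rw [hg] at hc
  have he := (cyclicSub_iff p _ _).1 (cyclicSub_symm p hp.one_lt hc)
  rw [hy L' h, jInv_eq hL] at he
  rw [map_zero, hom_eval₂, ← he]
  congr 1
  refine Polynomial.ringHom_ext (fun n => by simp) ?_
  simp

end FA.IsogenyNF

end
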