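import Fermat.Agent.Period.AutC

/-!
# Finite orbits over an algebraically closed field
-/

set_option autoImplicit false

noncomputable section

namespace FA.IsogenyNF

/-- A number with finitely many conjugates over an algebraically closed field lies in it. -/
theorem mem_range_of_finite_conjugates {F : Type*} [Field F] [IsAlgClosed F] (j : F →+* ℂ) {z : ℂ}
    {S : Set ℂ} (hS : S.Finite)
    (h : ∀ σ : ℂ ≃+* ℂ, (∀ x, σ (j x) = j x) → σ z ∈ S) : ∃ x, j x = z := by
  let _ : Algebra F ℂ := j.toAlgebra
  by_cases hz : IsIntegral F z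
  · exact minpoly.mem_range_of_degree_eq_one F z
      (IsAlgClosed.degree_eq_one_of_irreducible F (minpoly.irreducible hz))
  exfalso
  have hs : AlgebraicIndepOn F id ({z} : Set ℂ) := by
    have : Unique ({z} : Set ℂ) := Set.uniqueSingleton z
    refine algebraicIndependent_unique_type_iff.mpr ?_
    rw [show (default : ({z} : Set ℂ)) = ⟨z, rfl⟩ from Subsingleton.elim _ _]
    exact fun halg => hz halg.isIntegral
  obtain ⟨t, hzt, ht⟩ := exists_isTranscendenceBasis_superset hs
  obtain ⟨σ, hσ⟩ := FA.Period.exists_ringEquiv_extending _ ht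
    (FA.Period.shiftVars t F).toRingEquiv
  have hfix : ∀ x, σ (j x) = j x := fun x => by
    simpa [FA.Period.shiftVars, RingHom.algebraMap_toAlgebra] using hσ (MvPolynomial.C x)
  have h1 : σ z = z + 1 := by
    simpa [FA.Period.shiftVars] using hσ (MvPolynomial.X ⟨z, hzt rfl⟩)
  have hk : ∀ k : ℕ, ∃ τ : ℂ ≃+* ℂ, (∀ x, τ (j x) = j x) ∧ τ z = z + k := fun k => by
    induction k with
    | zero => exact ⟨RingEquiv.refl ℂ, by simp, by simp⟩
    | succ k ih =>
      obtain ⟨τ, hτ, hτz⟩ := ih
      exact ⟨τ.trans σ, fun x => by rw [RingEquiv.trans_apply, hτ, hfix], by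
        rw [RingEquiv.trans_apply, hτz, map_add, h1, map_natCast]; push_cast; ring⟩
  refine Set.infinite_of_injective_forall_mem (f := fun k : ℕ => z + k) (fun a b e => by
    simpa using e) (fun k => ?_) hS
  obtain ⟨τ, hτ, hτz⟩ := hk k
  exact hτz ▸ h τ hτ

end FA.IsogenyNF

end
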