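import Fermat.Agent.IsogenyNF.Lattice
import Fermat.Agent.ClassNumberOne.Multiply
import Fermat.Agent.Frob.MapHom
import Fermat.Agent.EC.TorsionCard
import Fermat.Prelude.Def_FLTPrelim_GaloisRep
import Mathlib.FieldTheory.Galois.Infinite

/-!
# The Legendre parameter of a quotient by a rational cyclic group

For a cyclic group of points of `W` stable under Galois, the half periods of the quotient lattice
have abscissae in the field of the coordinates of the `2`-torsion, after dividing the group by two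
if its order is even. So the Legendre parameter of that quotient lies in this field.
-/

set_option autoImplicit false
set_option linter.unusedSectionVars false

noncomputable section

namespace FA.IsogenyNF

open WeierstrassCurve FA.Mazur.Wp FA.CyclicLattice
open FA.ClassNumberOne (xP yP xP_unif)
open scoped WeierstrassCurve.Affine

universe u v

variable {K : Type u} [Field K] [CharZero K] {Kb : Type v} [Field Kb] [DecidableEq Kb]
  [Algebra K Kb] (W : WeierstrassCurve K) (φ : Kb →+* ℂ) {L : PeriodPair}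
  (hL : (W.baseChange Kb).map φ = latCurve L)

/-- The points over `Kb`, seen on `ℂ/L`. -/
abbrev toC : (W.toAffine⁄Kb).Point →+ (latCurve L).toAffine.Point :=
  FA.Frob.mapHom φ hL

/-- `L'` is the lattice over the group generated by `g`. -/
def IsQuot (g : (W.toAffine⁄Kb).Point) (L' : PeriodPair) : Prop :=
  ∀ x : ℂ, x ∈ L'.lattice ↔ unif L x ∈ (AddSubgroup.zmultiples g).map (toC W φ hL)

variable {W φ hL}

theorem xP_toC (P : (W.toAffine⁄Kb).Point) : xP (toC W φ hL P) = φ (xP P) := by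
  rcases P with _ | ⟨x, y, h⟩
  · exact (map_zero φ).symm
  · rfl

theorem unif_int_mul (k : ℤ) (z : ℂ) : unif L ((k : ℂ) * z) = k • unif L z := by
  rw [← unifHom_apply, ← unifHom_apply, ← map_zsmul, zsmul_eq_mul]

theorem exists_preimage (P : (W.toAffine⁄Kb).Point) : ∃ z, unif L z = toC W φ hL P :=
  FA.ClassNumberOne.unif_surjective L _

theorem isQuot_iff {g : (W.toAffine⁄Kb).Point} {w : ℂ} (hw : unif L w = toC W φ hL g)
    {L' : PeriodPair} : IsQuot W φ hL g L' ↔ IsSum L w L' := by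
  refine forall_congr' fun x => iff_congr Iff.rfl ?_
  rw [AddMonoidHom.map_zmultiples, AddSubgroup.mem_zmultiples_iff]
  refine exists_congr fun k => ?_
  rw [← hw, ← unif_eq_unif_iff, unif_int_mul, eq_comm]

theorem orderMod {g : (W.toAffine⁄Kb).Point} {w : ℂ} (hw : unif L w = toC W φ hL g) :
    OrderMod L w (addOrderOf g) := fun k => by
  rw [← unif_eq_zero_iff, unif_int_mul, hw, ← map_zsmul,
    map_eq_zero_iff _ (FA.Frob.mapHom_injective φ hL), addOrderOf_dvd_iff_zsmul_eq_zero]

theorem exists_isQuot {g : (W.toAffine⁄Kb).Point} (hg : 0 < addOrderOf g) :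
    ∃ L', IsQuot W φ hL g L' ∧ CyclicSub (addOrderOf g) L L' := by
  obtain ⟨w, hw⟩ := exists_preimage (hL := hL) g
  obtain ⟨L', h, hc⟩ := exists_sum (orderMod hw) hg
  exact ⟨L', (isQuot_iff hw).2 h, hc⟩

/-- The abscissa on the quotient. -/
def eX (g P : (W.toAffine⁄Kb).Point) : Kb :=
  ∑ i ∈ Finset.range (addOrderOf g), (xP (P - i • g) - xP (i • g))

theorem map_eX {g P : (W.toAffine⁄Kb).Point} (hg : 0 < addOrderOf g) {L' : PeriodPair}
    (h : IsQuot W φ hL g L') {z : ℂ} (hz : unif L z = toC W φ hL P) :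
    φ (eX g P) = L'.weierstrassP z := by
  obtain ⟨w, hw⟩ := exists_preimage (hL := hL) g
  rw [wp_sum (orderMod hw) hg ((isQuot_iff hw).1 h), eX, map_sum]
  refine Finset.sum_congr rfl fun i _ => ?_
  have hi : unif L ((i : ℂ) * w) = toC W φ hL (i • g) := by
    rw [map_nsmul, ← hw, ← unifHom_apply, ← unifHom_apply, ← map_nsmul, nsmul_eq_mul]
  rw [map_sub, ← xP_toC (hL := hL), ← xP_toC (hL := hL), map_sub, ← hi, ← hz, ← unifHom_apply,
    ← unifHom_apply, ← map_sub, unifHom_apply, unifHom_apply, xP_unif, xP_unif]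

section Galois

variable (σ : Kb ≃ₐ[K] Kb)

theorem xP_smul (P : (W.toAffine⁄Kb).Point) : xP (σ • P) = σ (xP P) := by
  rcases P with _ | ⟨x, y, h⟩
  · exact (map_zero σ).symm
  · rfl

theorem addOrderOf_smul (g : (W.toAffine⁄Kb).Point) : addOrderOf (σ • g) = addOrderOf g :=
  addOrderOf_injective (DistribSMul.toAddMonoidHom _ σ) (MulAction.injective σ) g

theorem smul_nsmul' (n : ℕ) (P : (W.toAffine⁄Kb).Point) : σ • (n • P) = n • σ • P :=
  (DistribSMul.toAddMonoidHom _ σ).map_nsmul n P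

theorem smul_zsmul' (n : ℤ) (P : (W.toAffine⁄Kb).Point) : σ • (n • P) = n • σ • P :=
  (DistribSMul.toAddMonoidHom _ σ).map_zsmul n P

theorem smul_eX (g P : (W.toAffine⁄Kb).Point) : σ (eX g P) = eX (σ • g) (σ • P) := by
  rw [eX, eX, map_sum, addOrderOf_smul]
  refine Finset.sum_congr rfl fun i _ => ?_
  rw [map_sub, ← xP_smul, ← xP_smul, smul_sub, smul_nsmul']

end Galois

/-- The group generated by `g` is stable under Galois. -/
def Stable (g : (W.toAffine⁄Kb).Point) : Prop :=
  ∀ σ : Kb ≃ₐ[K] Kb, σ • g ∈ AddSubgroup.zmultiples g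

theorem Stable.zmultiples_smul {g : (W.toAffine⁄Kb).Point} (h : Stable g) (σ : Kb ≃ₐ[K] Kb) :
    AddSubgroup.zmultiples (σ • g) = AddSubgroup.zmultiples g := by
  refine le_antisymm (AddSubgroup.zmultiples_le.2 (h σ)) (AddSubgroup.zmultiples_le.2 ?_)
  obtain ⟨m, hm⟩ := AddSubgroup.mem_zmultiples_iff.1 (h σ⁻¹)
  exact AddSubgroup.mem_zmultiples_iff.2 ⟨m, by rw [← smul_zsmul', hm, smul_inv_smul]⟩

theorem Stable.nsmul {g : (W.toAffine⁄Kb).Point} (h : Stable g) (n : ℕ) : Stable (n • g) := by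
  intro σ
  obtain ⟨m, hm⟩ := AddSubgroup.mem_zmultiples_iff.1 (h σ)
  exact AddSubgroup.mem_zmultiples_iff.2 ⟨m, by rw [smul_nsmul', ← hm, smul_comm]⟩

/-- The abscissa on the quotient only depends on the class of the point. -/
theorem smul_eX_eq (hL : (W.baseChange Kb).map φ = latCurve L) {g P : (W.toAffine⁄Kb).Point}
    (hg : 0 < addOrderOf g) (hst : Stable g) (σ : Kb ≃ₐ[K] Kb)
    (hP : σ • P - P ∈ AddSubgroup.zmultiples g) : σ (eX g P) = eX g P := by
  obtain ⟨L', h, -⟩ := exists_isQuot (hL := hL) hg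
  obtain ⟨z, hz⟩ := exists_preimage (hL := hL) P
  obtain ⟨z', hz'⟩ := exists_preimage (hL := hL) (σ • P)
  have h' : IsQuot W φ hL (σ • g) L' := fun x => by rw [hst.zmultiples_smul]; exact h x
  have hmem : z' - z ∈ L'.lattice := by
    rw [h, ← unifHom_apply, map_sub, unifHom_apply, unifHom_apply, hz, hz', ← map_sub]
    exact AddSubgroup.mem_map_of_mem _ hP
  apply φ.injective
  rw [smul_eX, map_eX (addOrderOf_smul σ g ▸ hg) h' hz', map_eX hg h hz]
  simpa using (wp_sub_coe L' (z := z) hmem).1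

theorem mem_of_fixed [IsGalois K Kb] {F : IntermediateField K Kb} {x : Kb}
    (h : ∀ σ ∈ F.fixingSubgroup, σ x = x) : x ∈ F := by
  rw [← InfiniteGalois.fixedField_fixingSubgroup F]
  exact fun σ => h _ σ.2

/-- Three classes of points of order two modulo the group, fixed over `F`. -/
def HasHalves (F : IntermediateField K Kb) (g : (W.toAffine⁄Kb).Point) : Prop :=
  ∃ P : Fin 3 → (W.toAffine⁄Kb).Point,
    (∀ i, P i ∉ AddSubgroup.zmultiples g ∧ (2 : ℕ) • P i ∈ AddSubgroup.zmultiples g) ∧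
    (∀ i j, i ≠ j → P i - P j ∉ AddSubgroup.zmultiples g) ∧
    ∀ i, ∀ σ ∈ F.fixingSubgroup, σ • P i - P i ∈ AddSubgroup.zmultiples g

/-- **The Legendre parameter of the quotient lies in `F`.** -/
theorem exists_lambda [IsGalois K Kb] {F : IntermediateField K Kb}
    {g : (W.toAffine⁄Kb).Point} (hg : 0 < addOrderOf g) (hst : Stable g) (hh : HasHalves F g)
    {L' : PeriodPair} (h : IsQuot W φ hL g L') :
    ∃ l : F, φ (l : Kb) ≠ 0 ∧ φ (l : Kb) ≠ 1 ∧
      jInv L' * (φ (l : Kb) ^ 2 * (φ (l : Kb) - 1) ^ 2) =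
        256 * (φ (l : Kb) ^ 2 - φ (l : Kb) + 1) ^ 3 := by
  obtain ⟨P, hP, hdis, hfix⟩ := hh
  choose z hz using fun i => exists_preimage (hL := hL) (P i)
  have hnot : ∀ {x : ℂ} {Q : (W.toAffine⁄Kb).Point}, unif L x = toC W φ hL Q →
      (x ∈ L'.lattice ↔ Q ∈ AddSubgroup.zmultiples g) := fun {x Q} hx => by
    rw [h x, hx]
    exact AddSubgroup.mem_map_iff_mem (FA.Frob.mapHom_injective φ hL)
  have h1 : ∀ i, z i ∉ L'.lattice ∧ 2 * z i ∈ L'.lattice := fun i =>
    ⟨fun hm => (hP i).1 ((hnot (hz i)).1 hm), (hnot (Q := (2 : ℕ) • P i) (by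
      rw [map_nsmul, ← hz i, ← unifHom_apply, ← unifHom_apply, ← map_nsmul, nsmul_eq_mul,
        Nat.cast_ofNat])).2 (hP i).2⟩
  have heF : ∀ i, eX g (P i) ∈ F := fun i =>
    mem_of_fixed fun σ hσ => smul_eX_eq hL hg hst σ (hfix i σ hσ)
  let e : Fin 3 → ℂ := fun i => L'.weierstrassP (z i)
  have he : Function.Injective e := fun i j hij => by
    by_contra hne
    refine hdis i j hne ((hnot (x := z i - z j) ?_).1
      (sub_mem_of_half (h1 i).1 (h1 j).1 (h1 i).2 (h1 j).2 hij))
    rw [map_sub, ← hz i, ← hz j, ← unifHom_apply, ← unifHom_apply, ← unifHom_apply, map_sub]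
  have hj := jInv_legendre (L := L') he fun i => (root_of_half (h1 i).1 (h1 i).2).1
  have hl : φ (((⟨_, heF 2⟩ - ⟨_, heF 0⟩) / (⟨_, heF 1⟩ - ⟨_, heF 0⟩) : F) : Kb) =
      (e 2 - e 0) / (e 1 - e 0) := by
    simp only [map_div₀, map_sub, e, IntermediateField.coe_div, AddSubgroupClass.coe_sub,
      map_eX hg h (hz _)]
  have d02 : e 2 - e 0 ≠ 0 := sub_ne_zero.2 (he.ne (by decide))
  have d01 : e 1 - e 0 ≠ 0 := sub_ne_zero.2 (he.ne (by decide))
  refine ⟨_, ?_, ?_, by rw [hl]; exact hj⟩
  · rw [hl]; exact div_ne_zero d02 d01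
  · rw [hl, Ne, div_eq_one_iff_eq d01]
    exact fun e' => he.ne (by decide : (2 : Fin 3) ≠ 1) (sub_left_inj.1 e')

variable (W Kb) in
/-- The coordinates of the points killed by two. -/
def twoField : IntermediateField K Kb :=
  IntermediateField.adjoin K
    (xP '' {P : (W.toAffine⁄Kb).Point | (2 : ℕ) • P = 0} ∪
      yP '' {P : (W.toAffine⁄Kb).Point | (2 : ℕ) • P = 0})

theorem smul_two {σ : Kb ≃ₐ[K] Kb} (hσ : σ ∈ (twoField Kb W).fixingSubgroup)
    {P : (W.toAffine⁄Kb).Point} (hP : (2 : ℕ) • P = 0) : σ • P = P := by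
  rcases P with _ | ⟨x, y, h⟩
  · exact smul_zero σ
  · have hx : x ∈ twoField Kb W :=
      IntermediateField.subset_adjoin K _ (Or.inl ⟨_, hP, rfl⟩)
    have hy : y ∈ twoField Kb W :=
      IntermediateField.subset_adjoin K _ (Or.inr ⟨_, hP, rfl⟩)
    rw [IntermediateField.mem_fixingSubgroup_iff] at hσ
    simp only [Affine.Point.algEquiv_smul_def, Affine.Point.map_some, Affine.Point.some.injEq]
    exact ⟨hσ x hx, hσ y hy⟩

variable [CharZero Kb] [IsAlgClosed Kb] [W.IsElliptic]

theorem natCard_two : Nat.card {P : (W.toAffine⁄Kb).Point // (2 : ℕ) • P = 0} = 4 :=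
  FA.EC.natCard_nsmul_eq_zero (W.map (algebraMap K Kb)) (n := 2) (by norm_num)

theorem finite_nsmul_eq_zero {n : ℕ} (hn : n ≠ 0) :
    {P : (W.toAffine⁄Kb).Point | n • P = 0}.Finite := by
  have h := FA.EC.natCard_nsmul_eq_zero (W.map (algebraMap K Kb)) (n := n) (Nat.cast_ne_zero.2 hn)
  have hf : Finite {P : (W.map (algebraMap K Kb)).toAffine.Point // n • P = 0} :=
    Nat.finite_of_card_ne_zero (by rw [h]; exact pow_ne_zero 2 hn)
  exact Set.finite_coe_iff.1 hf

theorem finiteDimensional_twoField [Algebra.IsIntegral K Kb] :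
    FiniteDimensional K (twoField Kb W) := by
  have hf := finite_nsmul_eq_zero (W := W) (Kb := Kb) (n := 2) (by norm_num)
  have : Finite ↑(xP '' {P : (W.toAffine⁄Kb).Point | (2 : ℕ) • P = 0} ∪
      yP '' {P : (W.toAffine⁄Kb).Point | (2 : ℕ) • P = 0}) :=
    ((hf.image _).union (hf.image _)).to_subtype
  exact IntermediateField.finiteDimensional_adjoin fun x _ => Algebra.IsIntegral.isIntegral x

/-- A stable group, or its subgroup of index two, has three classes of halves over the field of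
the `2`-torsion. -/
theorem exists_halves {g : (W.toAffine⁄Kb).Point} (hg : 0 < addOrderOf g) (hst : Stable g) :
    ∃ g', (g' = g ∨ g' = (2 : ℕ) • g ∧ g ∉ AddSubgroup.zmultiples g') ∧ Stable g' ∧
      0 < addOrderOf g' ∧ HasHalves (twoField Kb W) g' := by
  classical
  set T : Finset (W.toAffine⁄Kb).Point :=
    (finite_nsmul_eq_zero (W := W) (Kb := Kb) (n := 2) two_ne_zero).toFinset with hTdef
  have hT : T.card = 4 := by
    rw [hTdef, ← Set.ncard_eq_toFinset_card _ _, ← Nat.card_coe_set_eq]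
    exact natCard_two
  have hmemT : ∀ {P}, P ∈ T → (2 : ℕ) • P = 0 := fun {P} hP => by simpa [T] using hP
  rcases Nat.even_or_odd' (addOrderOf g) with ⟨m, hm | hm⟩
  · -- even order
    have hm0 : 0 < m := by omega
    set g' := (2 : ℕ) • g with hg'
    have hone : g ∉ AddSubgroup.zmultiples g' := fun hmem => by
      obtain ⟨k, hk⟩ := AddSubgroup.mem_zmultiples_iff.1 hmem
      have h0 : (2 * k - 1) • g = 0 := by
        rw [sub_smul, one_smul, mul_comm, mul_smul, ← Nat.cast_ofNat, natCast_zsmul, ← hg', hk,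
          sub_self]
      rw [← addOrderOf_dvd_iff_zsmul_eq_zero, hm] at h0
      have := (dvd_mul_right (2 : ℤ) m).trans (by exact_mod_cast h0)
      omega
    have hsub : AddSubgroup.zmultiples g' ≤ AddSubgroup.zmultiples g :=
      AddSubgroup.zmultiples_le.2 (nsmul_mem (AddSubgroup.mem_zmultiples g) 2)
    obtain ⟨Q, hQ, hQg⟩ : ∃ Q, (2 : ℕ) • Q = 0 ∧ Q ∉ AddSubgroup.zmultiples g := by
      by_contra hne
      push Not at hne
      have : T ⊆ {0, m • g} := fun Q hQ => by
        obtain ⟨k, rfl⟩ := AddSubgroup.mem_zmultiples_iff.1 (hne Q (hmemT hQ))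
        have h0 := hmemT hQ
        rw [← natCast_zsmul, smul_smul, ← addOrderOf_dvd_iff_zsmul_eq_zero, hm] at h0
        push_cast at h0
        obtain ⟨c, rfl⟩ := Int.dvd_of_mul_dvd_mul_left (by norm_num) h0
        have h2m : (2 * m : ℤ) • g = 0 :=
          addOrderOf_dvd_iff_zsmul_eq_zero.1 (by rw [hm]; push_cast; rfl)
        rcases Int.even_or_odd' c with ⟨d, rfl | rfl⟩
        · rw [show (m : ℤ) * (2 * d) = d * (2 * m) by ring, mul_smul, h2m, smul_zero]
          simp
        · rw [show (m : ℤ) * (2 * d + 1) = d * (2 * m) + m by ring, add_smul, mul_smul, h2m,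
            smul_zero, zero_add, natCast_zsmul]
          simp
      have := (Finset.card_le_card this).trans Finset.card_le_two
      omega
    have hQ' : Q ∉ AddSubgroup.zmultiples g' := fun h => hQg (hsub h)
    have hgg : ∀ σ : Kb ≃ₐ[K] Kb, σ • g - g ∈ AddSubgroup.zmultiples g' := fun σ => by
      obtain ⟨k, hk⟩ := AddSubgroup.mem_zmultiples_iff.1 (hst σ)
      rcases Int.even_or_odd' k with ⟨d, rfl | rfl⟩
      · exfalso
        have h2m : (2 * m : ℤ) • g = 0 :=
          addOrderOf_dvd_iff_zsmul_eq_zero.1 (by rw [hm]; push_cast; rfl)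
        have : σ • (m • g) = 0 := by
          rw [smul_nsmul', ← hk, ← natCast_zsmul, smul_smul,
            show (m : ℤ) * (2 * d) = d * (2 * m) by ring, mul_smul, h2m, smul_zero]
        rw [smul_eq_zero_iff_eq, ← addOrderOf_dvd_iff_nsmul_eq_zero, hm] at this
        have := Nat.le_of_dvd hm0 this
        omega
      · refine AddSubgroup.mem_zmultiples_iff.2 ⟨d, ?_⟩
        rw [← hk, hg', ← natCast_zsmul, smul_smul, add_smul, one_smul, add_sub_cancel_right,
          mul_comm]
        norm_num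
    refine ⟨g', Or.inr ⟨rfl, hone⟩, hst.nsmul 2, ?_, ![g, Q, g + Q], ?_, ?_, ?_⟩
    · exact addOrderOf_pos_iff.2 ((addOrderOf_pos_iff.1 hg).of_mem_zmultiples
        (nsmul_mem (AddSubgroup.mem_zmultiples g) 2))
    · intro i
      fin_cases i
      · exact ⟨hone, AddSubgroup.mem_zmultiples g'⟩
      · exact ⟨hQ', by simp [hQ, zero_mem]⟩
      · refine ⟨fun h => hQg ?_, by simp [hQ, hg', AddSubgroup.mem_zmultiples]⟩
        have := sub_mem (hsub h) (AddSubgroup.mem_zmultiples g)
        simpa using this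
    · have e1 : g - Q ∉ AddSubgroup.zmultiples g' := fun h => hQg (by
        have := sub_mem (AddSubgroup.mem_zmultiples g) (hsub h)
        simpa using this)
      have key : ∀ {a b : (W.toAffine⁄Kb).Point}, a - b ∉ AddSubgroup.zmultiples g' →
          b - a ∉ AddSubgroup.zmultiples g' := fun {a b} h h' => h (by simpa using neg_mem h')
      intro i j hij
      fin_cases i <;> fin_cases j <;> first | exact absurd rfl hij | skip
      · exact e1
      · exact key (by simpa using hQ')
      · exact key e1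
      · exact key (by simpa using hone)
      · simpa using hQ'
      · simpa using hone
    · intro i σ hσ
      fin_cases i
      · exact hgg σ
      · simp [smul_two hσ hQ, zero_mem]
      · simpa [smul_add, smul_two hσ hQ] using hgg σ
  · -- odd order
    have h0 : ∀ {Q}, (2 : ℕ) • Q = 0 → Q ∈ AddSubgroup.zmultiples g → Q = 0 := fun {Q} h2 hQ => by
      obtain ⟨k, rfl⟩ := AddSubgroup.mem_zmultiples_iff.1 hQ
      rw [← natCast_zsmul, smul_smul, ← addOrderOf_dvd_iff_zsmul_eq_zero, hm] at h2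
      rw [← addOrderOf_dvd_iff_zsmul_eq_zero, hm]
      push_cast at h2 ⊢
      refine IsCoprime.dvd_of_dvd_mul_left ?_ h2
      exact ⟨1, -(m : ℤ), by ring⟩
    have hz : (0 : (W.toAffine⁄Kb).Point) ∈ T := by simp [T]
    obtain ⟨a, b, c, hab, hac, hbc, hset⟩ := Finset.card_eq_three.1
      (show (T.erase 0).card = 3 by rw [Finset.card_erase_of_mem hz, hT])
    have hmem : ∀ i, ![a, b, c] i ≠ 0 ∧ (2 : ℕ) • ![a, b, c] i = 0 := fun i => by
      have : ![a, b, c] i ∈ T.erase 0 := by rw [hset]; fin_cases i <;> simp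
      rw [Finset.mem_erase] at this
      exact ⟨this.1, hmemT this.2⟩
    refine ⟨g, Or.inl rfl, hst, hg, ![a, b, c], fun i => ⟨fun h => (hmem i).1 (h0 (hmem i).2 h),
      by rw [(hmem i).2]; exact zero_mem _⟩, fun i j hij h => ?_, fun i σ hσ => ?_⟩
    · have := h0 (by rw [nsmul_sub, (hmem i).2, (hmem j).2, sub_zero]) h
      rw [sub_eq_zero] at this
      fin_cases i <;> fin_cases j <;> simp_all
    · rw [smul_two hσ (hmem i).2, sub_self]
      exact zero_mem _

end FA.IsogenyNF

end
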