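import Fermat.Agent.IsogenyNF.QuotientHom
import Fermat.Agent.IsogenyNF.Transfer

/-!
# Every finite stable group is cyclic up to multiplication by an integer

A finite stable group contains the kernel of a multiplication with cyclic image. So its quotient is
the quotient by a cyclic group up to a homothety, and is one of finitely many curves when there is
no complex multiplication.
-/

set_option autoImplicit false
set_option linter.unusedSectionVars false

noncomputable section

namespace FA.IsogenyNF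

open WeierstrassCurve FA.Mazur.Wp FA.CyclicLattice Polynomial
open scoped WeierstrassCurve.Affine

universe u v

section Group

variable {A : Type*} [AddCommGroup A]

/-- A finite group whose `p`-torsion has at most `p` elements for every prime is cyclic. -/
theorem isAddCyclic_of_prime [Finite A]
    (h : ∀ p : ℕ, p.Prime → Nat.card (nsmulAddMonoidHom (α := A) p).ker ≤ p) : IsAddCyclic A := by
  classical
  let _ := Fintype.ofFinite A
  have key : ∀ n, 0 < n → Nat.card (nsmulAddMonoidHom (α := A) n).ker ≤ n := by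
    intro n
    induction n using Nat.strongRecOn with
    | ind n ih =>
      intro hn
      rcases eq_or_ne n 1 with rfl | h1
      · have : (nsmulAddMonoidHom (α := A) 1).ker = ⊥ :=
          (AddMonoidHom.ker_eq_bot_iff _).2 fun a b e => by simpa using e
        rw [this, AddSubgroup.card_bot]
      obtain ⟨m, hm⟩ := n.minFac_dvd
      have hp := n.minFac_prime h1
      have hm0 : 0 < m := Nat.pos_of_ne_zero fun e => by simp [e] at hm; omega
      have hmn : m < n := by
        have := hp.one_lt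
        rw [hm]
        exact lt_mul_left hm0 this
      let f : (nsmulAddMonoidHom (α := A) n).ker →+ (nsmulAddMonoidHom (α := A) m).ker :=
        ((nsmulAddMonoidHom (α := A) n.minFac).comp (AddSubgroup.subtype _)).codRestrict _
          fun x => by
            have hx : n • (x : A) = 0 := x.2
            show m • n.minFac • (x : A) = 0
            rwa [smul_smul, mul_comm, ← hm]
      have hker : Nat.card f.ker ≤ n.minFac := by
        refine le_trans (Nat.card_le_card_of_injective (fun x : f.ker =>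
          (⟨((x : (nsmulAddMonoidHom (α := A) n).ker) : A),
            AddMonoidHom.mem_ker.2
              (congrArg Subtype.val (x.2 : f (x : (nsmulAddMonoidHom (α := A) n).ker) = 0) :)⟩ :
              (nsmulAddMonoidHom (α := A) n.minFac).ker)) fun a b e => ?_) (h _ hp)
        exact Subtype.ext (Subtype.ext (congrArg Subtype.val e :))
      calc Nat.card (nsmulAddMonoidHom (α := A) n).ker
          = Nat.card f.range * Nat.card f.ker := by
            rw [AddSubgroup.card_eq_card_quotient_mul_card_addSubgroup f.ker,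
              Nat.card_congr (QuotientAddGroup.quotientKerEquivRange f).toEquiv]
        _ ≤ m * n.minFac := Nat.mul_le_mul
            ((AddSubgroup.card_le_card_addGroup _).trans (ih m hmn hm0)) hker
        _ = n := by rw [mul_comm, ← hm]
  refine isAddCyclic_of_card_nsmul_eq_zero_le fun n hn => ?_
  refine le_trans (le_of_eq ?_) (key n hn)
  rw [Nat.card_eq_fintype_card, ← Fintype.card_subtype]
  exact Fintype.card_congr (Equiv.subtypeEquivRight fun a => Iff.rfl)

end Group

section Integral

/-- A root of a monic equation over `ℤ[j]` is integral if `j` is. -/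
theorem isIntegral_root {Φ : ℤ[X][X]} (hΦ : Φ.Monic) {j x : ℂ} (hj : IsIntegral ℤ j)
    (hx : Φ.eval₂ (aeval (R := ℤ) j).toRingHom x = 0) : IsIntegral ℤ x := by
  let O := integralClosure ℤ ℂ
  have : Algebra.IsIntegral ℤ O := inferInstance
  refine isIntegral_trans (R := ℤ) (A := O) x
    ⟨Φ.map (aeval (R := ℤ) (⟨j, hj⟩ : O)).toRingHom, hΦ.map _, ?_⟩
  rw [eval₂_map, ← hx]
  congr 1
  refine Polynomial.ringHom_ext (fun n => by simp) ?_
  simp

end Integral

variable {K : Type u} [Field K] [NumberField K] {Kb : Type v} [Field Kb] [DecidableEq Kb]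
  [Algebra K Kb] [CharZero Kb] [IsAlgClosed Kb] [Algebra.IsAlgebraic K Kb]
  {W : WeierstrassCurve K} [W.IsElliptic] {φ : Kb →+* ℂ} {L : PeriodPair}
  {hL : (W.baseChange Kb).map φ = latCurve L}

/-- The equations in both directions. -/
theorem exists_equation_symm {g : (W.toAffine⁄Kb).Point} (hg : 0 < addOrderOf g) {L' : PeriodPair}
    (h : IsQuot W φ hL g L') : ∃ Φ : ℤ[X][X], Φ.Monic ∧
      Φ.eval₂ (aeval (R := ℤ) (jInv L')).toRingHom (jInv L) = 0 := by
  have : NeZero (addOrderOf g) := ⟨hg.ne'⟩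
  let _ := Fintype.ofFinite (FA.Dim.Cos (addOrderOf g))
  obtain ⟨L'', h'', hc⟩ := exists_isQuot (hL := hL) hg
  rw [jInv_congr (h.lattice_eq h'')]
  exact ⟨_, FA.ModPoly.phi_monic _, (cyclicSub_iff _ _ _).1 hc⟩

/-- **The cyclic part** of a finite stable group. -/
theorem exists_cyclic_part {G : AddSubgroup (W.toAffine⁄Kb).Point} [Finite G] (hst : StableG G) :
    ∃ (g : (W.toAffine⁄Kb).Point) (m : ℕ), 0 < m ∧ 0 < addOrderOf g ∧ Stable g ∧
      ∀ R : (latCurve L).toAffine.Point, R ∈ G.map (toC W φ hL) ↔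
        m • R ∈ (AddSubgroup.zmultiples g).map (toC W φ hL) := by
  induction hn : Nat.card G using Nat.strongRecOn generalizing G with
  | ind n ih =>
  subst hn
  by_cases hc : IsAddCyclic G
  · obtain ⟨g, hg⟩ := hc.exists_generator
    have hG : AddSubgroup.zmultiples (g : (W.toAffine⁄Kb).Point) = G := by
      refine le_antisymm (AddSubgroup.zmultiples_le.2 g.2) fun x hx => ?_
      obtain ⟨k, hk⟩ := AddSubgroup.mem_zmultiples_iff.1 (hg ⟨x, hx⟩)
      exact AddSubgroup.mem_zmultiples_iff.2 ⟨k, congrArg Subtype.val hk⟩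
    refine ⟨g, 1, one_pos, ?_, fun σ => by rw [hG]; exact hst σ _ g.2, fun R => by
      rw [one_smul, hG]⟩
    exact addOrderOf_pos_iff.2 (G.subtype.isOfFinAddOrder (isOfFinAddOrder_of_finite g))
  · obtain ⟨p, hp, hfull⟩ : ∃ p : ℕ, p.Prime ∧
        ∀ P : (W.toAffine⁄Kb).Point, p • P = 0 → P ∈ G := by
      by_contra hne
      push Not at hne
      refine hc (isAddCyclic_of_prime fun p hp => ?_)
      have hcard : Nat.card (nsmulAddMonoidHom (α := (W.toAffine⁄Kb).Point) p).ker = p ^ 2 :=
        FA.EC.natCard_nsmul_eq_zero (W.map (algebraMap K Kb)) (Nat.cast_ne_zero.2 hp.ne_zero)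
      have : Finite (nsmulAddMonoidHom (α := (W.toAffine⁄Kb).Point) p).ker :=
        Nat.finite_of_card_ne_zero (by rw [hcard]; exact pow_ne_zero 2 hp.ne_zero)
      let f : (nsmulAddMonoidHom (α := G) p).ker →+
          (nsmulAddMonoidHom (α := (W.toAffine⁄Kb).Point) p).ker :=
        (G.subtype.comp (AddSubgroup.subtype _)).codRestrict _ fun x => congrArg Subtype.val x.2
      have hf : Function.Injective f := fun a b e =>
        Subtype.ext (Subtype.ext (congrArg Subtype.val e :))
      have hd := AddSubgroup.card_dvd_of_injective f hf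
      rw [hcard] at hd
      obtain ⟨i, hi, he⟩ := (Nat.dvd_prime_pow hp).1 hd
      rw [he]
      rcases Nat.lt_or_ge i 2 with h2 | h2
      · exact (Nat.pow_le_pow_right hp.pos (by omega : i ≤ 1)).trans (pow_one p).le
      · exfalso
        obtain ⟨P, hP, hPG⟩ := hne p hp
        obtain ⟨x, hx⟩ := (hf.bijective_of_nat_card_le
          (by rw [hcard, he, show i = 2 by omega])).2 ⟨P, hP⟩
        exact hPG (by
          have : ((x : G) : (W.toAffine⁄Kb).Point) = P := congrArg Subtype.val hx
          exact this ▸ (x : G).2)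
    let μ : (W.toAffine⁄Kb).Point →+ (W.toAffine⁄Kb).Point := nsmulAddMonoidHom p
    have hfin : Finite (G.map μ) :=
      ((Set.toFinite (G : Set (W.toAffine⁄Kb).Point)).image μ).to_subtype
    have hlt : Nat.card (G.map μ) < Nat.card G := by
      by_contra hle
      push Not at hle
      have hs : Function.Surjective (fun x : G => (⟨μ x, AddSubgroup.mem_map_of_mem _ x.2⟩ :
          G.map μ)) := by
        rintro ⟨y, hy⟩
        obtain ⟨x, hx, rfl⟩ := AddSubgroup.mem_map.1 hy
        exact ⟨⟨x, hx⟩, rfl⟩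
      have hinj := (hs.bijective_of_nat_card_le hle).1
      have hone : Nat.card {P : (W.toAffine⁄Kb).Point // p • P = 0} = p ^ 2 :=
        FA.EC.natCard_nsmul_eq_zero (W.map (algebraMap K Kb)) (Nat.cast_ne_zero.2 hp.ne_zero)
      have : Subsingleton {P : (W.toAffine⁄Kb).Point // p • P = 0} := ⟨fun a b => Subtype.ext
        (congrArg Subtype.val (@hinj ⟨a, hfull _ a.2⟩ ⟨b, hfull _ b.2⟩
          (Subtype.ext (a.2.trans b.2.symm))) :)⟩
      have h1 := Finite.card_le_one_iff_subsingleton.2 this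
      rw [hone] at h1
      exact absurd h1 (not_le.2 (Nat.one_lt_pow two_ne_zero hp.one_lt))
    have hst' : StableG (G.map μ) := fun σ y hy => by
      obtain ⟨x, hx, rfl⟩ := AddSubgroup.mem_map.1 hy
      exact AddSubgroup.mem_map.2 ⟨σ • x, hst σ x hx, (smul_nsmul' σ p x).symm⟩
    obtain ⟨g, m, hm, hg, hgs, hiff⟩ := ih _ hlt hst' rfl
    refine ⟨g, m * p, mul_pos hm hp.pos, hg, hgs, fun R => ?_⟩
    rw [mul_smul, ← hiff]
    constructor
    · intro hR
      obtain ⟨Q, hQ, rfl⟩ := AddSubgroup.mem_map.1 hR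
      exact AddSubgroup.mem_map.2 ⟨μ Q, AddSubgroup.mem_map_of_mem _ hQ, by simp [μ]⟩
    · intro hR
      obtain ⟨y, hy, e⟩ := AddSubgroup.mem_map.1 hR
      obtain ⟨Q, hQ, rfl⟩ := AddSubgroup.mem_map.1 hy
      obtain ⟨P, hP, hP0⟩ := exists_of_nsmul_eq_zero (hL := hL) hp.ne_zero
        (Q := R - toC W φ hL Q) (by rw [nsmul_sub, ← map_nsmul, ← e]; exact sub_self _)
      refine AddSubgroup.mem_map.2 ⟨P + Q, add_mem (hfull P hP0) hQ, ?_⟩
      rw [map_add, hP, sub_add_cancel]

/-- The lattice of the group is a multiple of that of its cyclic part. -/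
theorem exists_cyclic_lattice {G : AddSubgroup (W.toAffine⁄Kb).Point} [Finite G] (hst : StableG G)
    {L' : PeriodPair} (h : IsQuotG W φ hL G L') :
    ∃ (g : (W.toAffine⁄Kb).Point) (m : ℕ) (hm : (m : ℂ) ≠ 0) (L₁ : PeriodPair),
      0 < addOrderOf g ∧ Stable g ∧ IsQuot W φ hL g L₁ ∧
        L₁.lattice = (FA.JInj.scalePair L' _ hm).lattice ∧ jInv L' = jInv L₁ := by
  obtain ⟨g, m, hm, hg, hgs, hiff⟩ := exists_cyclic_part (hL := hL) hst
  obtain ⟨L₁, h₁, -⟩ := exists_isQuot (hL := hL) hg
  have hm0 : (m : ℂ) ≠ 0 := by exact_mod_cast hm.ne'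
  have he : L₁.lattice = (FA.JInj.scalePair L' _ hm0).lattice := SetLike.ext fun x => by
    rw [FA.JInj.mem_scalePair]
    have key : ∀ z, z ∈ L'.lattice ↔ (m : ℂ) * z ∈ L₁.lattice := fun z => by
      rw [h z, h₁, hiff, ← Int.cast_natCast, unif_int_mul, natCast_zsmul]
    refine ⟨fun hx => ⟨x / m, (key _).2 ?_, mul_div_cancel₀ x hm0⟩, ?_⟩
    · rwa [mul_div_cancel₀ x hm0]
    · rintro ⟨z, hz, rfl⟩
      exact (key z).1 hz
  refine ⟨g, m, hm0, L₁, hg, hgs, h₁, he, ?_⟩
  have := (FA.Homothety.homothetic_iff_j L' L₁).1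
    ((FA.Homothety.homothetic_iff_scale L' L₁).2 ⟨_, hm0, he⟩)
  rwa [FA.Homothety.j_latCurve, FA.Homothety.j_latCurve] at this

variable {G : AddSubgroup (W.toAffine⁄Kb).Point} [Finite G]

theorem isGalois_closure : IsGalois K Kb := by
  have : IsAlgClosure K Kb := ⟨inferInstance, inferInstance⟩
  exact IsAlgClosure.isGalois K Kb

/-- **The quotient curve with its invariant.** -/
theorem exists_quotient (hL : (W.baseChange Kb).map φ = latCurve L) (hst : StableG G) :
    ∃ (W' : WeierstrassCurve K) (_ : W'.IsElliptic),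
      (∃ θ : (W.toAffine⁄Kb).Point →+ (W'.toAffine⁄Kb).Point, Function.Surjective θ ∧
        (∀ σ : Kb ≃ₐ[K] Kb, ∀ P, θ (σ • P) = σ • θ P) ∧ θ.ker = G ∧
        ∀ P, FA.ClassNumberOne.xP (θ P) = quotX G P) ∧
      (∃ g : (W.toAffine⁄Kb).Point, 0 < addOrderOf g ∧ Stable g ∧
        ∃ L₁, IsQuot W φ hL g L₁ ∧ jInv L₁ = φ (algebraMap K Kb W'.j)) ∧
      (IsIntegral ℤ W'.j ↔ IsIntegral ℤ W.j) := by
  have := isGalois_closure (K := K) (Kb := Kb)
  obtain ⟨L', h⟩ := exists_isQuotG (hL := hL) (G := G)
  obtain ⟨W', hW', hL'⟩ := exists_curve h hst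
  obtain ⟨g, m, hm, L₁, hg, hgs, h₁, -, hj⟩ := exists_cyclic_lattice hst h
  refine ⟨W', hW', ⟨quotHom h hL', quotHom_surjective h hL', quotHom_smul h hL' hst, ?_,
    fun P => (coord_quotHom h hL' P).1⟩, ⟨g, hg, hgs, L₁, h₁, by rw [← hj, jInv_eq hL']⟩, ?_⟩
  · ext P
    exact quotHom_eq_zero_iff h hL'
  · have hint : ∀ {V : WeierstrassCurve K} [V.IsElliptic] {M : PeriodPair},
        (V.baseChange Kb).map φ = latCurve M → (IsIntegral ℤ V.j ↔ IsIntegral ℤ (jInv M)) :=
      fun {V} _ {M} hV => by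
        rw [jInv_eq hV]
        exact (isIntegral_algHom_iff (RingHom.toIntAlgHom (φ.comp (algebraMap K Kb)))
          (φ.comp (algebraMap K Kb)).injective).symm
    rw [hint hL', hint hL, hj]
    obtain ⟨Φ, hΦ, e⟩ := exists_equation hg h₁
    obtain ⟨Φ', hΦ', e'⟩ := exists_equation_symm hg h₁
    exact ⟨fun hi => isIntegral_root hΦ' hi e', fun hi => isIntegral_root hΦ hi e⟩

/-- **Without complex multiplication finitely many curves are quotients.** -/
theorem exists_finite_quotients (hL : (W.baseChange Kb).map φ = latCurve L) (hcm : NoCM L) :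
    ∃ F : Set (WeierstrassCurve K), F.Finite ∧
      ∀ G : AddSubgroup (W.toAffine⁄Kb).Point, Finite G → StableG G →
        ∃ W' ∈ F, W'.IsElliptic ∧
          ∃ θ : (W.toAffine⁄Kb).Point →+ (W'.toAffine⁄Kb).Point, Function.Surjective θ ∧
            (∀ σ : Kb ≃ₐ[K] Kb, ∀ P, θ (σ • P) = σ • θ P) ∧ θ.ker = G := by
  have := isGalois_closure (K := K) (Kb := Kb)
  refine ⟨⋃ g ∈ {g : (W.toAffine⁄Kb).Point | 0 < addOrderOf g ∧ Stable g},
    {V | ∃ M, IsQuot W φ hL g M ∧ (V.baseChange Kb).map φ = latCurve M},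
    (finite_stable hL hcm).biUnion fun g _ => Set.Subsingleton.finite ?_, fun G _ hst => ?_⟩
  · rintro V ⟨M, hM, hV⟩ V' ⟨M', hM', hV'⟩
    obtain ⟨e2, e3⟩ := (FA.JInj.lattice_eq_iff _ _).1 (hM.lattice_eq hM')
    have e : latCurve M = latCurve M' := by simp only [latCurve, e2, e3]
    rw [← hV, ← hV'] at e
    exact WeierstrassCurve.map_injective (algebraMap K Kb).injective
      (WeierstrassCurve.map_injective φ.injective e)
  obtain ⟨L', h⟩ := exists_isQuotG (hL := hL) (G := G)
  obtain ⟨W', hW', hL'⟩ := exists_curve h hst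
  obtain ⟨g, m, hm, L₁, hg, hgs, h₁, he, -⟩ := exists_cyclic_lattice hst h
  have hmK : (m : K) ≠ 0 := by
    rw [Nat.cast_ne_zero] at hm ⊢
    exact hm
  let C : VariableChange K := ⟨Units.mk0 (m : K) hmK, 0, 0, 0⟩
  have hV : ((C • W').baseChange Kb).map φ = latCurve L₁ := by
    obtain ⟨e2, e3⟩ := (FA.JInj.lattice_eq_iff _ _).1 he
    rw [WeierstrassCurve.baseChange, ← map_variableChange, ← map_variableChange,
      ← WeierstrassCurve.baseChange, hL']
    rw [FA.JInj.g₂_scalePair] at e2
    rw [FA.JInj.g₃_scalePair] at e3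
    ext <;>
      simp [C, latCurve, e2, e3, VariableChange.map, variableChange_a₁, variableChange_a₂,
        variableChange_a₃, variableChange_a₄, variableChange_a₆, map_natCast] <;> ring
  have hC' : C.map (algebraMap K Kb) • W'.baseChange Kb = (C • W').baseChange Kb := by
    simp only [WeierstrassCurve.baseChange, map_variableChange]
  refine ⟨C • W', Set.mem_biUnion ⟨hg, hgs⟩ ⟨L₁, h₁, hV⟩, inferInstance,
    (FA.Frob.vcEquiv _ hC').symm.toAddMonoidHom.comp (quotHom h hL'),
    (FA.Frob.vcEquiv _ hC').symm.surjective.comp (quotHom_surjective h hL'), fun σ P => ?_, ?_⟩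
  · apply (FA.Frob.vcEquiv _ hC').injective
    rw [vcEquiv_smul hC']
    simp [quotHom_smul h hL' hst]
  · ext P
    simpa using quotHom_eq_zero_iff h hL'

end FA.IsogenyNF

end
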