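import Fermat.Agent.IsogenyNF.QuotientPoints
import Fermat.Agent.IsogenyNF.Orbit

/-!
# The isogeny onto the quotient

The map on points given by the sums over translates is a homomorphism, equivariant for Galois, with
kernel the group; it is surjective on `Kb`-points because preimages have finitely many conjugates.
-/

set_option autoImplicit false
set_option linter.unusedSectionVars false

noncomputable section

namespace FA.IsogenyNF

open WeierstrassCurve FA.Mazur.Wp
open FA.ClassNumberOne (xP yP xP_unif yP_unif)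
open scoped WeierstrassCurve.Affine

universe u v

variable {K : Type u} [Field K] [CharZero K] {Kb : Type v} [Field Kb] [DecidableEq Kb]
  [Algebra K Kb] [CharZero Kb] [IsAlgClosed Kb] {W : WeierstrassCurve K} [W.IsElliptic]
  {φ : Kb →+* ℂ} {L : PeriodPair} {hL : (W.baseChange Kb).map φ = latCurve L}
  {G : AddSubgroup (W.toAffine⁄Kb).Point} [Finite G] {L' : PeriodPair}

/-- The quotient curve. -/
theorem exists_curve [IsGalois K Kb] (h : IsQuotG W φ hL G L') (hst : StableG G) :
    ∃ W' : WeierstrassCurve K, W'.IsElliptic ∧ (W'.baseChange Kb).map φ = latCurve L' := by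
  obtain ⟨a, b, ha, hb⟩ := exists_coeffs h hst
  have hmap : ((⟨0, 0, 0, a, b⟩ : WeierstrassCurve K).baseChange Kb).map φ = latCurve L' := by
    ext <;> simp [WeierstrassCurve.baseChange, latCurve, ha, hb]
  refine ⟨_, ⟨isUnit_iff_ne_zero.2 fun e => (latCurve L').isUnit_Δ.ne_zero ?_⟩, hmap⟩
  rw [← hmap, map_Δ, WeierstrassCurve.baseChange, map_Δ, e, map_zero, map_zero]

variable {W' : WeierstrassCurve K} [W'.IsElliptic]

/-- The image of a point. -/
theorem exists_image (h : IsQuotG W φ hL G L') (hL' : (W'.baseChange Kb).map φ = latCurve L')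
    (P : (W.toAffine⁄Kb).Point) :
    ∃ Q : (W'.toAffine⁄Kb).Point, ∀ z, unif L z = toC W φ hL P →
      toC W' φ hL' Q = unif L' z := by
  obtain ⟨z₀, hz₀⟩ := exists_preimage (hL := hL) P
  have hd : ∀ z, unif L z = toC W φ hL P → unif L' z = unif L' z₀ := fun z hz =>
    (unif_eq_unif_iff L').2 (h.le ((unif_eq_unif_iff L).1 (hz.trans hz₀.symm)))
  by_cases hm : z₀ ∈ L'.lattice
  · exact ⟨0, fun z hz => by rw [map_zero, hd z hz, unif_of_mem L' hm]⟩
  have hns : (latCurve L').toAffine.Nonsingular (φ (quotX G P)) (φ (quotY G P)) := by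
    rw [(map_quot h hz₀).1, (map_quot h hz₀).2]
    exact Affine.equation_iff_nonsingular.1 (equation_latCurve L' hm)
  rw [← hL'] at hns
  refine ⟨.some _ _ (((W'.baseChange Kb).toAffine.map_nonsingular φ.injective _ _).1 hns),
    fun z hz => ?_⟩
  rw [hd z hz, unif_of_notMem L' hm, toC, FA.Frob.mapHom_some]
  simp only [(map_quot h hz₀).1, (map_quot h hz₀).2]

variable (h : IsQuotG W φ hL G L') (hL' : (W'.baseChange Kb).map φ = latCurve L')

/-- The isogeny on points. -/
def quotHom : (W.toAffine⁄Kb).Point →+ (W'.toAffine⁄Kb).Point :=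
  AddMonoidHom.mk' (fun P => (exists_image h hL' P).choose) fun P P' => by
    obtain ⟨z, hz⟩ := exists_preimage (hL := hL) P
    obtain ⟨z', hz'⟩ := exists_preimage (hL := hL) P'
    apply FA.Frob.mapHom_injective φ hL'
    show toC W' φ hL' _ = toC W' φ hL' _
    refine ((exists_image h hL' (P + P')).choose_spec (z + z')
      (by rw [map_add, ← hz, ← hz', unif_add])).trans ?_
    rw [map_add, (exists_image h hL' P).choose_spec z hz,
      (exists_image h hL' P').choose_spec z' hz', unif_add]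

theorem toC_quotHom {P : (W.toAffine⁄Kb).Point} {z : ℂ} (hz : unif L z = toC W φ hL P) :
    toC W' φ hL' (quotHom h hL' P) = unif L' z :=
  (exists_image h hL' P).choose_spec z hz

theorem quotHom_eq_zero_iff {P : (W.toAffine⁄Kb).Point} : quotHom h hL' P = 0 ↔ P ∈ G := by
  obtain ⟨z, hz⟩ := exists_preimage (hL := hL) P
  rw [← map_eq_zero_iff (toC W' φ hL') (FA.Frob.mapHom_injective φ hL'), toC_quotHom h hL' hz,
    unif_eq_zero_iff, h.mem_iff hz]

theorem coord_quotHom (P : (W.toAffine⁄Kb).Point) :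
    xP (quotHom h hL' P) = quotX G P ∧ yP (quotHom h hL' P) = quotY G P := by
  obtain ⟨z, hz⟩ := exists_preimage (hL := hL) P
  constructor <;> apply φ.injective
  · rw [← xP_toC (hL := hL'), toC_quotHom h hL' hz, xP_unif, (map_quot h hz).1]
  · rw [← yP_toC (hL := hL'), toC_quotHom h hL' hz, yP_unif, (map_quot h hz).2]

theorem quotHom_smul (hst : StableG G) (σ : Kb ≃ₐ[K] Kb) (P : (W.toAffine⁄Kb).Point) :
    quotHom h hL' (σ • P) = σ • quotHom h hL' P := by
  by_cases hP : P ∈ G
  · rw [(quotHom_eq_zero_iff h hL').2 hP, (quotHom_eq_zero_iff h hL').2 (hst σ P hP), smul_zero]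
  have hσP : σ • P ∉ G := fun hm => hP (by simpa using hst σ⁻¹ _ hm)
  refine FA.ClassNumberOne.eq_of_coord (fun e => hσP ((quotHom_eq_zero_iff h hL').1 e))
    (fun e => hP ?_) ?_ ?_
  · exact (quotHom_eq_zero_iff h hL').1 ((smul_eq_zero_iff_eq σ).1 e)
  · rw [xP_smul, (coord_quotHom h hL' _).1, (coord_quotHom h hL' _).1, (smul_quot hst σ P).1]
  · rw [yP_smul, (coord_quotHom h hL' _).2, (coord_quotHom h hL' _).2, (smul_quot hst σ P).2]

theorem quotHom_surjective : Function.Surjective (quotHom h hL') := fun Q => by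
  let _ := Fintype.ofFinite G
  obtain ⟨z, hz⟩ : ∃ z, unif L' z = toC W' φ hL' Q := exists_preimage (hL := hL') Q
  suffices ∃ P, unif L z = toC W φ hL P by
    obtain ⟨P, hP⟩ := this
    exact ⟨P, FA.Frob.mapHom_injective φ hL' ((toC_quotHom h hL' hP).trans hz)⟩
  -- the conjugates of the point are among its translates by the group
  have hS : (Set.range fun R : G => unif L z - toC W φ hL R).Finite := Set.finite_range _
  have hconj : ∀ σ : ℂ ≃+* ℂ, (∀ x, σ (φ x) = φ x) →
      ∀ hσ : (latCurve L).map (σ : ℂ →+* ℂ) = latCurve L,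
      FA.Frob.mapHom (σ : ℂ →+* ℂ) hσ (unif L z) ∈
        Set.range fun R : G => unif L z - toC W φ hL R := fun σ hfix hσ => by
    obtain ⟨z₁, hz₁⟩ := FA.ClassNumberOne.unif_surjective L
      (FA.Frob.mapHom (σ : ℂ →+* ℂ) hσ (unif L z))
    have hR : ∀ R : G, unif L z₁ - toC W φ hL R =
        FA.Frob.mapHom (σ : ℂ →+* ℂ) hσ (unif L z - toC W φ hL R) := fun R => by
      rw [map_sub, hz₁]
      congr 1
      rcases (R : (W.toAffine⁄Kb).Point) with _ | ⟨x, y, hxy⟩
      · rfl
      · simp only [toC, FA.Frob.mapHom_some, RingEquiv.coe_toRingHom, hfix]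
    have hcoordx : ∀ R : (latCurve L).toAffine.Point,
        xP (FA.Frob.mapHom (σ : ℂ →+* ℂ) hσ R) = σ (xP R) := fun R => by
      rcases R with _ | ⟨x, y, hxy⟩
      · exact (map_zero σ).symm
      · rfl
    have hcoordy : ∀ R : (latCurve L).toAffine.Point,
        yP (FA.Frob.mapHom (σ : ℂ →+* ℂ) hσ R) = σ (yP R) := fun R => by
      rcases R with _ | ⟨x, y, hxy⟩
      · exact (map_zero σ).symm
      · rfl
    have hx : L'.weierstrassP z₁ = σ (L'.weierstrassP z) := by
      rw [wp_quot h rfl, wp_quot h rfl, map_sum]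
      exact Finset.sum_congr rfl fun R _ => by rw [hR, hcoordx, map_sub, hfix]
    have hy : L'.derivWeierstrassP z₁ / 2 = σ (L'.derivWeierstrassP z / 2) := by
      rw [wq_quot h rfl, wq_quot h rfl, map_sum]
      exact Finset.sum_congr rfl fun R _ => by rw [hR, hcoordy]
    have hQx : σ (L'.weierstrassP z) = L'.weierstrassP z := by
      rw [← xP_unif, hz, xP_toC, hfix]
    have hQy : σ (L'.derivWeierstrassP z / 2) = L'.derivWeierstrassP z / 2 := by
      rw [← yP_unif, hz, yP_toC, hfix]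
    have hmem : ∀ {w : ℂ}, w ∈ L'.lattice ↔ ∃ R : G, unif L w = toC W φ hL R := fun {w} => by
      rw [h w, AddSubgroup.mem_map]
      exact ⟨fun ⟨R, hR, e⟩ => ⟨⟨R, hR⟩, e.symm⟩, fun ⟨R, e⟩ => ⟨R, R.2, e.symm⟩⟩
    have hiff : z₁ ∈ L'.lattice ↔ z ∈ L'.lattice := by
      constructor <;> intro hm <;> obtain ⟨R, hR'⟩ := hmem.1 hm
      · refine hmem.2 ⟨R, sub_eq_zero.1 ?_⟩
        rw [← map_eq_zero_iff _ (FA.Frob.mapHom_injective (σ : ℂ →+* ℂ) hσ), ← hR, hR', sub_self]
      · refine hmem.2 ⟨R, sub_eq_zero.1 ?_⟩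
        rw [hR, hR', sub_self, map_zero]
    have heq : unif L' z₁ = unif L' z := by
      by_cases hm : z ∈ L'.lattice
      · rw [unif_of_mem L' hm, unif_of_mem L' (hiff.2 hm)]
      · rw [unif_of_notMem L' hm, unif_of_notMem L' (fun e => hm (hiff.1 e))]
        simp only [Affine.Point.some.injEq]
        exact ⟨hx.trans hQx, hy.trans hQy⟩
    obtain ⟨R, hR'⟩ := hmem.1 ((unif_eq_unif_iff L').1 heq.symm)
    refine ⟨R, ?_⟩
    show unif L z - _ = _
    rw [← hz₁, ← hR', ← unifHom_apply, ← unifHom_apply, ← unifHom_apply, map_sub, sub_sub_cancel]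
  by_cases hm : z ∈ L.lattice
  · exact ⟨0, by rw [unif_of_mem L hm, map_zero]⟩
  have hcoord : ∀ f : (latCurve L).toAffine.Point → ℂ,
      (∀ (σ : ℂ ≃+* ℂ) (hσ : (latCurve L).map (σ : ℂ →+* ℂ) = latCurve L) (R),
        f (FA.Frob.mapHom (σ : ℂ →+* ℂ) hσ R) = σ (f R)) →
      ∃ x, φ x = f (unif L z) := fun f hf => by
    refine mem_range_of_finite_conjugates φ (hS.image f) fun σ hfix => ?_
    have hσ : (latCurve L).map (σ : ℂ →+* ℂ) = latCurve L := by
      rw [← hL, map_map]
      congr 1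
      exact RingHom.ext fun x => hfix x
    rw [← hf σ hσ]
    exact ⟨_, hconj σ hfix hσ, rfl⟩
  obtain ⟨x, hx⟩ := hcoord xP fun σ hσ R => by
    rcases R with _ | ⟨x, y, hxy⟩
    · exact (map_zero σ).symm
    · rfl
  obtain ⟨y, hy⟩ := hcoord yP fun σ hσ R => by
    rcases R with _ | ⟨x, y, hxy⟩
    · exact (map_zero σ).symm
    · rfl
  rw [xP_unif] at hx
  rw [yP_unif] at hy
  have hns := Affine.equation_iff_nonsingular.1 (equation_latCurve L hm)
  rw [← hx, ← hy, ← hL] at hns
  refine ⟨.some x y (((W.baseChange Kb).toAffine.map_nonsingular φ.injective _ _).1 hns), ?_⟩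
  rw [unif_of_notMem L hm, toC, FA.Frob.mapHom_some]
  simp only [hx, hy]

end FA.IsogenyNF

end
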