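import Fermat.Agent.IsogenyNF.Points

/-!
# Reducible representations and stable subgroups of prime order
-/

set_option autoImplicit false

noncomputable section

namespace FA.IsogenyNF

open WeierstrassCurve WeierstrassCurve.Affine.Point
open scoped WeierstrassCurve.Affine

universe u v w

variable {K : Type u} [Field K] {S : Type w} [Field S] [Algebra K S] {Kb : Type v}
  [Field Kb] [DecidableEq Kb] [Algebra K Kb] [Algebra S Kb] [IsScalarTower K S Kb] [CharZero Kb]
  [IsAlgClosed Kb] (E : WeierstrassCurve K) [E.IsElliptic]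

/-- **A representation modulo `p` is reducible exactly when a subgroup of order `p` is stable.** -/
theorem reducible_iff_exists_stable {p : ℕ} (hp : p.Prime) :
    ¬ GaloisRepIsIrreducible (K := Kb) S E.toAffine p ↔
      ∃ g : (E.toAffine⁄Kb).Point, addOrderOf g = p ∧
        ∀ σ : Kb ≃ₐ[S] Kb, σ • g ∈ AddSubgroup.zmultiples g := by
  have : Fact p.Prime := ⟨hp⟩
  have hpK : (p : Kb) ≠ 0 := Nat.cast_ne_zero.2 hp.ne_zero
  have hc : Nat.card (Submodule.torsionBy ℤ (E.toAffine⁄Kb).Point (p : ℤ)) = p ^ 2 :=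
    FA.EC.natCard_torsionBy (E.map (algebraMap K Kb)) hpK
  have hfin : Finite (Submodule.torsionBy ℤ (E.toAffine⁄Kb).Point (p : ℤ)) :=
    Nat.finite_of_card_ne_zero (by rw [hc]; exact pow_ne_zero 2 hp.ne_zero)
  constructor
  · intro h
    have hnt : Nontrivial (Submodule.torsionBy ℤ (E.toAffine⁄Kb).Point (p : ℤ)) := by
      rw [← Finite.one_lt_card_iff_nontrivial, hc]
      exact Nat.one_lt_pow two_ne_zero hp.one_lt
    rw [GaloisRepIsIrreducible, and_iff_right hnt] at h
    push Not at h
    obtain ⟨N, hN, hbot, htop⟩ := h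
    obtain ⟨g, hgN, hg0⟩ := N.exists_mem_ne_zero_of_ne_bot hbot
    have hgp : addOrderOf (g : (E.toAffine⁄Kb).Point) = p :=
      addOrderOf_eq_prime ((natCast_zsmul _ p).symm.trans ((Submodule.mem_torsionBy_iff _ _).1 g.2))
        fun e => hg0 (Subtype.ext e)
    have hcardN : Nat.card N = p := by
      have hd : Nat.card N ∣ p ^ 2 := hc ▸ N.toAddSubgroup.card_addSubgroup_dvd_card
      obtain ⟨i, hi, he⟩ := (Nat.dvd_prime_pow hp).1 hd
      rw [he]
      interval_cases i
      · exfalso
        have : Subsingleton N := (Nat.card_eq_one_iff_unique.1 (by simpa using he)).1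
        exact hg0 (congrArg Subtype.val (Subsingleton.elim (⟨g, hgN⟩ : N) 0))
      · exact pow_one p
      · exfalso
        exact htop (Submodule.toAddSubgroup_injective
          (AddSubgroup.eq_top_of_card_eq _ (he.trans hc.symm)))
    have hz : AddSubgroup.zmultiples g = N.toAddSubgroup := by
      refine AddSubgroup.eq_of_le_of_card_ge (AddSubgroup.zmultiples_le.2 hgN) ?_
      rw [Nat.card_zmultiples, ← addOrderOf_injective
        (Submodule.torsionBy ℤ (E.toAffine⁄Kb).Point (p : ℤ)).subtype.toAddMonoidHom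
        Subtype.val_injective g]
      show Nat.card N ≤ addOrderOf (g : (E.toAffine⁄Kb).Point)
      rw [hgp]
      exact hcardN.le
    refine ⟨g, hgp, fun σ => ?_⟩
    have hmem : σ • g ∈ AddSubgroup.zmultiples g := hz ▸ hN σ g hgN
    obtain ⟨k, hk⟩ := AddSubgroup.mem_zmultiples_iff.1 hmem
    exact AddSubgroup.mem_zmultiples_iff.2 ⟨k, congrArg Subtype.val hk⟩
  · rintro ⟨g, hg, hst⟩ ⟨-, hirr⟩
    have hgmem : g ∈ Submodule.torsionBy ℤ (E.toAffine⁄Kb).Point (p : ℤ) := by
      rw [Submodule.mem_torsionBy_iff, natCast_zsmul, ← hg]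
      exact addOrderOf_nsmul_eq_zero g
    let A : AddSubgroup (Submodule.torsionBy ℤ (E.toAffine⁄Kb).Point (p : ℤ)) :=
      (AddSubgroup.zmultiples g).comap
        (Submodule.torsionBy ℤ (E.toAffine⁄Kb).Point (p : ℤ)).subtype.toAddMonoidHom
    have hA : IsGaloisStable S (AddSubgroup.toZModSubmodule p A) := by
      intro σ x hx
      obtain ⟨k, hk⟩ := AddSubgroup.mem_zmultiples_iff.1 (show (x : (E.toAffine⁄Kb).Point) ∈
        AddSubgroup.zmultiples g from hx)
      show σ • (x : (E.toAffine⁄Kb).Point) ∈ AddSubgroup.zmultiples g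
      rw [← hk, algEquiv_smul_zsmul]
      exact zsmul_mem (hst σ) k
    rcases hirr _ hA with hbot | htop
    · have h0 : (⟨g, hgmem⟩ : Submodule.torsionBy ℤ (E.toAffine⁄Kb).Point (p : ℤ)) ∈
          AddSubgroup.toZModSubmodule p A := AddSubgroup.mem_zmultiples g
      rw [hbot, Submodule.mem_bot, Subtype.ext_iff] at h0
      change g = 0 at h0
      rw [h0, addOrderOf_zero] at hg
      exact hp.one_lt.ne hg
    · have hle : Nat.card (Submodule.torsionBy ℤ (E.toAffine⁄Kb).Point (p : ℤ)) ≤
          Nat.card (AddSubgroup.zmultiples g) := by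
        have : Finite (AddSubgroup.zmultiples g) := Nat.finite_of_card_ne_zero (by
          rw [Nat.card_zmultiples, hg]; exact hp.ne_zero)
        refine Nat.card_le_card_of_injective (fun x => (⟨x, ?_⟩ : AddSubgroup.zmultiples g))
          fun a b e => Subtype.ext (congrArg Subtype.val e :)
        have : x ∈ AddSubgroup.toZModSubmodule p A := htop ▸ Submodule.mem_top
        exact this
      rw [hc, Nat.card_zmultiples, hg] at hle
      exact absurd hle (not_le.2 (lt_self_pow₀ hp.one_lt one_lt_two))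

end FA.IsogenyNF

end
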