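import Fermat.Agent.IsogenyNF.Image
import Fermat.Agent.IsogenyNF.GroupLift

/-!
# Coordinates on the points killed by `n`

Two generators of the points killed by `n` give the Galois action by matrices over `ℤ / n`. At a
prime power every point of exact order extends to such generators, and reduction modulo `p` is the
action on the points killed by `p`.
-/

set_option autoImplicit false
set_option linter.unusedSectionVars false

noncomputable section

namespace FA.IsogenyNF

open WeierstrassCurve Matrix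
open scoped WeierstrassCurve.Affine

universe u v

variable {K : Type u} [Field K] [NumberField K] {Kb : Type v} [Field Kb] [DecidableEq Kb]
  [Algebra K Kb] [CharZero Kb] [IsAlgClosed Kb] [Algebra.IsAlgebraic K Kb]
  {E : WeierstrassCurve K} [E.IsElliptic]

set_option quotPrecheck false in
local notation "PtE" => (E.toAffine⁄Kb).Point

variable (E) in
/-- Generators of the points killed by `n`. -/
structure TorGen (n : ℕ) (P Q : (E.toAffine⁄Kb).Point) : Prop where
  left : n • P = 0
  right : n • Q = 0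
  span : ∀ R : (E.toAffine⁄Kb).Point, n • R = 0 → ∃ i j : ℤ, R = i • P + j • Q

namespace TorGen

variable {n : ℕ} {P Q : (E.toAffine⁄Kb).Point}

theorem natCard (hn : n ≠ 0) : Nat.card {R : PtE // n • R = 0} = n ^ 2 :=
  FA.EC.natCard_nsmul_eq_zero (E.map (algebraMap K Kb)) (Nat.cast_ne_zero.2 hn)

/-- The coordinates as a map of groups. -/
def coord (h : TorGen E n P Q) : (Fin 2 → ZMod n) →+ (E.toAffine⁄Kb).Point :=
  ((ZMod.lift n ⟨zmultiplesHom _ P, by
      rw [zmultiplesHom_apply, natCast_zsmul]; exact h.left⟩).comp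
    (Pi.evalAddMonoidHom (fun _ : Fin 2 => ZMod n) 0)) +
  ((ZMod.lift n ⟨zmultiplesHom _ Q, by
      rw [zmultiplesHom_apply, natCast_zsmul]; exact h.right⟩).comp
    (Pi.evalAddMonoidHom (fun _ : Fin 2 => ZMod n) 1))

theorem coord_intCast (h : TorGen E n P Q) (i j : ℤ) :
    h.coord ![(i : ZMod n), (j : ZMod n)] = i • P + j • Q := by
  simp only [coord, AddMonoidHom.add_apply, AddMonoidHom.comp_apply, Pi.evalAddMonoidHom_apply,
    Matrix.cons_val_zero, Matrix.cons_val_one, ZMod.lift_coe, zmultiplesHom_apply]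

theorem nsmul_coord (h : TorGen E n P Q) (v : Fin 2 → ZMod n) : n • h.coord v = 0 := by
  rw [← map_nsmul, show n • v = 0 from funext fun i => by
    rw [Pi.smul_apply, Pi.zero_apply, nsmul_eq_mul, ZMod.natCast_self, zero_mul], map_zero]

theorem coord_surj (h : TorGen E n P Q) {R : PtE} (hR : n • R = 0) :
    ∃ v, h.coord v = R := by
  obtain ⟨i, j, rfl⟩ := h.span R hR
  exact ⟨_, h.coord_intCast i j⟩

theorem coord_injective (h : TorGen E n P Q) (hn : n ≠ 0) : Function.Injective h.coord := by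
  have : NeZero n := ⟨hn⟩
  have : Finite {R : PtE // n • R = 0} :=
    Nat.finite_of_card_ne_zero (by rw [natCard hn]; exact pow_ne_zero 2 hn)
  let f : (Fin 2 → ZMod n) → {R : PtE // n • R = 0} := fun v => ⟨h.coord v, h.nsmul_coord v⟩
  have hf : Function.Bijective f := (Nat.bijective_iff_surjective_and_card f).mpr
    ⟨fun R => (h.coord_surj R.2).imp fun v hv => Subtype.ext hv, by
      rw [natCard hn, Nat.card_fun, Nat.card_zmod, Nat.card_fin]⟩
  exact fun v w e => hf.1 (Subtype.ext e)

theorem coord_single (h : TorGen E n P Q) :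
    h.coord (Pi.single 0 1) = P ∧ h.coord (Pi.single 1 1) = Q := by
  constructor
  · have := h.coord_intCast 1 0
    rw [one_zsmul, zero_zsmul, add_zero, Int.cast_one, Int.cast_zero] at this
    convert this using 2
    funext i; fin_cases i <;> simp
  · have := h.coord_intCast 0 1
    rw [one_zsmul, zero_zsmul, zero_add, Int.cast_one, Int.cast_zero] at this
    convert this using 2
    funext i; fin_cases i <;> simp

theorem exists_matrix (h : TorGen E n P Q) (hn : n ≠ 0) (σ : Kb ≃ₐ[K] Kb) :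
    ∃ M : Matrix (Fin 2) (Fin 2) (ZMod n), ∀ v, σ • h.coord v = h.coord (M *ᵥ v) := by
  have : NeZero n := ⟨hn⟩
  choose c hc using fun v : Fin 2 → ZMod n =>
    h.coord_surj (R := σ • h.coord v) (by rw [← smul_nsmul', h.nsmul_coord, smul_zero])
  refine ⟨LinearMap.toMatrix'
      ((AddMonoidHom.mk' c fun v w => h.coord_injective hn ?_).toZModLinearMap n),
    fun v => ?_⟩
  · rw [map_add, hc, hc, hc, map_add, smul_add]
  · rw [LinearMap.toMatrix'_mulVec]
    exact (hc v).symm

/-- The Galois action in coordinates. -/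
def rep (h : TorGen E n P Q) (hn : n ≠ 0) :
    (Kb ≃ₐ[K] Kb) →* Matrix (Fin 2) (Fin 2) (ZMod n) where
  toFun σ := (h.exists_matrix hn σ).choose
  map_one' := Matrix.ext_of_mulVec_single fun i => h.coord_injective hn (by
    rw [← (h.exists_matrix hn 1).choose_spec, one_smul, one_mulVec])
  map_mul' σ τ := Matrix.ext_of_mulVec_single fun i => h.coord_injective hn (by
    rw [← (h.exists_matrix hn (σ * τ)).choose_spec, mul_smul, (h.exists_matrix hn τ).choose_spec,
      (h.exists_matrix hn σ).choose_spec, mulVec_mulVec])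

theorem rep_spec (h : TorGen E n P Q) (hn : n ≠ 0) (σ : Kb ≃ₐ[K] Kb) (v : Fin 2 → ZMod n) :
    σ • h.coord v = h.coord (h.rep hn σ *ᵥ v) :=
  (h.exists_matrix hn σ).choose_spec v

/-- Multiples of generators generate the points killed by a coprime factor. -/
theorem of_coprime {a b : ℕ} (h : TorGen E (a * b) P Q) (hab : a.Coprime b) :
    TorGen E a (b • P) (b • Q) where
  left := by rw [← mul_nsmul', h.left]
  right := by rw [← mul_nsmul', h.right]
  span R hR := by
    obtain ⟨i, j, e⟩ := h.span R (by rw [mul_comm, mul_nsmul', hR, nsmul_zero])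
    obtain ⟨u, v, huv⟩ := Nat.isCoprime_iff_coprime.2 hab
    refine ⟨v * i, v * j, ?_⟩
    calc R = (u * a + v * b : ℤ) • R := by rw [huv, one_zsmul]
      _ = v • ((b : ℤ) • R) := by
        rw [add_zsmul, mul_zsmul, mul_zsmul, natCast_zsmul, hR, zsmul_zero, zero_add]
      _ = _ := by
        rw [e, ← natCast_zsmul P, ← natCast_zsmul Q]
        simp only [zsmul_add, ← mul_zsmul]
        congr 1 <;> congr 1 <;> ring

/-- Multiples of generators at a prime power generate the points killed by the prime. -/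
theorem toPrime {p k : ℕ} (hp : p ≠ 0) (h : TorGen E (p ^ (k + 1)) P Q) :
    TorGen E p (p ^ k • P) (p ^ k • Q) where
  left := by rw [← mul_nsmul', ← pow_succ', h.left]
  right := by rw [← mul_nsmul', ← pow_succ', h.right]
  span R hR := by
    have hn : p ^ (k + 1) ≠ 0 := pow_ne_zero _ hp
    have hR' : p ^ (k + 1) • R = 0 := by rw [pow_succ, mul_nsmul', hR, nsmul_zero]
    obtain ⟨v, rfl⟩ := h.coord_surj hR'
    have hv : p • v = 0 := h.coord_injective hn (by rw [map_nsmul, hR, map_zero])
    have : NeZero (p ^ (k + 1)) := ⟨hn⟩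
    have hd : ∀ i, ∃ w : ℕ, v i = ((p ^ k * w : ℕ) : ZMod (p ^ (k + 1))) := fun i => by
      have h1 : p ^ (k + 1) ∣ p * (v i).val := by
        rw [← ZMod.natCast_eq_zero_iff, Nat.cast_mul, ZMod.natCast_zmod_val, ← nsmul_eq_mul]
        exact congrFun hv i
      replace h1 : p ^ k ∣ (v i).val :=
        Nat.dvd_of_mul_dvd_mul_left (Nat.pos_of_ne_zero hp) ((pow_succ' p k).symm.dvd.trans h1)
      obtain ⟨w, hw⟩ := h1
      exact ⟨w, by rw [← hw, ZMod.natCast_zmod_val]⟩
    choose w hw using hd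
    refine ⟨w 0, w 1, ?_⟩
    have hv' : v = ![(((p ^ k * w 0 : ℕ) : ℤ) : ZMod (p ^ (k + 1))),
        (((p ^ k * w 1 : ℕ) : ℤ) : ZMod (p ^ (k + 1)))] := funext fun i => by
      fin_cases i <;> simp [hw]
    rw [hv', h.coord_intCast, natCast_zsmul, natCast_zsmul, natCast_zsmul, natCast_zsmul,
      mul_comm (p ^ k) (w 0), mul_comm (p ^ k) (w 1), mul_nsmul', mul_nsmul']

end TorGen

/-- **A point of exact prime power order extends to generators.** -/
theorem exists_torGen {p : ℕ} (hp : p.Prime) {k : ℕ} {P : PtE}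
    (hP : addOrderOf P = p ^ (k + 1)) : ∃ Q : PtE, TorGen E (p ^ (k + 1)) P Q := by
  have hpk : ∀ m : ℕ, p ^ m ≠ 0 := fun m => pow_ne_zero m hp.ne_zero
  have hP0 : p ^ k • P ≠ 0 := fun h => by
    have := Nat.le_of_dvd (pow_pos hp.pos k) (hP ▸ addOrderOf_dvd_of_nsmul_eq_zero h)
    exact absurd this (not_le.2 (Nat.pow_lt_pow_succ hp.one_lt))
  set P₀ := p ^ k • P with hP₀
  have hord : addOrderOf P₀ = p := by
    have := Fact.mk hp
    exact addOrderOf_eq_prime (by rw [hP₀, ← mul_nsmul', ← pow_succ', ← hP,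
      addOrderOf_nsmul_eq_zero]) hP0
  -- a second point killed by `p`
  obtain ⟨Q₀, hQ₀, hQ₀'⟩ : ∃ R : PtE, p • R = 0 ∧ R ∉ AddSubgroup.zmultiples P₀ := by
    by_contra! hall
    have : Finite (AddSubgroup.zmultiples P₀) :=
      (addOrderOf_pos_iff.1 (hord ▸ hp.pos)).finite_zmultiples
    have := Nat.card_le_card_of_injective
      (fun R : {R : PtE // p • R = 0} => (⟨R.1, hall R.1 R.2⟩ : AddSubgroup.zmultiples P₀))
      fun R S h => Subtype.ext (congrArg Subtype.val h :)
    rw [TorGen.natCard hp.ne_zero, Nat.card_zmultiples, hord, sq] at this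
    exact absurd (Nat.le_of_mul_le_mul_left (this.trans (mul_one p).ge) hp.pos)
      (not_le.2 hp.one_lt)
  -- divide it
  obtain ⟨Q, hQ, hQd⟩ : ∃ Q : PtE, p ^ (k + 1) • Q = 0 ∧ p ^ k • Q = Q₀ := by
    have : ∀ m : ℕ, Finite {R : PtE // p ^ m • R = 0} := fun m =>
      Nat.finite_of_card_ne_zero (by rw [TorGen.natCard (hpk m)]; exact pow_ne_zero 2 (hpk m))
    let T : ℕ → AddSubgroup PtE := fun m => (nsmulAddMonoidHom (p ^ m)).ker
    have hcard : ∀ m, Nat.card (T m) = (p ^ m) ^ 2 := fun m => TorGen.natCard (hpk m)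
    have : ∀ m, Finite (T m) := this
    let f : T (k + 1) →+ T 1 := AddMonoidHom.mk' (fun R => ⟨p ^ k • R.1, by
        show p ^ 1 • p ^ k • R.1 = 0
        rw [← mul_nsmul', ← pow_add, add_comm]; exact R.2⟩)
      fun a b => Subtype.ext (nsmul_add _ _ _)
    have hker : Nat.card f.ker ≤ (p ^ k) ^ 2 := hcard k ▸ Nat.card_le_card_of_injective
      (fun R => (⟨R.1.1, (congrArg Subtype.val R.2 :)⟩ : T k))
      fun a b h => Subtype.ext (Subtype.ext (congrArg Subtype.val h :))
    have h1 := AddSubgroup.card_eq_card_quotient_mul_card_addSubgroup f.ker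
    rw [hcard, Nat.card_congr (QuotientAddGroup.quotientKerEquivRange f).toEquiv] at h1
    have hle : Nat.card (T 1) ≤ Nat.card f.range := by
      rw [hcard]
      refine Nat.le_of_mul_le_mul_right (c := (p ^ k) ^ 2) ?_ (pow_pos (pow_pos hp.pos k) 2)
      calc (p ^ 1) ^ 2 * (p ^ k) ^ 2 = (p ^ (k + 1)) ^ 2 := by ring
        _ ≤ Nat.card f.range * (p ^ k) ^ 2 := h1.le.trans (Nat.mul_le_mul_left _ hker)
    have htop : f.range = ⊤ := AddSubgroup.eq_top_of_card_eq _
      (le_antisymm (Nat.card_le_card_of_injective Subtype.val Subtype.val_injective) hle)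
    obtain ⟨Q, hQ⟩ := AddMonoidHom.range_eq_top.mp htop ⟨Q₀, by
      show p ^ 1 • Q₀ = 0
      rw [pow_one, hQ₀]⟩
    exact ⟨Q.1, Q.2, congrArg Subtype.val hQ⟩
  refine ⟨Q, ⟨by rw [← hP, addOrderOf_nsmul_eq_zero], hQ, ?_⟩⟩
  -- the points killed by `p`
  have hspan : ∀ R : PtE, p • R = 0 → ∃ i j : ℤ, R = i • P₀ + j • Q₀ := by
    let f : ZMod p × ZMod p → {R : PtE // p • R = 0} := fun x =>
      ⟨x.1.val • P₀ + x.2.val • Q₀, by
        have h0 : p • P₀ = 0 := (congrArg (· • P₀) hord.symm).trans (addOrderOf_nsmul_eq_zero P₀)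
        rw [nsmul_add, smul_comm p x.1.val P₀, h0, nsmul_zero, zero_add,
          smul_comm p x.2.val Q₀, hQ₀, nsmul_zero]⟩
    have := Fact.mk hp
    have hinj : Function.Injective f := fun x y e => by
      have e' : (x.1.val : ℤ) • P₀ + (x.2.val : ℤ) • Q₀ = (y.1.val : ℤ) • P₀ + (y.2.val : ℤ) • Q₀ :=
        by simp only [natCast_zsmul]; exact congrArg Subtype.val e
      have hmem : ((x.2.val : ℤ) - y.2.val) • Q₀ ∈ AddSubgroup.zmultiples P₀ :=
        ⟨(y.1.val : ℤ) - x.1.val, by
          show _ • P₀ = _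
          rw [sub_zsmul, sub_zsmul]
          linear_combination (norm := abel) -e'⟩
      have h2 : x.2 = y.2 := by
        by_contra hne
        have hcop : IsCoprime ((x.2.val : ℤ) - y.2.val) (p : ℤ) :=
          ((Nat.prime_iff_prime_int.1 hp).coprime_iff_not_dvd.2 fun hd => hne <| by
            have := (ZMod.intCast_zmod_eq_zero_iff_dvd _ p).2 hd
            push_cast at this
            rwa [ZMod.natCast_zmod_val, ZMod.natCast_zmod_val, sub_eq_zero] at this).symm
        obtain ⟨u, v, huv⟩ := hcop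
        refine hQ₀' ?_
        rw [show Q₀ = u • (((x.2.val : ℤ) - y.2.val) • Q₀) by
          rw [← mul_zsmul, show u * ((x.2.val : ℤ) - y.2.val) = 1 - v * p by
            linear_combination huv, sub_zsmul, one_zsmul, mul_zsmul, natCast_zsmul, hQ₀,
            zsmul_zero, neg_zero, add_zero]]
        exact AddSubgroup.zsmul_mem _ hmem u
      refine Prod.ext ?_ h2
      rw [h2] at e'
      have e'' : x.1.val • P₀ = y.1.val • P₀ := by
        simpa only [natCast_zsmul] using add_right_cancel e'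
      rw [nsmul_injOn_Iio_addOrderOf.eq_iff (hord.symm ▸ ZMod.val_lt _)
        (hord.symm ▸ ZMod.val_lt _)] at e''
      exact ZMod.val_injective p e''
    have : Finite {R : PtE // p • R = 0} :=
      Nat.finite_of_card_ne_zero (by rw [TorGen.natCard hp.ne_zero]; exact pow_ne_zero 2 hp.ne_zero)
    have hbij := (Nat.bijective_iff_injective_and_card f).mpr ⟨hinj, by
      rw [TorGen.natCard hp.ne_zero, Nat.card_prod, Nat.card_zmod, sq]⟩
    intro R hR
    obtain ⟨x, hx⟩ := hbij.2 ⟨R, hR⟩
    exact ⟨x.1.val, x.2.val, by simp only [natCast_zsmul]; exact (congrArg Subtype.val hx).symm⟩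
  -- by induction on the level
  suffices h : ∀ m ≤ k + 1, ∀ R : PtE, p ^ m • R = 0 → ∃ i j : ℤ, R = i • P + j • Q from
    h _ le_rfl
  intro m
  induction m with
  | zero => exact fun _ R hR => ⟨0, 0, by rw [pow_zero, one_nsmul] at hR; simp [hR]⟩
  | succ m ih =>
    intro hm R hR
    obtain ⟨i, j, hij⟩ := hspan (p ^ m • R) (by rw [← mul_nsmul', ← pow_succ', hR])
    obtain ⟨r, hr⟩ := Nat.exists_eq_add_of_le (show m ≤ k by omega)
    obtain ⟨i', j', hd⟩ := ih (by omega) (R - ((i * (p : ℤ) ^ r) • P + (j * (p : ℤ) ^ r) • Q)) (by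
      rw [nsmul_sub, hij, hP₀, ← hQd, sub_eq_zero, nsmul_add]
      simp only [← natCast_zsmul, ← mul_zsmul]
      rw [hr]
      congr 2 <;> push_cast <;> ring)
    exact ⟨i' + i * (p : ℤ) ^ r, j' + j * (p : ℤ) ^ r, by
      rw [sub_eq_iff_eq_add] at hd
      rw [hd, add_zsmul, add_zsmul]
      abel⟩

end FA.IsogenyNF

end
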